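import Mathlib
import Fermat.Prelude.Def_ModularCurve_ArithmeticGalois
import Fermat.Prelude.Def_ModularCurve_GenusNumerics
import Fermat.Prelude.Def_AlgebraicCurve_CanonicalDivisor

set_option autoImplicit false

/-!
# PROGRAM X (S24 → S20, S21): shared definitions

Import this file in every `Fermat/Agent/X0/*.lean`; do not redefine these objects.
-/

namespace Fermat.Agent.X0

open AlgebraicCurve ModularCurve KaehlerDifferential IntermediateField
open scoped MatrixGroups

/-- The base field `ℚ̄`. -/
abbrev Kb : Type := AlgebraicClosure ℚ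

/-- The function field of `X₀(N)` over `ℚ̄` (the Prelude's formal `q`-series model). -/
abbrev Fb (N : ℕ) : Type := ↥(modularFunctionFieldBar N)

/-- The `j`-function as an element of `Fb N`. -/
noncomputable def jBar (N : ℕ) : Fb N :=
  ⟨coeffEmb Kb jq, by
    have h := jqd_mem_full N (one_dvd N)
    rw [qExpand_one_apply] at h
    exact coeffEmb_mem_laurentBaseChange Kb h⟩

@[simp] theorem coe_jBar (N : ℕ) : ((jBar N : Fb N) : LaurentSeries Kb) = coeffEmb Kb jq := rfl

/-- `j(q^d)` as an element of `Fb N`, for `d ∣ N`. -/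
noncomputable def jBarD (N d : ℕ) [NeZero d] (hd : d ∣ N) : Fb N :=
  ⟨coeffEmb Kb (qExpand ℚ d jq), coeffEmb_mem_laurentBaseChange Kb (jqd_mem_full N hd)⟩

@[simp] theorem coe_jBarD (N d : ℕ) [NeZero d] (hd : d ∣ N) :
    ((jBarD N d hd : Fb N) : LaurentSeries Kb) = coeffEmb Kb (qExpand ℚ d jq) := rfl

/-- `x` is a separating variable of the function field `F/K` with `[F : K(x)] = n`. -/
structure IsSepVar (K : Type*) {F : Type*} [Field K] [Field F] [Algebra K F] (x : F) (n : ℕ) :
    Prop where
  transcendental : Transcendental K x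
  finite : FiniteDimensional K⟮x⟯ F
  finrank_eq : Module.finrank K⟮x⟯ F = n

/-- The places of `F` where `x` takes the value `a` (zeros of `x - a`). -/
def placesOver {K F : Type*} [Field K] [Field F] [Algebra K F] (x : F) (a : K) :
    Set (Place K F) := {v | 0 < v.ord (x - algebraMap K F a)}

/-- The poles of `x`. -/
def placesOverInfty (K : Type*) {F : Type*} [Field K] [Field F] [Algebra K F] (x : F) :
    Set (Place K F) := {v | v.ord x < 0}

theorem mem_placesOver {K F : Type*} [Field K] [Field F] [Algebra K F] {x : F} {a : K}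
    {v : Place K F} : v ∈ placesOver x a ↔ 0 < v.ord (x - algebraMap K F a) := Iff.rfl

theorem mem_placesOverInfty {K F : Type*} [Field K] [Field F] [Algebra K F] {x : F}
    {v : Place K F} : v ∈ placesOverInfty K x ↔ v.ord x < 0 := Iff.rfl

/-- Number of orbits of the cyclic group `⟨g⟩` acting by left multiplication on the left cosets
`SL(2,ℤ) ⧸ Γ₀(N)`. -/
noncomputable def orbitCount (N : ℕ) (g : SL(2, ℤ)) : ℕ :=
  Nat.card (MulAction.orbitRel.Quotient (Subgroup.zpowers g)
    (SL(2, ℤ) ⧸ CongruenceSubgroup.Gamma0 N))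

end Fermat.Agent.X0
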