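import Mathlib
import Fermat.Agent.S23.Basic
import Fermat.Agent.S23.LevelOne
import Fermat.Agent.S23.H22ConjGlue

set_option autoImplicit false

/-!
# Program X (S24), X-MOD-LOCAL: the `j`-function on the upper half plane

* `jFun z = E₄ z ^ 3 / Δ z`, holomorphic and `SL₂(ℤ)`-invariant; `jFun - 1728 = E₆ ^ 2 / Δ`.
* `jFun_surjective`: `jFun` takes every complex value.
-/

namespace Fermat.Agent.X0

open UpperHalfPlane Function CongruenceSubgroup ModularForm
open scoped MatrixGroups ModularForm Manifold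

open Fermat.Agent.S23

local notation "Δ" => ModularForm.discriminant

/-- The `j`-function `E₄³/Δ` on the upper half plane. -/
noncomputable def jFun (z : ℍ) : ℂ := E₄ z ^ 3 / Δ z

theorem jFun_eq : jFun = (E₄ : ℍ → ℂ) ^ 3 / Δ := rfl

theorem discriminant_mdiff : MDiff Δ := CuspForm.discriminant.holo'

theorem jFun_mdiff : MDiff jFun :=
  (E₄.holo'.pow 3).div discriminant_mdiff discriminant_ne_zero

/-- Level one forms are slash invariant under `SL₂(ℤ)`. -/
theorem levelOne_slash {k : ℤ} (f : ModularForm 𝒮ℒ k) (γ : SL(2, ℤ)) :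
    (f : ℍ → ℂ) ∣[k] γ = f := f.slash_action_eq' _ ⟨γ, rfl⟩

theorem discriminant_slash (γ : SL(2, ℤ)) : Δ ∣[(12 : ℤ)] γ = Δ :=
  CuspForm.discriminant.slash_action_eq' _ ⟨γ, rfl⟩

theorem pow_slash_SL {k : ℤ} (F : ℍ → ℂ) (γ : SL(2, ℤ)) (n : ℕ) :
    (F ^ n) ∣[k * n] γ = (F ∣[k] γ) ^ n := by
  induction n with
  | zero =>
    simp only [Nat.cast_zero, mul_zero, pow_zero]
    exact ModularForm.is_invariant_one γ
  | succ n ih =>
    rw [pow_succ, pow_succ, ← ih, ← ModularForm.mul_slash_SL2]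
    congr 1
    push_cast; ring

theorem E₄_cube_slash (γ : SL(2, ℤ)) : ((E₄ : ℍ → ℂ) ^ 3) ∣[(12 : ℤ)] γ = (E₄ : ℍ → ℂ) ^ 3 := by
  have := pow_slash_SL (k := 4) (E₄ : ℍ → ℂ) γ 3
  rw [levelOne_slash] at this
  exact this

theorem jFun_slash (γ : SL(2, ℤ)) : jFun ∣[(0 : ℤ)] γ = jFun := by
  have := ModularForm.div_slash_SL2 12 12 γ ((E₄ : ℍ → ℂ) ^ 3) Δ
  rw [E₄_cube_slash, discriminant_slash, sub_self] at this
  rw [jFun_eq]
  exact this

theorem jFun_smul (γ : SL(2, ℤ)) (z : ℍ) : jFun (γ • z) = jFun z := by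
  have := congrFun (jFun_slash γ) z
  rw [ModularForm.SL_slash_apply] at this
  simpa using this

theorem jFun_sub_1728 (z : ℍ) : jFun z - 1728 = E₆ z ^ 2 / Δ z := by
  have h := ModularForm.discriminant_eq_E₄_cube_sub_E₆_sq z
  have hΔ := discriminant_ne_zero z
  unfold jFun
  rw [eq_div_iff hΔ, sub_mul, div_mul_cancel₀ _ hΔ, h]
  ring

theorem jFun_mul_discriminant (z : ℍ) : jFun z * Δ z = E₄ z ^ 3 := by
  unfold jFun
  rw [div_mul_cancel₀ _ (discriminant_ne_zero z)]

/-! ### Limits at `i∞` -/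

/-- A nice function tends to its constant `q`-coefficient at `i∞`. -/
theorem tendsto_atImInfty_of_isNice {F : ℍ → ℂ} (hF : IsNice F) :
    Filter.Tendsto F atImInfty (nhds ((qExpansion 1 F).coeff 0)) := by
  have hcoeff : (qExpansion 1 F).coeff 0 = cuspFunction 1 F 0 := by
    simp [qExpansion_coeff]
  rw [hcoeff]
  have h1 : (cuspFunction 1 F ∘ fun τ : ℍ ↦ Function.Periodic.qParam 1 τ) = F := by
    funext τ
    simpa using eq_cuspFunction τ one_ne_zero hF.1
  have := hF.analyticAt.continuousAt.tendsto.comp (qParam_tendsto_atImInfty one_pos)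
  rwa [h1] at this

theorem E₄_tendsto : Filter.Tendsto (E₄ : ℍ → ℂ) atImInfty (nhds 1) := by
  have := tendsto_atImInfty_of_isNice (isNice_levelOne E₄)
  rwa [EisensteinSeries.E_qExpansion_coeff_zero _ ⟨2, rfl⟩] at this

theorem E₆_tendsto : Filter.Tendsto (E₆ : ℍ → ℂ) atImInfty (nhds 1) := by
  have := tendsto_atImInfty_of_isNice (isNice_levelOne E₆)
  rwa [EisensteinSeries.E_qExpansion_coeff_zero _ ⟨3, rfl⟩] at this

theorem discriminant_tendsto : Filter.Tendsto Δ atImInfty (nhds 0) :=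
  ModularForm.discriminant_isZeroAtImInfty

/-- A function with a limit at `i∞` is bounded at `i∞`. -/
theorem isBoundedAtImInfty_of_tendsto {F : ℍ → ℂ} {c : ℂ}
    (h : Filter.Tendsto F atImInfty (nhds c)) : IsBoundedAtImInfty F := by
  unfold IsBoundedAtImInfty Filter.BoundedAtFilter
  exact h.isBigO_one ℝ

/-! ### Surjectivity -/

/-- `jFun` takes every complex value. -/
theorem jFun_surjective : Function.Surjective jFun := by
  intro c
  by_contra hne
  replace hne : ∀ z, jFun z ≠ c := fun z hz => hne ⟨z, hz⟩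
  -- `G = E₄³ - cΔ` has no zero
  set G : ℍ → ℂ := (E₄ : ℍ → ℂ) ^ 3 - c • Δ with hG
  have hG0 : ∀ z, G z ≠ 0 := by
    intro z hz
    apply hne z
    unfold jFun
    rw [div_eq_iff (discriminant_ne_zero z)]
    have : E₄ z ^ 3 - c * Δ z = 0 := by simpa [hG] using hz
    linear_combination this
  have hGmd : MDiff G := (E₄.holo'.pow 3).sub (discriminant_mdiff.const_smul c)
  have hGslash : ∀ γ : SL(2, ℤ), G ∣[(12 : ℤ)] γ = G := by
    intro γ
    rw [hG, sub_eq_add_neg, SlashAction.add_slash, SlashAction.neg_slash, E₄_cube_slash,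
      ModularForm.SL_smul_slash, discriminant_slash, ← sub_eq_add_neg]
  have hGlim : Filter.Tendsto G atImInfty (nhds 1) := by
    have h1 : Filter.Tendsto (fun z => E₄ z ^ 3 - c • Δ z) atImInfty
        (nhds ((1 : ℂ) ^ 3 - c • 0)) :=
      (E₄_tendsto.pow 3).sub (discriminant_tendsto.const_smul c)
    have e : (1 : ℂ) ^ 3 - c • 0 = 1 := by simp
    rw [e] at h1
    exact h1
  -- `1 / G` is a modular form of weight `-12`
  set Hf : ℍ → ℂ := (1 : ℍ → ℂ) / G with hH
  have hHmd : MDiff Hf := by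
    have h1 : MDiff (1 : ℍ → ℂ) := mdifferentiable_const
    exact h1.div hGmd hG0
  have hHslash : ∀ γ : SL(2, ℤ), Hf ∣[(-12 : ℤ)] γ = Hf := by
    intro γ
    have := ModularForm.div_slash_SL2 0 12 γ (1 : ℍ → ℂ) G
    rw [ModularForm.is_invariant_one, hGslash] at this
    have e : (0 : ℤ) - 12 = -12 := by norm_num
    rw [e] at this
    exact this
  have hHlim : Filter.Tendsto Hf atImInfty (nhds 1) := by
    have h1 : Filter.Tendsto (fun z => (1 : ℂ) / G z) atImInfty (nhds (1 / 1)) :=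
      Filter.Tendsto.div tendsto_const_nhds hGlim one_ne_zero
    rw [div_one] at h1
    exact h1
  have hHbdd : IsBoundedAtImInfty Hf := isBoundedAtImInfty_of_tendsto hHlim
  obtain ⟨f', hf'⟩ := exists_modularForm_of (𝒢 := 𝒮ℒ) (k := -12) Hf hHmd
    (by
      rintro γ' ⟨γ, rfl⟩
      exact hHslash γ)
    (fun γ => by rw [hHslash γ]; exact hHbdd)
  have hzero := ModularFormClass.levelOne_neg_weight_eq_zero (by norm_num : (-12 : ℤ) < 0) f'
  rw [hf'] at hzero
  have h0 : (1 : ℂ) / G UpperHalfPlane.I = 0 := congrFun hzero UpperHalfPlane.I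
  rw [one_div, inv_eq_zero] at h0
  exact hG0 _ h0

end Fermat.Agent.X0
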