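import Mathlib
import Fermat.Agent.S23.Basic

set_option autoImplicit false

/-!
# X-MOD: functions on the unit disc as nice functions on the upper half plane

For `f : ℂ → ℂ` holomorphic on the open unit disc, `ofDisc f z = f (q z)` (`q = exp (2πiz)`) is a
nice function on `ℍ`, its cusp function is `f` and its `q`-expansion is the Taylor series of `f`.
Also: Taylor coefficients are continuous for locally uniform convergence.
-/

namespace Fermat.Agent.X0

open UpperHalfPlane Function Filter Topology Metric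
open Fermat.Agent.S23
open scoped Manifold

local notation "𝕢" => Periodic.qParam

/-- The function on `ℍ` attached to a function on the unit disc. -/
noncomputable def ofDisc (f : ℂ → ℂ) (z : ℍ) : ℂ := f (𝕢 1 z)

theorem ofDisc_apply (f : ℂ → ℂ) (z : ℍ) : ofDisc f z = f (𝕢 1 z) := rfl

theorem qParam_mem_ball (z : ℍ) : 𝕢 1 (z : ℂ) ∈ ball (0 : ℂ) 1 := by
  simpa using Periodic.norm_qParam_lt_one one_pos z.im_pos

theorem qParam_one_add_one (w : ℂ) : 𝕢 1 (w + 1) = 𝕢 1 w := by
  simp only [Periodic.qParam, Complex.ofReal_one, div_one, mul_add, mul_one, Complex.exp_add,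
    Complex.exp_two_pi_mul_I]

theorem periodic_ofDisc (f : ℂ → ℂ) : Periodic (ofDisc f ∘ ofComplex) 1 := by
  intro w
  simp only [comp_apply]
  by_cases hw : 0 < w.im
  · have hw' : 0 < (w + 1).im := by simpa using hw
    rw [ofComplex_apply_of_im_pos hw, ofComplex_apply_of_im_pos hw']
    simp only [ofDisc_apply]
    exact congrArg f (qParam_one_add_one w)
  · have hw' : ¬ 0 < (w + 1).im := by simpa using hw
    rw [ofComplex_apply_of_im_nonpos (not_lt.mp hw), ofComplex_apply_of_im_nonpos (not_lt.mp hw')]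

theorem mdiff_ofDisc {f : ℂ → ℂ} (hf : DifferentiableOn ℂ f (ball 0 1)) : MDiff (ofDisc f) := by
  rw [UpperHalfPlane.mdifferentiable_iff]
  have h1 : DifferentiableOn ℂ (f ∘ 𝕢 1) upperHalfPlaneSet := by
    refine hf.comp (Periodic.differentiable_qParam.differentiableOn) ?_
    intro w hw
    exact qParam_mem_ball ⟨w, hw⟩
  refine h1.congr ?_
  intro w hw
  simp [ofDisc_apply, ofComplex_apply_of_im_pos hw]

theorem tendsto_ofDisc {f : ℂ → ℂ} (hf : DifferentiableOn ℂ f (ball 0 1)) :
    Tendsto (ofDisc f) atImInfty (𝓝 (f 0)) := by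
  have hc : ContinuousAt f 0 :=
    (hf.differentiableAt (ball_mem_nhds 0 one_pos)).continuousAt
  exact hc.tendsto.comp (qParam_tendsto_atImInfty one_pos)

theorem isNice_ofDisc {f : ℂ → ℂ} (hf : DifferentiableOn ℂ f (ball 0 1)) : IsNice (ofDisc f) :=
  ⟨periodic_ofDisc f, mdiff_ofDisc hf, (tendsto_ofDisc hf).isBigO_one ℝ⟩

theorem cuspFunction_ofDisc {f : ℂ → ℂ} (hf : DifferentiableOn ℂ f (ball 0 1)) :
    Set.EqOn (cuspFunction 1 (ofDisc f)) f (ball 0 1) := by
  have hne : ∀ q : ℂ, q ∈ ball (0 : ℂ) 1 → q ≠ 0 → cuspFunction 1 (ofDisc f) q = f q := by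
    intro q hq hq0
    have hq1 : ‖q‖ < 1 := by simpa using hq
    have him := Periodic.im_invQParam_pos_of_norm_lt_one one_pos hq1 hq0
    have h1 := eq_cuspFunction (f := ofDisc f) ⟨_, him⟩ one_ne_zero (periodic_ofDisc f)
    simp only [ofDisc_apply] at h1
    rwa [Periodic.qParam_right_inv one_ne_zero hq0] at h1
  intro q hq
  by_cases hq0 : q = 0
  · subst hq0
    have hA : ContinuousAt (cuspFunction 1 (ofDisc f)) 0 :=
      (isNice_ofDisc hf).analyticAt.continuousAt
    have hB : ContinuousAt f 0 :=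
      (hf.differentiableAt (ball_mem_nhds 0 one_pos)).continuousAt
    have h1 : Tendsto (cuspFunction 1 (ofDisc f)) (𝓝[≠] 0) (𝓝 (cuspFunction 1 (ofDisc f) 0)) :=
      tendsto_nhdsWithin_of_tendsto_nhds hA.tendsto
    have h2 : Tendsto (cuspFunction 1 (ofDisc f)) (𝓝[≠] 0) (𝓝 (f 0)) := by
      refine (tendsto_nhdsWithin_of_tendsto_nhds hB.tendsto).congr' ?_
      have : ∀ᶠ q in 𝓝[≠] (0 : ℂ), q ∈ ball (0 : ℂ) 1 :=
        nhdsWithin_le_nhds (ball_mem_nhds 0 one_pos)
      filter_upwards [this, self_mem_nhdsWithin] with q hq hq0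
      exact (hne q hq hq0).symm
    exact tendsto_nhds_unique h1 h2
  · exact hne q hq hq0

theorem qExpansion_ofDisc_coeff {f : ℂ → ℂ} (hf : DifferentiableOn ℂ f (ball 0 1)) (m : ℕ) :
    (qExpansion 1 (ofDisc f)).coeff m = (↑m.factorial)⁻¹ * iteratedDeriv m f 0 := by
  rw [qExpansion_coeff]
  congr 1
  apply Filter.EventuallyEq.iteratedDeriv_eq
  filter_upwards [ball_mem_nhds (0 : ℂ) one_pos] with q hq using cuspFunction_ofDisc hf hq


/-! ### Taylor coefficients and locally uniform convergence -/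

theorem tlu_iteratedDeriv {ι : Type*} {φ : Filter ι} [φ.NeBot]
    {F : ι → ℂ → ℂ} {f : ℂ → ℂ} {U : Set ℂ} (hU : IsOpen U)
    (hF : TendstoLocallyUniformlyOn F f φ U) (hd : ∀ᶠ i in φ, DifferentiableOn ℂ (F i) U) (n : ℕ) :
    TendstoLocallyUniformlyOn (fun i => iteratedDeriv n (F i)) (iteratedDeriv n f) φ U ∧
      ∀ᶠ i in φ, DifferentiableOn ℂ (iteratedDeriv n (F i)) U := by
  induction n with
  | zero => simpa [iteratedDeriv_zero] using And.intro hF hd
  | succ n ih =>
    obtain ⟨h1, h2⟩ := ih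
    constructor
    · have := h1.deriv h2 hU
      simpa [iteratedDeriv_succ, Function.comp_def] using this
    · filter_upwards [h2] with i hi
      rw [iteratedDeriv_succ]
      exact hi.deriv hU

/-- Iterated derivatives at a point converge under locally uniform convergence of holomorphic
functions. -/
theorem tendsto_iteratedDeriv_of_tlu {ι : Type*} {φ : Filter ι} [φ.NeBot]
    {F : ι → ℂ → ℂ} {f : ℂ → ℂ} {U : Set ℂ} (hU : IsOpen U)
    (hF : TendstoLocallyUniformlyOn F f φ U) (hd : ∀ᶠ i in φ, DifferentiableOn ℂ (F i) U) (n : ℕ)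
    {x : ℂ} (hx : x ∈ U) :
    Tendsto (fun i => iteratedDeriv n (F i) x) φ (𝓝 (iteratedDeriv n f x)) :=
  (tlu_iteratedDeriv hU hF hd n).1.tendsto_at hx

theorem poly_iteratedDeriv (p : Polynomial ℂ) (n : ℕ) :
    iteratedDeriv n (fun x => p.eval x) = fun x => (Polynomial.derivative^[n] p).eval x := by
  induction n generalizing p with
  | zero => simp
  | succ n ih =>
    rw [iteratedDeriv_succ']
    have : deriv (fun x => Polynomial.eval x p) = fun x => (Polynomial.derivative p).eval x := by
      funext x; exact p.deriv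
    rw [this, ih, Function.iterate_succ_apply]

theorem poly_iteratedDeriv_zero (p : Polynomial ℂ) (n : ℕ) :
    iteratedDeriv n (fun x => p.eval x) 0 = n.factorial * p.coeff n := by
  rw [poly_iteratedDeriv]
  show Polynomial.eval 0 _ = _
  rw [← Polynomial.coeff_zero_eq_eval_zero, Polynomial.coeff_iterate_derivative]
  simp [Nat.descFactorial_self]

/-- The `q`-expansion of a polynomial in `q`. -/
theorem qExpansion_ofDisc_poly (p : Polynomial ℂ) :
    qExpansion 1 (ofDisc fun x => p.eval x) = (p : PowerSeries ℂ) := by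
  ext m
  rw [qExpansion_ofDisc_coeff (Polynomial.differentiable p).differentiableOn, poly_iteratedDeriv_zero,
    Polynomial.coeff_coe, inv_mul_cancel_left₀]
  exact_mod_cast m.factorial_ne_zero

/-- The function `z ↦ q = exp (2πiz)` on `ℍ`. -/
noncomputable def qFun : ℍ → ℂ := ofDisc fun x => x

theorem qFun_apply (z : ℍ) : qFun z = 𝕢 1 z := rfl

theorem isNice_qFun : IsNice qFun := isNice_ofDisc differentiableOn_id

theorem qExpansion_qFun : qExpansion 1 qFun = PowerSeries.X := by
  have h := qExpansion_ofDisc_poly Polynomial.X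
  simp only [Polynomial.eval_X, Polynomial.coe_X] at h
  exact h

theorem qFun_ne_zero (z : ℍ) : qFun z ≠ 0 := Periodic.qParam_ne_zero _

end Fermat.Agent.X0
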