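import Mathlib
import Fermat.Prelude.Def_ModularCurve_X0
import Fermat.Agent.X0.DiscNice

set_option autoImplicit false

/-!
# X-MOD, JQ-BRIDGE: the Prelude's formal series versus the analytic modular forms

* `qExpansion_E4` : `qExpansion 1 E₄ = eisenstein4.map (Int.castRingHom ℂ)`
* `qExpansion_discriminant` :
    `qExpansion 1 ModularForm.discriminant = X * dedekindEtaUnit.map (Int.castRingHom ℂ)`
* `jNum_mul_qExpansion_discriminant` :
    `jNum.map _ * qExpansion 1 Δ = X * qExpansion 1 E₄ ^ 3`
-/

namespace Fermat.Agent.X0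

open UpperHalfPlane ModularForm EisensteinSeries ModularFormClass Filter Topology Metric
open Fermat.Agent.S23
open scoped MatrixGroups ArithmeticFunction.sigma PowerSeries.WithPiTopology

local notation "𝕢" => Function.Periodic.qParam

/-- (B1) The `q`-expansion of `E₄` is the Prelude's formal series `eisenstein4`. -/
theorem qExpansion_E4 :
    qExpansion 1 E₄ = ModularCurve.eisenstein4.map (Int.castRingHom ℂ) := by
  ext m
  rw [E_qExpansion_coeff (by norm_num) ⟨2, rfl⟩ m, PowerSeries.coeff_map]
  simp only [ModularCurve.eisenstein4, PowerSeries.coeff_mk]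
  by_cases hm : m = 0
  · simp [hm]
  · rw [if_neg hm, if_neg hm]
    have hb : bernoulli 4 = -1 / 30 := by decide +kernel
    rw [hb, ArithmeticFunction.sigma_apply]
    push_cast
    norm_num

/-! ### The eta product -/

/-- The analytic eta product `∏ (1 - q^(n+1))` on the unit disc. -/
noncomputable def etaDisc (q : ℂ) : ℂ := ∏' n : ℕ, (1 - q ^ (n + 1))

theorem differentiableOn_etaDisc : DifferentiableOn ℂ etaDisc (ball 0 1) :=
  ModularForm.differentiableOn_tprod_one_sub_pow

/-- The finite partial products as integer polynomials. -/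
noncomputable def etaPoly (s : Finset ℕ) : Polynomial ℤ := ∏ i ∈ s, (1 - Polynomial.X ^ (i + 1))

theorem etaPoly_eval (s : Finset ℕ) (q : ℂ) :
    ((etaPoly s).map (Int.castRingHom ℂ)).eval q = ∏ i ∈ s, (1 - q ^ (i + 1)) := by
  simp [etaPoly, Polynomial.map_prod, Polynomial.eval_prod]

theorem etaPoly_coe (s : Finset ℕ) :
    ((etaPoly s : Polynomial ℤ) : PowerSeries ℤ) = ∏ i ∈ s, (1 - PowerSeries.X ^ (i + 1)) := by
  rw [etaPoly, ← Polynomial.coeToPowerSeries.ringHom_apply, map_prod]
  refine Finset.prod_congr rfl fun i _ => ?_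
  simp [Polynomial.coeToPowerSeries.ringHom_apply]

theorem tendsto_etaPoly_coeff (m : ℕ) :
    Tendsto (fun s : Finset ℕ => (((etaPoly s).coeff m : ℤ) : ℂ)) atTop
      (𝓝 ((ModularCurve.etaProd.coeff m : ℤ) : ℂ)) := by
  have h1 : HasProd (fun n : ℕ => (1 : PowerSeries ℤ) - PowerSeries.X ^ (n + 1))
      ModularCurve.etaProd :=
    (PowerSeries.WithPiTopology.multipliable_one_sub_X_pow ℤ).hasProd
  have h2 : Tendsto
      (fun s : Finset ℕ => (∏ i ∈ s, ((1 : PowerSeries ℤ) - PowerSeries.X ^ (i + 1))).coeff m)
      atTop (𝓝 (ModularCurve.etaProd.coeff m)) :=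
    ((PowerSeries.WithPiTopology.continuous_coeff ℤ m).tendsto _).comp h1
  have h3 : Continuous (fun n : ℤ => (n : ℂ)) := continuous_of_discreteTopology
  have h4 := (h3.tendsto _).comp h2
  refine h4.congr ?_
  intro s
  simp only [Function.comp_apply, ← etaPoly_coe, Polynomial.coeff_coe]

theorem tlu_etaPoly :
    TendstoLocallyUniformlyOn
      (fun (s : Finset ℕ) (q : ℂ) => ((etaPoly s).map (Int.castRingHom ℂ)).eval q)
      etaDisc atTop (ball (0 : ℂ) 1) := by
  have h := ModularForm.multipliableLocallyUniformlyOn_one_sub_pow.hasProdLocallyUniformlyOn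
  rw [hasProdLocallyUniformlyOn_iff_tendstoLocallyUniformlyOn] at h
  refine h.congr_right ?_ |>.congr ?_
  · intro q hq; rfl
  · intro s q hq
    simp [etaPoly_eval]

/-- The Taylor coefficients of the analytic eta product are the coefficients of the Prelude's
formal product `etaProd`. -/
theorem taylor_etaDisc (m : ℕ) :
    (↑m.factorial : ℂ)⁻¹ * iteratedDeriv m etaDisc 0 =
      ((ModularCurve.etaProd.coeff m : ℤ) : ℂ) := by
  have h0 : (0 : ℂ) ∈ ball (0 : ℂ) 1 := mem_ball_self one_pos
  have h1 := tendsto_iteratedDeriv_of_tlu isOpen_ball tlu_etaPoly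
    (Eventually.of_forall fun s => (Polynomial.differentiable _).differentiableOn) m h0
  simp only [poly_iteratedDeriv_zero] at h1
  have h2 := tendsto_etaPoly_coeff m
  have h3 : Tendsto (fun s : Finset ℕ => (↑m.factorial : ℂ) * (((etaPoly s).coeff m : ℤ) : ℂ))
      atTop (𝓝 ((↑m.factorial : ℂ) * ((ModularCurve.etaProd.coeff m : ℤ) : ℂ))) :=
    h2.const_mul _
  have h4 : iteratedDeriv m etaDisc 0 =
      (↑m.factorial : ℂ) * ((ModularCurve.etaProd.coeff m : ℤ) : ℂ) := by
    refine tendsto_nhds_unique h1 (h3.congr ?_)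
    intro s
    simp [Polynomial.coeff_map]
  rw [h4, inv_mul_cancel_left₀]
  exact_mod_cast m.factorial_ne_zero

/-- The eta product as a nice function on `ℍ`. -/
noncomputable def etaFun : ℍ → ℂ := ofDisc etaDisc

theorem isNice_etaFun : IsNice etaFun := isNice_ofDisc differentiableOn_etaDisc

theorem qExpansion_etaFun :
    qExpansion 1 etaFun = ModularCurve.etaProd.map (Int.castRingHom ℂ) := by
  ext m
  rw [etaFun, qExpansion_ofDisc_coeff differentiableOn_etaDisc, taylor_etaDisc,
    PowerSeries.coeff_map]
  rfl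

theorem discriminant_eq_qFun_mul (z : ℍ) :
    ModularForm.discriminant z = qFun z * etaFun z ^ 24 := by
  rw [ModularForm.discriminant_eq_q_prod, qFun_apply, etaFun, ofDisc_apply, etaDisc]
  congr 1
  exact (ModularForm.multipliable_one_sub_pow
    (by simpa using qParam_mem_ball z)).tprod_pow 24

theorem discriminant_eq_qFun_mul' : ModularForm.discriminant = qFun * etaFun ^ 24 := by
  funext z
  simpa using discriminant_eq_qFun_mul z

/-- (B2) The `q`-expansion of `Δ` is `X` times the Prelude's formal series `dedekindEtaUnit`. -/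
theorem qExpansion_discriminant :
    qExpansion 1 ModularForm.discriminant =
      PowerSeries.X * ModularCurve.dedekindEtaUnit.map (Int.castRingHom ℂ) := by
  rw [discriminant_eq_qFun_mul', isNice_qFun.qExpansion_mul (isNice_etaFun.pow 24),
    isNice_etaFun.qExpansion_pow, qExpansion_qFun, qExpansion_etaFun, ModularCurve.dedekindEtaUnit,
    map_pow]

/-- (B3) The formal identity `j · Δ = E₄³`: the Prelude's `jNum = q · jq` times the `q`-expansion
of `Δ` is `q` times the cube of the `q`-expansion of `E₄`. -/
theorem jNum_mul_qExpansion_discriminant :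
    ModularCurve.jNum.map (Int.castRingHom ℂ) * qExpansion 1 ModularForm.discriminant =
      PowerSeries.X * qExpansion 1 E₄ ^ 3 := by
  rw [qExpansion_discriminant, qExpansion_E4, ModularCurve.jNum, map_mul, map_pow]
  have h : ModularCurve.dedekindEtaUnitInv.map (Int.castRingHom ℂ) *
      ModularCurve.dedekindEtaUnit.map (Int.castRingHom ℂ) = 1 := by
    rw [← map_mul, mul_comm, ModularCurve.dedekindEtaUnit_mul_inv, map_one]
  calc _ = PowerSeries.X * (PowerSeries.map (Int.castRingHom ℂ)) ModularCurve.eisenstein4 ^ 3 *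
        (ModularCurve.dedekindEtaUnitInv.map (Int.castRingHom ℂ) *
          ModularCurve.dedekindEtaUnit.map (Int.castRingHom ℂ)) := by ring
    _ = _ := by rw [h, mul_one]

end Fermat.Agent.X0
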