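import Mathlib
import Fermat.Agent.X0.DiscNice

set_option autoImplicit false

/-!
# X-MOD: Laurent `q`-expansions of holomorphic functions on `ℍ` that are meromorphic at `i∞`

`IsMerCusp F` : `F : ℍ → ℂ` is holomorphic, `1`-periodic and `q^m F` is bounded at `i∞` for some `m`.
These functions form a subring `merCuspSubring` of `ℍ → ℂ` and the Laurent `q`-expansion
`qexpL : merCuspSubring →+* LaurentSeries ℂ` is an injective ring homomorphism.
-/

namespace Fermat.Agent.X0

open UpperHalfPlane Function Filter Topology Metric HahnSeries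
open Fermat.Agent.S23
open scoped Manifold

/-- `F` is holomorphic on `ℍ`, `1`-periodic and meromorphic at `i∞`. -/
def IsMerCusp (F : ℍ → ℂ) : Prop := ∃ m : ℕ, IsNice (qFun ^ m * F)

theorem isMerCusp_of_isNice {F : ℍ → ℂ} (h : IsNice F) : IsMerCusp F :=
  ⟨0, by simpa using h⟩

theorem isNice_qFun_pow_mul_of_le {F : ℍ → ℂ} {m n : ℕ} (hmn : m ≤ n)
    (h : IsNice (qFun ^ m * F)) : IsNice (qFun ^ n * F) := by
  have : qFun ^ n * F = qFun ^ (n - m) * (qFun ^ m * F) := by
    rw [← mul_assoc, ← _root_.pow_add, Nat.sub_add_cancel hmn]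
  rw [this]
  exact (isNice_qFun.pow _).mul h

theorem IsMerCusp.add {F G : ℍ → ℂ} (hF : IsMerCusp F) (hG : IsMerCusp G) : IsMerCusp (F + G) := by
  obtain ⟨m, hm⟩ := hF
  obtain ⟨n, hn⟩ := hG
  refine ⟨m + n, ?_⟩
  rw [mul_add]
  exact (isNice_qFun_pow_mul_of_le (Nat.le_add_right m n) hm).add
    (isNice_qFun_pow_mul_of_le (Nat.le_add_left n m) hn)

theorem IsMerCusp.mul {F G : ℍ → ℂ} (hF : IsMerCusp F) (hG : IsMerCusp G) : IsMerCusp (F * G) := by
  obtain ⟨m, hm⟩ := hF
  obtain ⟨n, hn⟩ := hG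
  refine ⟨m + n, ?_⟩
  have : qFun ^ (m + n) * (F * G) = (qFun ^ m * F) * (qFun ^ n * G) := by
    rw [_root_.pow_add]; ring
  rw [this]
  exact hm.mul hn

theorem IsMerCusp.neg {F : ℍ → ℂ} (hF : IsMerCusp F) : IsMerCusp (-F) := by
  obtain ⟨m, hm⟩ := hF
  exact ⟨m, by simpa using hm.neg⟩

theorem isMerCusp_const (c : ℂ) : IsMerCusp (fun _ => c) := isMerCusp_of_isNice (isNice_const c)

/-- The subring of holomorphic `1`-periodic functions on `ℍ` that are meromorphic at `i∞`. -/
def merCuspSubring : Subring (ℍ → ℂ) where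
  carrier := {F | IsMerCusp F}
  mul_mem' := IsMerCusp.mul
  one_mem' := isMerCusp_of_isNice isNice_one
  add_mem' := IsMerCusp.add
  zero_mem' := isMerCusp_of_isNice isNice_zero
  neg_mem' := IsMerCusp.neg

theorem mem_merCuspSubring {F : ℍ → ℂ} : F ∈ merCuspSubring ↔ IsMerCusp F := Iff.rfl

/-- `q^(-m) * P(q)` as a Laurent series. -/
noncomputable def laurentOf (m : ℕ) (P : PowerSeries ℂ) : LaurentSeries ℂ :=
  HahnSeries.single (-(m : ℤ)) (1 : ℂ) * HahnSeries.ofPowerSeries ℤ ℂ P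

theorem laurentOf_mul (m n : ℕ) (P Q : PowerSeries ℂ) :
    laurentOf m P * laurentOf n Q = laurentOf (m + n) (P * Q) := by
  simp only [laurentOf, map_mul]
  have : (HahnSeries.single (-((m + n : ℕ) : ℤ)) (1 : ℂ)) =
      HahnSeries.single (-(m : ℤ)) (1 : ℂ) * HahnSeries.single (-(n : ℤ)) (1 : ℂ) := by
    rw [HahnSeries.single_mul_single]
    have e : (-((m + n : ℕ) : ℤ)) = -(m : ℤ) + -(n : ℤ) := by push_cast; ring
    rw [e, one_mul]
  rw [this]
  ring

theorem laurentOf_add (m : ℕ) (P Q : PowerSeries ℂ) :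
    laurentOf m P + laurentOf m Q = laurentOf m (P + Q) := by
  simp only [laurentOf, map_add, mul_add]

theorem laurentOf_neg (m : ℕ) (P : PowerSeries ℂ) :
    -laurentOf m P = laurentOf m (-P) := by
  simp only [laurentOf, map_neg]
  ring

theorem laurentOf_X_pow_mul (m k : ℕ) (P : PowerSeries ℂ) :
    laurentOf (m + k) (PowerSeries.X ^ k * P) = laurentOf m P := by
  simp only [laurentOf, map_mul, map_pow, HahnSeries.ofPowerSeries_X, HahnSeries.single_pow,
    one_pow]
  rw [← mul_assoc, HahnSeries.single_mul_single]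
  congr 2
  · push_cast
    simp
  · simp

theorem laurentOf_zero_left (P : PowerSeries ℂ) :
    laurentOf 0 P = HahnSeries.ofPowerSeries ℤ ℂ P := by
  simp [laurentOf]

theorem laurentOf_injective (m : ℕ) : Function.Injective (laurentOf m) := by
  intro P Q h
  simp only [laurentOf] at h
  have h1 : HahnSeries.single (-(m : ℤ)) (1 : ℂ) ≠ 0 := by simp
  exact HahnSeries.ofPowerSeries_injective (mul_left_cancel₀ h1 h)

open Classical in
/-- The Laurent `q`-expansion of a function on `ℍ` which is meromorphic at `i∞`. -/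
noncomputable def qexpL (F : ℍ → ℂ) : LaurentSeries ℂ :=
  if h : IsMerCusp F then laurentOf h.choose (qExpansion 1 (qFun ^ h.choose * F)) else 0

theorem qExpansion_qFun_pow_mul {F : ℍ → ℂ} {m : ℕ} (h : IsNice (qFun ^ m * F)) (k : ℕ) :
    qExpansion 1 (qFun ^ (m + k) * F) = PowerSeries.X ^ k * qExpansion 1 (qFun ^ m * F) := by
  have : qFun ^ (m + k) * F = qFun ^ k * (qFun ^ m * F) := by
    rw [← mul_assoc, ← _root_.pow_add, add_comm]
  rw [this, (isNice_qFun.pow k).qExpansion_mul h, isNice_qFun.qExpansion_pow, qExpansion_qFun]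

theorem qexpL_eq {F : ℍ → ℂ} {m : ℕ} (h : IsNice (qFun ^ m * F)) :
    qexpL F = laurentOf m (qExpansion 1 (qFun ^ m * F)) := by
  have hF : IsMerCusp F := ⟨m, h⟩
  rw [qexpL, dif_pos hF]
  have h0 := hF.choose_spec
  rw [← laurentOf_X_pow_mul hF.choose m, ← qExpansion_qFun_pow_mul h0 m,
    ← laurentOf_X_pow_mul m hF.choose, ← qExpansion_qFun_pow_mul h hF.choose, add_comm]

theorem qexpL_of_isNice {F : ℍ → ℂ} (h : IsNice F) :
    qexpL F = HahnSeries.ofPowerSeries ℤ ℂ (qExpansion 1 F) := by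
  have h' : IsNice (qFun ^ 0 * F) := by simpa using h
  rw [qexpL_eq h', laurentOf_zero_left]
  simp

theorem qexpL_mul {F G : ℍ → ℂ} (hF : IsMerCusp F) (hG : IsMerCusp G) :
    qexpL (F * G) = qexpL F * qexpL G := by
  obtain ⟨m, hm⟩ := hF
  obtain ⟨n, hn⟩ := hG
  have e : qFun ^ (m + n) * (F * G) = (qFun ^ m * F) * (qFun ^ n * G) := by
    rw [_root_.pow_add]; ring
  have hmn : IsNice (qFun ^ (m + n) * (F * G)) := by rw [e]; exact hm.mul hn
  rw [qexpL_eq hmn, qexpL_eq hm, qexpL_eq hn, laurentOf_mul, e, hm.qExpansion_mul hn]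

theorem qexpL_add {F G : ℍ → ℂ} (hF : IsMerCusp F) (hG : IsMerCusp G) :
    qexpL (F + G) = qexpL F + qexpL G := by
  obtain ⟨m, hm⟩ := hF
  obtain ⟨n, hn⟩ := hG
  have hm' := isNice_qFun_pow_mul_of_le (Nat.le_add_right m n) hm
  have hn' := isNice_qFun_pow_mul_of_le (Nat.le_add_left n m) hn
  have hmn : IsNice (qFun ^ (m + n) * (F + G)) := by rw [mul_add]; exact hm'.add hn'
  rw [qexpL_eq hmn, qexpL_eq hm', qexpL_eq hn', laurentOf_add, mul_add, hm'.qExpansion_add hn']

theorem qexpL_const (c : ℂ) : qexpL (fun _ => c) = HahnSeries.C c := by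
  rw [qexpL_of_isNice (isNice_const c)]
  have : qExpansion 1 (fun _ : ℍ => c) = PowerSeries.C c := by
    have h1 : (fun _ : ℍ => c) = c • (1 : ℍ → ℂ) := by ext z; simp
    rw [h1, isNice_one.qExpansion_smul, qExpansion_one]
    ext n
    simp [PowerSeries.coeff_C, PowerSeries.coeff_one]
  rw [this, HahnSeries.ofPowerSeries_C]

theorem qexpL_one : qexpL (1 : ℍ → ℂ) = 1 := by
  have := qexpL_const 1
  rw [map_one] at this
  exact this

theorem qexpL_zero : qexpL (0 : ℍ → ℂ) = 0 := by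
  have := qexpL_const 0
  rw [map_zero] at this
  exact this

/-- The Laurent `q`-expansion as a ring homomorphism. -/
noncomputable def qexpLHom : merCuspSubring →+* LaurentSeries ℂ where
  toFun F := qexpL (F : ℍ → ℂ)
  map_one' := qexpL_one
  map_mul' F G := qexpL_mul F.2 G.2
  map_zero' := qexpL_zero
  map_add' F G := qexpL_add F.2 G.2

@[simp] theorem qexpLHom_apply (F : merCuspSubring) : qexpLHom F = qexpL (F : ℍ → ℂ) := rfl

theorem qexpL_eq_zero_iff {F : ℍ → ℂ} (hF : IsMerCusp F) : qexpL F = 0 ↔ F = 0 := by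
  constructor
  · intro h
    obtain ⟨m, hm⟩ := hF
    rw [qexpL_eq hm] at h
    have h1 : qExpansion 1 (qFun ^ m * F) = 0 := by
      apply laurentOf_injective m
      rw [h]
      simp [laurentOf]
    have h2 : qFun ^ m * F = 0 :=
      (qExpansion_eq_zero_iff one_pos hm.1 hm.2.1 hm.2.2).mp h1
    funext z
    have h3 := congrFun h2 z
    simp only [Pi.mul_apply, Pi.pow_apply, Pi.zero_apply, mul_eq_zero, pow_eq_zero_iff',
      qFun_ne_zero, false_and, false_or] at h3
    exact h3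
  · rintro rfl
    exact qexpL_zero

theorem qexpLHom_injective : Function.Injective qexpLHom := by
  rw [injective_iff_map_eq_zero]
  intro F hF
  exact Subtype.ext ((qexpL_eq_zero_iff F.2).mp hF)

end Fermat.Agent.X0
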