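import Mathlib
import Fermat.Prelude.Def_ModularCurve_X0
import Fermat.Prelude.Def_ModularCurve_LaurentCoeff
import Fermat.Prelude.Thm_ModularCurve_coeffMap_qExpand
import Fermat.Agent.S23.PrimEltQExp
import Fermat.Agent.X0.JqBridge
import Fermat.Agent.X0.LaurentQ

set_option autoImplicit false

/-!
# X-MOD, JQ-BRIDGE (B4): the Laurent `q`-expansion of the analytic `j`-function is the Prelude's `jq`

* `jAn z = E₄ z ^ 3 / Δ z`, `isMerCusp_jAn`, `qexpL_jAn : qexpL jAn = coeffMap (algebraMap ℚ ℂ) jq`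
* scaling: `qexpL (G ∘ scaleH d) = qExpand ℂ d (qexpL G)`
* `qexpL_jAn_scale : qexpL (fun z => jAn (scaleH d z)) = coeffMap (algebraMap ℚ ℂ) (qExpand ℚ d jq)`
-/

namespace Fermat.Agent.X0

open UpperHalfPlane ModularForm EisensteinSeries ModularFormClass Filter Topology Metric HahnSeries
open Fermat.Agent.S23 Fermat.Agent.S23.PrimEltQExp ModularCurve
open scoped MatrixGroups Manifold

local notation "𝕢" => Function.Periodic.qParam

/-! ### `coeffMap` and `qExpand` on `ofPowerSeries` -/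

theorem coeffMap_ofPowerSeries {R S : Type*} [CommRing R] [CommRing S] (f : R →+* S)
    (P : PowerSeries R) :
    coeffMap f (HahnSeries.ofPowerSeries ℤ R P) = HahnSeries.ofPowerSeries ℤ S (P.map f) := by
  ext k
  rw [coeffMap_coeff, PowerSeries.coeff_coe, PowerSeries.coeff_coe]
  split_ifs
  · simp
  · simp

/-- The power series `P(X^d)`. -/
noncomputable def psScale (d : ℕ) (P : PowerSeries ℂ) : PowerSeries ℂ :=
  PowerSeries.mk fun n => if d ∣ n then P.coeff (n / d) else 0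

theorem qExpand_ofPowerSeries (d : ℕ) [NeZero d] (P : PowerSeries ℂ) :
    qExpand ℂ d (HahnSeries.ofPowerSeries ℤ ℂ P) = HahnSeries.ofPowerSeries ℤ ℂ (psScale d P) := by
  have hd : 0 < d := NeZero.pos d
  ext k
  by_cases hk : (d : ℤ) ∣ k
  · obtain ⟨k', rfl⟩ := hk
    rw [qExpand_coeff_mul, PowerSeries.coeff_coe, PowerSeries.coeff_coe]
    have hd' : (0 : ℤ) < d := by exact_mod_cast hd
    by_cases hk' : k' < 0
    · have : (d : ℤ) * k' < 0 := mul_neg_of_pos_of_neg hd' hk'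
      rw [if_pos hk', if_pos this]
    · have h2 : ¬ (d : ℤ) * k' < 0 := not_lt.mpr (mul_nonneg hd'.le (not_lt.mp hk'))
      rw [if_neg hk', if_neg h2, psScale, PowerSeries.coeff_mk]
      have h3 : ((d : ℤ) * k').natAbs = d * k'.natAbs := by
        rw [Int.natAbs_mul, Int.natAbs_natCast]
      rw [h3, if_pos (Nat.dvd_mul_right _ _), Nat.mul_div_cancel_left _ hd]
  · rw [qExpand_coeff_of_not_dvd d _ hk, PowerSeries.coeff_coe]
    split_ifs with h
    · rfl
    · rw [psScale, PowerSeries.coeff_mk, if_neg]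
      intro hdvd
      apply hk
      have : (k.natAbs : ℤ) = k := Int.natAbs_of_nonneg (not_lt.mp h)
      rw [← this]
      exact_mod_cast hdvd

theorem qExpand_laurentOf (d : ℕ) [NeZero d] (m : ℕ) (P : PowerSeries ℂ) :
    qExpand ℂ d (laurentOf m P) = laurentOf (d * m) (psScale d P) := by
  rw [laurentOf, map_mul, qExpand_single, qExpand_ofPowerSeries, laurentOf]
  congr 2
  push_cast
  rw [mul_neg]

/-! ### Scaling `z ↦ d z` -/

theorem qFun_scaleH (d : ℕ) [NeZero d] (z : ℍ) : qFun (scaleH d z) = qFun z ^ d :=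
  qParam_scaleH d z

theorem isNice_scale_aux {d : ℕ} [NeZero d] {G : ℍ → ℂ} {m : ℕ} (h : IsNice (qFun ^ m * G)) :
    IsNice (qFun ^ (d * m) * fun z => G (scaleH d z)) ∧
      qExpansion 1 (qFun ^ (d * m) * fun z => G (scaleH d z)) =
        psScale d (qExpansion 1 (qFun ^ m * G)) := by
  have hF : ∀ z : ℍ, (qFun ^ (d * m) * fun z => G (scaleH d z)) z =
      (qFun ^ m * G) (scaleH d z) := by
    intro z
    simp only [Pi.mul_apply, Pi.pow_apply, qFun_scaleH, pow_mul]
  obtain ⟨h1, h2⟩ := isNice_and_coeff d h hF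
  refine ⟨h1, ?_⟩
  ext n
  rw [h2 n, psScale, PowerSeries.coeff_mk]

theorem IsMerCusp.scale (d : ℕ) [NeZero d] {G : ℍ → ℂ} (hG : IsMerCusp G) :
    IsMerCusp fun z => G (scaleH d z) := by
  obtain ⟨m, hm⟩ := hG
  exact ⟨d * m, (isNice_scale_aux hm).1⟩

/-- The Laurent `q`-expansion of `z ↦ G (d z)` is `qExpand d` of that of `G`. -/
theorem qexpL_scale (d : ℕ) [NeZero d] {G : ℍ → ℂ} (hG : IsMerCusp G) :
    qexpL (fun z => G (scaleH d z)) = qExpand ℂ d (qexpL G) := by
  obtain ⟨m, hm⟩ := hG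
  obtain ⟨h1, h2⟩ := isNice_scale_aux (d := d) hm
  rw [qexpL_eq h1, qexpL_eq hm, qExpand_laurentOf, h2]

/-! ### The analytic `j`-function -/

/-- The analytic `j`-function `E₄³ / Δ` on the upper half plane. -/
noncomputable def jAn (z : ℍ) : ℂ := E₄ z ^ 3 / ModularForm.discriminant z

theorem jAn_apply (z : ℍ) : jAn z = E₄ z ^ 3 / ModularForm.discriminant z := rfl

theorem etaDisc_ne_zero {q : ℂ} (hq : q ∈ ball (0 : ℂ) 1) : etaDisc q ≠ 0 := by
  have hq1 : ‖q‖ < 1 := by simpa using hq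
  have hs : Summable fun n : ℕ => ‖-q ^ (n + 1)‖ := by
    simpa using (summable_nat_add_iff 1).mpr (summable_geometric_of_lt_one (norm_nonneg _) hq1)
  have := tprod_one_add_ne_zero_of_summable (f := fun n : ℕ => -q ^ (n + 1)) ?_ hs
  · simpa [etaDisc, sub_eq_add_neg] using this
  · intro n h
    have h1 : q ^ (n + 1) = 1 := by
      have : 1 + -q ^ (n + 1) = 0 := h
      linear_combination -this
    have h2 : ‖q‖ ^ (n + 1) = 1 := by rw [← norm_pow, h1, norm_one]
    have h3 : ‖q‖ ^ (n + 1) < 1 := pow_lt_one₀ (norm_nonneg _) hq1 (Nat.succ_ne_zero n)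
    linarith

/-- `1 / ∏ (1 - q^n)^24` as a nice function. -/
noncomputable def etaInvFun : ℍ → ℂ := ofDisc fun q => (etaDisc q ^ 24)⁻¹

theorem differentiableOn_etaInv :
    DifferentiableOn ℂ (fun q => (etaDisc q ^ 24)⁻¹) (ball (0 : ℂ) 1) :=
  (differentiableOn_etaDisc.pow 24).inv fun _ hq => pow_ne_zero _ (etaDisc_ne_zero hq)

theorem isNice_etaInvFun : IsNice etaInvFun := isNice_ofDisc differentiableOn_etaInv

theorem etaFun_pow_mul_etaInvFun : etaFun ^ 24 * etaInvFun = 1 := by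
  funext z
  simp only [Pi.mul_apply, Pi.pow_apply, Pi.one_apply, etaFun, etaInvFun, ofDisc_apply]
  exact mul_inv_cancel₀ (pow_ne_zero _ (etaDisc_ne_zero (qParam_mem_ball z)))

theorem qExpansion_etaInvFun :
    qExpansion 1 etaInvFun = dedekindEtaUnitInv.map (Int.castRingHom ℂ) := by
  have h1 : qExpansion 1 (etaFun ^ 24) * qExpansion 1 etaInvFun = 1 := by
    rw [← (isNice_etaFun.pow 24).qExpansion_mul isNice_etaInvFun, etaFun_pow_mul_etaInvFun,
      qExpansion_one]
  have h2 : qExpansion 1 (etaFun ^ 24) = dedekindEtaUnit.map (Int.castRingHom ℂ) := by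
    rw [isNice_etaFun.qExpansion_pow, qExpansion_etaFun, dedekindEtaUnit, map_pow]
  have h3 : dedekindEtaUnit.map (Int.castRingHom ℂ) * dedekindEtaUnitInv.map (Int.castRingHom ℂ)
      = 1 := by
    rw [← map_mul, dedekindEtaUnit_mul_inv, map_one]
  rw [h2] at h1
  calc qExpansion 1 etaInvFun
      = (dedekindEtaUnitInv.map (Int.castRingHom ℂ) * dedekindEtaUnit.map (Int.castRingHom ℂ)) *
          qExpansion 1 etaInvFun := by rw [mul_comm (PowerSeries.map _ dedekindEtaUnitInv), h3, one_mul]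
    _ = dedekindEtaUnitInv.map (Int.castRingHom ℂ) *
          (dedekindEtaUnit.map (Int.castRingHom ℂ) * qExpansion 1 etaInvFun) := by ring
    _ = _ := by rw [h1, mul_one]

theorem qFun_mul_jAn : qFun ^ 1 * jAn = (E₄ : ℍ → ℂ) ^ 3 * etaInvFun := by
  funext z
  simp only [pow_one, Pi.mul_apply, Pi.pow_apply, jAn_apply, discriminant_eq_qFun_mul, etaInvFun,
    ofDisc_apply, etaFun]
  have h1 : qFun z ≠ 0 := qFun_ne_zero z
  have h2 : etaDisc (𝕢 1 (z : ℂ)) ^ 24 ≠ 0 := pow_ne_zero _ (etaDisc_ne_zero (qParam_mem_ball z))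
  field_simp

theorem isNice_E4 : IsNice (E₄ : ℍ → ℂ) := isNice_levelOne_aux
  where isNice_levelOne_aux : IsNice (E₄ : ℍ → ℂ) :=
    isNice_of_modularForm (Γ := 𝒮ℒ) one_mem_strictPeriods_SL E₄

theorem isNice_qFun_mul_jAn : IsNice (qFun ^ 1 * jAn) := by
  rw [qFun_mul_jAn]
  exact (isNice_E4.pow 3).mul isNice_etaInvFun

theorem isMerCusp_jAn : IsMerCusp jAn := ⟨1, isNice_qFun_mul_jAn⟩

theorem qExpansion_qFun_mul_jAn :
    qExpansion 1 (qFun ^ 1 * jAn) = jNum.map (Int.castRingHom ℂ) := by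
  rw [qFun_mul_jAn, (isNice_E4.pow 3).qExpansion_mul isNice_etaInvFun, isNice_E4.qExpansion_pow,
    qExpansion_E4, qExpansion_etaInvFun, jNum, map_mul, map_pow]

/-- (B4) The Laurent `q`-expansion of the analytic `j`-function is the Prelude's formal `jq`. -/
theorem qexpL_jAn : qexpL jAn = coeffMap (algebraMap ℚ ℂ) jq := by
  rw [qexpL_eq isNice_qFun_mul_jAn, qExpansion_qFun_mul_jAn, laurentOf, jq, map_mul,
    coeffMap_single, coeffMap_ofPowerSeries, jNumQ]
  congr 2
  · simp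

/-- (B4) The Laurent `q`-expansion of `z ↦ j (d z)` is the Prelude's `qExpand d jq`. -/
theorem qexpL_jAn_scale (d : ℕ) [NeZero d] :
    qexpL (fun z => jAn (scaleH d z)) = coeffMap (algebraMap ℚ ℂ) (qExpand ℚ d jq) := by
  rw [qexpL_scale d isMerCusp_jAn, qexpL_jAn, coeffMap_qExpand]

theorem isMerCusp_jAn_scale (d : ℕ) [NeZero d] : IsMerCusp fun z => jAn (scaleH d z) :=
  isMerCusp_jAn.scale d

end Fermat.Agent.X0
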