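import Mathlib
import Fermat.Agent.X0.Defs
import Fermat.Agent.X0.JFun
import Fermat.Agent.X0.JqLaurent

set_option autoImplicit false

/-!
# X-MOD, piece MOD-PSI: the analytic realisation `Ψ` of `R = ℚ̄[j(q^d) : d ∣ N] ⊂ Fb N`

* `iotaC : Kb →+* ℂ` : a fixed embedding `ℚ̄ → ℂ`;
* `Rb N : Subalgebra Kb (Fb N)` : the `ℚ̄`-algebra generated by the `jBarD N d` (`d ∣ N`);
* `Psi N : Rb N →+* (ℍ → ℂ)` : injective ring hom with `qexpL (Psi N r) = coeffMap iotaC r`,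
  `Psi N (jBarD N d) = fun z => jAn (scaleH d z)`, every `Psi N r` holomorphic, `1`-periodic,
  meromorphic at `i∞` (`IsMerCusp`) and `Γ₀(N)`-invariant;
* `Fb N` is the fraction field of `Rb N`.
-/

namespace Fermat.Agent.X0

open UpperHalfPlane ModularCurve HahnSeries
open Fermat.Agent.S23 Fermat.Agent.S23.PrimEltQExp
open scoped MatrixGroups Manifold

/-! ## The embedding `ℚ̄ → ℂ` -/

/-- A fixed embedding of `ℚ̄` into `ℂ`. -/
noncomputable def iotaC : Kb →+* ℂ :=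
  letI : Algebra ℚ Kb := AlgebraicClosure.instAlgebra ℚ
  haveI : Algebra.IsAlgebraic ℚ Kb := AlgebraicClosure.isAlgebraic ℚ
  ((IsAlgClosed.lift : Kb →ₐ[ℚ] ℂ) : Kb →+* ℂ)

theorem iotaC_injective : Function.Injective iotaC := iotaC.injective

theorem iotaC_comp_algebraMap : iotaC.comp (algebraMap ℚ Kb) = algebraMap ℚ ℂ :=
  Subsingleton.elim _ _

theorem coeffMap_injective {R S : Type*} [CommRing R] [CommRing S] (f : R →+* S)
    (hf : Function.Injective f) : Function.Injective (coeffMap f) := by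
  intro x y h
  ext k
  have := congrArg (fun s => s.coeff k) h
  simp only [coeffMap_coeff] at this
  exact hf this

theorem coeffMap_iotaC_coeffEmb (s : LaurentSeries ℚ) :
    coeffMap iotaC (coeffEmb Kb s) = coeffMap (algebraMap ℚ ℂ) s := by
  rw [coeffEmb, coeffMap_coeffMap, iotaC_comp_algebraMap]

/-! ## The ring `R` -/

/-- The generators `j(q^d)`, `d ∣ N`, of `Fb N`. -/
def genSetB (N : ℕ) : Set (Fb N) :=
  {x | ∃ (d : ℕ) (_ : NeZero d) (hd : d ∣ N), x = jBarD N d hd}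

theorem jBarD_mem_genSetB (N d : ℕ) [NeZero d] (hd : d ∣ N) : jBarD N d hd ∈ genSetB N :=
  ⟨d, ‹_›, hd, rfl⟩

/-- `R = ℚ̄[j(q^d) : d ∣ N]` as a subalgebra of `Fb N`. -/
noncomputable def Rb (N : ℕ) : Subalgebra Kb (Fb N) := Algebra.adjoin Kb (genSetB N)

theorem jBarD_mem_Rb (N d : ℕ) [NeZero d] (hd : d ∣ N) : jBarD N d hd ∈ Rb N :=
  Algebra.subset_adjoin (jBarD_mem_genSetB N d hd)

theorem jBar_eq_jBarD_one (N : ℕ) : jBar N = jBarD N 1 (one_dvd N) := by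
  apply Subtype.ext
  simp [qExpand_one_apply]

theorem jBar_mem_Rb (N : ℕ) : jBar N ∈ Rb N := by
  rw [jBar_eq_jBarD_one]; exact jBarD_mem_Rb N 1 _


/-! ## `Γ₀(N)`-invariance of `z ↦ j(d z)` -/

theorem jAn_eq_jFun : jAn = jFun := rfl

theorem jAn_smul (γ : SL(2, ℤ)) (z : ℍ) : jAn (γ • z) = jAn z := by
  rw [jAn_eq_jFun]; exact jFun_smul γ z

/-- For `γ ∈ Γ₀(N)` and `d ∣ N`: `d · (γ z) = γ' (d z)` with `γ' ∈ SL₂(ℤ)`. -/
theorem exists_scaleH_smul {N d : ℕ} [NeZero d] (hd : d ∣ N) (γ : SL(2, ℤ))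
    (hγ : γ ∈ CongruenceSubgroup.Gamma0 N) :
    ∃ γ' : SL(2, ℤ), ∀ z : ℍ, scaleH d (γ • z) = γ' • scaleH d z := by
  rw [CongruenceSubgroup.Gamma0_mem] at hγ
  have hN : (N : ℤ) ∣ γ 1 0 := (ZMod.intCast_zmod_eq_zero_iff_dvd _ _).mp hγ
  obtain ⟨c', hc'⟩ : (d : ℤ) ∣ γ 1 0 := (Int.natCast_dvd_natCast.mpr hd).trans hN
  have hdet : (γ 0 0) * (γ 1 1) - (γ 0 1) * (γ 1 0) = 1 := by
    have := γ.det_coe
    rw [Matrix.det_fin_two] at this
    exact this
  have hdet' : Matrix.det !![γ 0 0, γ 0 1 * d; c', γ 1 1] = 1 := by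
    rw [Matrix.det_fin_two_of]
    rw [hc'] at hdet
    linarith [hdet]
  let γ' : SL(2, ℤ) := ⟨!![γ 0 0, γ 0 1 * d; c', γ 1 1], hdet'⟩
  have h00 : γ' 0 0 = γ 0 0 := rfl
  have h01 : γ' 0 1 = γ 0 1 * d := rfl
  have h10 : γ' 1 0 = c' := rfl
  have h11 : γ' 1 1 = γ 1 1 := rfl
  refine ⟨γ', fun z => ?_⟩
  apply UpperHalfPlane.ext
  rw [coe_scaleH, coe_specialLinearGroup_apply, coe_specialLinearGroup_apply γ', coe_scaleH,
    h00, h01, h10, h11, hc']
  simp only [algebraMap_int_eq, eq_intCast, Int.cast_mul, Int.cast_natCast]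
  push_cast
  rw [mul_div_assoc']
  congr 1 <;> ring

theorem jAn_scaleH_smul {N d : ℕ} [NeZero d] (hd : d ∣ N) (γ : SL(2, ℤ))
    (hγ : γ ∈ CongruenceSubgroup.Gamma0 N) (z : ℍ) :
    jAn (scaleH d (γ • z)) = jAn (scaleH d z) := by
  obtain ⟨γ', h⟩ := exists_scaleH_smul hd γ hγ
  rw [h z, jAn_smul]

/-! ## Existence of `Ψ r` -/

/-- `F` is the analytic realisation of the formal series `x`. -/
structure IsPsiOf (N : ℕ) (x : LaurentSeries Kb) (F : ℍ → ℂ) : Prop where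
  mer : IsMerCusp F
  qexp : qexpL F = coeffMap iotaC x
  inv : ∀ γ ∈ CongruenceSubgroup.Gamma0 N, ∀ z : ℍ, F (γ • z) = F z

theorem IsPsiOf.add {N : ℕ} {x y : LaurentSeries Kb} {F G : ℍ → ℂ} (hF : IsPsiOf N x F)
    (hG : IsPsiOf N y G) : IsPsiOf N (x + y) (F + G) where
  mer := hF.mer.add hG.mer
  qexp := by rw [qexpL_add hF.mer hG.mer, hF.qexp, hG.qexp, map_add]
  inv γ hγ z := by simp only [Pi.add_apply, hF.inv γ hγ z, hG.inv γ hγ z]

theorem IsPsiOf.mul {N : ℕ} {x y : LaurentSeries Kb} {F G : ℍ → ℂ} (hF : IsPsiOf N x F)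
    (hG : IsPsiOf N y G) : IsPsiOf N (x * y) (F * G) where
  mer := hF.mer.mul hG.mer
  qexp := by rw [qexpL_mul hF.mer hG.mer, hF.qexp, hG.qexp, map_mul]
  inv γ hγ z := by simp only [Pi.mul_apply, hF.inv γ hγ z, hG.inv γ hγ z]

theorem isPsiOf_algebraMap (N : ℕ) (c : Kb) :
    IsPsiOf N (algebraMap Kb (LaurentSeries Kb) c) (fun _ => iotaC c) where
  mer := isMerCusp_const _
  qexp := by
    rw [qexpL_const, algebraMap_laurentSeries_eq_single, coeffMap_single]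
    rfl
  inv _ _ _ := rfl

theorem isPsiOf_jBarD (N d : ℕ) [NeZero d] (hd : d ∣ N) :
    IsPsiOf N ((jBarD N d hd : Fb N) : LaurentSeries Kb) (fun z => jAn (scaleH d z)) where
  mer := isMerCusp_jAn_scale d
  qexp := by rw [qexpL_jAn_scale, coe_jBarD, coeffMap_iotaC_coeffEmb]
  inv γ hγ z := jAn_scaleH_smul hd γ hγ z

theorem IsPsiOf.unique {N : ℕ} {x : LaurentSeries Kb} {F G : ℍ → ℂ} (hF : IsPsiOf N x F)
    (hG : IsPsiOf N x G) : F = G := by
  have h : qexpLHom ⟨F, hF.mer⟩ = qexpLHom ⟨G, hG.mer⟩ := by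
    simp only [qexpLHom_apply, hF.qexp, hG.qexp]
  exact congrArg Subtype.val (qexpLHom_injective h)

theorem exists_isPsiOf (N : ℕ) (r : Fb N) (hr : r ∈ Rb N) :
    ∃ F : ℍ → ℂ, IsPsiOf N ((r : Fb N) : LaurentSeries Kb) F := by
  induction hr using Algebra.adjoin_induction with
  | mem x hx =>
    obtain ⟨d, hne, hd, rfl⟩ := hx
    exact ⟨_, isPsiOf_jBarD N d hd⟩
  | algebraMap c => exact ⟨_, isPsiOf_algebraMap N c⟩
  | add x y _ _ hx hy =>
    obtain ⟨F, hF⟩ := hx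
    obtain ⟨G, hG⟩ := hy
    exact ⟨F + G, hF.add hG⟩
  | mul x y _ _ hx hy =>
    obtain ⟨F, hF⟩ := hx
    obtain ⟨G, hG⟩ := hy
    exact ⟨F * G, hF.mul hG⟩


/-! ## The ring homomorphism `Ψ` -/

/-- The underlying function of `Ψ`. -/
noncomputable def PsiFun (N : ℕ) (r : Rb N) : ℍ → ℂ := (exists_isPsiOf N r r.2).choose

theorem isPsiOf_PsiFun (N : ℕ) (r : Rb N) :
    IsPsiOf N (((r : Rb N) : Fb N) : LaurentSeries Kb) (PsiFun N r) :=
  (exists_isPsiOf N r r.2).choose_spec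

theorem PsiFun_eq_of_isPsiOf {N : ℕ} {r : Rb N} {F : ℍ → ℂ}
    (hF : IsPsiOf N (((r : Rb N) : Fb N) : LaurentSeries Kb) F) : PsiFun N r = F :=
  (isPsiOf_PsiFun N r).unique hF

/-- **MOD-PSI**: the analytic realisation of `R = ℚ̄[j(q^d) : d ∣ N]`. -/
noncomputable def Psi (N : ℕ) : Rb N →+* (ℍ → ℂ) where
  toFun := PsiFun N
  map_one' := PsiFun_eq_of_isPsiOf (by
    have h := isPsiOf_algebraMap N 1
    simp only [map_one] at h
    exact h)
  map_mul' r s := PsiFun_eq_of_isPsiOf ((isPsiOf_PsiFun N r).mul (isPsiOf_PsiFun N s))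
  map_zero' := PsiFun_eq_of_isPsiOf (by
    have h := isPsiOf_algebraMap N 0
    simp only [map_zero] at h
    exact h)
  map_add' r s := PsiFun_eq_of_isPsiOf ((isPsiOf_PsiFun N r).add (isPsiOf_PsiFun N s))

theorem isPsiOf_Psi (N : ℕ) (r : Rb N) :
    IsPsiOf N (((r : Rb N) : Fb N) : LaurentSeries Kb) (Psi N r) := isPsiOf_PsiFun N r

theorem Psi_eq_of_isPsiOf {N : ℕ} {r : Rb N} {F : ℍ → ℂ}
    (hF : IsPsiOf N (((r : Rb N) : Fb N) : LaurentSeries Kb) F) : Psi N r = F :=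
  PsiFun_eq_of_isPsiOf hF

theorem isMerCusp_Psi (N : ℕ) (r : Rb N) : IsMerCusp (Psi N r) := (isPsiOf_Psi N r).mer

/-- `Ψ` is compatible with `q`-expansions. -/
theorem qexpL_Psi (N : ℕ) (r : Rb N) :
    qexpL (Psi N r) = coeffMap iotaC (((r : Rb N) : Fb N) : LaurentSeries Kb) :=
  (isPsiOf_Psi N r).qexp

/-- Every `Ψ r` is `Γ₀(N)`-invariant. -/
theorem Psi_smul (N : ℕ) (r : Rb N) (γ : SL(2, ℤ)) (hγ : γ ∈ CongruenceSubgroup.Gamma0 N)
    (z : ℍ) : Psi N r (γ • z) = Psi N r z := (isPsiOf_Psi N r).inv γ hγ z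

theorem Psi_algebraMap (N : ℕ) (c : Kb) : Psi N (algebraMap Kb (Rb N) c) = fun _ => iotaC c :=
  Psi_eq_of_isPsiOf (isPsiOf_algebraMap N c)

theorem Psi_jBarD (N d : ℕ) [NeZero d] (hd : d ∣ N) :
    Psi N ⟨jBarD N d hd, jBarD_mem_Rb N d hd⟩ = fun z => jAn (scaleH d z) :=
  Psi_eq_of_isPsiOf (isPsiOf_jBarD N d hd)

theorem Psi_injective (N : ℕ) : Function.Injective (Psi N) := by
  rw [injective_iff_map_eq_zero]
  intro r hr
  have h := qexpL_Psi N r
  rw [hr, qexpL_zero] at h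
  have h2 : (((r : Rb N) : Fb N) : LaurentSeries Kb) = 0 :=
    coeffMap_injective iotaC iotaC_injective (by rw [← h, map_zero])
  exact Subtype.ext (Subtype.ext h2)


/-! ## Holomorphy and periodicity -/

theorem IsMerCusp.mdiff {F : ℍ → ℂ} (hF : IsMerCusp F) : MDiff F := by
  obtain ⟨m, hm⟩ := hF
  have h1 : MDiff (qFun ^ m) := (isNice_qFun.pow m).2.1
  have h2 : F = (qFun ^ m * F) / (qFun ^ m) := by
    funext z
    simp only [Pi.div_apply, Pi.mul_apply, Pi.pow_apply]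
    rw [mul_div_cancel_left₀ _ (pow_ne_zero m (qFun_ne_zero z))]
  rw [h2]
  exact hm.2.1.div h1 fun z => pow_ne_zero m (qFun_ne_zero z)

theorem Psi_mdiff (N : ℕ) (r : Rb N) : MDiff (Psi N r) := (isMerCusp_Psi N r).mdiff

theorem scaleH_one (z : ℍ) : scaleH 1 z = z := by
  apply UpperHalfPlane.ext
  simp

theorem Psi_jBar (N : ℕ) : Psi N ⟨jBar N, jBar_mem_Rb N⟩ = jAn := by
  have h : (⟨jBar N, jBar_mem_Rb N⟩ : Rb N) = ⟨jBarD N 1 (one_dvd N), jBarD_mem_Rb N 1 _⟩ :=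
    Subtype.ext (jBar_eq_jBarD_one N)
  rw [h, Psi_jBarD]
  funext z
  rw [scaleH_one]

theorem Psi_jBar_eq_jFun (N : ℕ) : Psi N ⟨jBar N, jBar_mem_Rb N⟩ = jFun := Psi_jBar N


/-! ## `Fb N` is the fraction field of `Rb N` -/

/-- `x` is a quotient of two elements of `Rb N`. -/
def IsRbFrac (N : ℕ) (x : LaurentSeries Kb) : Prop :=
  ∃ g h : Rb N, ((h : Rb N) : Fb N) ≠ 0 ∧
    x * (((h : Rb N) : Fb N) : LaurentSeries Kb) = (((g : Rb N) : Fb N) : LaurentSeries Kb)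

theorem isRbFrac_of_mem (N : ℕ) (r : Rb N) :
    IsRbFrac N (((r : Rb N) : Fb N) : LaurentSeries Kb) :=
  ⟨r, 1, by simp, by simp⟩

theorem IsRbFrac.add {N : ℕ} {x y : LaurentSeries Kb} (hx : IsRbFrac N x) (hy : IsRbFrac N y) :
    IsRbFrac N (x + y) := by
  obtain ⟨g, h, h0, e⟩ := hx
  obtain ⟨g', h', h0', e'⟩ := hy
  refine ⟨g * h' + g' * h, h * h', ?_, ?_⟩
  · simpa using mul_ne_zero h0 h0'
  · push_cast
    rw [← e, ← e']; ring

theorem IsRbFrac.mul {N : ℕ} {x y : LaurentSeries Kb} (hx : IsRbFrac N x) (hy : IsRbFrac N y) :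
    IsRbFrac N (x * y) := by
  obtain ⟨g, h, h0, e⟩ := hx
  obtain ⟨g', h', h0', e'⟩ := hy
  refine ⟨g * g', h * h', ?_, ?_⟩
  · simpa using mul_ne_zero h0 h0'
  · push_cast
    rw [← e, ← e']; ring

theorem IsRbFrac.neg {N : ℕ} {x : LaurentSeries Kb} (hx : IsRbFrac N x) : IsRbFrac N (-x) := by
  obtain ⟨g, h, h0, e⟩ := hx
  refine ⟨-g, h, h0, ?_⟩
  push_cast
  rw [← e]; ring

theorem IsRbFrac.inv {N : ℕ} {x : LaurentSeries Kb} (hx : IsRbFrac N x) : IsRbFrac N x⁻¹ := by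
  obtain ⟨g, h, h0, e⟩ := hx
  by_cases hx0 : x = 0
  · subst hx0
    rw [inv_zero]
    exact ⟨0, 1, by simp, by simp⟩
  · have hh : (((h : Rb N) : Fb N) : LaurentSeries Kb) ≠ 0 := fun hh => h0 (Subtype.ext hh)
    have hg : ((g : Rb N) : Fb N) ≠ 0 := by
      intro hg
      rw [hg] at e
      exact (mul_ne_zero hx0 hh) e
    refine ⟨h, g, hg, ?_⟩
    rw [← e]
    field_simp

theorem isRbFrac_algebraMap (N : ℕ) (c : Kb) :
    IsRbFrac N (algebraMap Kb (LaurentSeries Kb) c) :=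
  isRbFrac_of_mem N (algebraMap Kb (Rb N) c)

theorem isRbFrac_coeffEmb (N : ℕ) (y : LaurentSeries ℚ) (hy : y ∈ modularFunctionFieldFull N) :
    IsRbFrac N (coeffEmb Kb y) := by
  rw [modularFunctionFieldFull] at hy
  induction hy using IntermediateField.adjoin_induction with
  | mem x hx =>
    obtain ⟨d, hne, hd, rfl⟩ := hx
    exact isRbFrac_of_mem N ⟨jBarD N d hd, jBarD_mem_Rb N d hd⟩
  | algebraMap c =>
    have : coeffEmb Kb (algebraMap ℚ (LaurentSeries ℚ) c)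
        = algebraMap Kb (LaurentSeries Kb) (algebraMap ℚ Kb c) := by
      rw [algebraMap_apply_eq_single, algebraMap_laurentSeries_eq_single, coeffEmb, coeffMap_single]
    rw [this]
    exact isRbFrac_algebraMap N _
  | add x y _ _ hx hy => rw [map_add]; exact hx.add hy
  | inv x _ hx => rw [map_inv₀]; exact hx.inv
  | mul x y _ _ hx hy => rw [map_mul]; exact hx.mul hy

theorem isRbFrac_of_mem_Fb (N : ℕ) (x : LaurentSeries Kb) (hx : x ∈ modularFunctionFieldBar N) :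
    IsRbFrac N x := by
  rw [modularFunctionFieldBar, mem_laurentBaseChange_iff] at hx
  induction hx using Subfield.closure_induction with
  | mem y hy =>
    rcases hy with ⟨c, rfl⟩ | ⟨z, hz, rfl⟩
    · exact isRbFrac_algebraMap N c
    · exact isRbFrac_coeffEmb N z hz
  | one =>
    have := isRbFrac_algebraMap N 1
    rwa [map_one] at this
  | add x y _ _ hx hy => exact hx.add hy
  | neg x _ hx => exact hx.neg
  | inv x _ hx => exact hx.inv
  | mul x y _ _ hx hy => exact hx.mul hy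

/-- **`Fb N` is the fraction field of `Rb N`**: every `f` is a quotient `g / h`. -/
theorem exists_Rb_div (N : ℕ) (f : Fb N) :
    ∃ g h : Rb N, ((h : Rb N) : Fb N) ≠ 0 ∧ f = ((g : Rb N) : Fb N) / ((h : Rb N) : Fb N) := by
  obtain ⟨g, h, h0, e⟩ := isRbFrac_of_mem_Fb N f f.2
  refine ⟨g, h, h0, ?_⟩
  rw [eq_div_iff h0]
  exact Subtype.ext e

noncomputable instance isFractionRing_Rb (N : ℕ) : IsFractionRing (Rb N) (Fb N) :=
  IsFractionRing.of_field (Rb N) (Fb N) fun f => by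
    obtain ⟨g, h, _, e⟩ := exists_Rb_div N f
    exact ⟨g, h, e⟩

end Fermat.Agent.X0
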