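import Mathlib
import Fermat.Agent.X0.JFun

set_option autoImplicit false

/-!
# Program X (S24), X-MOD-LOCAL: the derivative of the `j`-function

`D jFun = - E₄ ^ 2 * E₆ / Δ`, where `D = (2πi)⁻¹ d/dz`.
-/

namespace Fermat.Agent.X0

open UpperHalfPlane Function CongruenceSubgroup ModularForm Derivative
open scoped MatrixGroups ModularForm Manifold Real

open Fermat.Agent.S23

local notation "Δ" => ModularForm.discriminant
local notation "𝕢" => Function.Periodic.qParam

/-! ### The normalised derivative of a nice function near `i∞` -/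

theorem hasDerivAt_qParam_one (z : ℂ) :
    HasDerivAt (𝕢 1) (2 * π * Complex.I * 𝕢 1 z) z := by
  unfold Function.Periodic.qParam
  have h1 : HasDerivAt (fun w : ℂ => 2 * π * Complex.I * w / (1 : ℝ)) (2 * π * Complex.I) z := by
    have := ((hasDerivAt_id z).const_mul (2 * π * Complex.I)).div_const ((1 : ℝ) : ℂ)
    simpa using this
  have := h1.cexp
  simpa [mul_comm] using this

/-- `D F = q · φ'(q)` where `φ` is the cusp function of the nice function `F`. -/
theorem D_eq_qParam_mul_deriv {F : ℍ → ℂ} (hF : IsNice F) (z : ℍ) :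
    D F z = 𝕢 1 z * deriv (cuspFunction 1 F) (𝕢 1 z) := by
  have hq : ‖𝕢 1 (z : ℂ)‖ < 1 := Function.Periodic.norm_qParam_lt_one one_pos z.im_pos
  have hφ : DifferentiableAt ℂ (cuspFunction 1 F) (𝕢 1 z) :=
    differentiableAt_cuspFunction one_pos hF.1 hF.2.1 hF.2.2 hq
  have hev : (F ∘ ofComplex) =ᶠ[nhds (z : ℂ)] (cuspFunction 1 F ∘ 𝕢 1) := by
    have hopen : IsOpen {w : ℂ | 0 < w.im} := isOpen_upperHalfPlaneSet
    filter_upwards [hopen.mem_nhds z.im_pos] with w hw
    have := eq_cuspFunction (f := F) ⟨w, hw⟩ one_ne_zero hF.1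
    simp only [comp_apply, ofComplex_apply_of_im_pos hw]
    exact this.symm
  have hd : deriv (F ∘ ofComplex) z = deriv (cuspFunction 1 F) (𝕢 1 z) *
      (2 * π * Complex.I * 𝕢 1 z) := by
    rw [hev.deriv_eq]
    exact (hφ.hasDerivAt.comp (z : ℂ) (hasDerivAt_qParam_one z)).deriv
  unfold normalizedDerivOfComplex
  rw [hd]
  have h2 : (2 * π * Complex.I : ℂ) ≠ 0 := by
    simp [Real.pi_ne_zero]
  field_simp

/-- The normalised derivative of a nice function tends to `0` at `i∞`. -/
theorem tendsto_D_of_isNice {F : ℍ → ℂ} (hF : IsNice F) :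
    Filter.Tendsto (D F) atImInfty (nhds 0) := by
  have hq := qParam_tendsto_atImInfty one_pos
  have hcont : ContinuousAt (deriv (cuspFunction 1 F)) 0 := hF.analyticAt.deriv.continuousAt
  have h1 := (hcont.tendsto.comp hq)
  have h2 := hq.mul h1
  rw [zero_mul] at h2
  refine h2.congr fun z => ?_
  simp only [comp_apply]
  exact (D_eq_qParam_mul_deriv hF z).symm

/-- The first `q`-coefficient is the derivative of the cusp function at `0`. -/
theorem qExpansion_coeff_one_eq_deriv (F : ℍ → ℂ) :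
    (qExpansion 1 F).coeff 1 = deriv (cuspFunction 1 F) 0 := by
  rw [qExpansion_coeff]
  simp [iteratedDeriv_one]

/-- If a nowhere vanishing nice function has a simple zero at `i∞` then `D F / F → 1`. -/
theorem tendsto_D_div_of_simple_zero {F : ℍ → ℂ} (hF : IsNice F)
    (h0 : (qExpansion 1 F).coeff 0 = 0) (h1 : (qExpansion 1 F).coeff 1 ≠ 0) :
    Filter.Tendsto (fun z => D F z / F z) atImInfty (nhds 1) := by
  set φ := cuspFunction 1 F with hφdef
  have hφ0 : φ 0 = 0 := by
    have : (qExpansion 1 F).coeff 0 = φ 0 := by simp [qExpansion_coeff, hφdef]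
    rw [← this, h0]
  have hφ1 : deriv φ 0 ≠ 0 := by
    rwa [← qExpansion_coeff_one_eq_deriv]
  have hφa : AnalyticAt ℂ φ 0 := hF.analyticAt
  have hq := qParam_tendsto_atImInfty one_pos
  -- `φ q = q * dslope φ 0 q`
  have hds : ∀ q : ℂ, φ q = q * dslope φ 0 q := by
    intro q
    have := sub_smul_dslope φ 0 q
    simp only [sub_zero, smul_eq_mul, hφ0] at this
    exact this.symm
  have hdsc : ContinuousAt (dslope φ 0) 0 :=
    continuousAt_dslope_same.mpr hφa.differentiableAt
  have hds0 : dslope φ 0 0 = deriv φ 0 := dslope_same φ 0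
  have hcont : ContinuousAt (deriv φ) 0 := hφa.deriv.continuousAt
  have hlim : Filter.Tendsto (fun z : ℍ => deriv φ (𝕢 1 z) / dslope φ 0 (𝕢 1 z)) atImInfty
      (nhds (deriv φ 0 / deriv φ 0)) := by
    apply Filter.Tendsto.div (hcont.tendsto.comp hq)
    · have := hdsc.tendsto.comp hq
      rwa [hds0] at this
    · exact hφ1
  rw [div_self hφ1] at hlim
  refine hlim.congr fun z => ?_
  have hFz : F z = φ (𝕢 1 z) := (eq_cuspFunction z one_ne_zero hF.1).symm
  rw [D_eq_qParam_mul_deriv hF z, hFz, hds (𝕢 1 z)]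
  have hqne : 𝕢 1 (z : ℂ) ≠ 0 := Function.Periodic.qParam_ne_zero _
  rw [mul_div_mul_left _ _ hqne]

/-! ### The derivative of `j` -/

theorem isNice_discriminant : IsNice Δ := by
  rw [← CuspForm.coe_discriminant]
  exact isNice_levelOne_cusp _

theorem tendsto_D_discriminant_div :
    Filter.Tendsto (fun z => D Δ z / Δ z) atImInfty (nhds 1) := by
  apply tendsto_D_div_of_simple_zero isNice_discriminant
  · have := CuspFormClass.qExpansion_coeff_zero CuspForm.discriminant one_pos
      one_mem_strictPeriods_SL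
    simpa using this
  · rw [ModularForm.discriminant_qExpansion_coeff_one]
    exact one_ne_zero

/-- `(D j) Δ = 3 E₄² (D E₄) - E₄³ (D Δ / Δ)`. -/
theorem D_jFun_mul_discriminant (z : ℍ) :
    D jFun z * Δ z = 3 * E₄ z ^ 2 * D (E₄ : ℍ → ℂ) z - E₄ z ^ 3 * (D Δ z / Δ z) := by
  have hprod : jFun * Δ = (E₄ : ℍ → ℂ) ^ 3 := by
    funext w
    exact jFun_mul_discriminant w
  have h1 := normalizedDerivOfComplex_mul jFun Δ jFun_mdiff discriminant_mdiff
  rw [hprod] at h1
  have hE4md : MDiff (E₄ : ℍ → ℂ) := E₄.holo'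
  rw [normalizedDerivOfComplex_pow (E₄ : ℍ → ℂ) 3 hE4md] at h1
  have h2 := congrFun h1 z
  simp only [Pi.mul_apply, Pi.add_apply, Pi.pow_apply] at h2
  have hΔ := discriminant_ne_zero z
  have hj : jFun z = E₄ z ^ 3 / Δ z := rfl
  rw [hj] at h2
  have h3 : ((3 : ℕ) : ℍ → ℂ) z = 3 := rfl
  rw [h3] at h2
  simp only [show (3 - 1 : ℕ) = 2 from rfl] at h2
  field_simp
  field_simp at h2
  linear_combination (-1 : ℂ) * h2

theorem tendsto_D_jFun_mul_discriminant :
    Filter.Tendsto (fun z => D jFun z * Δ z) atImInfty (nhds (-1)) := by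
  have h1 : Filter.Tendsto (fun z => 3 * E₄ z ^ 2 * D (E₄ : ℍ → ℂ) z - E₄ z ^ 3 * (D Δ z / Δ z))
      atImInfty (nhds (3 * 1 ^ 2 * 0 - 1 ^ 3 * 1)) :=
    ((tendsto_const_nhds.mul (E₄_tendsto.pow 2)).mul
      (tendsto_D_of_isNice (isNice_levelOne E₄))).sub
      ((E₄_tendsto.pow 3).mul tendsto_D_discriminant_div)
  have e : (3 * 1 ^ 2 * 0 - 1 ^ 3 * 1 : ℂ) = -1 := by norm_num
  rw [e] at h1
  exact h1.congr fun z => (D_jFun_mul_discriminant z).symm

/-- `D j` is invariant of weight `2`. -/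
theorem D_jFun_slash (γ : SL(2, ℤ)) : D jFun ∣[(2 : ℤ)] γ = D jFun := by
  have h := serreDerivative_slash_invariant (k := 0) jFun_mdiff (γ := γ) (jFun_slash γ)
  have e : serreDerivative ((0 : ℤ) : ℂ) jFun = D jFun := by
    funext z
    simp [serreDerivative]
  rw [e] at h
  simpa using h

/-- **The derivative of `j`**: `D j = - E₄² E₆ / Δ`. -/
theorem D_jFun (z : ℍ) : D jFun z = - (E₄ z ^ 2 * E₆ z) / Δ z := by
  -- `H = (D j) Δ` is a level one modular form of weight 14
  set H : ℍ → ℂ := D jFun * Δ with hH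
  have hHmd : MDiff H := (normalizedDerivOfComplex_mdifferentiable jFun_mdiff).mul
    discriminant_mdiff
  have hHslash : ∀ γ : SL(2, ℤ), H ∣[(14 : ℤ)] γ = H := by
    intro γ
    have := ModularForm.mul_slash_SL2 2 12 γ (D jFun) Δ
    rw [D_jFun_slash, discriminant_slash] at this
    exact this
  have hHlim : Filter.Tendsto H atImInfty (nhds (-1)) := tendsto_D_jFun_mul_discriminant
  obtain ⟨Hf, hHf⟩ := exists_modularForm_of (𝒢 := 𝒮ℒ) (k := 14) H hHmd
    (by rintro γ' ⟨γ, rfl⟩; exact hHslash γ)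
    (fun γ => by rw [hHslash γ]; exact isBoundedAtImInfty_of_tendsto hHlim)
  -- the comparison form `E₄² E₆`
  set G : ModularForm 𝒮ℒ 14 := ModularForm.mcast (by norm_num) ((E₄.mul E₄).mul E₆) with hG
  have hGz : ∀ w, G w = E₄ w ^ 2 * E₆ w := by
    intro w
    simp only [hG, ModularForm.coe_mcast, ModularForm.coe_mul, Pi.mul_apply]
    ring
  have hGlim : Filter.Tendsto (G : ℍ → ℂ) atImInfty (nhds 1) := by
    have h1 : Filter.Tendsto (fun w => E₄ w ^ 2 * E₆ w) atImInfty (nhds (1 ^ 2 * 1)) :=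
      (E₄_tendsto.pow 2).mul E₆_tendsto
    rw [one_pow, one_mul] at h1
    exact h1.congr fun w => (hGz w).symm
  have hG0 : G ≠ 0 := by
    intro h0
    rw [h0] at hGlim
    have h2 : Filter.Tendsto ((0 : ModularForm 𝒮ℒ 14) : ℍ → ℂ) atImInfty (nhds 0) :=
      (tendsto_const_nhds : Filter.Tendsto (fun _ : ℍ => (0 : ℂ)) atImInfty (nhds 0))
    exact one_ne_zero (tendsto_nhds_unique hGlim h2)
  have hrank : Module.finrank ℂ (ModularForm 𝒮ℒ 14) = 1 := by
    have h := ModularForm.dimension_level_one 14 ⟨7, rfl⟩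
    have h2 : (if 14 ≡ 2 [MOD 12] then 14 / 12 else 14 / 12 + 1 : ℕ) = 1 := by decide
    rw [h2] at h
    exact Module.rank_eq_one_iff_finrank_eq_one.mp (by exact_mod_cast h)
  obtain ⟨c, hc⟩ := (finrank_eq_one_iff_of_nonzero' G hG0).mp hrank Hf
  have hcfun : ∀ w, c * G w = H w := by
    intro w
    have := DFunLike.congr_fun hc w
    rw [show (c • G) w = c * G w from rfl] at this
    rw [this, hHf]
  have hclim : Filter.Tendsto H atImInfty (nhds (c * 1)) :=
    (hGlim.const_mul c).congr hcfun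
  have hceq : c = -1 := by
    have := tendsto_nhds_unique hclim hHlim
    simpa using this
  have hHz : D jFun z * Δ z = c * G z := (hcfun z).symm
  rw [hceq, hGz] at hHz
  rw [eq_div_iff (discriminant_ne_zero z), hHz]
  ring

end Fermat.Agent.X0
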