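import Mathlib
import Fermat.Agent.X0.JDeriv
import Fermat.Agent.S23.Analytic

set_option autoImplicit false

/-!
# Program X (S24), X-MOD-CUSP: the valuation at `i∞` in the parameter `q_N = exp(2πiz/N)`

* `qN N z = exp (2πiz/N)`.
* `HasOrdInf N F k` : `F · q_N ^ (-k)` tends to a nonzero limit at `i∞`.
* uniqueness, multiplicativity, ultrametric inequality, constants, invariance under `z ↦ z + t`,
  divisibility for `d`-periodic functions (`d ∣ N`), `HasOrdInf N jFun (-N)`, and existence for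
  holomorphic `N`-periodic functions that are meromorphic at `i∞`.
* `ordInf N F : ℤ` : a total version (junk value `0` if no order exists).
-/

namespace Fermat.Agent.X0

open UpperHalfPlane Function Filter ModularForm
open scoped MatrixGroups ModularForm Manifold Topology Real

open Fermat.Agent.S23

local notation "Δ" => ModularForm.discriminant
local notation "𝕢" => Function.Periodic.qParam

/-! ### The parameter `q_N` -/

/-- The local parameter `q_N = exp(2πiz/N)` at the cusp `∞` of width `N`. -/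
noncomputable def qN (N : ℕ) (z : ℍ) : ℂ := 𝕢 (N : ℝ) (z : ℂ)

theorem qN_ne_zero (N : ℕ) (z : ℍ) : qN N z ≠ 0 := Function.Periodic.qParam_ne_zero _

theorem tendsto_qN (N : ℕ) [NeZero N] : Tendsto (qN N) atImInfty (𝓝 0) :=
  qParam_tendsto_atImInfty (by exact_mod_cast Nat.pos_of_neZero N)

theorem qN_pow_self (N : ℕ) [NeZero N] (z : ℍ) : qN N z ^ N = 𝕢 1 (z : ℂ) := by
  unfold qN Function.Periodic.qParam
  rw [← Complex.exp_nat_mul]
  congr 1
  have : (N : ℂ) ≠ 0 := by exact_mod_cast NeZero.ne N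
  push_cast
  field_simp

/-- The root of unity `exp(2πit/N)` by which `q_N` is multiplied under `z ↦ z + t`. -/
noncomputable def qNShift (N : ℕ) (t : ℝ) : ℂ := Complex.exp (2 * π * Complex.I * t / N)

theorem qNShift_ne_zero (N : ℕ) (t : ℝ) : qNShift N t ≠ 0 := Complex.exp_ne_zero _

theorem qN_vadd (N : ℕ) (t : ℝ) (z : ℍ) : qN N (t +ᵥ z) = qNShift N t * qN N z := by
  unfold qN qNShift Function.Periodic.qParam
  rw [← Complex.exp_add]
  congr 1
  rw [UpperHalfPlane.coe_vadd]
  push_cast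
  ring

theorem tendsto_vadd_atImInfty (t : ℝ) : Tendsto (fun z : ℍ => t +ᵥ z) atImInfty atImInfty := by
  rw [atImInfty, tendsto_comap_iff]
  have : (UpperHalfPlane.im ∘ fun z : ℍ => t +ᵥ z) = UpperHalfPlane.im := by
    funext z
    simp [UpperHalfPlane.vadd_im]
  rw [this]
  exact tendsto_comap

/-- powers of `q_N` with positive exponent tend to `0`. -/
theorem tendsto_qN_zpow (N : ℕ) [NeZero N] {n : ℤ} (hn : 0 < n) :
    Tendsto (fun z => qN N z ^ n) atImInfty (𝓝 0) := by
  obtain ⟨m, rfl⟩ := Int.eq_ofNat_of_zero_le hn.le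
  have hm : m ≠ 0 := by
    rintro rfl
    simp at hn
  have := (tendsto_qN N).pow m
  rw [zero_pow hm] at this
  simpa using this

/-! ### The order at `i∞` -/

/-- `F` has order `k` at `i∞` with respect to the parameter `q_N`. -/
def HasOrdInf (N : ℕ) (F : ℍ → ℂ) (k : ℤ) : Prop :=
  ∃ L : ℂ, L ≠ 0 ∧ Tendsto (fun z : ℍ => F z * qN N z ^ (-k)) atImInfty (𝓝 L)

variable {N : ℕ} {F G : ℍ → ℂ} {k l m : ℤ}

theorem HasOrdInf.congr (h : HasOrdInf N F k) (hFG : F = G) : HasOrdInf N G k := hFG ▸ h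

/-- If `F` has order `k` and `k < l` then `F · q_N^(-k) · q_N^(l-k)... → 0`: a function of order
`k` multiplied by `q_N ^ (-l)` with `l < k` tends to `0`. -/
theorem HasOrdInf.tendsto_zero_of_lt [NeZero N] (h : HasOrdInf N F k) (hlk : l < k) :
    Tendsto (fun z : ℍ => F z * qN N z ^ (-l)) atImInfty (𝓝 0) := by
  obtain ⟨L, -, hL⟩ := h
  have h1 := hL.mul (tendsto_qN_zpow N (sub_pos.mpr hlk))
  rw [mul_zero] at h1
  refine h1.congr fun z => ?_
  rw [mul_assoc, ← zpow_add₀ (qN_ne_zero N z)]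
  congr 2
  ring

theorem HasOrdInf.unique [NeZero N] (h1 : HasOrdInf N F k) (h2 : HasOrdInf N F l) : k = l := by
  rcases lt_trichotomy k l with h | h | h
  · exfalso
    obtain ⟨L, hL0, hL⟩ := h1
    exact hL0 (tendsto_nhds_unique hL (h2.tendsto_zero_of_lt h))
  · exact h
  · exfalso
    obtain ⟨L, hL0, hL⟩ := h2
    exact hL0 (tendsto_nhds_unique hL (h1.tendsto_zero_of_lt h))

theorem HasOrdInf.mul (h1 : HasOrdInf N F k) (h2 : HasOrdInf N G l) :
    HasOrdInf N (F * G) (k + l) := by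
  obtain ⟨L1, hL1, hF⟩ := h1
  obtain ⟨L2, hL2, hG⟩ := h2
  refine ⟨L1 * L2, mul_ne_zero hL1 hL2, (hF.mul hG).congr fun z => ?_⟩
  simp only [Pi.mul_apply]
  rw [neg_add, zpow_add₀ (qN_ne_zero N z)]
  ring

theorem HasOrdInf.inv (h1 : HasOrdInf N F k) : HasOrdInf N F⁻¹ (-k) := by
  obtain ⟨L1, hL1, hF⟩ := h1
  refine ⟨L1⁻¹, inv_ne_zero hL1, (hF.inv₀ hL1).congr fun z => ?_⟩
  simp only [Pi.inv_apply]
  rw [mul_inv, ← zpow_neg]

theorem HasOrdInf.div (h1 : HasOrdInf N F k) (h2 : HasOrdInf N G l) :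
    HasOrdInf N (F / G) (k - l) := by
  rw [div_eq_mul_inv, sub_eq_add_neg]
  exact h1.mul h2.inv

theorem hasOrdInf_const (N : ℕ) {c : ℂ} (hc : c ≠ 0) : HasOrdInf N (fun _ => c) 0 :=
  ⟨c, hc, by simp⟩

theorem hasOrdInf_one (N : ℕ) : HasOrdInf N (1 : ℍ → ℂ) 0 :=
  hasOrdInf_const N one_ne_zero

theorem HasOrdInf.pow (h1 : HasOrdInf N F k) (n : ℕ) : HasOrdInf N (F ^ n) (n * k) := by
  induction n with
  | zero => simpa using hasOrdInf_one N
  | succ n ih =>
    rw [pow_succ]
    have := ih.mul h1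
    convert this using 1
    push_cast
    ring

theorem HasOrdInf.smul (h1 : HasOrdInf N F k) {c : ℂ} (hc : c ≠ 0) : HasOrdInf N (c • F) k := by
  have := (hasOrdInf_const N hc).mul h1
  rw [zero_add] at this
  exact this.congr (by funext z; simp)

theorem HasOrdInf.neg (h1 : HasOrdInf N F k) : HasOrdInf N (-F) k := by
  have := h1.smul (c := -1) (by norm_num)
  exact this.congr (by funext z; simp)

theorem HasOrdInf.ne_zero (h1 : HasOrdInf N F k) : F ≠ 0 := by
  rintro rfl
  obtain ⟨L, hL0, hL⟩ := h1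
  apply hL0
  have : Tendsto (fun z : ℍ => (0 : ℍ → ℂ) z * qN N z ^ (-k)) atImInfty (𝓝 0) := by
    simp
  exact tendsto_nhds_unique hL this

/-- If `k < l` then `F + G` has the order `k` of `F`. -/
theorem HasOrdInf.add_of_lt [NeZero N] (h1 : HasOrdInf N F k) (h2 : HasOrdInf N G l)
    (hkl : k < l) : HasOrdInf N (F + G) k := by
  obtain ⟨L1, hL1, hF⟩ := h1
  have hG := h2.tendsto_zero_of_lt hkl
  refine ⟨L1, hL1, ?_⟩
  have := hF.add hG
  rw [add_zero] at this
  refine this.congr fun z => ?_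
  simp only [Pi.add_apply]
  ring

/-- The ultrametric inequality. -/
theorem HasOrdInf.min_le_of_add [NeZero N] (h1 : HasOrdInf N F k) (h2 : HasOrdInf N G l)
    (h3 : HasOrdInf N (F + G) m) : min k l ≤ m := by
  by_contra hlt
  rw [not_le, lt_min_iff] at hlt
  obtain ⟨L, hL0, hL⟩ := h3
  have hF := h1.tendsto_zero_of_lt hlt.1
  have hG := h2.tendsto_zero_of_lt hlt.2
  have := hF.add hG
  rw [add_zero] at this
  apply hL0
  refine tendsto_nhds_unique hL (this.congr fun z => ?_)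
  simp only [Pi.add_apply]
  ring

/-! ### Translations -/

/-- Translating by `t` multiplies the leading coefficient by `exp(2πit/N)^k`. -/
theorem tendsto_vadd_of_tendsto {L : ℂ} (t : ℝ)
    (h : Tendsto (fun z : ℍ => F z * qN N z ^ (-k)) atImInfty (𝓝 L)) :
    Tendsto (fun z : ℍ => F (t +ᵥ z) * qN N z ^ (-k)) atImInfty (𝓝 (qNShift N t ^ k * L)) := by
  have h1 := h.comp (tendsto_vadd_atImInfty t)
  have h2 := h1.const_mul (qNShift N t ^ k)
  refine h2.congr fun z => ?_
  simp only [comp_apply, qN_vadd]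
  rw [mul_zpow, zpow_neg, zpow_neg]
  have := zpow_ne_zero k (qNShift_ne_zero N t)
  field_simp

theorem HasOrdInf.vadd (t : ℝ) (h : HasOrdInf N F k) :
    HasOrdInf N (fun z => F (t +ᵥ z)) k := by
  obtain ⟨L, hL0, hL⟩ := h
  exact ⟨_, mul_ne_zero (zpow_ne_zero k (qNShift_ne_zero N t)) hL0, tendsto_vadd_of_tendsto t hL⟩

theorem hasOrdInf_vadd_iff (t : ℝ) : HasOrdInf N (fun z => F (t +ᵥ z)) k ↔ HasOrdInf N F k := by
  refine ⟨fun h => ?_, fun h => h.vadd t⟩
  have := h.vadd (-t)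
  refine this.congr ?_
  funext z
  show F (t +ᵥ (-t +ᵥ z)) = F z
  rw [← add_vadd]
  simp

/-- The same for the action of `T ∈ SL(2,ℤ)`. -/
theorem hasOrdInf_T_smul_iff :
    HasOrdInf N (fun z => F (ModularGroup.T • z)) k ↔ HasOrdInf N F k := by
  have : (fun z => F (ModularGroup.T • z)) = fun z => F ((1 : ℝ) +ᵥ z) := by
    funext z
    rw [UpperHalfPlane.modular_T_smul]
  rw [this]
  exact hasOrdInf_vadd_iff 1

theorem hasOrdInf_T_inv_smul_iff :
    HasOrdInf N (fun z => F (ModularGroup.T⁻¹ • z)) k ↔ HasOrdInf N F k := by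
  have h := hasOrdInf_T_smul_iff (N := N) (k := k) (F := fun z => F (ModularGroup.T⁻¹ • z))
  have e : (fun z => (fun z => F (ModularGroup.T⁻¹ • z)) (ModularGroup.T • z)) = F := by
    funext z
    show F (ModularGroup.T⁻¹ • (ModularGroup.T • z)) = F z
    rw [inv_smul_smul]
  rw [e] at h
  exact h.symm

/-- A `d`-periodic function (`d ∣ N`) has order divisible by `N / d` in the parameter `q_N`. -/
theorem HasOrdInf.dvd_of_periodic [NeZero N] {d : ℕ} (hd : d ∣ N)
    (hper : ∀ z : ℍ, F ((d : ℝ) +ᵥ z) = F z) (h : HasOrdInf N F k) :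
    ((N / d : ℕ) : ℤ) ∣ k := by
  obtain ⟨L, hL0, hL⟩ := h
  have h1 := tendsto_vadd_of_tendsto (d : ℝ) hL
  have h2 : (fun z : ℍ => F ((d : ℝ) +ᵥ z) * qN N z ^ (-k)) = fun z => F z * qN N z ^ (-k) := by
    funext z
    rw [hper]
  rw [h2] at h1
  have h3 := tendsto_nhds_unique h1 hL
  have h4 : qNShift N d ^ k = 1 := by
    have : (qNShift N d ^ k - 1) * L = 0 := by linear_combination h3
    rcases mul_eq_zero.mp this with h | h
    · exact sub_eq_zero.mp h
    · exact absurd h hL0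
  unfold qNShift at h4
  rw [← Complex.exp_int_mul, Complex.exp_eq_one_iff] at h4
  obtain ⟨n, hn⟩ := h4
  obtain ⟨e, he⟩ := hd
  have hN0 : (N : ℂ) ≠ 0 := by exact_mod_cast NeZero.ne N
  have hd0 : d ≠ 0 := by
    rintro rfl
    rw [zero_mul] at he
    exact NeZero.ne N he
  have hpi : (2 * π * Complex.I : ℂ) ≠ 0 := by
    simp [Real.pi_ne_zero]
  have h5 : (k : ℂ) * d = n * N := by
    have h6 := hn
    field_simp at h6
    linear_combination h6
  have h6 : k * d = n * N := by exact_mod_cast h5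
  have hNd : N / d = e := by
    rw [he, Nat.mul_div_cancel_left _ (Nat.pos_of_ne_zero hd0)]
  rw [hNd]
  refine ⟨n, ?_⟩
  have hd0' : (d : ℤ) ≠ 0 := by exact_mod_cast hd0
  apply mul_right_cancel₀ hd0'
  rw [h6, he]
  push_cast
  ring

/-! ### `Δ` and `j` -/

/-- A nice function vanishing at `i∞`, divided by `q`, tends to its first `q`-coefficient. -/
theorem tendsto_div_qParam_of_isNice (hF : IsNice F) (h0 : (qExpansion 1 F).coeff 0 = 0) :
    Tendsto (fun z : ℍ => F z / 𝕢 1 (z : ℂ)) atImInfty (𝓝 ((qExpansion 1 F).coeff 1)) := by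
  set φ := cuspFunction 1 F with hφdef
  have hφ0 : φ 0 = 0 := by
    have : (qExpansion 1 F).coeff 0 = φ 0 := by simp [qExpansion_coeff, hφdef]
    rw [← this, h0]
  have hφa : AnalyticAt ℂ φ 0 := hF.analyticAt
  have hq := qParam_tendsto_atImInfty one_pos
  have hds : ∀ q : ℂ, φ q = q * dslope φ 0 q := by
    intro q
    have := sub_smul_dslope φ 0 q
    simp only [sub_zero, smul_eq_mul, hφ0] at this
    exact this.symm
  have hdsc : ContinuousAt (dslope φ 0) 0 :=
    continuousAt_dslope_same.mpr hφa.differentiableAt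
  have hds0 : dslope φ 0 0 = deriv φ 0 := dslope_same φ 0
  rw [qExpansion_coeff_one_eq_deriv, ← hds0]
  refine (hdsc.tendsto.comp hq).congr fun z => ?_
  have hFz : F z = φ (𝕢 1 z) := (eq_cuspFunction z one_ne_zero hF.1).symm
  have hqne : 𝕢 1 (z : ℂ) ≠ 0 := Function.Periodic.qParam_ne_zero _
  simp only [comp_apply]
  rw [hFz, hds (𝕢 1 z)]
  field_simp

theorem tendsto_discriminant_div_qParam :
    Tendsto (fun z : ℍ => Δ z / 𝕢 1 (z : ℂ)) atImInfty (𝓝 1) := by
  have h0 : (qExpansion 1 Δ).coeff 0 = 0 := by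
    have := CuspFormClass.qExpansion_coeff_zero CuspForm.discriminant one_pos
      one_mem_strictPeriods_SL
    simpa using this
  have := tendsto_div_qParam_of_isNice isNice_discriminant h0
  rwa [ModularForm.discriminant_qExpansion_coeff_one] at this

/-- `Δ` has order `N` at `i∞` in the parameter `q_N`. -/
theorem hasOrdInf_discriminant (N : ℕ) [NeZero N] : HasOrdInf N Δ N := by
  refine ⟨1, one_ne_zero, tendsto_discriminant_div_qParam.congr fun z => ?_⟩
  rw [zpow_neg, zpow_natCast, qN_pow_self, div_eq_mul_inv]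

/-- a function with a nonzero limit at `i∞` has order `0`. -/
theorem hasOrdInf_zero_of_tendsto (N : ℕ) {L : ℂ} (hL : L ≠ 0) (h : Tendsto F atImInfty (𝓝 L)) :
    HasOrdInf N F 0 :=
  ⟨L, hL, by simpa using h⟩

theorem hasOrdInf_E₄ (N : ℕ) : HasOrdInf N (E₄ : ℍ → ℂ) 0 :=
  hasOrdInf_zero_of_tendsto N one_ne_zero E₄_tendsto

theorem hasOrdInf_E₆ (N : ℕ) : HasOrdInf N (E₆ : ℍ → ℂ) 0 :=
  hasOrdInf_zero_of_tendsto N one_ne_zero E₆_tendsto

/-- `j` has a pole of order `N` at `i∞` in the parameter `q_N`. -/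
theorem hasOrdInf_jFun (N : ℕ) [NeZero N] : HasOrdInf N jFun (-(N : ℤ)) := by
  have h := ((hasOrdInf_E₄ N).pow 3).div (hasOrdInf_discriminant N)
  rw [mul_zero, zero_sub] at h
  exact h.congr jFun_eq.symm

/-! ### Existence of the order -/

theorem periodic_comp_ofComplex_of_vadd {h : ℝ} (hper : ∀ z : ℍ, F (h +ᵥ z) = F z) :
    Periodic (F ∘ ofComplex) h := by
  intro w
  simp only [comp_apply]
  by_cases hw : 0 < w.im
  · have hw' : 0 < (w + h).im := by simpa using hw
    rw [ofComplex_apply_of_im_pos hw', ofComplex_apply_of_im_pos hw]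
    rw [← hper ⟨w, hw⟩]
    congr 1
    apply UpperHalfPlane.ext
    simp [UpperHalfPlane.coe_vadd, add_comm]
  · have hw' : ¬ 0 < (w + h).im := by simpa using hw
    rw [ofComplex_apply_of_im_nonpos (not_lt.mp hw'), ofComplex_apply_of_im_nonpos (not_lt.mp hw)]

/-- A nonzero holomorphic function cannot vanish identically near `i∞`. -/
theorem not_eventually_eq_zero_atImInfty (hF : MDiff F) (hF0 : F ≠ 0) :
    ¬ ∀ᶠ z in atImInfty, F z = 0 := by
  intro h
  rw [atImInfty, eventually_comap] at h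
  obtain ⟨A, hA⟩ := (eventually_atTop.mp h)
  -- the point `z₀ = (|A| + 1) i`
  set y : ℝ := |A| + 1 with hy
  have hypos : 0 < y := by positivity
  set z₀ : ℍ := ⟨⟨0, y⟩, hypos⟩ with hz₀
  have hz₀im : z₀.im = y := rfl
  have h1 := Fermat.Agent.S23.Analytic.eventually_ne_zero hF hF0 (z := (z₀ : ℂ)) z₀.im_pos
  have hopen : IsOpen {w : ℂ | A < w.im} := isOpen_lt continuous_const Complex.continuous_im
  have hmem : (z₀ : ℂ) ∈ {w : ℂ | A < w.im} := by
    show A < (z₀ : ℂ).im
    rw [UpperHalfPlane.coe_im, hz₀im, hy]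
    have := le_abs_self A
    linarith
  have h2 : ∀ᶠ w in nhdsWithin (z₀ : ℂ) {(z₀ : ℂ)}ᶜ, (F ∘ ofComplex) w = 0 := by
    have : ∀ᶠ w in nhds (z₀ : ℂ), (F ∘ ofComplex) w = 0 := by
      have hopen2 : IsOpen {w : ℂ | 0 < w.im} := isOpen_upperHalfPlaneSet
      filter_upwards [hopen.mem_nhds hmem, hopen2.mem_nhds z₀.im_pos] with w hw hw2
      simp only [comp_apply, ofComplex_apply_of_im_pos hw2]
      exact hA _ hw.le _ rfl
    exact this.filter_mono nhdsWithin_le_nhds
  obtain ⟨w, hw1, hw2⟩ := (h1.and h2).exists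
  exact hw1 hw2

/-- A nonzero holomorphic `N`-periodic function bounded at `i∞` has an order `k ≥ 0`. -/
theorem exists_hasOrdInf_of_bounded [NeZero N] (hper : ∀ z : ℍ, F ((N : ℝ) +ᵥ z) = F z)
    (hF : MDiff F) (hbd : IsBoundedAtImInfty F) (hF0 : F ≠ 0) : ∃ k : ℕ, HasOrdInf N F k := by
  have hN : (0 : ℝ) < N := by exact_mod_cast Nat.pos_of_neZero N
  have hp := periodic_comp_ofComplex_of_vadd hper
  set φ := cuspFunction (N : ℝ) F with hφ
  have hφa : AnalyticAt ℂ φ 0 := analyticAt_cuspFunction_zero hN hp hF hbd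
  have hFφ : ∀ z : ℍ, F z = φ (qN N z) := fun z => (eq_cuspFunction z hN.ne' hp).symm
  rcases hφa.eventually_eq_zero_or_eventually_ne_zero with h | h
  · exfalso
    apply not_eventually_eq_zero_atImInfty hF hF0
    have := (tendsto_qN N).eventually h
    filter_upwards [this] with z hz
    rw [hFφ z, hz]
  · have hne : ¬ ∀ᶠ q in 𝓝 0, φ q = 0 := by
      intro h0
      have h0' : ∀ᶠ q in 𝓝[≠] (0 : ℂ), φ q = 0 := h0.filter_mono nhdsWithin_le_nhds
      obtain ⟨q, hq1, hq2⟩ := (h.and h0').exists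
      exact hq1 hq2
    obtain ⟨n, g, hga, hg0, hg⟩ := (hφa.exists_eventuallyEq_pow_smul_nonzero_iff).mpr hne
    refine ⟨n, g 0, hg0, ?_⟩
    have h1 : Tendsto (fun z => g (qN N z)) atImInfty (𝓝 (g 0)) :=
      hga.continuousAt.tendsto.comp (tendsto_qN N)
    refine h1.congr' ?_
    have := (tendsto_qN N).eventually hg
    filter_upwards [this] with z hz
    rw [hFφ z, hz]
    simp only [sub_zero, smul_eq_mul, zpow_neg, zpow_natCast]
    have := pow_ne_zero n (qN_ne_zero N z)
    field_simp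

theorem discriminant_vadd_nat (n : ℕ) (z : ℍ) : Δ ((n : ℝ) +ᵥ z) = Δ z := by
  have h := jFun_smul (ModularGroup.T ^ n) z
  have hT : (ModularGroup.T ^ n) • z = ((n : ℝ) +ᵥ z) := by
    apply UpperHalfPlane.ext
    have := ModularGroup.coe_T_zpow_smul_eq (z := z) (n := (n : ℤ))
    rw [zpow_natCast] at this
    rw [this, UpperHalfPlane.coe_vadd]
    push_cast
    ring
  have h12 := congrFun (discriminant_slash (ModularGroup.T ^ n)) z
  rw [ModularForm.SL_slash_apply, hT, ModularGroup.denom_apply] at h12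
  have h10 : ((ModularGroup.T ^ n) 1 0 : ℤ) = 0 := by
    rw [← zpow_natCast, ModularGroup.coe_T_zpow]
    simp
  have h11 : ((ModularGroup.T ^ n) 1 1 : ℤ) = 1 := by
    rw [← zpow_natCast, ModularGroup.coe_T_zpow]
    simp
  rw [h10, h11] at h12
  simpa using h12

/-- A nonzero holomorphic `N`-periodic function `F` with `Δ ^ m · F` bounded at `i∞` has an
order at `i∞`. -/
theorem exists_hasOrdInf [NeZero N] (hper : ∀ z : ℍ, F ((N : ℝ) +ᵥ z) = F z)
    (hF : MDiff F) (hF0 : F ≠ 0) (m : ℕ) (hbd : IsBoundedAtImInfty (Δ ^ m * F)) :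
    ∃ k : ℤ, HasOrdInf N F k := by
  have hG : MDiff (Δ ^ m * F) := (discriminant_mdiff.pow m).mul hF
  have hGper : ∀ z : ℍ, (Δ ^ m * F) ((N : ℝ) +ᵥ z) = (Δ ^ m * F) z := by
    intro z
    simp only [Pi.mul_apply, Pi.pow_apply, hper, discriminant_vadd_nat]
  have hG0 : Δ ^ m * F ≠ 0 := by
    intro h
    apply hF0
    funext z
    have := congrFun h z
    simp only [Pi.mul_apply, Pi.pow_apply, Pi.zero_apply, mul_eq_zero] at this
    rcases this with h | h
    · exact absurd (pow_eq_zero_iff (fun h0 => by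
        rw [h0, pow_zero] at h; exact one_ne_zero h) |>.mp h) (discriminant_ne_zero z)
    · exact h
  obtain ⟨k, hk⟩ := exists_hasOrdInf_of_bounded hGper hG hbd hG0
  refine ⟨k - m * N, ?_⟩
  have := hk.div ((hasOrdInf_discriminant N).pow m)
  refine this.congr ?_
  funext z
  simp only [Pi.div_apply, Pi.mul_apply, Pi.pow_apply]
  have := pow_ne_zero m (discriminant_ne_zero z)
  field_simp

/-! ### A total order function -/

open Classical in
/-- The order of `F` at `i∞` in the parameter `q_N` (junk value `0` if it does not exist). -/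
noncomputable def ordInf (N : ℕ) (F : ℍ → ℂ) : ℤ :=
  if h : ∃ k : ℤ, HasOrdInf N F k then h.choose else 0

theorem HasOrdInf.ordInf_eq [NeZero N] (h : HasOrdInf N F k) : ordInf N F = k := by
  have hex : ∃ k : ℤ, HasOrdInf N F k := ⟨k, h⟩
  unfold ordInf
  rw [dif_pos hex]
  exact hex.choose_spec.unique h

theorem hasOrdInf_ordInf [NeZero N] (h : ∃ k : ℤ, HasOrdInf N F k) :
    HasOrdInf N F (ordInf N F) := by
  obtain ⟨k, hk⟩ := h
  rw [hk.ordInf_eq]
  exact hk

end Fermat.Agent.X0
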