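import Mathlib
import Fermat.Agent.S23.Hermite
import Fermat.Agent.S23.PrimEltQExp
import Fermat.Agent.X0.Cusp

set_option autoImplicit false

/-!
# X-MOD, piece MOD-QEXPG (part 1): `z ↦ j(d · γ z)` at the cusp `i∞`

For `d ∣ N` and `γ ∈ SL(2,ℤ)` the Hermite normal form `diag(d,1) γ = γ₁ (a b; 0 d')` gives
`j(d · γ z) = j((a z + b)/d')`, hence:

* `exists_scaleH_smul_eq` : `scaleH d (γ • z) = γ₁ • triH a b d' z`, `a d' = d`,
  `d' = 1 ↔ d ∣ γ₁₀`;
* `hasOrdInf_jFun_scaleH_smul` : `z ↦ j(d · γ z)` has order `-(a N / d')` at `i∞` in `q_N`;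
* `HasOrdInf.isBoundedAtImInfty_of_nonneg`, `HasOrdInf.exists_discriminant_pow_mul_isBounded`,
  `exists_discriminant_pow_mul_jFun_scaleH_smul_isBounded` (growth condition at every cusp);
* `mem_Gamma0_of_jFun_scaleH_smul_eq`, `coset_eq_of_jFun_scaleH_inv_smul_eq` : the functions
  `z ↦ j(N · γ⁻¹ z)` for `γ` in distinct cosets of `Γ₀(N)` are pairwise distinct.
-/

namespace Fermat.Agent.X0

open UpperHalfPlane Function Filter ModularForm CongruenceSubgroup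
open scoped MatrixGroups ModularForm Manifold Topology Real
open Fermat.Agent.S23 Fermat.Agent.S23.PrimEltQExp

local notation "Δ" => ModularForm.discriminant
local notation "𝕢" => Function.Periodic.qParam

/-- The point `(a z + b) / d` of the upper half plane (junk unless `0 < a`, `0 < d`). -/
noncomputable def triH (a b d : ℤ) (z : ℍ) : ℍ := ofComplex (((a : ℂ) * z + b) / d)

theorem triH_im_pos {a d : ℤ} (b : ℤ) (ha : 0 < a) (hd : 0 < d) (z : ℍ) :
    0 < ((((a : ℂ) * z + b) / d)).im := by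
  have haR : (0 : ℝ) < a := by exact_mod_cast ha
  have hdR : (0 : ℝ) < d := by exact_mod_cast hd
  have h1 : (((a : ℂ) * z + b) / d) = ((((a : ℝ) * z.re + b) / d : ℝ) : ℂ) +
      (((a : ℝ) * z.im / d : ℝ) : ℂ) * Complex.I := by
    have hd0 : (d : ℂ) ≠ 0 := by exact_mod_cast hd.ne'
    apply Complex.ext <;> simp [Complex.div_re, Complex.div_im, Complex.normSq]
  rw [h1]
  simp only [Complex.add_im, Complex.ofReal_im, Complex.mul_im, Complex.ofReal_re, Complex.I_im,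
    Complex.I_re, mul_one, mul_zero, add_zero, zero_add]
  positivity

theorem coe_triH {a d : ℤ} (b : ℤ) (ha : 0 < a) (hd : 0 < d) (z : ℍ) :
    ((triH a b d z : ℍ) : ℂ) = ((a : ℂ) * z + b) / d := by
  unfold triH
  rw [ofComplex_apply_of_im_pos (triH_im_pos b ha hd z)]

theorem im_triH {a d : ℤ} (b : ℤ) (ha : 0 < a) (hd : 0 < d) (z : ℍ) :
    (triH a b d z).im = (a : ℝ) / d * z.im := by
  have h := coe_triH b ha hd z
  have hd0 : (d : ℝ) ≠ 0 := by exact_mod_cast hd.ne'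
  have : (triH a b d z).im = ((((a : ℂ) * z + b) / d)).im := by rw [← h]; rfl
  rw [this]
  have h1 : (((a : ℂ) * z + b) / d) = ((((a : ℝ) * z.re + b) / d : ℝ) : ℂ) +
      (((a : ℝ) * z.im / d : ℝ) : ℂ) * Complex.I := by
    have hd0 : (d : ℂ) ≠ 0 := by exact_mod_cast hd.ne'
    apply Complex.ext <;> simp [Complex.div_re, Complex.div_im, Complex.normSq]
  rw [h1]
  simp only [Complex.add_im, Complex.ofReal_im, Complex.mul_im, Complex.ofReal_re, Complex.I_im,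
    Complex.I_re, mul_one, mul_zero, add_zero, zero_add]
  ring

theorem tendsto_triH {a d : ℤ} (b : ℤ) (ha : 0 < a) (hd : 0 < d) :
    Tendsto (triH a b d) atImInfty atImInfty := by
  rw [atImInfty, tendsto_comap_iff]
  have : (UpperHalfPlane.im ∘ triH a b d) = fun z : ℍ => (a : ℝ) / d * z.im := by
    funext z
    exact im_triH b ha hd z
  rw [this]
  have haR : (0 : ℝ) < a := by exact_mod_cast ha
  have hdR : (0 : ℝ) < d := by exact_mod_cast hd
  exact (tendsto_comap).const_mul_atTop (div_pos haR hdR)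

/-- Hermite normal form, at the level of the action on `ℍ`: `d · γ z = γ₁ ((a z + b) / d')` with
`a d' = d`. -/
theorem exists_scaleH_smul_eq (d : ℕ) [NeZero d] (γ : SL(2, ℤ)) :
    ∃ (γ1 : SL(2, ℤ)) (a b d' : ℤ), 0 < a ∧ 0 < d' ∧ a * d' = d ∧
      (d' = 1 ↔ (d : ℤ) ∣ γ 1 0) ∧ ∀ z : ℍ, scaleH d (γ • z) = γ1 • triH a b d' z := by
  obtain ⟨γ1, a, b, d', ha, hd', had, hmat, hiff⟩ := exists_hermite d γ
  refine ⟨γ1, a, b, d', ha, hd', had, hiff, fun z => ?_⟩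
  -- entries
  have e00 := congrFun (congrFun hmat 0) 0
  have e01 := congrFun (congrFun hmat 0) 1
  have e10 := congrFun (congrFun hmat 1) 0
  have e11 := congrFun (congrFun hmat 1) 1
  simp [Matrix.mul_apply, Fin.sum_univ_two] at e00 e01 e10 e11
  have c00 : (d : ℂ) * (γ 0 0 : ℂ) = (γ1 0 0 : ℂ) * a := by exact_mod_cast congrArg (Int.cast : ℤ → ℂ) e00
  have c01 : (d : ℂ) * (γ 0 1 : ℂ) = (γ1 0 0 : ℂ) * b + (γ1 0 1 : ℂ) * d' := by
    exact_mod_cast congrArg (Int.cast : ℤ → ℂ) e01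
  have c10 : (γ 1 0 : ℂ) = (γ1 1 0 : ℂ) * a := by exact_mod_cast congrArg (Int.cast : ℤ → ℂ) e10
  have c11 : (γ 1 1 : ℂ) = (γ1 1 0 : ℂ) * b + (γ1 1 1 : ℂ) * d' := by
    exact_mod_cast congrArg (Int.cast : ℤ → ℂ) e11
  apply UpperHalfPlane.ext
  rw [coe_scaleH, UpperHalfPlane.coe_specialLinearGroup_apply,
    UpperHalfPlane.coe_specialLinearGroup_apply, coe_triH b ha hd']
  simp only [algebraMap_int_eq, Int.coe_castRingHom, Complex.ofReal_intCast]
  have hd0 : (d' : ℂ) ≠ 0 := by exact_mod_cast hd'.ne'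
  have hden1 : (γ 1 0 : ℂ) * z + (γ 1 1 : ℂ) ≠ 0 := by
    have := UpperHalfPlane.denom_ne_zero (γ : GL (Fin 2) ℝ) z
    rwa [ModularGroup.denom_apply] at this
  have hden2 : (γ1 1 0 : ℂ) * (((a : ℂ) * z + b) / d') + (γ1 1 1 : ℂ) ≠ 0 := by
    have := UpperHalfPlane.denom_ne_zero (γ1 : GL (Fin 2) ℝ) (triH a b d' z)
    rwa [ModularGroup.denom_apply, coe_triH b ha hd'] at this
  rw [mul_div_assoc', div_eq_div_iff hden1 hden2]
  have key : (γ1 1 0 : ℂ) * (((a : ℂ) * z + b) / d') + (γ1 1 1 : ℂ) =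
      ((γ 1 0 : ℂ) * z + (γ 1 1 : ℂ)) / d' := by
    rw [c10, c11]; field_simp; ring
  have key2 : (γ1 0 0 : ℂ) * (((a : ℂ) * z + b) / d') + (γ1 0 1 : ℂ) =
      ((d : ℂ) * ((γ 0 0 : ℂ) * z + (γ 0 1 : ℂ))) / d' := by
    rw [mul_add, ← mul_assoc, c00, c01]; field_simp; ring
  rw [key, key2]
  field_simp

/-- The root of unity `exp(2πi b / d)`. -/
noncomputable def triZeta (b d : ℤ) : ℂ := Complex.exp (2 * π * Complex.I * b / d)

theorem triZeta_ne_zero (b d : ℤ) : triZeta b d ≠ 0 := Complex.exp_ne_zero _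

/-- `q((a z + b)/d) = ζ_d^b · q_N(z)^(a N / d)` when `d ∣ N`. -/
theorem qN_one_triH (N : ℕ) [NeZero N] {a d : ℤ} (b : ℤ) (ha : 0 < a) (hd : 0 < d)
    (hdN : d ∣ (N : ℤ)) (z : ℍ) :
    qN 1 (triH a b d z) = triZeta b d * qN N z ^ (a * ((N : ℤ) / d)) := by
  unfold qN triZeta Function.Periodic.qParam
  rw [coe_triH b ha hd, ← Complex.exp_int_mul, ← Complex.exp_add]
  congr 1
  obtain ⟨k, hk⟩ := hdN
  have hd0 : (d : ℂ) ≠ 0 := by exact_mod_cast hd.ne'
  have hN0 : (N : ℂ) ≠ 0 := by exact_mod_cast NeZero.ne N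
  have hk' : ((N : ℤ) / d) = k := by
    rw [hk, Int.mul_ediv_cancel_left _ hd.ne']
  rw [hk']
  have hNC : (N : ℂ) = (d : ℂ) * (k : ℂ) := by exact_mod_cast congrArg (Int.cast : ℤ → ℂ) hk
  have hk0 : (k : ℂ) ≠ 0 := by
    intro h
    rw [h, mul_zero] at hNC
    exact hN0 hNC
  push_cast
  rw [hNC]
  field_simp
  ring

/-- The order at `i∞` of `z ↦ j((a z + b)/d)` in the parameter `q_N` (`d ∣ N`) is `-a N / d`. -/
theorem hasOrdInf_jFun_triH (N : ℕ) [NeZero N] {a d : ℤ} (b : ℤ) (ha : 0 < a) (hd : 0 < d)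
    (hdN : d ∣ (N : ℤ)) :
    HasOrdInf N (fun z => jFun (triH a b d z)) (-(a * ((N : ℤ) / d))) := by
  obtain ⟨L, hL, hT⟩ := hasOrdInf_jFun 1
  have h1 := hT.comp (tendsto_triH b ha hd)
  refine ⟨L * (triZeta b d)⁻¹, mul_ne_zero hL (inv_ne_zero (triZeta_ne_zero b d)), ?_⟩
  have h2 := h1.mul_const ((triZeta b d)⁻¹)
  refine h2.congr fun z => ?_
  simp only [Function.comp_apply, Nat.cast_one, neg_neg, zpow_one]
  rw [qN_one_triH N b ha hd hdN z]
  have := triZeta_ne_zero b d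
  field_simp

/-- **Order at `i∞` of `z ↦ j(d · γ z)`** (`d ∣ N`, `γ ∈ SL(2,ℤ)`), in the parameter `q_N`:
it is `-(a · N / d')` where `a d' = d` is the Hermite form of `diag(d,1) γ`; `d' = 1` iff
`d ∣ γ₁₀`. -/
theorem hasOrdInf_jFun_scaleH_smul (N d : ℕ) [NeZero N] [NeZero d] (hdN : d ∣ N) (γ : SL(2, ℤ)) :
    ∃ a d' : ℤ, 0 < a ∧ 0 < d' ∧ a * d' = d ∧ (d' = 1 ↔ (d : ℤ) ∣ γ 1 0) ∧
      HasOrdInf N (fun z => jFun (scaleH d (γ • z))) (-(a * ((N : ℤ) / d'))) := by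
  obtain ⟨γ1, a, b, d', ha, hd', had, hiff, hz⟩ := exists_scaleH_smul_eq d γ
  refine ⟨a, d', ha, hd', had, hiff, ?_⟩
  have hd'N : d' ∣ (N : ℤ) := by
    have h1 : d' ∣ (d : ℤ) := ⟨a, by rw [← had]; ring⟩
    exact h1.trans (by exact_mod_cast hdN)
  refine (hasOrdInf_jFun_triH N b ha hd' hd'N).congr ?_
  funext z
  rw [hz z, jFun_smul]

/-- **Distinctness**: if `j(N · δ z) = j(N z)` for all `z` then `δ ∈ Γ₀(N)`. -/
theorem mem_Gamma0_of_jFun_scaleH_smul_eq (N : ℕ) [NeZero N] (δ : SL(2, ℤ))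
    (h : ∀ z : ℍ, jFun (scaleH N (δ • z)) = jFun (scaleH N z)) : δ ∈ Gamma0 N := by
  obtain ⟨a, d', ha, hd', had, hiff, hord⟩ := hasOrdInf_jFun_scaleH_smul N N dvd_rfl δ
  obtain ⟨a1, d1, ha1, hd1, had1, hiff1, hord1⟩ :=
    hasOrdInf_jFun_scaleH_smul N N dvd_rfl (1 : SL(2, ℤ))
  have hd1' : d1 = 1 := hiff1.mpr (by simp)
  rw [hd1', mul_one] at had1
  rw [hd1', had1, Int.ediv_one] at hord1
  have hfun : (fun z => jFun (scaleH N (δ • z))) = fun z => jFun (scaleH N ((1 : SL(2, ℤ)) • z)) := by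
    funext z
    rw [h z, one_smul]
  rw [hfun] at hord
  have huniq := hord.unique hord1
  have hNd : (N : ℤ) / d' = a := by
    rw [← had, Int.mul_ediv_cancel _ hd'.ne']
  rw [hNd, neg_inj] at huniq
  have hNpos : (0 : ℤ) < N := by exact_mod_cast Nat.pos_of_ne_zero (NeZero.ne N)
  have haN : a = N := by
    have h1 : a * a = (N : ℤ) * N := huniq
    nlinarith [mul_self_eq_mul_self_iff.mp h1]
  have hd'1 : d' = 1 := by
    rw [haN] at had
    have : (N : ℤ) * d' = N * 1 := by rw [had, mul_one]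
    exact mul_left_cancel₀ hNpos.ne' this
  have hdvd := hiff.mp hd'1
  exact Gamma0_mem.mpr ((ZMod.intCast_zmod_eq_zero_iff_dvd _ _).mpr hdvd)

/-- **Distinctness of the conjugates** of `z ↦ j(N z)`: the map
`γ Γ₀(N) ↦ (z ↦ j(N · γ⁻¹ z))` is injective on `SL(2,ℤ) ⧸ Γ₀(N)`. -/
theorem coset_eq_of_jFun_scaleH_inv_smul_eq (N : ℕ) [NeZero N] {γ γ' : SL(2, ℤ)}
    (h : (fun z : ℍ => jFun (scaleH N (γ⁻¹ • z))) = fun z : ℍ => jFun (scaleH N (γ'⁻¹ • z))) :
    (γ : SL(2, ℤ) ⧸ Gamma0 N) = γ' := by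
  rw [QuotientGroup.eq]
  apply mem_Gamma0_of_jFun_scaleH_smul_eq
  intro z
  have := congrFun h (γ' • z)
  beta_reduce at this
  rw [inv_smul_smul, ← mul_smul] at this
  exact this

/-- A function of nonnegative order at `i∞` is bounded at `i∞`. -/
theorem HasOrdInf.isBoundedAtImInfty_of_nonneg {N : ℕ} [NeZero N] {F : ℍ → ℂ} {k : ℤ}
    (h : HasOrdInf N F k) (hk : 0 ≤ k) : IsBoundedAtImInfty F := by
  obtain ⟨L, -, hL⟩ := h
  obtain ⟨n, rfl⟩ := Int.eq_ofNat_of_zero_le hk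
  have h1 : (fun z : ℍ => F z * qN N z ^ (-(n : ℤ))) =O[atImInfty] (fun _ => (1 : ℝ)) :=
    hL.isBigO_one ℝ
  have h2 : (fun z : ℍ => qN N z ^ n) =O[atImInfty] (fun _ => (1 : ℝ)) := by
    have : Tendsto (fun z : ℍ => qN N z ^ n) atImInfty (𝓝 ((0 : ℂ) ^ n)) := (tendsto_qN N).pow n
    exact this.isBigO_one ℝ
  have h3 := h1.mul h2
  simp only [mul_one] at h3
  have h4 : F =O[atImInfty] (fun _ => (1 : ℝ)) := by
    refine h3.congr_left fun z => ?_
    rw [mul_assoc, zpow_neg, zpow_natCast, inv_mul_cancel₀ (pow_ne_zero _ (qN_ne_zero N z)),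
      mul_one]
  exact h4

/-- A function with an order at `i∞` becomes bounded after multiplication by a power of `Δ`. -/
theorem HasOrdInf.exists_discriminant_pow_mul_isBounded {N : ℕ} [NeZero N] {F : ℍ → ℂ} {k : ℤ}
    (h : HasOrdInf N F k) : ∃ m : ℕ, IsBoundedAtImInfty (fun z => Δ z ^ m * F z) := by
  refine ⟨k.natAbs, ?_⟩
  have h1 := ((hasOrdInf_discriminant N).pow k.natAbs).mul h
  refine HasOrdInf.isBoundedAtImInfty_of_nonneg (h1.congr ?_) ?_
  · funext z; simp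
  · have hN : (1 : ℤ) ≤ N := by exact_mod_cast Nat.pos_of_ne_zero (NeZero.ne N)
    have : (k.natAbs : ℤ) * 1 ≤ (k.natAbs : ℤ) * N := by
      apply mul_le_mul_of_nonneg_left hN (by positivity)
    have h2 : -k ≤ (k.natAbs : ℤ) := by
      rw [← Int.natAbs_neg]; exact Int.le_natAbs
    linarith

/-- **Growth condition at every cusp** for `z ↦ j(d · γ z)`. -/
theorem exists_discriminant_pow_mul_jFun_scaleH_smul_isBounded (d : ℕ) [NeZero d] (γ : SL(2, ℤ)) :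
    ∃ m : ℕ, IsBoundedAtImInfty (fun z => Δ z ^ m * jFun (scaleH d (γ • z))) := by
  obtain ⟨a, d', -, -, -, -, hord⟩ := hasOrdInf_jFun_scaleH_smul d d dvd_rfl γ
  exact hord.exists_discriminant_pow_mul_isBounded

end Fermat.Agent.X0
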