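import Mathlib
import Fermat.Agent.X0.Psi
import Fermat.Agent.X0.QExpGamma

set_option autoImplicit false

/-!
# X-MOD, piece CUSPGROWTH: behaviour of `Ψ r ∘ g` at `i∞`

* `Psi_cusp_bound` : for `r : Rb N` and `g : SL(2,ℤ)` some `Δ^m · (Ψ r ∘ g)` is bounded at `i∞`.
* `jAn_scaleH_smul_ne` : for `g ∉ Γ₀(N)` the function `z ↦ j(N · g z)` differs from `z ↦ j(N z)`.
* `Psi_smul_vadd` : `Ψ r (g • (N +ᵥ z)) = Ψ r (g • z)` (`Ψ r ∘ g` is `N`-periodic).
-/

namespace Fermat.Agent.X0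

open UpperHalfPlane Function Filter ModularForm CongruenceSubgroup
open scoped MatrixGroups ModularForm Manifold Topology Real
open Fermat.Agent.S23 Fermat.Agent.S23.PrimEltQExp

local notation "Δ" => ModularForm.discriminant

theorem cuspGrowth_isBounded_discriminant : IsBoundedAtImInfty (Δ : ℍ → ℂ) := by
  have h : Tendsto (Δ : ℍ → ℂ) atImInfty (𝓝 0) := discriminant_tendsto
  exact h.isBigO_one ℝ

theorem cuspGrowth_isBounded_discriminant_pow (m : ℕ) :
    IsBoundedAtImInfty (fun z : ℍ => Δ z ^ m) := by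
  induction m with
  | zero =>
    simp only [pow_zero]
    exact Filter.const_boundedAtFilter _ (1 : ℂ)
  | succ m ih =>
    have := ih.mul cuspGrowth_isBounded_discriminant
    refine this.congr' (Eventually.of_forall fun z => ?_) (EventuallyEq.refl _ _)
    simp [pow_succ]

/-- **Growth condition at every cusp** for the analytic realisations `Ψ r`. -/
theorem Psi_cusp_bound (N : ℕ) [NeZero N] (r : Rb N) (g : SL(2, ℤ)) :
    ∃ m : ℕ, IsBoundedAtImInfty (fun z => Δ z ^ m * Psi N r (g • z)) := by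
  obtain ⟨r, hr⟩ := r
  induction hr using Algebra.adjoin_induction with
  | mem x hx =>
    obtain ⟨d, hne, hd, rfl⟩ := hx
    have h := Psi_jBarD N d hd
    obtain ⟨m, hm⟩ := exists_discriminant_pow_mul_jFun_scaleH_smul_isBounded d g
    refine ⟨m, ?_⟩
    have e : (fun z => Δ z ^ m * Psi N ⟨jBarD N d hd, jBarD_mem_Rb N d hd⟩ (g • z)) =
        fun z => Δ z ^ m * jFun (scaleH d (g • z)) := by
      funext z
      rw [h]
      rfl
    exact e ▸ hm
  | algebraMap c =>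
    refine ⟨0, ?_⟩
    have h := Psi_algebraMap N c
    have e : (fun z => Δ z ^ 0 * Psi N ⟨algebraMap Kb (Fb N) c, Subalgebra.algebraMap_mem _ c⟩
        (g • z)) = fun _ => iotaC c := by
      funext z
      have : (⟨algebraMap Kb (Fb N) c, Subalgebra.algebraMap_mem _ c⟩ : Rb N) =
          algebraMap Kb (Rb N) c := rfl
      rw [this, h]
      simp
    rw [e]
    exact Filter.const_boundedAtFilter _ _
  | add x y hx hy ihx ihy =>
    obtain ⟨m1, h1⟩ := ihx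
    obtain ⟨m2, h2⟩ := ihy
    refine ⟨m1 + m2, ?_⟩
    have e : (fun z => Δ z ^ (m1 + m2) * Psi N ⟨x + y, Subalgebra.add_mem _ hx hy⟩ (g • z)) =
        (fun z => Δ z ^ m2) * (fun z => Δ z ^ m1 * Psi N ⟨x, hx⟩ (g • z)) +
        (fun z => Δ z ^ m1) * (fun z => Δ z ^ m2 * Psi N ⟨y, hy⟩ (g • z)) := by
      funext z
      have : (⟨x + y, Subalgebra.add_mem _ hx hy⟩ : Rb N) = ⟨x, hx⟩ + ⟨y, hy⟩ := rfl
      rw [this, map_add]
      simp only [Pi.add_apply, Pi.mul_apply, pow_add]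
      ring
    rw [e]
    exact ((cuspGrowth_isBounded_discriminant_pow m2).mul h1).add
      ((cuspGrowth_isBounded_discriminant_pow m1).mul h2)
  | mul x y hx hy ihx ihy =>
    obtain ⟨m1, h1⟩ := ihx
    obtain ⟨m2, h2⟩ := ihy
    refine ⟨m1 + m2, ?_⟩
    have e : (fun z => Δ z ^ (m1 + m2) * Psi N ⟨x * y, Subalgebra.mul_mem _ hx hy⟩ (g • z)) =
        (fun z => Δ z ^ m1 * Psi N ⟨x, hx⟩ (g • z)) *
        (fun z => Δ z ^ m2 * Psi N ⟨y, hy⟩ (g • z)) := by
      funext z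
      have : (⟨x * y, Subalgebra.mul_mem _ hx hy⟩ : Rb N) = ⟨x, hx⟩ * ⟨y, hy⟩ := rfl
      rw [this, map_mul]
      simp only [Pi.mul_apply, pow_add]
      ring
    rw [e]
    exact h1.mul h2

/-- **Distinctness**: for `g ∉ Γ₀(N)` the functions `z ↦ j(N · g z)` and `z ↦ j(N z)` differ. -/
theorem jAn_scaleH_smul_ne (N : ℕ) [NeZero N] (g : SL(2, ℤ)) (hg : g ∉ Gamma0 N) :
    (fun z : ℍ => jAn (scaleH N (g • z))) ≠ fun z : ℍ => jAn (scaleH N z) := by
  intro h
  exact hg (mem_Gamma0_of_jFun_scaleH_smul_eq N g fun z => congrFun h z)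

theorem cuspGrowth_T_pow_mem_Gamma (N : ℕ) : (ModularGroup.T ^ (N : ℤ)) ∈ Gamma N := by
  have := ModularGroup_T_pow_mem_Gamma (N : ℤ) (N : ℤ) dvd_rfl
  simpa using this

theorem cuspGrowth_Gamma_le_Gamma0 (N : ℕ) : Gamma N ≤ Gamma0 N := by
  intro x hx
  rw [Gamma_mem] at hx
  rw [Gamma0_mem]
  exact hx.2.2.1

/-- `Ψ r ∘ g` is `N`-periodic. -/
theorem Psi_smul_vadd (N : ℕ) [NeZero N] (r : Rb N) (g : SL(2, ℤ)) (z : ℍ) :
    Psi N r (g • ((N : ℝ) +ᵥ z)) = Psi N r (g • z) := by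
  have hT : ((N : ℝ) +ᵥ z) = ModularGroup.T ^ (N : ℤ) • z := by
    rw [UpperHalfPlane.modular_T_zpow_smul]
    simp
  have hconj : g * ModularGroup.T ^ (N : ℤ) * g⁻¹ ∈ Gamma0 N :=
    cuspGrowth_Gamma_le_Gamma0 N ((Gamma_normal N).conj_mem _ (cuspGrowth_T_pow_mem_Gamma N) g)
  have : g • ((N : ℝ) +ᵥ z) = (g * ModularGroup.T ^ (N : ℤ) * g⁻¹) • (g • z) := by
    rw [hT, ← mul_smul, ← mul_smul, inv_mul_cancel_right]
  rw [this, Psi_smul N r _ hconj]

end Fermat.Agent.X0
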