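import Mathlib
import Fermat.Agent.X0.JDeriv
import Fermat.Agent.S23.Analytic

set_option autoImplicit false

/-!
# Program X (S24), X-MOD-LOCAL: local behaviour of the `j`-function

* `ordAt F z` : the analytic order of `F : ℍ → ℂ` at `z : ℍ`.
* `E₆ I = 0`, `E₄ ρ = 0`, `jFun I = 1728`, `jFun ρ = 0`.
* `ordAt (jFun - 1728) I = 2`, `ordAt jFun ρ = 3`, and `ordAt (jFun - jFun z₀) z₀ = 1` if
  `jFun z₀ ∉ {0, 1728}`.
-/

namespace Fermat.Agent.X0

open UpperHalfPlane Function CongruenceSubgroup ModularForm Derivative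
open scoped MatrixGroups ModularForm Manifold Real

open Fermat.Agent.S23

local notation "Δ" => ModularForm.discriminant

/-! ### Analytic order on the upper half plane -/

/-- The analytic order of a function on the upper half plane at a point. -/
noncomputable def ordAt (F : ℍ → ℂ) (z : ℍ) : ℕ∞ := analyticOrderAt (F ∘ ofComplex) (z : ℂ)

theorem analyticAt_comp_ofComplex {F : ℍ → ℂ} (hF : MDiff F) (z : ℍ) :
    AnalyticAt ℂ (F ∘ ofComplex) (z : ℂ) :=
  (UpperHalfPlane.mdifferentiable_iff.mp hF).analyticAt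
    (isOpen_upperHalfPlaneSet.mem_nhds z.im_pos)

theorem ordAt_mul {F G : ℍ → ℂ} (hF : MDiff F) (hG : MDiff G) (z : ℍ) :
    ordAt (F * G) z = ordAt F z + ordAt G z :=
  analyticOrderAt_mul (analyticAt_comp_ofComplex hF z) (analyticAt_comp_ofComplex hG z)

theorem ordAt_pow {F : ℍ → ℂ} (hF : MDiff F) (n : ℕ) (z : ℍ) :
    ordAt (F ^ n) z = n • ordAt F z :=
  analyticOrderAt_pow (analyticAt_comp_ofComplex hF z) n

theorem ordAt_eq_zero_iff {F : ℍ → ℂ} (hF : MDiff F) (z : ℍ) : ordAt F z = 0 ↔ F z ≠ 0 := by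
  unfold ordAt
  rw [analyticOrderAt_eq_zero]
  have : (F ∘ ofComplex) (z : ℂ) = F z := by simp [ofComplex_apply]
  rw [this]
  constructor
  · rintro (h | h)
    · exact absurd (analyticAt_comp_ofComplex hF z) h
    · exact h
  · exact fun h => Or.inr h

theorem ordAt_ne_top {F : ℍ → ℂ} (hF : MDiff F) (hF0 : F ≠ 0) (z : ℍ) : ordAt F z ≠ ⊤ := by
  unfold ordAt
  rw [Ne, analyticOrderAt_eq_top]
  intro h
  have h1 := Fermat.Agent.S23.Analytic.eventually_ne_zero hF hF0 (z := (z : ℂ)) z.im_pos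
  have h2 : ∀ᶠ w in nhdsWithin (z : ℂ) {(z : ℂ)}ᶜ, (F ∘ ofComplex) w = 0 :=
    h.filter_mono nhdsWithin_le_nhds
  have h3 := h1.and h2
  obtain ⟨w, hw1, hw2⟩ := h3.exists
  exact hw1 hw2

theorem ordAt_congr {F G : ℍ → ℂ} (h : F = G) (z : ℍ) : ordAt F z = ordAt G z := by rw [h]

/-- The derivative lowers the order of `F - F z` by one. -/
theorem ordAt_D_add_one {F : ℍ → ℂ} (hF : MDiff F) (z : ℍ) :
    ordAt (D F) z + 1 = ordAt (fun w => F w - F z) z := by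
  have hFa := analyticAt_comp_ofComplex hF z
  have h1 := hFa.analyticOrderAt_deriv_add_one
  have hz : (F ∘ ofComplex) (z : ℂ) = F z := by simp [ofComplex_apply]
  have h2 : ordAt (fun w => F w - F z) z =
      analyticOrderAt (fun x => (F ∘ ofComplex) x - (F ∘ ofComplex) (z : ℂ)) (z : ℂ) := by
    unfold ordAt
    rw [hz]
    rfl
  rw [h2, ← h1]
  congr 1
  -- `D F ∘ ofComplex` and `deriv (F ∘ ofComplex)` differ by a nonzero constant near `z`
  have hc : (2 * π * Complex.I : ℂ)⁻¹ ≠ 0 := by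
    simp [Real.pi_ne_zero]
  have hev : (D F ∘ ofComplex) =ᶠ[nhds (z : ℂ)]
      ((fun _ : ℂ => (2 * π * Complex.I : ℂ)⁻¹) * deriv (F ∘ ofComplex)) := by
    have hopen : IsOpen {w : ℂ | 0 < w.im} := isOpen_upperHalfPlaneSet
    filter_upwards [hopen.mem_nhds z.im_pos] with w hw
    simp only [comp_apply, Pi.mul_apply, normalizedDerivOfComplex, ofComplex_apply_of_im_pos hw]
  unfold ordAt
  rw [analyticOrderAt_congr hev, analyticOrderAt_mul analyticAt_const hFa.deriv]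
  have h0 : analyticOrderAt (fun _ : ℂ => (2 * π * Complex.I : ℂ)⁻¹) (z : ℂ) = 0 := by
    rw [analyticOrderAt_eq_zero]
    exact Or.inr hc
  rw [h0, zero_add]

/-! ### Special points -/

/-- A level one modular form of weight `k` vanishes at a fixed point `z` of `γ` whenever the
automorphy factor satisfies `(c z + d) ^ k ≠ 1`. -/
theorem eq_zero_of_smul_eq {k : ℤ} (f : ModularForm 𝒮ℒ k) {γ : SL(2, ℤ)} {z : ℍ}
    (hz : γ • z = z) (hd : ((γ 1 0 : ℂ) * z + γ 1 1) ^ k ≠ 1) : f z = 0 := by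
  have h := congrFun (levelOne_slash f γ) z
  rw [ModularForm.SL_slash_apply, hz, ModularGroup.denom_apply] at h
  set d : ℂ := (γ 1 0 : ℂ) * z + γ 1 1 with hd'
  have hd0 : d ≠ 0 := by
    have := UpperHalfPlane.denom_ne_zero (γ : GL (Fin 2) ℝ) z
    rwa [ModularGroup.denom_apply] at this
  rw [zpow_neg] at h
  have h2 : f z = f z * d ^ k := by
    have hdk : d ^ k ≠ 0 := zpow_ne_zero _ hd0
    field_simp at h
    exact h
  by_contra hne
  apply hd
  have : f z * (d ^ k - 1) = 0 := by linear_combination -h2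
  rcases mul_eq_zero.mp this with h3 | h3
  · exact absurd h3 hne
  · exact sub_eq_zero.mp h3

theorem S_smul_I : ModularGroup.S • UpperHalfPlane.I = UpperHalfPlane.I := by
  rw [UpperHalfPlane.modular_S_smul]
  apply UpperHalfPlane.ext
  simp [UpperHalfPlane.coe_I]

/-- `E₆` vanishes at `i`. -/
theorem E₆_I : E₆ UpperHalfPlane.I = 0 := by
  apply eq_zero_of_smul_eq E₆ S_smul_I
  have h1 : ((ModularGroup.S 1 0 : ℤ) : ℂ) = 1 := by simp [ModularGroup.S]
  have h2 : ((ModularGroup.S 1 1 : ℤ) : ℂ) = 0 := by simp [ModularGroup.S]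
  rw [h1, h2, UpperHalfPlane.coe_I, one_mul, add_zero]
  have : (Complex.I : ℂ) ^ (6 : ℤ) = -1 := by
    have : (Complex.I : ℂ) ^ (6 : ℕ) = -1 := by
      calc (Complex.I : ℂ) ^ 6 = (Complex.I ^ 2) ^ 3 := by ring
        _ = -1 := by rw [Complex.I_sq]; norm_num
    exact_mod_cast this
  rw [this]
  norm_num

theorem jFun_I : jFun UpperHalfPlane.I = 1728 := by
  have h := jFun_sub_1728 UpperHalfPlane.I
  rw [E₆_I] at h
  have : jFun UpperHalfPlane.I - 1728 = 0 := by rw [h]; simp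
  exact sub_eq_zero.mp this

theorem ST_smul_ρ : (ModularGroup.S * ModularGroup.T) • UpperHalfPlane.ρ = UpperHalfPlane.ρ := by
  rw [ModularGroup.stabilizer_ρ]
  simp

/-- `E₄` vanishes at `ρ`. -/
theorem E₄_ρ : E₄ UpperHalfPlane.ρ = 0 := by
  apply eq_zero_of_smul_eq E₄ ST_smul_ρ
  have h1 : (((ModularGroup.S * ModularGroup.T) 1 0 : ℤ) : ℂ) = 1 := by
    have : (ModularGroup.S * ModularGroup.T) 1 0 = 1 := by decide
    rw [this]; norm_num
  have h2 : (((ModularGroup.S * ModularGroup.T) 1 1 : ℤ) : ℂ) = 1 := by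
    have : (ModularGroup.S * ModularGroup.T) 1 1 = 1 := by decide
    rw [this]; norm_num
  rw [h1, h2, one_mul]
  have hsq : ((UpperHalfPlane.ρ : ℂ) + 1) ^ 2 = (UpperHalfPlane.ρ : ℂ) := by
    have := UpperHalfPlane.ρ_sq
    linear_combination this
  have h4 : ((UpperHalfPlane.ρ : ℂ) + 1) ^ (4 : ℤ) = -(UpperHalfPlane.ρ : ℂ) - 1 := by
    have : ((UpperHalfPlane.ρ : ℂ) + 1) ^ (4 : ℕ) = -(UpperHalfPlane.ρ : ℂ) - 1 := by
      calc ((UpperHalfPlane.ρ : ℂ) + 1) ^ 4 = (((UpperHalfPlane.ρ : ℂ) + 1) ^ 2) ^ 2 := by ring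
        _ = -(UpperHalfPlane.ρ : ℂ) - 1 := by rw [hsq, UpperHalfPlane.ρ_sq]
    exact_mod_cast this
  rw [h4]
  intro h
  have him := congrArg Complex.im h
  have hpos := UpperHalfPlane.ρ.im_pos
  simp only [Complex.sub_im, Complex.neg_im, Complex.one_im, sub_zero] at him
  rw [UpperHalfPlane.coe_im] at him
  linarith

theorem jFun_ρ : jFun UpperHalfPlane.ρ = 0 := by
  simp [jFun, E₄_ρ]

/-! ### Values `0` and `1728` -/

theorem jFun_eq_zero_iff (z : ℍ) : jFun z = 0 ↔ E₄ z = 0 := by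
  unfold jFun
  rw [div_eq_zero_iff]
  constructor
  · rintro (h | h)
    · exact pow_eq_zero_iff (by norm_num) |>.mp h
    · exact absurd h (discriminant_ne_zero z)
  · intro h
    left
    rw [h]
    norm_num

theorem jFun_eq_1728_iff (z : ℍ) : jFun z = 1728 ↔ E₆ z = 0 := by
  rw [← sub_eq_zero, jFun_sub_1728, div_eq_zero_iff]
  constructor
  · rintro (h | h)
    · exact pow_eq_zero_iff (by norm_num) |>.mp h
    · exact absurd h (discriminant_ne_zero z)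
  · intro h
    left
    rw [h]
    norm_num

/-- `E₄` and `E₆` have no common zero. -/
theorem E₄_ne_zero_of_E₆_eq_zero {z : ℍ} (h : E₆ z = 0) : E₄ z ≠ 0 := by
  intro h4
  have := (jFun_eq_zero_iff z).mpr h4
  rw [(jFun_eq_1728_iff z).mpr h] at this
  norm_num at this

theorem E₆_ne_zero_of_E₄_eq_zero {z : ℍ} (h : E₄ z = 0) : E₆ z ≠ 0 :=
  fun h6 => E₄_ne_zero_of_E₆_eq_zero h6 h

/-! ### Local orders of `j` -/

theorem E₄_mdiff : MDiff (E₄ : ℍ → ℂ) := E₄.holo'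

theorem E₆_mdiff : MDiff (E₆ : ℍ → ℂ) := E₆.holo'

theorem E₄_fun_ne_zero : (E₄ : ℍ → ℂ) ≠ 0 := by
  intro h
  have h1 := E₄_tendsto
  rw [h] at h1
  have h2 : Filter.Tendsto (0 : ℍ → ℂ) atImInfty (nhds 0) := tendsto_const_nhds
  have := tendsto_nhds_unique h1 h2
  norm_num at this

theorem E₆_fun_ne_zero : (E₆ : ℍ → ℂ) ≠ 0 := by
  intro h
  have h1 := E₆_tendsto
  rw [h] at h1
  have h2 : Filter.Tendsto (0 : ℍ → ℂ) atImInfty (nhds 0) := tendsto_const_nhds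
  have := tendsto_nhds_unique h1 h2
  norm_num at this

theorem D_jFun_mdiff : MDiff (D jFun) := normalizedDerivOfComplex_mdifferentiable jFun_mdiff

theorem ordAt_discriminant (z : ℍ) : ordAt Δ z = 0 :=
  (ordAt_eq_zero_iff discriminant_mdiff z).mpr (discriminant_ne_zero z)

/-- If `G z ≠ 0` and `F * G = H` then `F` and `H` have the same order at `z`. -/
theorem ordAt_eq_of_mul_eq {F G H : ℍ → ℂ} (hF : MDiff F) (hG : MDiff G) (h : F * G = H) {z : ℍ}
    (hz : G z ≠ 0) : ordAt F z = ordAt H z := by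
  rw [← h, ordAt_mul hF hG, (ordAt_eq_zero_iff hG z).mpr hz, add_zero]

theorem ordAt_D_jFun (z : ℍ) : ordAt (D jFun) z = 2 • ordAt E₄ z + ordAt E₆ z := by
  have h : D jFun * Δ = -((E₄ : ℍ → ℂ) ^ 2 * (E₆ : ℍ → ℂ)) := by
    funext w
    simp only [Pi.mul_apply, Pi.neg_apply, Pi.pow_apply, D_jFun]
    field_simp [discriminant_ne_zero w]
  have h1 : ordAt (D jFun) z = ordAt (-((E₄ : ℍ → ℂ) ^ 2 * (E₆ : ℍ → ℂ))) z :=
    ordAt_eq_of_mul_eq D_jFun_mdiff discriminant_mdiff h (discriminant_ne_zero z)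
  have h2 : -((E₄ : ℍ → ℂ) ^ 2 * (E₆ : ℍ → ℂ)) =
      (fun _ => (-1 : ℂ)) * ((E₄ : ℍ → ℂ) ^ 2 * (E₆ : ℍ → ℂ)) := by
    funext w
    simp
  have hc : MDiff (fun _ : ℍ => (-1 : ℂ)) := mdifferentiable_const
  rw [h1, h2, ordAt_mul hc ((E₄_mdiff.pow 2).mul E₆_mdiff),
    (ordAt_eq_zero_iff hc z).mpr (by norm_num), zero_add,
    ordAt_mul (E₄_mdiff.pow 2) E₆_mdiff, ordAt_pow E₄_mdiff]

theorem ordAt_jFun (z : ℍ) : ordAt jFun z = 3 • ordAt E₄ z := by
  have h : jFun * Δ = (E₄ : ℍ → ℂ) ^ 3 := by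
    funext w
    simp only [Pi.mul_apply, Pi.pow_apply, jFun_mul_discriminant]
  rw [ordAt_eq_of_mul_eq jFun_mdiff discriminant_mdiff h (discriminant_ne_zero z),
    ordAt_pow E₄_mdiff]

theorem ordAt_jFun_sub_1728 (z : ℍ) : ordAt (fun w => jFun w - 1728) z = 2 • ordAt E₆ z := by
  have hm : MDiff (fun w => jFun w - 1728) := jFun_mdiff.sub mdifferentiable_const
  have h : (fun w => jFun w - 1728) * Δ = (E₆ : ℍ → ℂ) ^ 2 := by
    funext w
    simp only [Pi.mul_apply, Pi.pow_apply, jFun_sub_1728]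
    field_simp [discriminant_ne_zero w]
  rw [ordAt_eq_of_mul_eq hm discriminant_mdiff h (discriminant_ne_zero z), ordAt_pow E₆_mdiff]

/-- At a zero of `E₆` (i.e. a point with `j = 1728`, e.g. `i`), `j - 1728` vanishes to order
exactly `2`. -/
theorem ordAt_jFun_sub_of_E₆_eq_zero {z₀ : ℍ} (h : E₆ z₀ = 0) :
    ordAt (fun w => jFun w - jFun z₀) z₀ = 2 := by
  have h4 : ordAt E₄ z₀ = 0 := (ordAt_eq_zero_iff E₄_mdiff z₀).mpr (E₄_ne_zero_of_E₆_eq_zero h)
  have hD := ordAt_D_add_one jFun_mdiff z₀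
  rw [ordAt_D_jFun, h4, smul_zero, zero_add, (jFun_eq_1728_iff z₀).mpr h,
    ordAt_jFun_sub_1728] at hD
  rw [(jFun_eq_1728_iff z₀).mpr h, ordAt_jFun_sub_1728]
  obtain ⟨m, hm⟩ := ENat.ne_top_iff_exists.mp (ordAt_ne_top E₆_mdiff E₆_fun_ne_zero z₀)
  rw [← hm] at hD ⊢
  have : m + 1 = 2 * m := by
    have h' : ((m + 1 : ℕ) : ℕ∞) = ((2 * m : ℕ) : ℕ∞) := by
      push_cast
      simpa [nsmul_eq_mul] using hD
    exact_mod_cast h'
  have hm1 : m = 1 := by omega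
  subst hm1
  rfl

/-- At a zero of `E₄` (i.e. a point with `j = 0`, e.g. `ρ`), `j` vanishes to order exactly `3`. -/
theorem ordAt_jFun_sub_of_E₄_eq_zero {z₀ : ℍ} (h : E₄ z₀ = 0) :
    ordAt (fun w => jFun w - jFun z₀) z₀ = 3 := by
  have h6 : ordAt E₆ z₀ = 0 := (ordAt_eq_zero_iff E₆_mdiff z₀).mpr (E₆_ne_zero_of_E₄_eq_zero h)
  have hD := ordAt_D_add_one jFun_mdiff z₀
  have h0 : (fun w => jFun w - jFun z₀) = jFun := by
    funext w
    rw [(jFun_eq_zero_iff z₀).mpr h, sub_zero]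
  rw [ordAt_D_jFun, h6, add_zero, h0, ordAt_jFun] at hD
  rw [h0, ordAt_jFun]
  obtain ⟨m, hm⟩ := ENat.ne_top_iff_exists.mp (ordAt_ne_top E₄_mdiff E₄_fun_ne_zero z₀)
  rw [← hm] at hD ⊢
  have : 2 * m + 1 = 3 * m := by
    have h' : ((2 * m + 1 : ℕ) : ℕ∞) = ((3 * m : ℕ) : ℕ∞) := by
      push_cast
      simpa [nsmul_eq_mul] using hD
    exact_mod_cast h'
  have hm1 : m = 1 := by omega
  subst hm1
  rfl

/-- Away from the zeros of `E₄` and `E₆` the function `j - j(z₀)` has a simple zero at `z₀`. -/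
theorem ordAt_jFun_sub_of_ne_zero {z₀ : ℍ} (h4 : E₄ z₀ ≠ 0) (h6 : E₆ z₀ ≠ 0) :
    ordAt (fun w => jFun w - jFun z₀) z₀ = 1 := by
  have hD := ordAt_D_add_one jFun_mdiff z₀
  rw [ordAt_D_jFun, (ordAt_eq_zero_iff E₄_mdiff z₀).mpr h4,
    (ordAt_eq_zero_iff E₆_mdiff z₀).mpr h6, smul_zero, zero_add, zero_add] at hD
  exact hD.symm

/-- Restatement of the three local orders in terms of the value `jFun z₀`. -/
theorem ordAt_jFun_sub_of_eq_1728 {z₀ : ℍ} (h : jFun z₀ = 1728) :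
    ordAt (fun w => jFun w - jFun z₀) z₀ = 2 :=
  ordAt_jFun_sub_of_E₆_eq_zero ((jFun_eq_1728_iff z₀).mp h)

theorem ordAt_jFun_sub_of_eq_zero {z₀ : ℍ} (h : jFun z₀ = 0) :
    ordAt (fun w => jFun w - jFun z₀) z₀ = 3 :=
  ordAt_jFun_sub_of_E₄_eq_zero ((jFun_eq_zero_iff z₀).mp h)

theorem ordAt_jFun_sub_of_generic {z₀ : ℍ} (h0 : jFun z₀ ≠ 0) (h1 : jFun z₀ ≠ 1728) :
    ordAt (fun w => jFun w - jFun z₀) z₀ = 1 :=
  ordAt_jFun_sub_of_ne_zero (fun h => h0 ((jFun_eq_zero_iff z₀).mpr h))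
    (fun h => h1 ((jFun_eq_1728_iff z₀).mpr h))

theorem ordAt_jFun_sub_I : ordAt (fun w => jFun w - 1728) UpperHalfPlane.I = 2 := by
  have := ordAt_jFun_sub_of_E₆_eq_zero E₆_I
  rwa [jFun_I] at this

theorem ordAt_jFun_ρ : ordAt jFun UpperHalfPlane.ρ = 3 := by
  have := ordAt_jFun_sub_of_E₄_eq_zero E₄_ρ
  simpa [jFun_ρ] using this

end Fermat.Agent.X0
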