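import Mathlib

/-!
# X-MOD, piece MOD-VAL (abstract algebra layer)

Extension of an "order function" `o : R → ℤ` on a domain `R` (additive on products of nonzero
elements) to the fraction field `F`, by `fracOrd o (a / b) = o a - o b`.
-/

set_option autoImplicit false

namespace Fermat.Agent.X0

section FracOrd

variable {R F : Type*} [CommRing R] [IsDomain R] [Field F] [Algebra R F] [IsFractionRing R F]

/-- Extension of an order function from a domain to its fraction field. -/
noncomputable def fracOrd (o : R → ℤ) (f : F) : ℤ :=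
  o (IsLocalization.sec (nonZeroDivisors R) f).1 -
    o ((IsLocalization.sec (nonZeroDivisors R) f).2 : R)

variable {o : R → ℤ}

theorem fracOrd_one_eq_zero (o_mul : ∀ a b : R, a ≠ 0 → b ≠ 0 → o (a * b) = o a + o b) :
    o 1 = 0 := by
  have := o_mul 1 1 one_ne_zero one_ne_zero
  rw [mul_one] at this
  omega

theorem fracOrd_div (o_mul : ∀ a b : R, a ≠ 0 → b ≠ 0 → o (a * b) = o a + o b)
    {a b : R} (ha : a ≠ 0) (hb : b ≠ 0) :
    fracOrd o (algebraMap R F a / algebraMap R F b) = o a - o b := by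
  have hinj : Function.Injective (algebraMap R F) := IsFractionRing.injective R F
  set f : F := algebraMap R F a / algebraMap R F b with hf
  have hb' : algebraMap R F b ≠ 0 := (map_ne_zero_iff _ hinj).mpr hb
  have ha' : algebraMap R F a ≠ 0 := (map_ne_zero_iff _ hinj).mpr ha
  have hf0 : f ≠ 0 := div_ne_zero ha' hb'
  set n : R := (IsLocalization.sec (nonZeroDivisors R) f).1 with hn
  set d : R := ((IsLocalization.sec (nonZeroDivisors R) f).2 : R) with hd
  have hspec : f * algebraMap R F d = algebraMap R F n :=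
    IsLocalization.sec_spec (nonZeroDivisors R) f
  have hd0 : d ≠ 0 := nonZeroDivisors.coe_ne_zero _
  have hd' : algebraMap R F d ≠ 0 := (map_ne_zero_iff _ hinj).mpr hd0
  have hn0 : n ≠ 0 := by
    intro h
    rw [h, map_zero] at hspec
    exact (mul_ne_zero hf0 hd') hspec
  have hcross : a * d = n * b := by
    apply hinj
    rw [map_mul, map_mul, ← hspec, hf]
    field_simp
  have h1 := o_mul a d ha hd0
  have h2 := o_mul n b hn0 hb
  rw [hcross] at h1
  unfold fracOrd
  rw [← hn, ← hd]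
  omega

theorem exists_eq_div_of_ne_zero {f : F} (hf : f ≠ 0) :
    ∃ a b : R, a ≠ 0 ∧ b ≠ 0 ∧ f = algebraMap R F a / algebraMap R F b := by
  obtain ⟨a, b, hb, rfl⟩ := IsFractionRing.div_surjective (A := R) f
  have hb0 : b ≠ 0 := nonZeroDivisors.ne_zero hb
  refine ⟨a, b, ?_, hb0, rfl⟩
  rintro rfl
  simp at hf

theorem fracOrd_algebraMap (o_mul : ∀ a b : R, a ≠ 0 → b ≠ 0 → o (a * b) = o a + o b)
    {a : R} (ha : a ≠ 0) : fracOrd o (algebraMap R F a) = o a := by
  have := fracOrd_div (F := F) o_mul ha one_ne_zero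
  rw [map_one, div_one, fracOrd_one_eq_zero o_mul, sub_zero] at this
  exact this

theorem fracOrd_mul (o_mul : ∀ a b : R, a ≠ 0 → b ≠ 0 → o (a * b) = o a + o b)
    {f g : F} (hf : f ≠ 0) (hg : g ≠ 0) :
    fracOrd o (f * g) = fracOrd o f + fracOrd o g := by
  obtain ⟨a, b, ha, hb, rfl⟩ := exists_eq_div_of_ne_zero (R := R) hf
  obtain ⟨c, d, hc, hd, rfl⟩ := exists_eq_div_of_ne_zero (R := R) hg
  have h : algebraMap R F a / algebraMap R F b * (algebraMap R F c / algebraMap R F d) =
      algebraMap R F (a * c) / algebraMap R F (b * d) := by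
    rw [map_mul, map_mul, div_mul_div_comm]
  rw [h, fracOrd_div o_mul (mul_ne_zero ha hc) (mul_ne_zero hb hd), fracOrd_div o_mul ha hb,
    fracOrd_div o_mul hc hd, o_mul a c ha hc, o_mul b d hb hd]
  ring

theorem fracOrd_inv (o_mul : ∀ a b : R, a ≠ 0 → b ≠ 0 → o (a * b) = o a + o b)
    {f : F} (hf : f ≠ 0) : fracOrd o f⁻¹ = - fracOrd o f := by
  obtain ⟨a, b, ha, hb, rfl⟩ := exists_eq_div_of_ne_zero (R := R) hf
  rw [inv_div, fracOrd_div o_mul hb ha, fracOrd_div o_mul ha hb]
  ring

theorem fracOrd_add (o_mul : ∀ a b : R, a ≠ 0 → b ≠ 0 → o (a * b) = o a + o b)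
    (o_add : ∀ a b : R, a ≠ 0 → b ≠ 0 → a + b ≠ 0 → min (o a) (o b) ≤ o (a + b))
    {f g : F} (hf : f ≠ 0) (hg : g ≠ 0) (hfg : f + g ≠ 0) :
    min (fracOrd o f) (fracOrd o g) ≤ fracOrd o (f + g) := by
  have hinj : Function.Injective (algebraMap R F) := IsFractionRing.injective R F
  obtain ⟨a, b, ha, hb, rfl⟩ := exists_eq_div_of_ne_zero (R := R) hf
  obtain ⟨c, d, hc, hd, rfl⟩ := exists_eq_div_of_ne_zero (R := R) hg
  have hb' : algebraMap R F b ≠ 0 := (map_ne_zero_iff _ hinj).mpr hb
  have hd' : algebraMap R F d ≠ 0 := (map_ne_zero_iff _ hinj).mpr hd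
  have h : algebraMap R F a / algebraMap R F b + algebraMap R F c / algebraMap R F d =
      algebraMap R F (a * d + c * b) / algebraMap R F (b * d) := by
    rw [map_add, map_mul, map_mul, map_mul]
    field_simp
  have hnum : a * d + c * b ≠ 0 := by
    intro h0
    rw [h, h0, map_zero, zero_div] at hfg
    exact hfg rfl
  rw [h, fracOrd_div o_mul hnum (mul_ne_zero hb hd), fracOrd_div o_mul ha hb,
    fracOrd_div o_mul hc hd, o_mul b d hb hd]
  have h1 := o_add (a * d) (c * b) (mul_ne_zero ha hd) (mul_ne_zero hc hb) hnum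
  rw [o_mul a d ha hd, o_mul c b hc hb] at h1
  rcases min_le_iff.mp h1 with h2 | h2
  · exact min_le_iff.mpr (Or.inl (by omega))
  · exact min_le_iff.mpr (Or.inr (by omega))

end FracOrd

end Fermat.Agent.X0
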