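import Mathlib
import Fermat.Agent.X0.JLocal
import Fermat.Agent.X0.ModValAlg

/-!
# X-MOD, piece MOD-VAL (abstract analytic layer)

* `ordH φ z` : order of vanishing at `z : ℍ` of `φ : ℍ → ℂ` (via `analyticOrderNatAt` of
  `φ ∘ ofComplex`), with multiplicativity, ultrametric inequality, transport under Möbius
  transformations and the **rotation lemma** (`denom_pow_two_mul_ordH_eq_one`, `dvd_ordH_of_...`).
* `ordAtPt θ z : F → ℤ` : for an injective ring hom `θ : R →+* (ℍ → ℂ)` with holomorphic values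
  and `F = Frac R`, the valuation `a / b ↦ ordH (θ a) z - ordH (θ b) z` of `F`.
-/

set_option autoImplicit false

namespace Fermat.Agent.X0

open UpperHalfPlane Filter Topology
open scoped Manifold MatrixGroups

/-! ## Order of vanishing of a function on `ℍ` -/

/-- The order of vanishing at `z : ℍ` of a function on the upper half plane. -/
noncomputable def ordH (φ : ℍ → ℂ) (z : ℍ) : ℕ := analyticOrderNatAt (φ ∘ ofComplex) (z : ℂ)

theorem analyticOrderAt_comp_ofComplex_ne_top {φ : ℍ → ℂ} (hφ : MDiff φ) (h0 : φ ≠ 0) (z : ℍ) :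
    analyticOrderAt (φ ∘ ofComplex) (z : ℂ) ≠ ⊤ :=
  ordAt_ne_top hφ h0 z

theorem natCast_ordH {φ : ℍ → ℂ} (hφ : MDiff φ) (h0 : φ ≠ 0) (z : ℍ) :
    (ordH φ z : ℕ∞) = analyticOrderAt (φ ∘ ofComplex) (z : ℂ) :=
  Nat.cast_analyticOrderNatAt (analyticOrderAt_comp_ofComplex_ne_top hφ h0 z)

/-- Comparison with `ordAt` of `JLocal.lean`. -/
theorem natCast_ordH_eq_ordAt {φ : ℍ → ℂ} (hφ : MDiff φ) (h0 : φ ≠ 0) (z : ℍ) :
    (ordH φ z : ℕ∞) = ordAt φ z :=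
  natCast_ordH hφ h0 z

theorem ordH_eq_of_ordAt_eq {φ : ℍ → ℂ} (hφ : MDiff φ) (h0 : φ ≠ 0) {z : ℍ} {n : ℕ}
    (h : ordAt φ z = n) : ordH φ z = n := by
  have := natCast_ordH_eq_ordAt hφ h0 z
  rw [h] at this
  exact_mod_cast this

theorem ordH_mul {φ ψ : ℍ → ℂ} (hφ : MDiff φ) (hψ : MDiff ψ) (h0 : φ ≠ 0) (h1 : ψ ≠ 0) (z : ℍ) :
    ordH (φ * ψ) z = ordH φ z + ordH ψ z := by
  unfold ordH
  exact analyticOrderNatAt_mul (analyticAt_comp_ofComplex hφ z) (analyticAt_comp_ofComplex hψ z)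
    (analyticOrderAt_comp_ofComplex_ne_top hφ h0 z) (analyticOrderAt_comp_ofComplex_ne_top hψ h1 z)

theorem min_ordH_le_ordH_add {φ ψ : ℍ → ℂ} (hφ : MDiff φ) (hψ : MDiff ψ) (h0 : φ ≠ 0)
    (h1 : ψ ≠ 0) (h2 : φ + ψ ≠ 0) (z : ℍ) : min (ordH φ z) (ordH ψ z) ≤ ordH (φ + ψ) z := by
  have h := le_analyticOrderAt_add (f := φ ∘ ofComplex) (g := ψ ∘ ofComplex) (z₀ := (z : ℂ))
  have e : (φ ∘ ofComplex) + (ψ ∘ ofComplex) = (φ + ψ) ∘ ofComplex := rfl
  rw [e, ← natCast_ordH hφ h0, ← natCast_ordH hψ h1, ← natCast_ordH (hφ.add hψ) h2] at h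
  rcases min_le_iff.mp h with h | h
  · exact min_le_iff.mpr (Or.inl (by exact_mod_cast h))
  · exact min_le_iff.mpr (Or.inr (by exact_mod_cast h))

theorem ordH_const {c : ℂ} (hc : c ≠ 0) (z : ℍ) : ordH (fun _ => c) z = 0 := by
  unfold ordH
  have : analyticOrderAt ((fun _ : ℍ => c) ∘ ofComplex) (z : ℂ) = 0 := by
    rw [analyticOrderAt_eq_zero]
    right
    simpa using hc
  simp [analyticOrderNatAt, this]

/-- `ordH φ z = 0` iff `φ z ≠ 0` (for `φ` holomorphic). -/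
theorem ordH_eq_zero_iff {φ : ℍ → ℂ} (hφ : MDiff φ) (h0 : φ ≠ 0) (z : ℍ) :
    ordH φ z = 0 ↔ φ z ≠ 0 := by
  have h1 : (ordH φ z : ℕ∞) = 0 ↔ φ z ≠ 0 := by
    rw [natCast_ordH hφ h0, (analyticAt_comp_ofComplex hφ z).analyticOrderAt_eq_zero]
    simp
  rw [← h1]
  exact_mod_cast Iff.rfl

/-! ## Transport under Möbius transformations -/

theorem glDet_eq_one (g : SL(2, ℤ)) : ((g : GL (Fin 2) ℝ)).val.det = 1 := by
  have := Matrix.SpecialLinearGroup.det_mapGL (S := ℝ) g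
  have h2 : ((g : GL (Fin 2) ℝ)).val.det = ((Matrix.SpecialLinearGroup.mapGL ℝ g).det : ℝ) := rfl
  rw [h2, this]; simp

theorem glDet_pos (g : SL(2, ℤ)) : 0 < ((g : GL (Fin 2) ℝ)).val.det := by
  rw [glDet_eq_one]; exact one_pos

theorem ordH_comp_glSmul (φ : ℍ → ℂ) {g : GL (Fin 2) ℝ} (hg : 0 < g.val.det) (z : ℍ) :
    ordH (fun τ => φ (g • τ)) z = ordH φ (g • z) := by
  unfold ordH
  let G : ℂ → ℂ := fun w => ↑(g • ofComplex w)
  have h1 : (fun τ => φ (g • τ)) ∘ ofComplex = (φ ∘ ofComplex) ∘ G := by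
    ext w; simp [G]
  have h2 : analyticOrderAt ((φ ∘ ofComplex) ∘ G) (z : ℂ) =
      analyticOrderAt (φ ∘ ofComplex) (G z) :=
    analyticOrderAt_comp_of_deriv_ne_zero (z.analyticAt_smul hg) (z.deriv_smul_ne_zero hg)
  have h3 : G z = ↑(g • z) := by simp [G]
  unfold analyticOrderNatAt
  rw [h1, h2, h3]

theorem ordH_comp_smul (φ : ℍ → ℂ) (g : SL(2, ℤ)) (z : ℍ) :
    ordH (fun τ => φ (g • τ)) z = ordH φ (g • z) :=
  ordH_comp_glSmul φ (glDet_pos g) z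

theorem mdiff_comp_smul {φ : ℍ → ℂ} (hφ : MDiff φ) (g : SL(2, ℤ)) :
    MDiff (fun τ => φ (g • τ)) :=
  hφ.comp (mdifferentiable_smul (glDet_pos g))

/-! ## The rotation lemma -/

/-- **Rotation lemma.** If `φ` is analytic at `z0`, not locally zero, and invariant under a map
`g` fixing `z0` with derivative `ζ` at `z0`, then `ζ ^ (ord_{z0} φ) = 1`. -/
theorem pow_analyticOrderNatAt_eq_one_of_comp_eventuallyEq {φ g : ℂ → ℂ} {z0 ζ : ℂ}
    (hφ : AnalyticAt ℂ φ z0) (hfin : analyticOrderAt φ z0 ≠ ⊤)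
    (hg : HasDerivAt g ζ z0) (hg0 : g z0 = z0)
    (hinv : φ ∘ g =ᶠ[𝓝 z0] φ) : ζ ^ analyticOrderNatAt φ z0 = 1 := by
  set n := analyticOrderNatAt φ z0 with hn
  have hord : analyticOrderAt φ z0 = n := (Nat.cast_analyticOrderNatAt hfin).symm
  obtain ⟨F, hFa, hF0, hFeq⟩ := (hφ.analyticOrderAt_eq_natCast).mp hord
  have hgc : ContinuousAt g z0 := hg.continuousAt
  have hgt : Tendsto g (𝓝 z0) (𝓝 z0) := by
    have := hgc.tendsto
    rwa [hg0] at this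
  have hFeq' : ∀ᶠ z in 𝓝 z0, φ (g z) = (g z - z0) ^ n • F (g z) := hgt.eventually hFeq
  set D : ℂ → ℂ := dslope g z0 with hD
  have hDc : ContinuousAt D z0 := continuousAt_dslope_same.mpr hg.differentiableAt
  have hD0 : D z0 = ζ := by rw [hD, dslope_same, hg.deriv]
  have hgz : ∀ z, g z - z0 = (z - z0) * D z := by
    intro z
    have := sub_smul_dslope g z0 z
    rw [hg0, smul_eq_mul] at this
    exact this.symm
  have key : ∀ᶠ z in 𝓝[≠] z0, F z = D z ^ n * F (g z) := by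
    rw [eventually_nhdsWithin_iff]
    filter_upwards [hFeq, hFeq', hinv] with z h1 h2 h3 hz
    have hz' : z - z0 ≠ 0 := sub_ne_zero.mpr hz
    have h4 : φ (g z) = φ z := h3
    rw [h1, h2, hgz z, mul_pow, smul_eq_mul, smul_eq_mul, mul_assoc] at h4
    exact (mul_left_cancel₀ (pow_ne_zero n hz') h4).symm
  have hFc : ContinuousAt F z0 := hFa.continuousAt
  have hlim1 : Tendsto F (𝓝[≠] z0) (𝓝 (F z0)) := hFc.tendsto.mono_left nhdsWithin_le_nhds
  have hFg : Tendsto (fun z => F (g z)) (𝓝 z0) (𝓝 (F z0)) := hFc.tendsto.comp hgt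
  have hlim2 : Tendsto (fun z => D z ^ n * F (g z)) (𝓝[≠] z0) (𝓝 (ζ ^ n * F z0)) := by
    have h5 : Tendsto (fun z => D z ^ n * F (g z)) (𝓝 z0) (𝓝 (D z0 ^ n * F z0)) :=
      (hDc.tendsto.pow n).mul hFg
    rw [hD0] at h5
    exact h5.mono_left nhdsWithin_le_nhds
  have hlim3 : Tendsto F (𝓝[≠] z0) (𝓝 (ζ ^ n * F z0)) :=
    hlim2.congr' (key.mono fun z hz => hz.symm)
  have heq : F z0 = ζ ^ n * F z0 := tendsto_nhds_unique hlim1 hlim3
  have : (ζ ^ n - 1) * F z0 = 0 := by rw [sub_mul, one_mul, ← heq, sub_self]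
  rcases mul_eq_zero.mp this with h | h
  · exact sub_eq_zero.mp h
  · exact absurd h hF0

/-- Rotation lemma on `ℍ`: if `φ` is holomorphic, nonzero and invariant under `γ ∈ SL(2,ℤ)` fixing
`z`, then `(denom γ z) ^ (2 * ordH φ z) = 1`. -/
theorem denom_pow_two_mul_ordH_eq_one {φ : ℍ → ℂ} (hφ : MDiff φ) (h0 : φ ≠ 0) (γ : SL(2, ℤ))
    (z : ℍ) (hz : γ • z = z) (hinv : ∀ τ, φ (γ • τ) = φ τ) :
    (denom (γ : GL (Fin 2) ℝ) z) ^ (2 * ordH φ z) = 1 := by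
  have hg := glDet_pos γ
  have hd := (z.hasStrictDerivAt_smul hg).hasDerivAt
  have hg0 : (fun w : ℂ => (((γ : GL (Fin 2) ℝ) • ofComplex w : ℍ) : ℂ)) (z : ℂ) = (z : ℂ) := by
    show (((γ : GL (Fin 2) ℝ) • ofComplex (z : ℂ) : ℍ) : ℂ) = z
    rw [ofComplex_apply]
    exact congrArg _ hz
  have hcomp : (φ ∘ ofComplex) ∘ (fun w : ℂ => (((γ : GL (Fin 2) ℝ) • ofComplex w : ℍ) : ℂ))
      =ᶠ[𝓝 (z : ℂ)] φ ∘ ofComplex := by
    refine Eventually.of_forall fun w => ?_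
    simp only [Function.comp_apply, ofComplex_apply]
    exact hinv (ofComplex w)
  have key := pow_analyticOrderNatAt_eq_one_of_comp_eventuallyEq
    (analyticAt_comp_ofComplex hφ z) (analyticOrderAt_comp_ofComplex_ne_top hφ h0 z) hd hg0 hcomp
  rw [glDet_eq_one γ] at key
  unfold ordH
  rw [pow_mul]
  have : ((1 : ℝ) : ℂ) / denom (γ : GL (Fin 2) ℝ) (z : ℂ) ^ 2 =
      (denom (γ : GL (Fin 2) ℝ) z ^ 2)⁻¹ := by
    simp
  rw [this, inv_pow, inv_eq_one] at key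
  exact key

/-- If moreover `(denom γ z) ^ 2` is a primitive `m`-th root of unity, then `m ∣ ordH φ z`. -/
theorem dvd_ordH_of_isPrimitiveRoot {φ : ℍ → ℂ} (hφ : MDiff φ) (h0 : φ ≠ 0) (γ : SL(2, ℤ))
    (z : ℍ) (hz : γ • z = z) (hinv : ∀ τ, φ (γ • τ) = φ τ) {m : ℕ}
    (hm : IsPrimitiveRoot ((denom (γ : GL (Fin 2) ℝ) z) ^ 2) m) : m ∣ ordH φ z := by
  apply hm.dvd_of_pow_eq_one
  rw [← pow_mul]
  exact denom_pow_two_mul_ordH_eq_one hφ h0 γ z hz hinv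

/-! ## The valuation of `Frac R` attached to `θ : R →+* (ℍ → ℂ)` and a point -/

section Valuation

variable {R F : Type*} [CommRing R] [IsDomain R] [Field F] [Algebra R F] [IsFractionRing R F]

/-- The order at `z` on `R`, via `θ`. -/
noncomputable def ordR (θ : R →+* (ℍ → ℂ)) (z : ℍ) (r : R) : ℤ := (ordH (θ r) z : ℤ)

/-- The valuation of `F = Frac R` given by the order of vanishing at `z` via `θ`. -/
noncomputable def ordAtPt (θ : R →+* (ℍ → ℂ)) (z : ℍ) : F → ℤ := fracOrd (ordR θ z)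

variable {θ : R →+* (ℍ → ℂ)}

theorem map_ne_zero_of_injective (hinj : Function.Injective θ) {r : R} (hr : r ≠ 0) : θ r ≠ 0 :=
  fun h => hr (hinj (by rw [h, map_zero]))

theorem ordR_mul (hinj : Function.Injective θ) (hhol : ∀ r, MDiff (θ r)) (z : ℍ) (a b : R)
    (ha : a ≠ 0) (hb : b ≠ 0) : ordR θ z (a * b) = ordR θ z a + ordR θ z b := by
  unfold ordR
  rw [map_mul, ordH_mul (hhol a) (hhol b) (map_ne_zero_of_injective hinj ha)
    (map_ne_zero_of_injective hinj hb)]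
  push_cast
  rfl

theorem ordR_add (hinj : Function.Injective θ) (hhol : ∀ r, MDiff (θ r)) (z : ℍ) (a b : R)
    (ha : a ≠ 0) (hb : b ≠ 0) (hab : a + b ≠ 0) :
    min (ordR θ z a) (ordR θ z b) ≤ ordR θ z (a + b) := by
  unfold ordR
  have h := min_ordH_le_ordH_add (hhol a) (hhol b) (map_ne_zero_of_injective hinj ha)
    (map_ne_zero_of_injective hinj hb) (by rw [← map_add]; exact map_ne_zero_of_injective hinj hab) z
  rw [map_add]
  exact_mod_cast h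

theorem ordAtPt_div (hinj : Function.Injective θ) (hhol : ∀ r, MDiff (θ r)) (z : ℍ) {a b : R}
    (ha : a ≠ 0) (hb : b ≠ 0) :
    ordAtPt (F := F) θ z (algebraMap R F a / algebraMap R F b) =
      (ordH (θ a) z : ℤ) - (ordH (θ b) z : ℤ) :=
  fracOrd_div (ordR_mul hinj hhol z) ha hb

theorem ordAtPt_algebraMap (hinj : Function.Injective θ) (hhol : ∀ r, MDiff (θ r)) (z : ℍ) {a : R}
    (ha : a ≠ 0) : ordAtPt (F := F) θ z (algebraMap R F a) = (ordH (θ a) z : ℤ) :=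
  fracOrd_algebraMap (ordR_mul hinj hhol z) ha

theorem ordAtPt_algebraMap_nonneg (hinj : Function.Injective θ) (hhol : ∀ r, MDiff (θ r)) (z : ℍ)
    {a : R} (ha : a ≠ 0) : 0 ≤ ordAtPt (F := F) θ z (algebraMap R F a) := by
  rw [ordAtPt_algebraMap hinj hhol z ha]
  exact Int.natCast_nonneg _

theorem ordAtPt_mul (hinj : Function.Injective θ) (hhol : ∀ r, MDiff (θ r)) (z : ℍ) {f g : F}
    (hf : f ≠ 0) (hg : g ≠ 0) :
    ordAtPt θ z (f * g) = ordAtPt (R := R) θ z f + ordAtPt (R := R) θ z g :=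
  fracOrd_mul (ordR_mul hinj hhol z) hf hg

theorem ordAtPt_inv (hinj : Function.Injective θ) (hhol : ∀ r, MDiff (θ r)) (z : ℍ) {f : F}
    (hf : f ≠ 0) : ordAtPt (R := R) θ z f⁻¹ = - ordAtPt (R := R) θ z f :=
  fracOrd_inv (ordR_mul hinj hhol z) hf

theorem ordAtPt_add (hinj : Function.Injective θ) (hhol : ∀ r, MDiff (θ r)) (z : ℍ) {f g : F}
    (hf : f ≠ 0) (hg : g ≠ 0) (hfg : f + g ≠ 0) :
    min (ordAtPt (R := R) θ z f) (ordAtPt (R := R) θ z g) ≤ ordAtPt (R := R) θ z (f + g) :=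
  fracOrd_add (ordR_mul hinj hhol z) (ordR_add hinj hhol z) hf hg hfg

/-- Elements of `R` mapped to nonzero constants have order `0`. -/
theorem ordAtPt_algebraMap_of_const (hinj : Function.Injective θ) (hhol : ∀ r, MDiff (θ r))
    (z : ℍ) {a : R} {c : ℂ} (hc : c ≠ 0) (hθ : θ a = fun _ => c) :
    ordAtPt (F := F) θ z (algebraMap R F a) = 0 := by
  have ha : a ≠ 0 := by
    rintro rfl
    rw [map_zero] at hθ
    exact hc (congrFun hθ z).symm
  rw [ordAtPt_algebraMap hinj hhol z ha, hθ, ordH_const hc]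
  rfl

/-! ### Conjugation by `SL(2,ℤ)` -/

/-- Precomposition with the action of `g⁻¹`, as a ring endomorphism of `ℍ → ℂ`. -/
noncomputable def conjRingHom (g : SL(2, ℤ)) : (ℍ → ℂ) →+* (ℍ → ℂ) :=
  RingHom.pi fun τ => Pi.evalRingHom (fun _ : ℍ => ℂ) (g⁻¹ • τ)

@[simp] theorem conjRingHom_apply (g : SL(2, ℤ)) (φ : ℍ → ℂ) (τ : ℍ) :
    conjRingHom g φ τ = φ (g⁻¹ • τ) := rfl

theorem conjRingHom_injective (g : SL(2, ℤ)) : Function.Injective (conjRingHom g) := by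
  intro φ ψ h
  funext τ
  have := congrFun h (g • τ)
  simpa using this

theorem conjRingHom_mul (g h : SL(2, ℤ)) (φ : ℍ → ℂ) :
    conjRingHom (g * h) φ = conjRingHom g (conjRingHom h φ) := by
  funext τ
  simp [mul_inv_rev, mul_smul]

theorem conjRingHom_one (φ : ℍ → ℂ) : conjRingHom 1 φ = φ := by
  funext τ
  simp

/-- The conjugate of `θ` by `g`: `r ↦ θ r ∘ (g⁻¹ • ·)`. -/
noncomputable def conjHom (g : SL(2, ℤ)) (θ : R →+* (ℍ → ℂ)) : R →+* (ℍ → ℂ) :=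
  (conjRingHom g).comp θ

@[simp] theorem conjHom_apply (g : SL(2, ℤ)) (θ : R →+* (ℍ → ℂ)) (r : R) (τ : ℍ) :
    conjHom g θ r τ = θ r (g⁻¹ • τ) := rfl

theorem conjHom_injective (g : SL(2, ℤ)) (hinj : Function.Injective θ) :
    Function.Injective (conjHom g θ) :=
  (conjRingHom_injective g).comp hinj

theorem conjHom_mdiff (g : SL(2, ℤ)) (hhol : ∀ r, MDiff (θ r)) (r : R) :
    MDiff (conjHom g θ r) :=
  mdiff_comp_smul (hhol r) g⁻¹

/-- Transport of the valuation: the valuation at `z` of the `g`-conjugate is the valuation at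
`g⁻¹ • z`. -/
theorem ordAtPt_conjHom (g : SL(2, ℤ)) (θ : R →+* (ℍ → ℂ)) (z : ℍ) :
    ordAtPt (F := F) (conjHom g θ) z = ordAtPt (F := F) θ (g⁻¹ • z) := by
  unfold ordAtPt
  congr 1
  funext r
  unfold ordR
  have := ordH_comp_smul (θ r) g⁻¹ z
  rw [← this]
  rfl

/-- `w_eps`: if `g` fixes `z`, the `g`-conjugate has the same valuation at `z`. -/
theorem ordAtPt_conjHom_of_smul_eq (g : SL(2, ℤ)) (θ : R →+* (ℍ → ℂ)) {z : ℍ} (hz : g • z = z) :
    ordAtPt (F := F) (conjHom g θ) z = ordAtPt (F := F) θ z := by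
  rw [ordAtPt_conjHom]
  congr 1
  rw [← hz, inv_smul_smul, hz]

/-- `w_div`: if all `θ r` are invariant under `γ`, `γ` fixes `z` and `(denom γ z) ^ 2` is a
primitive `m`-th root of unity, then `m` divides all values of the valuation at `z`. -/
theorem dvd_ordAtPt (hinj : Function.Injective θ) (hhol : ∀ r, MDiff (θ r)) (γ : SL(2, ℤ)) {z : ℍ}
    (hz : γ • z = z) (hinv : ∀ r τ, θ r (γ • τ) = θ r τ) {m : ℕ}
    (hm : IsPrimitiveRoot ((denom (γ : GL (Fin 2) ℝ) z) ^ 2) m) {f : F} (hf : f ≠ 0) :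
    (m : ℤ) ∣ ordAtPt (R := R) θ z f := by
  obtain ⟨a, b, ha, hb, rfl⟩ := exists_eq_div_of_ne_zero (R := R) hf
  rw [ordAtPt_div hinj hhol z ha hb]
  have h1 := dvd_ordH_of_isPrimitiveRoot (hhol a) (map_ne_zero_of_injective hinj ha) γ z hz
    (hinv a) hm
  have h2 := dvd_ordH_of_isPrimitiveRoot (hhol b) (map_ne_zero_of_injective hinj hb) γ z hz
    (hinv b) hm
  exact dvd_sub (Int.natCast_dvd_natCast.mpr h1) (Int.natCast_dvd_natCast.mpr h2)

/-! ### The elliptic points `i` and `ρ` -/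

theorem denom_S_I_sq : (denom (ModularGroup.S : GL (Fin 2) ℝ) UpperHalfPlane.I) ^ 2 = -1 := by
  rw [ModularGroup.denom_S, UpperHalfPlane.coe_I, Complex.I_sq]

theorem isPrimitiveRoot_denom_S_I :
    IsPrimitiveRoot ((denom (ModularGroup.S : GL (Fin 2) ℝ) UpperHalfPlane.I) ^ 2) 2 := by
  rw [denom_S_I_sq]
  exact IsPrimitiveRoot.neg_one 0 (by norm_num)

theorem denom_ST_ρ_sq :
    (denom ((ModularGroup.S * ModularGroup.T : SL(2, ℤ)) : GL (Fin 2) ℝ) UpperHalfPlane.ρ) ^ 2 =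
      (UpperHalfPlane.ρ : ℂ) := by
  rw [ModularGroup.denom_apply]
  have h1 : (ModularGroup.S * ModularGroup.T) 1 0 = 1 := by decide
  have h2 : (ModularGroup.S * ModularGroup.T) 1 1 = 1 := by decide
  rw [h1, h2]
  have := UpperHalfPlane.ρ_sq
  push_cast
  linear_combination this

theorem isPrimitiveRoot_ρ : IsPrimitiveRoot (UpperHalfPlane.ρ : ℂ) 3 := by
  have hsq := UpperHalfPlane.ρ_sq
  have h3 : (UpperHalfPlane.ρ : ℂ) ^ 3 = 1 := by
    calc (UpperHalfPlane.ρ : ℂ) ^ 3 = (UpperHalfPlane.ρ : ℂ) ^ 2 * ρ := by ring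
      _ = 1 := by rw [hsq]; linear_combination -hsq
  have him : (UpperHalfPlane.ρ : ℂ).im ≠ 0 := by
    rw [UpperHalfPlane.coe_im]; exact UpperHalfPlane.ρ.im_pos.ne'
  refine IsPrimitiveRoot.mk_of_lt _ (by norm_num) h3 ?_
  intro l hl0 hl3 h
  interval_cases l
  · rw [pow_one] at h
    rw [h] at him
    simp at him
  · rw [hsq] at h
    have : (UpperHalfPlane.ρ : ℂ) = -2 := by linear_combination -h
    rw [this] at him
    simp at him

theorem isPrimitiveRoot_denom_ST_ρ :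
    IsPrimitiveRoot ((denom ((ModularGroup.S * ModularGroup.T : SL(2, ℤ)) : GL (Fin 2) ℝ)
      UpperHalfPlane.ρ) ^ 2) 3 := by
  rw [denom_ST_ρ_sq]
  exact isPrimitiveRoot_ρ

/-- `w_div` at `i`: if all `θ r` are `S`-invariant, all values of the valuation at `i` are even. -/
theorem two_dvd_ordAtPt_I (hinj : Function.Injective θ) (hhol : ∀ r, MDiff (θ r))
    (hinv : ∀ r τ, θ r (ModularGroup.S • τ) = θ r τ) {f : F} (hf : f ≠ 0) :
    (2 : ℤ) ∣ ordAtPt (R := R) θ UpperHalfPlane.I f :=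
  dvd_ordAtPt hinj hhol ModularGroup.S S_smul_I hinv isPrimitiveRoot_denom_S_I hf

/-- `w_div` at `ρ`: if all `θ r` are `ST`-invariant, all values of the valuation at `ρ` are
divisible by `3`. -/
theorem three_dvd_ordAtPt_ρ (hinj : Function.Injective θ) (hhol : ∀ r, MDiff (θ r))
    (hinv : ∀ r τ, θ r ((ModularGroup.S * ModularGroup.T) • τ) = θ r τ) {f : F} (hf : f ≠ 0) :
    (3 : ℤ) ∣ ordAtPt (R := R) θ UpperHalfPlane.ρ f :=
  dvd_ordAtPt hinj hhol (ModularGroup.S * ModularGroup.T) ST_smul_ρ hinv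
    isPrimitiveRoot_denom_ST_ρ hf

/-! ### Conjugates indexed by left cosets -/

/-- The conjugate of a `Γ`-invariant `θ` attached to a left coset `c = γ Γ`:
`r ↦ θ r ∘ (γ⁻¹ • ·)`. -/
noncomputable def cosetHom (Γ : Subgroup SL(2, ℤ)) (θ : R →+* (ℍ → ℂ)) (c : SL(2, ℤ) ⧸ Γ) :
    R →+* (ℍ → ℂ) :=
  conjHom (Quotient.out c) θ

theorem conjHom_mul_of_invariant {Γ : Subgroup SL(2, ℤ)}
    (hΓ : ∀ γ ∈ Γ, ∀ r τ, θ r (γ • τ) = θ r τ) (g : SL(2, ℤ)) {h : SL(2, ℤ)} (hh : h ∈ Γ) :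
    conjHom (g * h) θ = conjHom g θ := by
  ext r τ
  simp only [conjHom_apply, mul_inv_rev, mul_smul]
  exact hΓ h⁻¹ (Γ.inv_mem hh) r _

theorem cosetHom_mk {Γ : Subgroup SL(2, ℤ)} (hΓ : ∀ γ ∈ Γ, ∀ r τ, θ r (γ • τ) = θ r τ)
    (g : SL(2, ℤ)) : cosetHom Γ θ (g : SL(2, ℤ) ⧸ Γ) = conjHom g θ := by
  obtain ⟨h, hh⟩ := QuotientGroup.mk_out_eq_mul Γ g
  unfold cosetHom
  rw [hh]
  exact conjHom_mul_of_invariant hΓ g h.2

theorem conjHom_conjHom (g h : SL(2, ℤ)) (θ : R →+* (ℍ → ℂ)) :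
    conjHom g (conjHom h θ) = conjHom (g * h) θ := by
  ext r τ
  simp [mul_inv_rev, mul_smul]

theorem cosetHom_smul {Γ : Subgroup SL(2, ℤ)} (hΓ : ∀ γ ∈ Γ, ∀ r τ, θ r (γ • τ) = θ r τ)
    (g : SL(2, ℤ)) (c : SL(2, ℤ) ⧸ Γ) :
    cosetHom Γ θ (g • c) = conjHom g (cosetHom Γ θ c) := by
  obtain ⟨a, rfl⟩ := QuotientGroup.mk_surjective c
  rw [MulAction.Quotient.smul_mk, cosetHom_mk hΓ, cosetHom_mk hΓ, conjHom_conjHom, smul_eq_mul]

theorem cosetHom_injective (Γ : Subgroup SL(2, ℤ)) (hinj : Function.Injective θ)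
    (c : SL(2, ℤ) ⧸ Γ) : Function.Injective (cosetHom Γ θ c) :=
  conjHom_injective _ hinj

theorem cosetHom_mdiff (Γ : Subgroup SL(2, ℤ)) (hhol : ∀ r, MDiff (θ r)) (c : SL(2, ℤ) ⧸ Γ)
    (r : R) : MDiff (cosetHom Γ θ c r) :=
  conjHom_mdiff _ hhol r

/-- If `g • c = c` then the conjugate `cosetHom Γ θ c` is `g`-invariant. -/
theorem cosetHom_invariant_of_smul_eq {Γ : Subgroup SL(2, ℤ)}
    (hΓ : ∀ γ ∈ Γ, ∀ r τ, θ r (γ • τ) = θ r τ) {g : SL(2, ℤ)} {c : SL(2, ℤ) ⧸ Γ}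
    (hc : g • c = c) (r : R) (τ : ℍ) : cosetHom Γ θ c r (g • τ) = cosetHom Γ θ c r τ := by
  have h := cosetHom_smul hΓ g c
  rw [hc] at h
  have h2 := congrFun (congrArg (fun ψ : R →+* (ℍ → ℂ) => ψ r) h) (g • τ)
  simp only [conjHom_apply, inv_smul_smul] at h2
  exact h2

/-- `w_eps` for the coset family: the valuation at a fixed point `z` of `g` is the same for the
cosets `c` and `g • c`. -/
theorem ordAtPt_cosetHom_smul {Γ : Subgroup SL(2, ℤ)}
    (hΓ : ∀ γ ∈ Γ, ∀ r τ, θ r (γ • τ) = θ r τ) {g : SL(2, ℤ)} {z : ℍ} (hz : g • z = z)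
    (c : SL(2, ℤ) ⧸ Γ) :
    ordAtPt (F := F) (cosetHom Γ θ (g • c)) z = ordAtPt (F := F) (cosetHom Γ θ c) z := by
  rw [cosetHom_smul hΓ, ordAtPt_conjHom_of_smul_eq g _ hz]

end Valuation

end Fermat.Agent.X0
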