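import Mathlib
import Fermat.Agent.S23.Basic

set_option autoImplicit false

/-!
# Program X, piece MOD-L1POLY

Level one modular forms of weight `12 m` whose `q`-expansion has all its coefficients in a
subfield `A ⊆ ℂ` are of the form `Δ ^ m * P(j)` with `P ∈ A[X]` of degree `≤ m`, where
`j = E₄ ^ 3 / Δ`.  Consequently a holomorphic `SL(2, ℤ)`-invariant function `φ` on `ℍ` such that
`Δ ^ m * φ` is bounded at `i∞` with `A`-rational `q`-expansion is a polynomial in `j` with
coefficients in `A`.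
-/

namespace Fermat.Agent.X0.L1Poly

open UpperHalfPlane ModularForm Fermat.Agent.S23
open scoped MatrixGroups ModularForm Manifold

/-- The subring of power series over `ℂ` all of whose coefficients lie in the subring `A`. -/
noncomputable def ratPS (A : Subring ℂ) : Subring (PowerSeries ℂ) := (PowerSeries.map A.subtype).range

theorem mem_ratPS_iff {A : Subring ℂ} {p : PowerSeries ℂ} :
    p ∈ ratPS A ↔ ∀ n, PowerSeries.coeff n p ∈ A := by
  constructor
  · rintro ⟨q, rfl⟩ n
    simp
  · intro h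
    refine ⟨PowerSeries.mk fun n => ⟨PowerSeries.coeff n p, h n⟩, ?_⟩
    ext n
    simp

/-- Division by a series `X * (1 + …)` with coefficients in `A` preserves `A`-rationality. -/
theorem mem_ratPS_of_mul_mem {A : Subring ℂ} {d f g : PowerSeries ℂ} (hd : d ∈ ratPS A)
    (hd0 : PowerSeries.coeff 0 d = 0) (hd1 : PowerSeries.coeff 1 d = 1)
    (hf : f ∈ ratPS A) (hfg : f = d * g) : g ∈ ratPS A := by
  -- write `d = X * u` with `u` a unit of `A⟦X⟧`
  obtain ⟨d', rfl⟩ := hd
  have hX : (PowerSeries.X : PowerSeries A) ∣ d' := by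
    rw [PowerSeries.X_dvd_iff]
    have : (A.subtype (PowerSeries.constantCoeff d')) = 0 := by
      simpa using hd0
    exact (map_eq_zero_iff A.subtype Subtype.val_injective).mp this
  obtain ⟨u, rfl⟩ := hX
  have hu1 : PowerSeries.constantCoeff u = 1 := by
    have h1 : PowerSeries.coeff 1 (PowerSeries.map A.subtype (PowerSeries.X * u)) = 1 := hd1
    rw [PowerSeries.coeff_map, show (1 : ℕ) = 0 + 1 from rfl, PowerSeries.coeff_succ_X_mul] at h1
    apply Subtype.val_injective
    simpa using h1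
  have huu : IsUnit u := by
    rw [PowerSeries.isUnit_iff_constantCoeff, hu1]
    exact isUnit_one
  obtain ⟨v, hv⟩ := huu.exists_right_inv
  obtain ⟨f', rfl⟩ := hf
  -- `f' = X * w`
  have hX' : (PowerSeries.X : PowerSeries A) ∣ f' := by
    rw [PowerSeries.X_dvd_iff]
    have h0 : PowerSeries.coeff 0 (PowerSeries.map A.subtype f') = 0 := by
      rw [hfg, PowerSeries.coeff_zero_eq_constantCoeff_apply, map_mul, map_mul]
      simp
    have : (A.subtype (PowerSeries.constantCoeff f')) = 0 := by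
      simpa using h0
    exact (map_eq_zero_iff A.subtype Subtype.val_injective).mp this
  obtain ⟨w, rfl⟩ := hX'
  refine ⟨v * w, ?_⟩
  have hmap : Function.Injective (PowerSeries.map A.subtype) :=
    PowerSeries.map_injective _ Subtype.val_injective
  simp only [map_mul, PowerSeries.map_X] at hfg ⊢
  have hXne : (PowerSeries.X : PowerSeries ℂ) ≠ 0 := PowerSeries.X_ne_zero
  have h2 : PowerSeries.map A.subtype w = PowerSeries.map A.subtype u * g := by
    apply mul_left_cancel₀ hXne
    rw [hfg, mul_assoc]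
  rw [h2, ← mul_assoc, ← map_mul, mul_comm v u, hv, map_one, one_mul]


/-- Level one modular forms are nice. -/
theorem isNice_lvl1 {k : ℤ} (g : ModularForm 𝒮ℒ k) : IsNice (g : ℍ → ℂ) :=
  isNice_of_modularForm one_mem_strictPeriods_SL g

/-- The normalised Eisenstein series have `q`-expansion coefficients in every subfield. -/
theorem qExpansion_E_mem_ratPS (A : Subfield ℂ) {k : ℕ} (hk : 3 ≤ k) (hk2 : Even k) :
    qExpansion 1 (ModularForm.E hk : ℍ → ℂ) ∈ ratPS A.toSubring := by
  rw [mem_ratPS_iff]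
  intro n
  rw [EisensteinSeries.E_qExpansion_coeff hk hk2 n]
  split_ifs with hn
  · exact one_mem _
  · change _ ∈ A
    refine mul_mem (neg_mem (div_mem (mul_mem ?_ (natCast_mem A k)) (SubfieldClass.ratCast_mem A _)))
      (natCast_mem A _)
    exact ofNat_mem A 2

theorem discriminant_eq_smul :
    ModularForm.discriminant =
      ((1 / 1728 : ℂ)) • ((ModularForm.E₄ : ℍ → ℂ) ^ 3 - (ModularForm.E₆ : ℍ → ℂ) ^ 2) := by
  funext z
  rw [ModularForm.discriminant_eq_E₄_cube_sub_E₆_sq z]
  simp only [Pi.smul_apply, Pi.sub_apply, Pi.pow_apply, smul_eq_mul]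
  ring

theorem isNice_discriminant : IsNice ModularForm.discriminant := by
  rw [← CuspForm.coe_discriminant]
  exact isNice_of_modularForm one_mem_strictPeriods_SL _

/-- The discriminant has `q`-expansion coefficients in every subfield. -/
theorem qExpansion_discriminant_mem_ratPS (A : Subfield ℂ) :
    qExpansion 1 ModularForm.discriminant ∈ ratPS A.toSubring := by
  have h4 : IsNice (ModularForm.E₄ : ℍ → ℂ) := isNice_lvl1 _
  have h6 : IsNice (ModularForm.E₆ : ℍ → ℂ) := isNice_lvl1 _
  have c4 : qExpansion 1 (ModularForm.E₄ : ℍ → ℂ) ∈ ratPS A.toSubring :=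
    qExpansion_E_mem_ratPS A _ ⟨2, rfl⟩
  have c6 : qExpansion 1 (ModularForm.E₆ : ℍ → ℂ) ∈ ratPS A.toSubring :=
    qExpansion_E_mem_ratPS A _ ⟨3, rfl⟩
  rw [discriminant_eq_smul, ((h4.pow 3).sub (h6.pow 2)).qExpansion_smul,
    (h4.pow 3).qExpansion_sub (h6.pow 2), h4.qExpansion_pow, h6.qExpansion_pow]
  have hsub := sub_mem (pow_mem c4 3) (pow_mem c6 2)
  rw [mem_ratPS_iff] at hsub ⊢
  intro n
  rw [PowerSeries.coeff_smul]
  refine mul_mem ?_ (hsub n)
  change (1 / 1728 : ℂ) ∈ A
  exact div_mem (one_mem A) (ofNat_mem A 1728)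

theorem qExpansion_discriminant_coeff_zero :
    PowerSeries.coeff 0 (qExpansion 1 ModularForm.discriminant) = 0 := by
  have := (isNice_discriminant.isZeroAtImInfty_iff).mp ?_
  · exact this
  · rw [← CuspForm.coe_discriminant]
    exact CuspFormClass.zero_at_infty CuspForm.discriminant


theorem qExpansion_const_eq (c : ℂ) : qExpansion 1 (Function.const ℍ c) = PowerSeries.C c := by
  have h1 : (Function.const ℍ c : ℍ → ℂ) = c • (1 : ℍ → ℂ) := by
    funext z; simp
  rw [h1, isNice_one.qExpansion_smul, qExpansion_one]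
  ext n
  simp [PowerSeries.coeff_C, PowerSeries.coeff_one]

theorem E4_cube_eq (z : ℍ) : ModularForm.E₄ z ^ 3 =
    ModularForm.discriminant z * (ModularForm.E₄ z ^ 3 / ModularForm.discriminant z) := by
  field_simp [ModularForm.discriminant_ne_zero z]

private theorem l1poly_aux (A : Subfield ℂ) :
    ∀ (m : ℕ) (k : ℤ), k = 12 * (m : ℤ) → ∀ G : ModularForm 𝒮ℒ k,
      qExpansion 1 (G : ℍ → ℂ) ∈ ratPS A.toSubring →
      ∃ P : Polynomial A, P.natDegree ≤ m ∧
        ∀ z : ℍ, G z = ModularForm.discriminant z ^ m * (P.map A.subtype).eval (ModularForm.E₄ z ^ 3 / ModularForm.discriminant z) := by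
  intro m
  induction m with
  | zero =>
    intro k hk G hG
    have hk0 : k = 0 := by simpa using hk
    subst hk0
    obtain ⟨c, hc⟩ := ModularFormClass.levelOne_weight_zero_const G
    have hcA : c ∈ A := by
      have := (mem_ratPS_iff.mp hG) 0
      rw [hc, qExpansion_const_eq] at this
      simpa using this
    refine ⟨Polynomial.C ⟨c, hcA⟩, by simp, fun z => ?_⟩
    have := congrFun hc z
    simp [this]
  | succ m ih =>
    intro k hk G hG
    -- the Eisenstein part
    set E : ModularForm 𝒮ℒ k := ModularForm.mcast (by rw [hk]; push_cast; ring)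
      (ModularForm.E₄.pow (3 * (m + 1))) with hE
    have hEcoe : (E : ℍ → ℂ) = (ModularForm.E₄ : ℍ → ℂ) ^ (3 * (m + 1)) := by
      funext z
      have h1 : E z = (ModularForm.E₄.pow (3 * (m + 1))) z := by simp [hE]
      rw [h1, ModularForm.coe_pow]
    have h4 : IsNice (ModularForm.E₄ : ℍ → ℂ) := isNice_lvl1 _
    have c4 : qExpansion 1 (ModularForm.E₄ : ℍ → ℂ) ∈ ratPS A.toSubring :=
      qExpansion_E_mem_ratPS A _ ⟨2, rfl⟩
    have hEq : qExpansion 1 (E : ℍ → ℂ) = qExpansion 1 (ModularForm.E₄ : ℍ → ℂ) ^ (3 * (m + 1)) := by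
      rw [hEcoe, h4.qExpansion_pow]
    have hE0 : PowerSeries.coeff 0 (qExpansion 1 (E : ℍ → ℂ)) = 1 := by
      rw [hEq, PowerSeries.coeff_zero_eq_constantCoeff_apply, map_pow,
        ← PowerSeries.coeff_zero_eq_constantCoeff_apply,
        EisensteinSeries.E_qExpansion_coeff_zero _ ⟨2, rfl⟩, one_pow]
    have hEA : qExpansion 1 (E : ℍ → ℂ) ∈ ratPS A.toSubring := by
      rw [hEq]; exact pow_mem c4 _
    set a₀ : ℂ := PowerSeries.coeff 0 (qExpansion 1 (G : ℍ → ℂ)) with ha₀
    have ha₀A : a₀ ∈ A := (mem_ratPS_iff.mp hG) 0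
    obtain ⟨c, hc⟩ := ModularForm.sub_smul_isCuspForm G E hE0
    set H : ModularForm 𝒮ℒ (k - 12) := CuspForm.discriminantEquiv c with hH
    have hGn : IsNice (G : ℍ → ℂ) := isNice_lvl1 _
    have hEn : IsNice (E : ℍ → ℂ) := isNice_lvl1 _
    have hHn : IsNice (H : ℍ → ℂ) := isNice_lvl1 _
    have hΔn := isNice_discriminant
    -- `G = a₀ • E + Δ * H`
    have hcz : ∀ z, c z = G z - a₀ * E z := by
      intro z
      have := DFunLike.congr_fun hc z
      simpa [ha₀] using this
    have hg : (G : ℍ → ℂ) - a₀ • (E : ℍ → ℂ) = ModularForm.discriminant * (H : ℍ → ℂ) := by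
      funext z
      have h1 : ModularForm.discriminant z * H z = c z :=
        ModularForm.discriminant_mul_discriminantEquiv_apply c z
      simp only [Pi.sub_apply, Pi.smul_apply, Pi.mul_apply, smul_eq_mul]
      rw [h1, hcz]
    have hq : qExpansion 1 (G : ℍ → ℂ) - a₀ • qExpansion 1 (E : ℍ → ℂ) =
        qExpansion 1 ModularForm.discriminant * qExpansion 1 (H : ℍ → ℂ) := by
      rw [← hΔn.qExpansion_mul hHn, ← hg, hGn.qExpansion_sub (hEn.smul a₀), hEn.qExpansion_smul]
    have hHA : qExpansion 1 (H : ℍ → ℂ) ∈ ratPS A.toSubring := by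
      refine mem_ratPS_of_mul_mem (qExpansion_discriminant_mem_ratPS A)
        qExpansion_discriminant_coeff_zero ModularForm.discriminant_qExpansion_coeff_one ?_ hq
      refine sub_mem hG ?_
      rw [mem_ratPS_iff]
      intro n
      rw [PowerSeries.coeff_smul]
      exact mul_mem ha₀A ((mem_ratPS_iff.mp hEA) n)
    obtain ⟨Q, hQdeg, hQ⟩ := ih (k - 12) (by rw [hk]; push_cast; ring) H hHA
    refine ⟨Polynomial.C ⟨a₀, ha₀A⟩ * Polynomial.X ^ (m + 1) + Q, ?_, fun z => ?_⟩
    · refine (Polynomial.natDegree_add_le _ _).trans (max_le ?_ (hQdeg.trans (Nat.le_succ m)))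
      exact (Polynomial.natDegree_C_mul_X_pow_le _ _)
    · have h1 : G z = a₀ * E z + ModularForm.discriminant z * H z := by
        have := congrFun hg z
        simp only [Pi.sub_apply, Pi.smul_apply, Pi.mul_apply, smul_eq_mul] at this
        rw [← this]; ring
      have h2 : E z = (ModularForm.discriminant z *
          (ModularForm.E₄ z ^ 3 / ModularForm.discriminant z)) ^ (m + 1) := by
        rw [← E4_cube_eq, ← pow_mul]
        exact congrFun hEcoe z
      rw [h1, h2, hQ z]
      simp only [Polynomial.map_add, Polynomial.map_mul, Polynomial.map_C, Polynomial.map_pow,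
        Polynomial.map_X, Polynomial.eval_add, Polynomial.eval_mul, Polynomial.eval_C,
        Polynomial.eval_pow, Polynomial.eval_X, Subfield.coe_subtype]
      ring

/-- **MOD-L1POLY, modular form version.** A level one modular form of weight `12 m` whose
`q`-expansion coefficients lie in the subfield `A` is `Δ ^ m * P(j)` with `P ∈ A[X]` of degree
at most `m`. -/
theorem levelOne_eq_discriminant_pow_mul_poly (A : Subfield ℂ) (m : ℕ)
    (G : ModularForm 𝒮ℒ (12 * (m : ℤ)))
    (hG : ∀ n, PowerSeries.coeff n (qExpansion 1 (G : ℍ → ℂ)) ∈ A) :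
    ∃ P : Polynomial A, P.natDegree ≤ m ∧
      ∀ z : ℍ, G z = ModularForm.discriminant z ^ m * (P.map A.subtype).eval (ModularForm.E₄ z ^ 3 / ModularForm.discriminant z) :=
  l1poly_aux A m _ rfl G (mem_ratPS_iff.mpr hG)


/-- Slash invariance of `Δ ^ m * φ` in weight `12 m` for an `SL(2, ℤ)`-invariant `φ`. -/
theorem discriminant_pow_mul_slash (φ : ℍ → ℂ)
    (hinv : ∀ (γ : SL(2, ℤ)) (z : ℍ), φ (γ • z) = φ z) (m : ℕ) (γ : SL(2, ℤ)) :
    (fun z => ModularForm.discriminant z ^ m * φ z) ∣[(12 * (m : ℤ))] γ =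
      fun z => ModularForm.discriminant z ^ m * φ z := by
  funext z
  have hΔ : ModularForm.discriminant (γ • z) * denom γ z ^ (-(12 : ℤ)) =
      ModularForm.discriminant z := by
    have h0 : ModularForm.discriminant ∣[(12 : ℤ)] γ = ModularForm.discriminant :=
      CuspForm.discriminant.slash_action_eq' _ ⟨γ, rfl⟩
    have h := congrFun h0 z
    rw [ModularForm.SL_slash_apply] at h
    exact h
  have hd : denom γ z ≠ 0 := denom_ne_zero _ z
  rw [ModularForm.SL_slash_apply, hinv γ z, ← hΔ, mul_pow, ← zpow_natCast (denom γ z ^ (-(12 : ℤ))),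
    ← zpow_mul, mul_assoc, mul_assoc]
  congr 1
  rw [neg_mul, mul_comm]


/-- The level one modular form `Δ ^ m * φ` attached to a holomorphic `SL(2, ℤ)`-invariant function
`φ` with a pole of order at most `m` at `i∞`. -/
noncomputable def mkForm (φ : ℍ → ℂ) (hφ : MDiff φ)
    (hinv : ∀ (γ : SL(2, ℤ)) (z : ℍ), φ (γ • z) = φ z) (m : ℕ)
    (hbdd : IsBoundedAtImInfty (fun z => ModularForm.discriminant z ^ m * φ z)) :
    ModularForm 𝒮ℒ (12 * (m : ℤ)) where
  toFun z := ModularForm.discriminant z ^ m * φ z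
  slash_action_eq' := fun _ ⟨γ, hγ⟩ ↦ hγ ▸ discriminant_pow_mul_slash φ hinv m γ
  holo' := (CuspForm.discriminant.holo'.pow m).mul hφ
  bdd_at_cusps' {c} hc := by
    rw [Subgroup.IsArithmetic.isCusp_iff_isCusp_SL2Z] at hc
    rw [OnePoint.isBoundedAt_iff_forall_SL2Z hc]
    intro γ _
    rw [discriminant_pow_mul_slash φ hinv m γ]
    exact hbdd

/-- **MOD-L1POLY, function version.** A holomorphic `SL(2, ℤ)`-invariant function `φ` on `ℍ` such
that `Δ ^ m * φ` is bounded at `i∞` and has `q`-expansion coefficients in the subfield `A` is a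
polynomial of degree at most `m` in `j = E₄ ^ 3 / Δ` with coefficients in `A`. -/
theorem exists_poly_of_invariant (A : Subfield ℂ) (φ : ℍ → ℂ) (hφ : MDiff φ)
    (hinv : ∀ (γ : SL(2, ℤ)) (z : ℍ), φ (γ • z) = φ z) (m : ℕ)
    (hbdd : IsBoundedAtImInfty (fun z => ModularForm.discriminant z ^ m * φ z))
    (hcoeff : ∀ n, PowerSeries.coeff n
      (qExpansion 1 (fun z => ModularForm.discriminant z ^ m * φ z)) ∈ A) :
    ∃ P : Polynomial A, P.natDegree ≤ m ∧
      ∀ z : ℍ, φ z = (P.map A.subtype).eval (ModularForm.E₄ z ^ 3 / ModularForm.discriminant z) := by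
  obtain ⟨P, hP, h⟩ := levelOne_eq_discriminant_pow_mul_poly A m (mkForm φ hφ hinv m hbdd) hcoeff
  refine ⟨P, hP, fun z => ?_⟩
  have h1 : ModularForm.discriminant z ^ m * φ z = ModularForm.discriminant z ^ m *
      (P.map A.subtype).eval (ModularForm.E₄ z ^ 3 / ModularForm.discriminant z) := h z
  exact mul_left_cancel₀ (pow_ne_zero m (ModularForm.discriminant_ne_zero z)) h1

/-- Version for the range of a ring hom `ι : K →+* ℂ` from a field. -/
theorem exists_poly_of_invariant_of_range {K : Type*} [Field K] (ι : K →+* ℂ) (φ : ℍ → ℂ)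
    (hφ : MDiff φ) (hinv : ∀ (γ : SL(2, ℤ)) (z : ℍ), φ (γ • z) = φ z) (m : ℕ)
    (hbdd : IsBoundedAtImInfty (fun z => ModularForm.discriminant z ^ m * φ z))
    (hcoeff : ∀ n, PowerSeries.coeff n
      (qExpansion 1 (fun z => ModularForm.discriminant z ^ m * φ z)) ∈ Set.range ι) :
    ∃ P : Polynomial K, P.natDegree ≤ m ∧
      ∀ z : ℍ, φ z = (P.map ι).eval (ModularForm.E₄ z ^ 3 / ModularForm.discriminant z) := by
  obtain ⟨P, hP, h⟩ := exists_poly_of_invariant ι.fieldRange φ hφ hinv m hbdd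
    (fun n => by simpa using hcoeff n)
  have hl : P.map ι.fieldRange.subtype ∈ Polynomial.lifts ι := by
    rw [Polynomial.lifts_iff_coeff_lifts]
    intro n
    rw [Polynomial.coeff_map]
    exact (P.coeff n).2
  obtain ⟨Q, hQ, hQdeg⟩ := Polynomial.exists_degree_eq_of_mem_lifts hl
  refine ⟨Q, ?_, fun z => by rw [hQ]; exact h z⟩
  have h1 : Q.natDegree = (P.map ι.fieldRange.subtype).natDegree :=
    Polynomial.natDegree_eq_natDegree hQdeg
  rw [h1]
  exact (Polynomial.natDegree_map_le).trans hP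


/-- **Level one lemma over `ℂ`.** A holomorphic `SL(2, ℤ)`-invariant function `φ` on `ℍ` such that
`Δ ^ m * φ` is bounded at `i∞` is a complex polynomial of degree at most `m` in
`j = E₄ ^ 3 / Δ`. -/
theorem exists_poly_of_invariant_complex (φ : ℍ → ℂ) (hφ : MDiff φ)
    (hinv : ∀ (γ : SL(2, ℤ)) (z : ℍ), φ (γ • z) = φ z) (m : ℕ)
    (hbdd : IsBoundedAtImInfty (fun z => ModularForm.discriminant z ^ m * φ z)) :
    ∃ P : Polynomial ℂ, P.natDegree ≤ m ∧
      ∀ z : ℍ, φ z = P.eval (ModularForm.E₄ z ^ 3 / ModularForm.discriminant z) := by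
  obtain ⟨P, hP, h⟩ := exists_poly_of_invariant_of_range (RingHom.id ℂ) φ hφ hinv m hbdd
    (fun n => ⟨_, rfl⟩)
  exact ⟨P, hP, fun z => by simpa using h z⟩

end Fermat.Agent.X0.L1Poly
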