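import Mathlib
import Fermat.Agent.X0.ModVal
import Fermat.Agent.X0.L1Poly
import Fermat.Agent.X0.Psi
import Fermat.Agent.S23.Interp

/-!
# X-MOD, piece SYMC: symmetric functions of the coset conjugates are polynomials in `j`

Pure algebra (`mixEsymm`): for two families `a b : ι → α`,
`mixEsymm a b i = ∑_{|S| = i} (∏_{c ∈ S} a c) * ∏_{c ∉ S} b c`, with
* `prod_mul_add_mul`: `∏ c, (a c * x + b c * y) = ∑ i ≤ n, mixEsymm a b i * x ^ i * y ^ (n - i)`,
* `mixEsymm_comp_perm`: invariance under permutations of `ι`, `mixEsymm_mul_left`: homogeneity.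

Analytic part: for a ring hom `θ : R →+* (ℍ → ℂ)` with holomorphic, `Γ`-invariant values which are
meromorphic at all cusps (`hb`), and `g h : R`, the functions
`symFun Γ θ g h i = mixEsymm (θ_c g) (θ_c h) i` (`θ_c = cosetHom Γ θ c`, `c : SL(2, ℤ) ⧸ Γ`) are
* holomorphic (`symFun_mdiff`), `SL(2, ℤ)`-invariant (`symFun_smul`), meromorphic at the cusp
  (`symFun_bounded`), hence polynomials in `jFun` (`exists_poly_symFun`);
* `sum_symFun_mul_pow_eq_zero`: `∑ i ≤ n, (-1)^i A_i (θ g)^(n-i) (θ h)^i = 0`;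
* `symFun_zero_ne_zero`: `A_0 = ∏_c θ_c h ≠ 0` if `h ≠ 0`;
* `exists_poly_relation`, `exists_poly_relation_Psi`: the packaged relation.
-/

set_option autoImplicit false
set_option linter.unusedSectionVars false

open Finset

namespace Fermat.Agent.X0.SymC

section Algebra

variable {ι α : Type*} [Fintype ι] [DecidableEq ι] [CommSemiring α]

/-- The mixed elementary symmetric function
`∑_{|S| = i} (∏_{c ∈ S} a c) * ∏_{c ∉ S} b c` of two families. -/
def mixEsymm (a b : ι → α) (i : ℕ) : α :=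
  ∑ S ∈ powersetCard i (univ : Finset ι), (∏ c ∈ S, a c) * ∏ c ∈ Sᶜ, b c

/-- Expansion of `∏ (a c x + b c y)` in terms of the mixed elementary symmetric functions. -/
theorem prod_mul_add_mul (a b : ι → α) (x y : α) :
    ∏ c, (a c * x + b c * y) =
      ∑ i ∈ range (Fintype.card ι + 1), mixEsymm a b i * x ^ i * y ^ (Fintype.card ι - i) := by
  rw [Fintype.prod_add, ← Finset.sum_fiberwise_of_maps_to (s := (univ : Finset (Finset ι)))
    (t := range (Fintype.card ι + 1)) (g := fun S : Finset ι => #S)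
    (fun S _ => Finset.mem_range.mpr (Nat.lt_succ_of_le (Finset.card_le_univ S)))]
  refine Finset.sum_congr rfl fun i _ => ?_
  rw [mixEsymm, Finset.sum_mul, Finset.sum_mul]
  have hfilter : (univ : Finset (Finset ι)).filter (fun S => #S = i) =
      powersetCard i (univ : Finset ι) := by
    ext S
    simp
  rw [hfilter]
  refine Finset.sum_congr rfl fun S hS => ?_
  have hc : #S = i := (mem_powersetCard.mp hS).2
  have hc' : #Sᶜ = Fintype.card ι - i := by rw [Finset.card_compl, hc]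
  rw [Finset.prod_mul_distrib, Finset.prod_mul_distrib, Finset.prod_const, Finset.prod_const,
    hc, hc']
  ring

/-- Homogeneity of the mixed elementary symmetric functions. -/
theorem mixEsymm_mul_left (d : α) (a b : ι → α) (i : ℕ) :
    mixEsymm (fun c => d * a c) (fun c => d * b c) i = d ^ Fintype.card ι * mixEsymm a b i := by
  rw [mixEsymm, mixEsymm, Finset.mul_sum]
  refine Finset.sum_congr rfl fun S hS => ?_
  have hc : #S + #Sᶜ = Fintype.card ι := Finset.card_add_card_compl S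
  rw [Finset.prod_mul_distrib, Finset.prod_mul_distrib, Finset.prod_const, Finset.prod_const,
    ← hc, pow_add]
  ring

/-- The mixed elementary symmetric functions are invariant under simultaneous permutation of the
two families. -/
theorem mixEsymm_comp_perm (σ : Equiv.Perm ι) (a b : ι → α) (i : ℕ) :
    mixEsymm (fun c => a (σ c)) (fun c => b (σ c)) i = mixEsymm a b i := by
  rw [mixEsymm, mixEsymm]
  refine Finset.sum_equiv σ.finsetCongr (fun S => ?_) (fun S _ => ?_)
  · rw [mem_powersetCard_univ, mem_powersetCard_univ, Equiv.finsetCongr_apply, Finset.card_map]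
  · have hcompl : (S.map σ.toEmbedding)ᶜ = Sᶜ.map σ.toEmbedding := by
      ext c
      simp only [Finset.mem_compl, Finset.mem_map_equiv]
    rw [Equiv.finsetCongr_apply, hcompl, Finset.prod_map, Finset.prod_map]
    rfl

/-- The zeroth mixed elementary symmetric function is the product of the second family. -/
theorem mixEsymm_zero (a b : ι → α) : mixEsymm a b 0 = ∏ c, b c := by
  rw [mixEsymm, Finset.powersetCard_zero, Finset.sum_singleton, Finset.prod_empty, one_mul,
    Finset.compl_empty]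

end Algebra


section Map

variable {ι α β : Type*} [Fintype ι] [DecidableEq ι] [CommSemiring α] [CommSemiring β]

theorem map_mixEsymm (f : α →+* β) (a b : ι → α) (i : ℕ) :
    f (mixEsymm a b i) = mixEsymm (fun c => f (a c)) (fun c => f (b c)) i := by
  simp only [mixEsymm, map_sum, map_mul, map_prod]

end Map

section Analytic

open UpperHalfPlane Fermat.Agent.S23
open scoped MatrixGroups Manifold

local notation "Δ" => ModularForm.discriminant

variable {R : Type*} [CommRing R] [IsDomain R] (Γ : Subgroup SL(2, ℤ)) [Fintype (SL(2, ℤ) ⧸ Γ)]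
  (θ : R →+* (ℍ → ℂ))

open Classical in
/-- The mixed elementary symmetric function of the coset conjugates of `θ g` and `θ h`:
`A_i = ∑_{|S| = i} (∏_{c ∈ S} θ_c g) * ∏_{c ∉ S} θ_c h`. -/
noncomputable def symFun (g h : R) (i : ℕ) : ℍ → ℂ :=
  mixEsymm (fun c : SL(2, ℤ) ⧸ Γ => cosetHom Γ θ c g) (fun c => cosetHom Γ θ c h) i

variable {Γ θ}

open Classical in
theorem symFun_apply (g h : R) (i : ℕ) (z : ℍ) :
    symFun Γ θ g h i z =
      mixEsymm (fun c : SL(2, ℤ) ⧸ Γ => cosetHom Γ θ c g z)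
        (fun c => cosetHom Γ θ c h z) i :=
  map_mixEsymm (Pi.evalRingHom (fun _ : ℍ => ℂ) z) _ _ i

theorem symFun_mdiff (hhol : ∀ r, MDiff (θ r)) (g h : R) (i : ℕ) : MDiff (symFun Γ θ g h i) := by
  classical
  unfold symFun mixEsymm
  refine MDifferentiable.sum fun S _ => ?_
  exact (mdiff_finset_prod _ _ fun c _ => cosetHom_mdiff Γ hhol c g).mul
    (mdiff_finset_prod _ _ fun c _ => cosetHom_mdiff Γ hhol c h)

/-- The functions `A_i` are `SL(2, ℤ)`-invariant. -/
theorem symFun_smul (hΓ : ∀ γ ∈ Γ, ∀ r τ, θ r (γ • τ) = θ r τ) (g h : R) (i : ℕ)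
    (γ : SL(2, ℤ)) (z : ℍ) : symFun Γ θ g h i (γ • z) = symFun Γ θ g h i z := by
  classical
  rw [symFun_apply, symFun_apply]
  have key : ∀ (r : R) (c : SL(2, ℤ) ⧸ Γ),
      cosetHom Γ θ c r (γ • z) = cosetHom Γ θ (MulAction.toPerm γ⁻¹ c) r z := by
    intro r c
    rw [MulAction.toPerm_apply, cosetHom_smul hΓ, conjHom_apply, inv_inv]
  simp only [key]
  exact mixEsymm_comp_perm (MulAction.toPerm γ⁻¹) (fun c => cosetHom Γ θ c g z)
    (fun c => cosetHom Γ θ c h z) i


/-! ### Boundedness at the cusp -/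

theorem discriminant_pow_bounded (k : ℕ) :
    IsBoundedAtImInfty (fun z : ℍ => Δ z ^ k) := by
  have h : IsBoundedAtImInfty (Δ : ℍ → ℂ) :=
    Fermat.Agent.X0.isBoundedAtImInfty_of_tendsto Fermat.Agent.X0.discriminant_tendsto
  have h2 : (fun z : ℍ => Δ z ^ k) ∈ boundedAtImInftySubalgebra ℂ :=
    (boundedAtImInftySubalgebra ℂ).pow_mem h k
  exact h2

theorem bounded_of_le {φ : ℍ → ℂ} {m M : ℕ} (hmM : m ≤ M)
    (h : IsBoundedAtImInfty (fun z => Δ z ^ m * φ z)) :
    IsBoundedAtImInfty (fun z => Δ z ^ M * φ z) := by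
  have h1 : (fun z : ℍ => Δ z ^ M * φ z) =
      (fun z : ℍ => Δ z ^ (M - m)) * (fun z => Δ z ^ m * φ z) := by
    funext z
    rw [Pi.mul_apply, ← mul_assoc, ← pow_add, Nat.sub_add_cancel hmM]
  rw [h1]
  exact (boundedAtImInftySubalgebra ℂ).mul_mem (discriminant_pow_bounded (M - m)) h

/-- If every `θ r ∘ γ` is meromorphic at the cusp (bounded after multiplication by a power of
`Δ`), so is every `A_i`. -/
theorem symFun_bounded
    (hb : ∀ (r : R) (γ : SL(2, ℤ)), ∃ m : ℕ, IsBoundedAtImInfty (fun z => Δ z ^ m * θ r (γ • z)))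
    (g h : R) (i : ℕ) :
    ∃ m : ℕ, IsBoundedAtImInfty (fun z => Δ z ^ m * symFun Γ θ g h i z) := by
  classical
  have hb' : ∀ (r : R) (c : SL(2, ℤ) ⧸ Γ), ∃ m : ℕ,
      IsBoundedAtImInfty (fun z => Δ z ^ m * cosetHom Γ θ c r z) := fun r c =>
    hb r (Quotient.out c)⁻¹
  choose mg hmg using hb' g
  choose mh hmh using hb' h
  set M : ℕ := ∑ c, (mg c + mh c) with hM
  have hMg : ∀ c, IsBoundedAtImInfty (fun z => Δ z ^ M * cosetHom Γ θ c g z) := fun c =>
    bounded_of_le (le_trans (Nat.le_add_right _ _)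
      (Finset.single_le_sum (f := fun c => mg c + mh c) (fun _ _ => Nat.zero_le _)
        (Finset.mem_univ c))) (hmg c)
  have hMh : ∀ c, IsBoundedAtImInfty (fun z => Δ z ^ M * cosetHom Γ θ c h z) := fun c =>
    bounded_of_le (le_trans (Nat.le_add_left _ _)
      (Finset.single_le_sum (f := fun c => mg c + mh c) (fun _ _ => Nat.zero_le _)
        (Finset.mem_univ c))) (hmh c)
  refine ⟨M * Fintype.card (SL(2, ℤ) ⧸ Γ), ?_⟩
  have h1 : (fun z : ℍ => Δ z ^ (M * Fintype.card (SL(2, ℤ) ⧸ Γ)) * symFun Γ θ g h i z) =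
      mixEsymm (fun c : SL(2, ℤ) ⧸ Γ => (fun z : ℍ => Δ z ^ M) * cosetHom Γ θ c g)
        (fun c => (fun z : ℍ => Δ z ^ M) * cosetHom Γ θ c h) i := by
    rw [mixEsymm_mul_left]
    funext z
    rw [Pi.mul_apply, Pi.pow_apply, ← pow_mul]
    rfl
  rw [h1, mixEsymm]
  refine (boundedAtImInftySubalgebra ℂ).sum_mem fun S _ => ?_
  refine (boundedAtImInftySubalgebra ℂ).mul_mem ?_ ?_
  · exact (boundedAtImInftySubalgebra ℂ).prod_mem fun c _ => hMg c
  · exact (boundedAtImInftySubalgebra ℂ).prod_mem fun c _ => hMh c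

/-- **SYMC**: the functions `A_i` are polynomials in the `j`-function. -/
theorem exists_poly_symFun (hΓ : ∀ γ ∈ Γ, ∀ r τ, θ r (γ • τ) = θ r τ) (hhol : ∀ r, MDiff (θ r))
    (hb : ∀ (r : R) (γ : SL(2, ℤ)), ∃ m : ℕ, IsBoundedAtImInfty (fun z => Δ z ^ m * θ r (γ • z)))
    (g h : R) (i : ℕ) :
    ∃ P : Polynomial ℂ, ∀ z : ℍ, symFun Γ θ g h i z = P.eval (jFun z) := by
  obtain ⟨m, hm⟩ := symFun_bounded (Γ := Γ) hb g h i
  obtain ⟨P, -, hP⟩ := L1Poly.exists_poly_of_invariant_complex (symFun Γ θ g h i)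
    (symFun_mdiff hhol g h i) (symFun_smul hΓ g h i) m hm
  exact ⟨P, hP⟩

/-! ### The relation -/

/-- The product `∏_c (θ_c h * θ g - θ_c g * θ h)` vanishes (the factor at the trivial coset is
zero); expanded in terms of the `A_i`. -/
theorem sum_symFun_mul_pow_eq_zero (hΓ : ∀ γ ∈ Γ, ∀ r τ, θ r (γ • τ) = θ r τ) (g h : R) (z : ℍ) :
    ∑ i ∈ Finset.range (Fintype.card (SL(2, ℤ) ⧸ Γ) + 1),
      (-1) ^ i * symFun Γ θ g h i z * θ g z ^ (Fintype.card (SL(2, ℤ) ⧸ Γ) - i) * θ h z ^ i = 0 := by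
  classical
  have h0 : ∏ c : SL(2, ℤ) ⧸ Γ,
      (cosetHom Γ θ c g z * (-θ h z) + cosetHom Γ θ c h z * θ g z) = 0 := by
    refine Finset.prod_eq_zero (Finset.mem_univ ((1 : SL(2, ℤ)) : SL(2, ℤ) ⧸ Γ)) ?_
    rw [cosetHom_mk hΓ]
    simp only [conjHom_apply, inv_one, one_smul]
    ring
  rw [prod_mul_add_mul] at h0
  rw [← h0]
  refine Finset.sum_congr rfl fun i _ => ?_
  rw [symFun_apply, neg_pow]
  ring

/-- The leading coefficient `A_0 = ∏_c θ_c h` is a nonzero function when `h ≠ 0`. -/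
theorem symFun_zero_ne_zero (hinj : Function.Injective θ) (hhol : ∀ r, MDiff (θ r)) (g : R)
    {h : R} (hh : h ≠ 0) : symFun Γ θ g h 0 ≠ 0 := by
  classical
  rw [symFun, mixEsymm_zero]
  refine mdiff_prod_ne_zero _ _ (fun c _ => cosetHom_mdiff Γ hhol c h) fun c _ => ?_
  intro h0
  exact hh (cosetHom_injective Γ hinj c (by rw [h0, map_zero]))

/-- Packaged form: a nontrivial polynomial relation, with coefficients polynomials in `jFun`,
between `θ g` and `θ h`; the coefficient of `(θ g) ^ n` is nonzero. -/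
theorem exists_poly_relation (hΓ : ∀ γ ∈ Γ, ∀ r τ, θ r (γ • τ) = θ r τ)
    (hinj : Function.Injective θ) (hhol : ∀ r, MDiff (θ r))
    (hb : ∀ (r : R) (γ : SL(2, ℤ)), ∃ m : ℕ, IsBoundedAtImInfty (fun z => Δ z ^ m * θ r (γ • z)))
    (g : R) {h : R} (hh : h ≠ 0) :
    ∃ P : ℕ → Polynomial ℂ, P 0 ≠ 0 ∧ ∀ z : ℍ,
      ∑ i ∈ Finset.range (Fintype.card (SL(2, ℤ) ⧸ Γ) + 1),
        (-1) ^ i * (P i).eval (jFun z) * θ g z ^ (Fintype.card (SL(2, ℤ) ⧸ Γ) - i) * θ h z ^ i
          = 0 := by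
  choose P hP using exists_poly_symFun hΓ hhol hb g h
  refine ⟨P, ?_, fun z => ?_⟩
  · intro h0
    apply symFun_zero_ne_zero (Γ := Γ) hinj hhol g hh
    funext z
    rw [hP 0 z, h0]
    simp
  · simp_rw [← hP]
    exact sum_symFun_mul_pow_eq_zero hΓ g h z

end Analytic

/-! ### Specialisation to `Ψ : Rb N → (ℍ → ℂ)` and `Γ₀(N)` -/

section Concrete

open UpperHalfPlane
open scoped MatrixGroups Manifold

local notation "Δ" => ModularForm.discriminant

/-- **SYMC for `Ψ`** (conditional on the growth estimate `Psi_cusp_bound` of piece CUSPGROWTH,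
taken as the hypothesis `hb`): for `g h : Rb N`, `h ≠ 0`, there are complex polynomials `P i`, with
`P 0 ≠ 0`, such that
`∑ i ≤ n, (-1)^i P_i(j) (Ψ g)^(n-i) (Ψ h)^i = 0`, where `n = [SL(2, ℤ) : Γ₀(N)]`. -/
theorem exists_poly_relation_Psi (N : ℕ) [NeZero N]
    (hb : ∀ (r : Rb N) (γ : SL(2, ℤ)), ∃ m : ℕ,
      IsBoundedAtImInfty (fun z => Δ z ^ m * Psi N r (γ • z)))
    (g : Rb N) {h : Rb N} (hh : h ≠ 0) :
    ∃ P : ℕ → Polynomial ℂ, P 0 ≠ 0 ∧ ∀ z : ℍ,
      ∑ i ∈ Finset.range (Nat.card (SL(2, ℤ) ⧸ CongruenceSubgroup.Gamma0 N) + 1),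
        (-1) ^ i * (P i).eval (jFun z) *
          Psi N g z ^ (Nat.card (SL(2, ℤ) ⧸ CongruenceSubgroup.Gamma0 N) - i) * Psi N h z ^ i
          = 0 := by
  classical
  have : Fintype (SL(2, ℤ) ⧸ CongruenceSubgroup.Gamma0 N) := Fintype.ofFinite _
  have key := exists_poly_relation (Γ := CongruenceSubgroup.Gamma0 N) (θ := Psi N)
    (fun γ hγ r τ => Psi_smul N r γ hγ τ) (Psi_injective N) (Psi_mdiff N) hb g hh
  rw [Nat.card_eq_fintype_card]
  exact key

end Concrete

end Fermat.Agent.X0.SymC
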