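import Mathlib

/-!
# X-MOD (slice of MOD-DEG): degree bounds from pure field theory

* `finiteDimensional_and_finrank_le_of_bounded`: if `E` has characteristic zero and every element of
  `F ⊇ E` is a root of a nonzero polynomial of degree `≤ n` over `E`, then `F/E` is finite of degree
  `≤ n` (primitive element theorem + a maximal finite subextension).
* `finiteDimensional_adjoin_simple_and_finrank_le_of_bounded`: the same over `E = K⟮x⟯`, with
  polynomials whose coefficients are polynomials in `x` over `K`.
* `card_le_finrank_of_injective_algHom`: `n` pairwise distinct `E`-embeddings of `F` into a field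
  `M` force `n ≤ [F : E]`.
-/

set_option autoImplicit false

namespace Fermat.Agent.X0

open IntermediateField Polynomial

/-- If every element of `F` is a root of a nonzero polynomial of degree `≤ n` over `E` (char. 0),
then every finite dimensional intermediate field `L` of `F/E` has `[L : E] ≤ n`
(primitive element theorem). -/
theorem finrank_intermediateField_le_of_bounded {E F : Type*} [Field E] [Field F] [Algebra E F]
    [CharZero E] (n : ℕ)
    (h : ∀ f : F, ∃ P : E[X], P ≠ 0 ∧ P.natDegree ≤ n ∧ aeval f P = 0)
    (L : IntermediateField E F) [FiniteDimensional E L] : Module.finrank E L ≤ n := by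
  obtain ⟨α, hα⟩ := Field.exists_primitive_element E L
  have hint : IsIntegral E α := IsIntegral.of_finite E α
  have h1 : Module.finrank E L = (minpoly E α).natDegree := by
    rw [← IntermediateField.adjoin.finrank hint, hα, IntermediateField.finrank_top']
  obtain ⟨P, hP0, hPn, hPα⟩ := h (α : F)
  have h2 : minpoly E α ∣ P := by
    apply minpoly.dvd
    have : (aeval (α : F) P) = ((aeval α P : L) : F) := by
      rw [← IntermediateField.coe_val, ← aeval_algHom_apply]
    rw [this] at hPα
    exact_mod_cast hPα
  rw [h1]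
  exact (natDegree_le_of_dvd h2 hP0).trans hPn

/-- **Bounded degree**: if every element of `F` is a root of a nonzero polynomial of degree `≤ n`
over `E` (char. 0), then `F/E` is finite of degree `≤ n`. -/
theorem finiteDimensional_and_finrank_le_of_bounded {E F : Type*} [Field E] [Field F]
    [Algebra E F] [CharZero E] (n : ℕ)
    (h : ∀ f : F, ∃ P : E[X], P ≠ 0 ∧ P.natDegree ≤ n ∧ aeval f P = 0) :
    FiniteDimensional E F ∧ Module.finrank E F ≤ n := by
  classical
  -- the set of degrees of finite dimensional intermediate fields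
  set S : Set ℕ := {d | ∃ L : IntermediateField E F, FiniteDimensional E L ∧
    Module.finrank E L = d} with hS
  have hne : S.Nonempty := ⟨_, ⊥, inferInstance, rfl⟩
  have hbdd : BddAbove S := ⟨n, by
    rintro d ⟨L, hL, rfl⟩
    exact finrank_intermediateField_le_of_bounded n h L⟩
  obtain ⟨L₀, hL₀, hd⟩ := Nat.sSup_mem hne hbdd
  have hmax : ∀ L : IntermediateField E F, FiniteDimensional E L →
      Module.finrank E L ≤ Module.finrank E L₀ := by
    intro L hL
    rw [hd]
    exact le_csSup hbdd ⟨L, hL, rfl⟩
  have htop : L₀ = ⊤ := by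
    rw [eq_top_iff]
    intro β _
    obtain ⟨P, hP0, -, hPβ⟩ := h β
    have hβ : IsIntegral E β := (isAlgebraic_iff_isIntegral).mp ⟨P, hP0, hPβ⟩
    have : FiniteDimensional E E⟮β⟯ := IntermediateField.adjoin.finiteDimensional hβ
    have : FiniteDimensional E ↥(L₀ ⊔ E⟮β⟯) := IntermediateField.finiteDimensional_sup L₀ E⟮β⟯
    have hle : L₀ ≤ L₀ ⊔ E⟮β⟯ := le_sup_left
    have heq : L₀ = L₀ ⊔ E⟮β⟯ :=
      IntermediateField.eq_of_le_of_finrank_le hle (hmax _ inferInstance)
    rw [heq]
    exact (le_sup_right : E⟮β⟯ ≤ L₀ ⊔ E⟮β⟯) (IntermediateField.mem_adjoin_simple_self E β)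
  subst htop
  have e : (⊤ : IntermediateField E F) ≃ₐ[E] F := IntermediateField.topEquiv
  refine ⟨e.toLinearEquiv.finiteDimensional, ?_⟩
  rw [← e.toLinearEquiv.finrank_eq]
  exact finrank_intermediateField_le_of_bounded n h ⊤

/-- **Bounded degree over `K(x)`**: if every `f : F` is a root of a polynomial of degree `≤ n` whose
coefficients are polynomials in `x` over `K` (not all mapping to zero), then `F / K(x)` is finite of
degree `≤ n`. -/
theorem finiteDimensional_adjoin_simple_and_finrank_le_of_bounded {K F : Type*} [Field K] [Field F]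
    [Algebra K F] [CharZero K] (x : F) (n : ℕ)
    (h : ∀ f : F, ∃ Q : K[X][X], Q.map (aeval x : K[X] →ₐ[K] F).toRingHom ≠ 0 ∧ Q.natDegree ≤ n ∧
      (Q.map (aeval x : K[X] →ₐ[K] F).toRingHom).eval f = 0) :
    FiniteDimensional K⟮x⟯ F ∧ Module.finrank K⟮x⟯ F ≤ n := by
  have : CharZero K⟮x⟯ := charZero_of_injective_algebraMap (algebraMap K K⟮x⟯).injective
  refine finiteDimensional_and_finrank_le_of_bounded n fun f => ?_
  obtain ⟨Q, hQ0, hQn, hQf⟩ := h f
  set xx : K⟮x⟯ := ⟨x, IntermediateField.mem_adjoin_simple_self K x⟩ with hxx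
  set φ : K[X] →ₐ[K] K⟮x⟯ := aeval xx with hφ
  have hcomp : (algebraMap K⟮x⟯ F).comp φ.toRingHom = (aeval x : K[X] →ₐ[K] F).toRingHom := by
    ext
    · simp [hφ]
    · simp [hφ, hxx]
  have hmap : (Q.map φ.toRingHom).map (algebraMap K⟮x⟯ F) =
      Q.map (aeval x : K[X] →ₐ[K] F).toRingHom := by
    rw [Polynomial.map_map, hcomp]
  refine ⟨Q.map φ.toRingHom, ?_, ?_, ?_⟩
  · intro h0
    apply hQ0
    rw [← hmap, h0, Polynomial.map_zero]
  · exact (natDegree_map_le).trans hQn
  · rw [aeval_def, ← eval_map, hmap]
    exact hQf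

/-- Pairwise distinct `E`-embeddings of a finite extension `F/E` into a field `M`: there are at most
`[F : E]` of them. -/
theorem card_le_finrank_of_injective_algHom {E F M : Type*} [Field E] [Field F] [Field M]
    [Algebra E F] [Algebra E M] [FiniteDimensional E F] {X : Type*} [Fintype X]
    (θ : X → F →ₐ[E] M) (hθ : Function.Injective θ) :
    Fintype.card X ≤ Module.finrank E F := by
  rw [← Nat.card_eq_fintype_card]
  exact (Nat.card_le_card_of_injective θ hθ).trans (card_algHom_le_finrank E F M)

end Fermat.Agent.X0
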