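import Fermat.Agent.X0.Defs
import Fermat.Agent.X0.Count.Main

/-!
# X-COUNT deliverables (part 1): everything except the cusp count

Statements exactly as in `Fermat/Agent/X0/WIP/Skeleton.lean` (section COUNT), for the left cosets
`SL(2, ℤ) ⧸ Γ₀(N)` with left multiplication:

* `card_cosets`
* `two_mul_orbitCount_S`
* `three_mul_orbitCount_ST`
* `exists_nat_eq_genusFormula_of_orbitCount_T` : the integrality/non-negativity of the genus formula,
  given `orbitCount N T = cuspCount N` (proved in `Fermat/Agent/X0/Count.lean` from `Count/Cusps.lean`).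
-/

set_option autoImplicit false

open ModularCurve
open scoped MatrixGroups

namespace Fermat.Agent.X0

variable (N : ℕ) [NeZero N]

omit [NeZero N] in
theorem stabilizer_coset_one :
    MulAction.stabilizer SL(2, ℤ) ((1 : SL(2, ℤ)) : SL(2, ℤ) ⧸ CongruenceSubgroup.Gamma0 N) =
      CongruenceSubgroup.Gamma0 N :=
  MulAction.stabilizer_quotient _

theorem orbitCount_eq_orbP1 (g : SL(2, ℤ)) : orbitCount N g = Count.orbP1 N g :=
  Count.card_orbits_eq_orbP1 N _ (stabilizer_coset_one N) g

theorem card_cosets : Nat.card (SL(2, ℤ) ⧸ CongruenceSubgroup.Gamma0 N) = dedekindPsi N :=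
  Count.card_eq_dedekindPsi N _ (stabilizer_coset_one N)

theorem two_mul_orbitCount_S :
    2 * orbitCount N ModularGroup.S = dedekindPsi N + nuTwo N :=
  Count.two_mul_card_orbits_S N _ (stabilizer_coset_one N)

theorem three_mul_orbitCount_ST :
    3 * orbitCount N (ModularGroup.S * ModularGroup.T) = dedekindPsi N + 2 * nuThree N :=
  Count.three_mul_card_orbits_ST N _ (stabilizer_coset_one N)

/-- Integrality and non-negativity of the "genus" of the triple `(S, S T, T)`. -/
theorem exists_genus_orbitCount :
    ∃ g : ℕ, 2 * g + orbitCount N ModularGroup.S + orbitCount N (ModularGroup.S * ModularGroup.T) +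
      orbitCount N ModularGroup.T = dedekindPsi N + 2 :=
  Count.exists_genus N _ (stabilizer_coset_one N)

theorem exists_nat_eq_genusFormula_of_orbitCount_T
    (hT : orbitCount N ModularGroup.T = cuspCount N) :
    ∃ g : ℕ, (g : ℚ) = genusFormula N := by
  obtain ⟨g, hg⟩ := exists_genus_orbitCount N
  refine ⟨g, ?_⟩
  have h2 := two_mul_orbitCount_S N
  have h3 := three_mul_orbitCount_ST N
  rw [hT] at hg
  have hgQ : (2 : ℚ) * g + orbitCount N ModularGroup.S +
      orbitCount N (ModularGroup.S * ModularGroup.T) + cuspCount N = dedekindPsi N + 2 := by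
    exact_mod_cast hg
  have h2Q : (2 : ℚ) * orbitCount N ModularGroup.S = dedekindPsi N + nuTwo N := by
    exact_mod_cast h2
  have h3Q : (3 : ℚ) * orbitCount N (ModularGroup.S * ModularGroup.T) =
      dedekindPsi N + 2 * nuThree N := by
    exact_mod_cast h3
  rw [genusFormula]
  linarith

end Fermat.Agent.X0
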