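import Mathlib

/-!
# X-MOD, piece GAL: coefficients of minimal polynomials via a full set of embeddings

Pure field theory: if `F/E` is finite (characteristic `0`), `θ_c : F →ₐ[E] M` (`c ∈ X`) are
`[F : E]` pairwise distinct embeddings into a field `M`, and `O` is a subring of `M` containing all
conjugates `θ_c f` of `f : F`, then the coefficients of the minimal polynomial of `f` over `E` map
into `O`.
-/

set_option autoImplicit false

namespace Fermat.Agent.X0

open Polynomial

/-- The coefficients of `∏ (X - r)`, `r` ranging over a multiset of elements of a subring `T`,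
lie in `T`. -/
theorem coeff_prod_X_sub_C_mem {Ω : Type*} [CommRing Ω] (T : Subring Ω) (s : Multiset Ω)
    (hs : ∀ r ∈ s, r ∈ T) (n : ℕ) : ((s.map (fun r => X - C r)).prod).coeff n ∈ T := by
  induction s using Multiset.induction_on generalizing n with
  | empty =>
    simp only [Multiset.map_zero, Multiset.prod_zero, coeff_one]
    split_ifs
    · exact T.one_mem
    · exact T.zero_mem
  | cons a s ih =>
    have ha : a ∈ T := hs a (Multiset.mem_cons_self a s)
    have ih' := ih (fun r hr => hs r (Multiset.mem_cons_of_mem hr))
    rw [Multiset.map_cons, Multiset.prod_cons, sub_mul, coeff_sub, coeff_C_mul]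
    refine T.sub_mem ?_ (T.mul_mem ha (ih' n))
    cases n with
    | zero => rw [coeff_X_mul_zero]; exact T.zero_mem
    | succ m => rw [coeff_X_mul]; exact ih' m

/-- **GAL.** Coefficients of the minimal polynomial lie in any subring containing all
conjugates. -/
theorem coeff_minpoly_mem_of_embeddings {E F M : Type*} [Field E] [Field F] [Field M]
    [Algebra E F] [Algebra E M] [FiniteDimensional E F] [CharZero E]
    {X : Type*} [Fintype X] (hX : Fintype.card X = Module.finrank E F)
    (θ : X → F →ₐ[E] M) (hθ : Function.Injective θ)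
    (O : Subring M) (f : F) (hf : ∀ c, θ c f ∈ O) (i : ℕ) :
    algebraMap E M ((minpoly E f).coeff i) ∈ O := by
  classical
  let Ω := AlgebraicClosure M
  let ι : M →ₐ[E] Ω := IsScalarTower.toAlgHom E M Ω
  have hι : Function.Injective ι := (algebraMap M Ω).injective
  -- the embeddings into `Ω`
  let Θ : X → (F →ₐ[E] Ω) := fun c => ι.comp (θ c)
  have hΘ : Function.Injective Θ := by
    intro c c' h
    apply hθ
    ext y
    apply hι
    exact congrArg (fun σ : F →ₐ[E] Ω => σ y) h
  have hcard : Fintype.card X = Fintype.card (F →ₐ[E] Ω) := by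
    rw [hX, AlgHom.card E F Ω]
  have hbij : Function.Bijective Θ :=
    (Fintype.bijective_iff_injective_and_card Θ).mpr ⟨hΘ, hcard⟩
  -- the image subring
  let T : Subring Ω := O.map (ι : M →+* Ω)
  -- every root of the minimal polynomial in `Ω` lies in `T`
  have hroots : ∀ y ∈ ((minpoly E f).map (algebraMap E Ω)).roots, y ∈ T := by
    intro y hy
    have hy' : y ∈ (minpoly E f).rootSet Ω := by
      rw [Polynomial.rootSet, Polynomial.aroots]
      simpa using hy
    rw [← Algebra.IsAlgebraic.range_eval_eq_rootSet_minpoly (F := E) (K := F) Ω f] at hy'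
    obtain ⟨σ, rfl⟩ := hy'
    obtain ⟨c, rfl⟩ := hbij.2 σ
    exact ⟨θ c f, hf c, rfl⟩
  have hsplit : ((minpoly E f).map (algebraMap E Ω)).Splits := IsAlgClosed.splits _
  have hmonic : ((minpoly E f).map (algebraMap E Ω)).Monic :=
    (minpoly.monic (Algebra.IsIntegral.isIntegral f)).map _
  have hprod := hsplit.eq_prod_roots_of_monic hmonic
  have hcoeff : ((minpoly E f).map (algebraMap E Ω)).coeff i ∈ T := by
    rw [hprod]
    exact coeff_prod_X_sub_C_mem T _ hroots i
  rw [coeff_map] at hcoeff
  obtain ⟨m, hm, hm'⟩ := hcoeff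
  have : m = algebraMap E M ((minpoly E f).coeff i) := by
    apply hι
    rw [show ι m = (ι : M →+* Ω) m from rfl, hm']
    exact (ι.commutes _).symm
  rw [← this]
  exact hm

end Fermat.Agent.X0
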