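import Mathlib
import Fermat.Agent.X0.ModVal
import Fermat.Agent.X0.GalEmb

/-!
# X-MOD, piece MOD-COMPLETE (abstract layer): integrality of minimal polynomial coefficients

* `HolH` : the ring of holomorphic functions on `ℍ` (a domain); `MerH := FractionRing HolH`.
* `ordMer z : MerH → ℤ` : the order at `z`; `valSubringMer z` : its valuation ring.
* `merHom θ hinj hhol : F →+* MerH` : extension of an injective holomorphic realisation
  `θ : R →+* (ℍ → ℂ)` to `F = Frac R`, with `ordMer z (merHom θ _ _ f) = ordAtPt θ z f`.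
* `coeff_minpoly_ordAtPt_nonneg` (**w_int**): if `θ c` (`c ∈ X`) are `[F : K(x)]` pairwise distinct
  realisations agreeing on `K` and on `x`, and `0 ≤ ordAtPt (θ c) z f` for all `c`, then all
  coefficients of `minpoly K⟮x⟯ f` have nonnegative order for all `θ c`.
-/

set_option autoImplicit false

namespace Fermat.Agent.X0

open UpperHalfPlane Filter Topology IntermediateField
open scoped Manifold MatrixGroups

/-! ## Holomorphic and meromorphic functions on `ℍ` -/

/-- The ring of holomorphic functions on the upper half plane. -/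
def HolH : Subring (ℍ → ℂ) where
  carrier := {φ | MDiff φ}
  mul_mem' := fun ha hb => ha.mul hb
  one_mem' := mdifferentiable_const
  add_mem' := fun ha hb => ha.add hb
  zero_mem' := mdifferentiable_const
  neg_mem' := fun ha => ha.neg

theorem mem_HolH {φ : ℍ → ℂ} : φ ∈ HolH ↔ MDiff φ := Iff.rfl

instance : IsDomain HolH := by
  haveI : NoZeroDivisors HolH := by
    refine ⟨fun {a b} h => ?_⟩
    have h' : (a : ℍ → ℂ) * (b : ℍ → ℂ) = 0 := by
      have := congrArg Subtype.val h
      simpa using this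
    rcases (UpperHalfPlane.mul_eq_zero_iff a.2 b.2).mp h' with h1 | h1
    · exact Or.inl (Subtype.ext h1)
    · exact Or.inr (Subtype.ext h1)
  exact NoZeroDivisors.to_isDomain _

/-- The field of meromorphic functions on `ℍ` (fractions of holomorphic functions). -/
abbrev MerH : Type := FractionRing HolH

/-- The order at `z` of a holomorphic function. -/
noncomputable def ordHol (z : ℍ) (φ : HolH) : ℤ := (ordH (φ : ℍ → ℂ) z : ℤ)

theorem ordHol_mul (z : ℍ) (a b : HolH) (ha : a ≠ 0) (hb : b ≠ 0) :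
    ordHol z (a * b) = ordHol z a + ordHol z b := by
  unfold ordHol
  have ha' : (a : ℍ → ℂ) ≠ 0 := fun h => ha (Subtype.ext h)
  have hb' : (b : ℍ → ℂ) ≠ 0 := fun h => hb (Subtype.ext h)
  rw [Subring.coe_mul, ordH_mul a.2 b.2 ha' hb']
  push_cast
  rfl

theorem ordHol_add (z : ℍ) (a b : HolH) (ha : a ≠ 0) (hb : b ≠ 0) (hab : a + b ≠ 0) :
    min (ordHol z a) (ordHol z b) ≤ ordHol z (a + b) := by
  unfold ordHol
  have ha' : (a : ℍ → ℂ) ≠ 0 := fun h => ha (Subtype.ext h)
  have hb' : (b : ℍ → ℂ) ≠ 0 := fun h => hb (Subtype.ext h)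
  have hab' : (a : ℍ → ℂ) + (b : ℍ → ℂ) ≠ 0 := fun h => hab (Subtype.ext h)
  have h := min_ordH_le_ordH_add a.2 b.2 ha' hb' hab' z
  rw [Subring.coe_add]
  exact_mod_cast h

/-- The order at `z` of a meromorphic function. -/
noncomputable def ordMer (z : ℍ) : MerH → ℤ := fracOrd (ordHol z)

theorem ordMer_mul (z : ℍ) {f g : MerH} (hf : f ≠ 0) (hg : g ≠ 0) :
    ordMer z (f * g) = ordMer z f + ordMer z g :=
  fracOrd_mul (ordHol_mul z) hf hg

theorem ordMer_add (z : ℍ) {f g : MerH} (hf : f ≠ 0) (hg : g ≠ 0) (hfg : f + g ≠ 0) :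
    min (ordMer z f) (ordMer z g) ≤ ordMer z (f + g) :=
  fracOrd_add (ordHol_mul z) (ordHol_add z) hf hg hfg

theorem ordMer_one (z : ℍ) : ordMer z 1 = 0 := by
  have := fracOrd_algebraMap (F := MerH) (ordHol_mul z) (one_ne_zero (α := HolH))
  rw [map_one, fracOrd_one_eq_zero (ordHol_mul z)] at this
  exact this

theorem ordMer_neg (z : ℍ) {f : MerH} (hf : f ≠ 0) : ordMer z (-f) = ordMer z f := by
  have h1 : ordMer z (-1 : MerH) = 0 := by
    have h := ordMer_mul z (f := (-1 : MerH)) (g := -1) (by simp) (by simp)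
    rw [neg_one_mul, neg_neg, ordMer_one] at h
    omega
  rw [← neg_one_mul, ordMer_mul z (by simp) hf, h1, zero_add]

/-- The valuation ring of `ordMer z`. -/
noncomputable def valSubringMer (z : ℍ) : Subring MerH where
  carrier := {m | m = 0 ∨ 0 ≤ ordMer z m}
  mul_mem' := by
    rintro a b (rfl | ha) hb
    · left; simp
    rcases hb with rfl | hb
    · left; simp
    by_cases ha0 : a = 0
    · left; simp [ha0]
    by_cases hb0 : b = 0
    · left; simp [hb0]
    right
    rw [ordMer_mul z ha0 hb0]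
    omega
  one_mem' := Or.inr (by rw [ordMer_one])
  add_mem' := by
    rintro a b ha hb
    by_cases ha0 : a = 0
    · simpa [ha0] using hb
    by_cases hb0 : b = 0
    · simpa [hb0] using ha
    by_cases hab : a + b = 0
    · exact Or.inl hab
    right
    have ha' : 0 ≤ ordMer z a := ha.resolve_left ha0
    have hb' : 0 ≤ ordMer z b := hb.resolve_left hb0
    exact le_trans (le_min ha' hb') (ordMer_add z ha0 hb0 hab)
  zero_mem' := Or.inl rfl
  neg_mem' := by
    rintro a (rfl | ha)
    · left; simp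
    by_cases ha0 : a = 0
    · left; simp [ha0]
    right
    rwa [ordMer_neg z ha0]

theorem mem_valSubringMer {z : ℍ} {m : MerH} :
    m ∈ valSubringMer z ↔ m = 0 ∨ 0 ≤ ordMer z m := Iff.rfl

/-! ## Extension of a holomorphic realisation to the fraction field -/

section Realisation

variable {R F : Type*} [CommRing R] [IsDomain R] [Field F] [Algebra R F] [IsFractionRing R F]

/-- `θ` with values in `HolH`. -/
noncomputable def holHom (θ : R →+* (ℍ → ℂ)) (hhol : ∀ r, MDiff (θ r)) : R →+* HolH :=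
  θ.codRestrict HolH hhol

@[simp] theorem coe_holHom (θ : R →+* (ℍ → ℂ)) (hhol : ∀ r, MDiff (θ r)) (r : R) :
    ((holHom θ hhol r : HolH) : ℍ → ℂ) = θ r := rfl

theorem holHom_injective {θ : R →+* (ℍ → ℂ)} (hinj : Function.Injective θ)
    (hhol : ∀ r, MDiff (θ r)) : Function.Injective (holHom θ hhol) := by
  intro a b h
  apply hinj
  have := congrArg (fun φ : HolH => (φ : ℍ → ℂ)) h
  simpa using this

theorem merHom_aux_injective {θ : R →+* (ℍ → ℂ)} (hinj : Function.Injective θ)
    (hhol : ∀ r, MDiff (θ r)) :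
    Function.Injective ((algebraMap HolH MerH).comp (holHom θ hhol)) :=
  (IsFractionRing.injective HolH MerH).comp (holHom_injective hinj hhol)

/-- The extension of `θ` to the fraction field, with values in meromorphic functions. -/
noncomputable def merHom (θ : R →+* (ℍ → ℂ)) (hinj : Function.Injective θ)
    (hhol : ∀ r, MDiff (θ r)) : F →+* MerH :=
  IsFractionRing.lift (merHom_aux_injective hinj hhol)

theorem merHom_algebraMap (θ : R →+* (ℍ → ℂ)) (hinj : Function.Injective θ)
    (hhol : ∀ r, MDiff (θ r)) (r : R) :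
    merHom (F := F) θ hinj hhol (algebraMap R F r) = algebraMap HolH MerH (holHom θ hhol r) :=
  IsFractionRing.lift_algebraMap _ r

/-- The order of `merHom θ f` is `ordAtPt θ z f`. -/
theorem ordMer_merHom (θ : R →+* (ℍ → ℂ)) (hinj : Function.Injective θ)
    (hhol : ∀ r, MDiff (θ r)) (z : ℍ) {f : F} (hf : f ≠ 0) :
    ordMer z (merHom θ hinj hhol f) = ordAtPt (R := R) θ z f := by
  obtain ⟨a, b, ha, hb, rfl⟩ := exists_eq_div_of_ne_zero (R := R) hf
  rw [ordAtPt_div hinj hhol z ha hb, map_div₀, merHom_algebraMap, merHom_algebraMap]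
  have ha' : holHom θ hhol a ≠ 0 := by
    intro h; exact ha (holHom_injective hinj hhol (by rw [h, map_zero]))
  have hb' : holHom θ hhol b ≠ 0 := by
    intro h; exact hb (holHom_injective hinj hhol (by rw [h, map_zero]))
  unfold ordMer
  rw [fracOrd_div (ordHol_mul z) ha' hb']
  rfl

theorem merHom_mem_valSubringMer_iff (θ : R →+* (ℍ → ℂ)) (hinj : Function.Injective θ)
    (hhol : ∀ r, MDiff (θ r)) (z : ℍ) {f : F} (hf : f ≠ 0) :
    merHom θ hinj hhol f ∈ valSubringMer z ↔ 0 ≤ ordAtPt (R := R) θ z f := by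
  rw [mem_valSubringMer, ordMer_merHom θ hinj hhol z hf]
  constructor
  · rintro (h | h)
    · exact absurd ((map_eq_zero _).mp h) hf
    · exact h
  · exact Or.inr

end Realisation

/-! ## Integrality of the coefficients of minimal polynomials (`w_int`) -/

section WInt

variable {K R F : Type*} [Field K] [CommRing R] [IsDomain R] [Field F] [Algebra K F]
  [Algebra R F] [IsFractionRing R F] [Algebra K R] [IsScalarTower K R F]

/-- Two ring homomorphisms out of `F` which agree on `K` and on `x` agree on `K⟮x⟯`. -/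
theorem ringHom_eq_on_adjoin_simple {L : Type*} [Field L] (σ τ : F →+* L) (x : F)
    (hK : ∀ k : K, σ (algebraMap K F k) = τ (algebraMap K F k)) (hx : σ x = τ x)
    (e : K⟮x⟯) : σ (e : F) = τ (e : F) := by
  let L' : IntermediateField K F := (σ.eqLocusField τ).toIntermediateField fun k => hK k
  have hle : K⟮x⟯ ≤ L' := adjoin_simple_le_iff.mpr hx
  exact hle e.2

theorem coeff_minpoly_ordAtPt_nonneg [CharZero K]
    (x : F) [FiniteDimensional K⟮x⟯ F]
    {X : Type*} [Fintype X] (hX : Fintype.card X = Module.finrank K⟮x⟯ F)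
    (θ : X → R →+* (ℍ → ℂ)) (hinj : ∀ c, Function.Injective (θ c)) (hhol : ∀ c r, MDiff (θ c r))
    (hdist : Function.Injective θ)
    (hK : ∀ (k : K) (c c' : X), θ c (algebraMap K R k) = θ c' (algebraMap K R k))
    (xR : R) (hxR : algebraMap R F xR = x) (hx : ∀ c c', θ c xR = θ c' xR)
    (z : ℍ) {f : F} (hf : f ≠ 0) (hpos : ∀ c, 0 ≤ ordAtPt (R := R) (θ c) z f) (i : ℕ) :
    (minpoly K⟮x⟯ f).coeff i = 0 ∨
      ∀ c, 0 ≤ ordAtPt (R := R) (θ c) z (((minpoly K⟮x⟯ f).coeff i : K⟮x⟯) : F) := by
  classical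
  by_cases hcoeff : (minpoly K⟮x⟯ f).coeff i = 0
  · exact Or.inl hcoeff
  right
  haveI : CharZero K⟮x⟯ := charZero_of_injective_algebraMap (algebraMap K K⟮x⟯).injective
  -- a base point
  have hpos' : 0 < Fintype.card X := by
    rw [hX]; exact Module.finrank_pos
  obtain ⟨c₀⟩ : Nonempty X := Fintype.card_pos_iff.mp hpos'
  -- the extensions
  let σ : X → F →+* MerH := fun c => merHom (θ c) (hinj c) (hhol c)
  have hσR : ∀ c (r : R), σ c (algebraMap R F r) = algebraMap HolH MerH (holHom (θ c) (hhol c) r) :=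
    fun c r => merHom_algebraMap (θ c) (hinj c) (hhol c) r
  have hagree : ∀ c c' (e : K⟮x⟯), σ c (e : F) = σ c' (e : F) := by
    intro c c' e
    apply ringHom_eq_on_adjoin_simple (K := K) (σ c) (σ c') x
    · intro k
      rw [IsScalarTower.algebraMap_apply K R F, hσR, hσR]
      congr 1
      exact Subtype.ext (hK k c c')
    · rw [← hxR, hσR, hσR]
      congr 1
      exact Subtype.ext (hx c c')
  letI : Algebra K⟮x⟯ MerH := ((σ c₀).comp (algebraMap K⟮x⟯ F)).toAlgebra
  let σA : X → F →ₐ[K⟮x⟯] MerH := fun c =>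
    { σ c with commutes' := fun e => hagree c c₀ e }
  have hσA : Function.Injective σA := by
    intro c c' h
    apply hdist
    ext r τ
    have h1 : σ c (algebraMap R F r) = σ c' (algebraMap R F r) :=
      congrArg (fun s : F →ₐ[K⟮x⟯] MerH => s (algebraMap R F r)) h
    rw [hσR, hσR] at h1
    have h2 := IsFractionRing.injective HolH MerH h1
    have h3 := congrArg (fun φ : HolH => (φ : ℍ → ℂ) τ) h2
    simpa using h3
  have hfO : ∀ c, σA c f ∈ valSubringMer z := fun c =>
    (merHom_mem_valSubringMer_iff (θ c) (hinj c) (hhol c) z hf).mpr (hpos c)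
  have key := coeff_minpoly_mem_of_embeddings hX σA hσA (valSubringMer z) f hfO i
  have hcF : (((minpoly K⟮x⟯ f).coeff i : K⟮x⟯) : F) ≠ 0 := by
    intro h
    exact hcoeff (Subtype.ext h)
  intro c
  rw [← merHom_mem_valSubringMer_iff (θ c) (hinj c) (hhol c) z hcF]
  have : merHom (θ c) (hinj c) (hhol c) (((minpoly K⟮x⟯ f).coeff i : K⟮x⟯) : F) =
      algebraMap K⟮x⟯ MerH ((minpoly K⟮x⟯ f).coeff i) := hagree c c₀ _
  rw [this]
  exact key

end WInt

end Fermat.Agent.X0
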