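import Mathlib
import Fermat.Agent.X0.Psi
import Fermat.Agent.X0.ModComplete
import Fermat.Agent.X0.QExpGamma
import Fermat.Agent.X0.BoundedDegree
import Fermat.Agent.X0.Count.ForACL

/-!
# X-MOD (DEG-B): the lower bound `[Fb N : Kb(j)] ≥ [SL(2,ℤ) : Γ₀(N)]`

* `card_le_finrank_of_realisations`: pairwise distinct holomorphic realisations of `F = Frac R`
  which agree on `K` and on `x` force `card ≤ [F : K(x)]`.
* `degLower_cosetHom_Psi_injective`: the `ψ(N)` conjugates of `Ψ` are pairwise distinct (`hdist`).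
* `card_cosets_le_finrank`.
-/

set_option autoImplicit false

open UpperHalfPlane IntermediateField CongruenceSubgroup
open Fermat.Agent.S23 Fermat.Agent.S23.PrimEltQExp
open scoped MatrixGroups Manifold

namespace Fermat.Agent.X0

section Abstract

variable {K R F : Type*} [Field K] [CommRing R] [IsDomain R] [Field F] [Algebra K F]
  [Algebra R F] [IsFractionRing R F] [Algebra K R] [IsScalarTower K R F]

/-- Pairwise distinct holomorphic realisations of `F = Frac R` which agree on `K` and on `x`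
are `K(x)`-embeddings of `F` in the field `MerH`: there are at most `[F : K(x)]` of them. -/
theorem card_le_finrank_of_realisations
    (x : F) [FiniteDimensional K⟮x⟯ F]
    {X : Type*} [Fintype X]
    (θ : X → R →+* (ℍ → ℂ)) (hinj : ∀ c, Function.Injective (θ c)) (hhol : ∀ c r, MDiff (θ c r))
    (hdist : Function.Injective θ)
    (hK : ∀ (k : K) (c c' : X), θ c (algebraMap K R k) = θ c' (algebraMap K R k))
    (xR : R) (hxR : algebraMap R F xR = x) (hx : ∀ c c', θ c xR = θ c' xR) :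
    Fintype.card X ≤ Module.finrank K⟮x⟯ F := by
  classical
  rcases isEmpty_or_nonempty X with hX | ⟨⟨c₀⟩⟩
  · rw [Fintype.card_eq_zero]; exact Nat.zero_le _
  let σ : X → F →+* MerH := fun c => merHom (θ c) (hinj c) (hhol c)
  have hσR : ∀ c (r : R), σ c (algebraMap R F r) = algebraMap HolH MerH (holHom (θ c) (hhol c) r) :=
    fun c r => merHom_algebraMap (θ c) (hinj c) (hhol c) r
  have hagree : ∀ c c' (e : K⟮x⟯), σ c (e : F) = σ c' (e : F) := by
    intro c c' e
    apply ringHom_eq_on_adjoin_simple (K := K) (σ c) (σ c') x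
    · intro k
      rw [IsScalarTower.algebraMap_apply K R F, hσR, hσR]
      congr 1
      exact Subtype.ext (hK k c c')
    · rw [← hxR, hσR, hσR]
      congr 1
      exact Subtype.ext (hx c c')
  let _ : Algebra K⟮x⟯ MerH := ((σ c₀).comp (algebraMap K⟮x⟯ F)).toAlgebra
  let σA : X → F →ₐ[K⟮x⟯] MerH := fun c =>
    { σ c with commutes' := fun e => hagree c c₀ e }
  have hσA : Function.Injective σA := by
    intro c c' h
    apply hdist
    ext r τ
    have h1 : σ c (algebraMap R F r) = σ c' (algebraMap R F r) :=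
      congrArg (fun s : F →ₐ[K⟮x⟯] MerH => s (algebraMap R F r)) h
    rw [hσR, hσR] at h1
    have h2 := IsFractionRing.injective HolH MerH h1
    have h3 := congrArg (fun φ : HolH => (φ : ℍ → ℂ) τ) h2
    simpa using h3
  exact card_le_finrank_of_injective_algHom σA hσA

end Abstract

section Concrete

variable (N : ℕ)

/-- `Ψ` is `Γ₀(N)`-invariant (in the shape used by `cosetHom`). -/
theorem degLower_Psi_invariant : ∀ γ ∈ Gamma0 N, ∀ (r : Rb N) (τ : ℍ), Psi N r (γ • τ) = Psi N r τ :=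
  fun γ hγ r τ => Psi_smul N r γ hγ τ

/-- The conjugates of `Ψ` agree on constants. -/
theorem degLower_cosetHom_Psi_algebraMap (k : Kb) (c : SL(2, ℤ) ⧸ Gamma0 N) :
    cosetHom (Gamma0 N) (Psi N) c (algebraMap Kb (Rb N) k) = fun _ => iotaC k := by
  funext τ
  show Psi N (algebraMap Kb (Rb N) k) ((Quotient.out c)⁻¹ • τ) = iotaC k
  rw [Psi_algebraMap]

/-- The conjugates of `Ψ` agree on `j`. -/
theorem degLower_cosetHom_Psi_jBar (c : SL(2, ℤ) ⧸ Gamma0 N) :
    cosetHom (Gamma0 N) (Psi N) c ⟨jBar N, jBar_mem_Rb N⟩ = jFun := by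
  funext τ
  show Psi N ⟨jBar N, jBar_mem_Rb N⟩ ((Quotient.out c)⁻¹ • τ) = jFun τ
  rw [Psi_jBar_eq_jFun, jFun_smul]

variable [NeZero N]

/-- **Distinctness** (`hdist`): the conjugates of `Ψ` indexed by `SL(2,ℤ) ⧸ Γ₀(N)` are pairwise
distinct (they differ on `j(N z)`). -/
theorem degLower_cosetHom_Psi_injective :
    Function.Injective (fun c : SL(2, ℤ) ⧸ Gamma0 N => cosetHom (Gamma0 N) (Psi N) c) := by
  intro c c' h
  induction c using QuotientGroup.induction_on with
  | H γ =>
  induction c' using QuotientGroup.induction_on with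
  | H γ' =>
  have h : cosetHom (Gamma0 N) (Psi N) (γ : SL(2, ℤ) ⧸ Gamma0 N) =
      cosetHom (Gamma0 N) (Psi N) (γ' : SL(2, ℤ) ⧸ Gamma0 N) := h
  rw [cosetHom_mk (degLower_Psi_invariant N), cosetHom_mk (degLower_Psi_invariant N)] at h
  apply coset_eq_of_jFun_scaleH_inv_smul_eq
  have h1 := congrArg (fun θ : Rb N →+* (ℍ → ℂ) => θ ⟨jBarD N N dvd_rfl, jBarD_mem_Rb N N dvd_rfl⟩) h
  funext z
  have h2 := congrFun h1 z
  rw [conjHom_apply, conjHom_apply, Psi_jBarD] at h2
  exact h2

/-- **Lower bound**: `[SL(2,ℤ) : Γ₀(N)] ≤ [Fb N : Kb(j)]`. -/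
theorem card_cosets_le_finrank [FiniteDimensional Kb⟮jBar N⟯ (Fb N)] :
    Nat.card (SL(2, ℤ) ⧸ Gamma0 N) ≤ Module.finrank Kb⟮jBar N⟯ (Fb N) := by
  classical
  have : Fintype (SL(2, ℤ) ⧸ Gamma0 N) := Fintype.ofFinite _
  rw [Nat.card_eq_fintype_card]
  refine card_le_finrank_of_realisations (K := Kb) (R := Rb N) (F := Fb N) (jBar N)
    (fun c : SL(2, ℤ) ⧸ Gamma0 N => cosetHom (Gamma0 N) (Psi N) c)
    (fun c => cosetHom_injective (Gamma0 N) (Psi_injective N) c)
    (fun c => cosetHom_mdiff (Gamma0 N) (Psi_mdiff N) c)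
    (degLower_cosetHom_Psi_injective N) ?_ ⟨jBar N, jBar_mem_Rb N⟩ rfl ?_
  · intro k c c'
    rw [degLower_cosetHom_Psi_algebraMap, degLower_cosetHom_Psi_algebraMap]
  · intro c c'
    rw [degLower_cosetHom_Psi_jBar, degLower_cosetHom_Psi_jBar]

end Concrete

end Fermat.Agent.X0
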