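import Mathlib
import Fermat.Agent.X0.DegUpper
import Fermat.Agent.X0.ModDegOf

/-!
# X-MOD (DEG): `jBar N` is a separating variable of `Fb N / ℚ̄` of degree `ψ(N)`

`jBar_isSepVar` (exact Skeleton statement): transcendence (`DegTrans.lean`), upper bound from the
bounded-degree relations (`DegUpper.lean`, `BoundedDegree.lean`), lower bound from the `ψ(N)`
distinct conjugates of `Ψ` (`DegLower.lean`), and `[SL(2,ℤ) : Γ₀(N)] = ψ(N)` (`CountBasic.lean`).
-/

set_option autoImplicit false

open ModularCurve

namespace Fermat.Agent.X0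

/-- **MOD-DEG**: `j` is a separating variable of the function field of `X₀(N)` over `ℚ̄`, of degree
`ψ(N) = [SL(2,ℤ) : Γ₀(N)]`. -/
theorem jBar_isSepVar (N : ℕ) [NeZero N] : IsSepVar Kb (jBar N) (dedekindPsi N) :=
  jBar_isSepVar_of N (exists_bounded_relation N)

end Fermat.Agent.X0
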