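import Mathlib
import Fermat.Prelude.Def_ModularCurve_X0
import Fermat.Prelude.Def_ModularCurve_LaurentCoeff
import Fermat.Prelude.Thm_ModularCurve_coeffMap_qExpand
import Fermat.Agent.S23.PrimEltQExp
import Fermat.Agent.X0.JqBridge
import Fermat.Agent.X0.LaurentQ
import Fermat.Agent.X0.JqLaurent
import Fermat.Agent.X0.L1Poly

set_option autoImplicit false

/-!
# Program X, piece MOD-SYM (part 1): `K`-rationality at `i∞`

For a field `K` with a ring hom `ι : K →+* ℂ` and a level `N`, a function `F : ℍ → ℂ` is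
`IsKRat ι N` if `z ↦ F (N z)` is holomorphic, `1`-periodic, meromorphic at `i∞` and its Laurent
`q`-expansion (the `q_N = q^{1/N}`-expansion of `F`) has all its coefficients in `ι(K)`.

* `kratSubring ι N` : these functions form a subring of `ℍ → ℂ`.
* `IsKRat.exists_poly` : an `SL(2,ℤ)`-invariant holomorphic `IsKRat` function is a polynomial in
  `j = E₄³/Δ` with coefficients in `K`.
-/

namespace Fermat.Agent.X0

open UpperHalfPlane Function Filter Topology HahnSeries ModularCurve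
open Fermat.Agent.S23 Fermat.Agent.S23.PrimEltQExp
open scoped Manifold MatrixGroups

variable {K : Type*} [Field K] (ι : K →+* ℂ)

/-! ### Laurent series with coefficients in the range of `ι` -/

open Classical in
/-- A (non-canonical) section of `ι` sending `0` to `0`. -/
noncomputable def iotaSection : ZeroHom ℂ K where
  toFun c := if h : c ∈ Set.range ι then h.choose else 0
  map_zero' := by
    have h0 : (0 : ℂ) ∈ Set.range ι := ⟨0, map_zero ι⟩
    rw [dif_pos h0]
    have := h0.choose_spec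
    exact (map_eq_zero ι).mp this

theorem iota_iotaSection {c : ℂ} (hc : c ∈ Set.range ι) : ι (iotaSection ι c) = c := by
  simp only [iotaSection, ZeroHom.coe_mk, dif_pos hc]
  exact hc.choose_spec

theorem mem_range_coeffMap_iff {s : LaurentSeries ℂ} :
    s ∈ (coeffMap ι).range ↔ ∀ n : ℤ, s.coeff n ∈ Set.range ι := by
  constructor
  · rintro ⟨t, rfl⟩ n
    exact ⟨t.coeff n, rfl⟩
  · intro h
    refine ⟨s.map (iotaSection ι), ?_⟩
    ext n
    rw [coeffMap_coeff, HahnSeries.map_coeff]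
    exact iota_iotaSection ι (h n)

theorem ofPowerSeries_intCast_mem_range (P : PowerSeries ℤ) :
    HahnSeries.ofPowerSeries ℤ ℂ (P.map (Int.castRingHom ℂ)) ∈ (coeffMap ι).range := by
  refine ⟨HahnSeries.ofPowerSeries ℤ K (P.map (Int.castRingHom K)), ?_⟩
  rw [coeffMap_ofPowerSeries]
  congr 1
  ext n
  simp

/-! ### The predicate -/

variable (N : ℕ) [NeZero N]

/-- `F` has a `K`-rational `q_N`-expansion at `i∞`. -/
def IsKRat (F : ℍ → ℂ) : Prop :=
  IsMerCusp (fun z => F (scaleH N z)) ∧ qexpL (fun z => F (scaleH N z)) ∈ (coeffMap ι).range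

variable {ι N}

theorem IsKRat.add {F G : ℍ → ℂ} (hF : IsKRat ι N F) (hG : IsKRat ι N G) : IsKRat ι N (F + G) := by
  refine ⟨hF.1.add hG.1, ?_⟩
  have : (fun z => (F + G) (scaleH N z)) = (fun z => F (scaleH N z)) + fun z => G (scaleH N z) := rfl
  rw [this, qexpL_add hF.1 hG.1]
  exact add_mem hF.2 hG.2

theorem IsKRat.mul {F G : ℍ → ℂ} (hF : IsKRat ι N F) (hG : IsKRat ι N G) : IsKRat ι N (F * G) := by
  refine ⟨hF.1.mul hG.1, ?_⟩
  have : (fun z => (F * G) (scaleH N z)) = (fun z => F (scaleH N z)) * fun z => G (scaleH N z) := rfl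
  rw [this, qexpL_mul hF.1 hG.1]
  exact mul_mem hF.2 hG.2

theorem isKRat_const (a : K) : IsKRat ι N (fun _ => ι a) := by
  refine ⟨isMerCusp_const _, ?_⟩
  rw [qexpL_const]
  refine ⟨HahnSeries.C a, ?_⟩
  change coeffMap ι (HahnSeries.single 0 a) = HahnSeries.single 0 (ι a)
  exact coeffMap_single ι 0 a

theorem IsKRat.neg {F : ℍ → ℂ} (hF : IsKRat ι N F) : IsKRat ι N (-F) := by
  have h1 : IsKRat ι N (fun _ => ι (-1 : K)) := isKRat_const (-1)
  have h2 : -F = (fun _ => ι (-1 : K)) * F := by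
    funext z
    simp
  rw [h2]
  exact h1.mul hF

variable (ι N) in
/-- The subring of functions with `K`-rational `q_N`-expansion at `i∞`. -/
def kratSubring : Subring (ℍ → ℂ) where
  carrier := {F | IsKRat ι N F}
  mul_mem' := IsKRat.mul
  one_mem' := by
    have := isKRat_const (ι := ι) (N := N) 1
    rw [map_one] at this
    exact this
  add_mem' := IsKRat.add
  zero_mem' := by
    have := isKRat_const (ι := ι) (N := N) 0
    rw [map_zero] at this
    exact this
  neg_mem' := IsKRat.neg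

theorem mem_kratSubring {F : ℍ → ℂ} : F ∈ kratSubring ι N ↔ IsKRat ι N F := Iff.rfl

theorem IsKRat.sub {F G : ℍ → ℂ} (hF : IsKRat ι N F) (hG : IsKRat ι N G) : IsKRat ι N (F - G) :=
  (kratSubring ι N).sub_mem hF hG

theorem IsKRat.pow {F : ℍ → ℂ} (hF : IsKRat ι N F) (n : ℕ) : IsKRat ι N (F ^ n) :=
  (kratSubring ι N).pow_mem hF n

theorem isKRat_sum {α : Type*} (s : Finset α) (F : α → ℍ → ℂ) (hF : ∀ i ∈ s, IsKRat ι N (F i)) :
    IsKRat ι N (∑ i ∈ s, F i) :=
  (kratSubring ι N).sum_mem hF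

theorem isKRat_prod {α : Type*} (s : Finset α) (F : α → ℍ → ℂ) (hF : ∀ i ∈ s, IsKRat ι N (F i)) :
    IsKRat ι N (∏ i ∈ s, F i) :=
  (kratSubring ι N).prod_mem hF

/-- A `1`-periodic function with `K`-rational `q`-expansion is `IsKRat` at every level. -/
theorem isKRat_of_isMerCusp {F : ℍ → ℂ} (hF : IsMerCusp F) (hq : qexpL F ∈ (coeffMap ι).range) :
    IsKRat ι N F := by
  refine ⟨hF.scale N, ?_⟩
  rw [qexpL_scale N hF]
  obtain ⟨t, ht⟩ := hq
  exact ⟨qExpand K N t, by rw [coeffMap_qExpand, ht]⟩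


/-! ### From level `N` back to level one -/

theorem periodic_comp_ofComplex_of_vadd_one {F : ℍ → ℂ} (hper : ∀ z : ℍ, F ((1 : ℝ) +ᵥ z) = F z) :
    Periodic (F ∘ ofComplex) 1 := by
  intro w
  simp only [comp_apply]
  by_cases hw : 0 < w.im
  · have hw' : 0 < (w + 1).im := by simpa using hw
    rw [ofComplex_apply_of_im_pos hw', ofComplex_apply_of_im_pos hw]
    rw [← hper ⟨w, hw⟩]
    congr 1
    apply UpperHalfPlane.ext
    simp [UpperHalfPlane.coe_vadd, add_comm]
  · have hw' : ¬ 0 < (w + 1).im := by simpa using hw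
    rw [ofComplex_apply_of_im_nonpos (not_lt.mp hw'), ofComplex_apply_of_im_nonpos (not_lt.mp hw)]

/-- The point `z / N` of the upper half plane. -/
noncomputable def unscaleH (N : ℕ) [NeZero N] (w : ℍ) : ℍ :=
  ⟨(w : ℂ) / N, by
    have hN : (0 : ℝ) < N := Nat.cast_pos.mpr (NeZero.pos N)
    have : ((w : ℂ) / N).im = w.im / N := by
      rw [Complex.div_natCast_im]; rfl
    rw [this]
    exact div_pos w.im_pos hN⟩

theorem scaleH_unscaleH (N : ℕ) [NeZero N] (w : ℍ) : scaleH N (unscaleH N w) = w := by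
  apply UpperHalfPlane.ext
  have hN : (N : ℂ) ≠ 0 := Nat.cast_ne_zero.mpr (NeZero.ne N)
  simp only [coe_scaleH, unscaleH]
  field_simp

theorem im_unscaleH (N : ℕ) [NeZero N] (w : ℍ) : (unscaleH N w).im = w.im / N := by
  change ((w : ℂ) / N).im = w.im / N
  rw [Complex.div_natCast_im]; rfl

/-- If `φ` is `1`-periodic and holomorphic, and `z ↦ φ (N z)` is meromorphic at `i∞`, so is `φ`. -/
theorem isMerCusp_of_scale {φ : ℍ → ℂ} (hφ : MDiff φ) (hper : ∀ z : ℍ, φ ((1 : ℝ) +ᵥ z) = φ z)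
    (h : IsMerCusp (fun z => φ (scaleH N z))) : IsMerCusp φ := by
  obtain ⟨m, hm⟩ := h
  refine ⟨m, ?_, (isNice_qFun.pow m).2.1.mul hφ, ?_⟩
  · have h1 := (isNice_qFun.pow m).1
    have h2 := periodic_comp_ofComplex_of_vadd_one hper
    intro w
    have e1 := h1 w
    have e2 := h2 w
    simp only [comp_apply, Pi.mul_apply] at e1 e2 ⊢
    rw [e1, e2]
  · have hb := hm.2.2
    rw [UpperHalfPlane.isBoundedAtImInfty_iff] at hb ⊢
    obtain ⟨M, A, hMA⟩ := hb
    have hN : (0 : ℝ) < N := Nat.cast_pos.mpr (NeZero.pos N)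
    refine ⟨M, N * A, fun w hw => ?_⟩
    have hz : A ≤ (unscaleH N w).im := by
      rw [im_unscaleH, le_div_iff₀ hN, mul_comm]
      exact hw
    have h3 := hMA (unscaleH N w) hz
    simp only [Pi.mul_apply, Pi.pow_apply, scaleH_unscaleH] at h3 ⊢
    have h4 : qFun w = qFun (unscaleH N w) ^ N := by
      rw [← qFun_scaleH, scaleH_unscaleH]
    have h5 : ‖qFun (unscaleH N w)‖ ≤ 1 := by
      have := qParam_mem_ball (unscaleH N w)
      rw [mem_ball_zero_iff] at this
      exact this.le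
    have h6 : ‖qFun w ^ m‖ ≤ ‖qFun (unscaleH N w) ^ m‖ := by
      rw [h4, ← pow_mul, mul_comm, pow_mul, norm_pow _ N]
      exact pow_le_of_le_one (norm_nonneg _)
        (by rw [norm_pow]; exact pow_le_one₀ (norm_nonneg _) h5) (NeZero.ne N)
    calc ‖qFun w ^ m * φ w‖ = ‖qFun w ^ m‖ * ‖φ w‖ := norm_mul _ _
      _ ≤ ‖qFun (unscaleH N w) ^ m‖ * ‖φ w‖ := mul_le_mul_of_nonneg_right h6 (norm_nonneg _)
      _ = ‖qFun (unscaleH N w) ^ m * φ w‖ := (norm_mul _ _).symm
      _ ≤ M := h3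


/-- For a `1`-periodic holomorphic `φ`, `K`-rationality of the `q_N`-expansion gives
`K`-rationality of the `q`-expansion. -/
theorem IsKRat.qexpL_mem {φ : ℍ → ℂ} (hφ : MDiff φ) (hper : ∀ z : ℍ, φ ((1 : ℝ) +ᵥ z) = φ z)
    (hk : IsKRat ι N φ) : IsMerCusp φ ∧ qexpL φ ∈ (coeffMap ι).range := by
  have hmc : IsMerCusp φ := isMerCusp_of_scale hφ hper hk.1
  refine ⟨hmc, ?_⟩
  rw [mem_range_coeffMap_iff]
  intro n
  have h1 := (mem_range_coeffMap_iff ι).mp hk.2 ((N : ℤ) * n)
  rw [qexpL_scale N hmc, qExpand_coeff_mul] at h1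
  exact h1

/-- **MOD-SYM, part 1.** A holomorphic `SL(2,ℤ)`-invariant function with `K`-rational
`q_N`-expansion at `i∞` is a polynomial in `j = E₄³/Δ` with coefficients in `K`. -/
theorem IsKRat.exists_poly {φ : ℍ → ℂ} (hφ : MDiff φ)
    (hinv : ∀ (γ : SL(2, ℤ)) (z : ℍ), φ (γ • z) = φ z) (hk : IsKRat ι N φ) :
    ∃ P : Polynomial K, ∀ z : ℍ,
      φ z = (P.map ι).eval (ModularForm.E₄ z ^ 3 / ModularForm.discriminant z) := by
  have hper : ∀ z : ℍ, φ ((1 : ℝ) +ᵥ z) = φ z := by
    intro z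
    rw [← UpperHalfPlane.modular_T_smul]
    exact hinv _ z
  obtain ⟨hmc, hq⟩ := hk.qexpL_mem hφ hper
  obtain ⟨m, hm⟩ := hmc
  -- `Δ ^ m * φ` is nice
  have hfun : ModularForm.discriminant ^ m * φ = (etaFun ^ 24) ^ m * (qFun ^ m * φ) := by
    rw [discriminant_eq_qFun_mul', mul_pow]
    ring
  have hnice : IsNice (ModularForm.discriminant ^ m * φ) := by
    rw [hfun]
    exact ((isNice_etaFun.pow 24).pow m).mul hm
  have hΔn : IsNice ModularForm.discriminant := L1Poly.isNice_discriminant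
  have hΔq : qexpL ModularForm.discriminant ∈ (coeffMap ι).range := by
    rw [qexpL_of_isNice hΔn, qExpansion_discriminant]
    have : (PowerSeries.X : PowerSeries ℂ) * PowerSeries.map (Int.castRingHom ℂ) dedekindEtaUnit =
        PowerSeries.map (Int.castRingHom ℂ) (PowerSeries.X * dedekindEtaUnit) := by
      rw [map_mul, PowerSeries.map_X]
    rw [this]
    exact ofPowerSeries_intCast_mem_range ι _
  have hΔm : IsMerCusp (ModularForm.discriminant ^ m) := isMerCusp_of_isNice (hΔn.pow m)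
  have hΔmq : qexpL (ModularForm.discriminant ^ m) ∈ (coeffMap ι).range := by
    have h1 : qexpL (ModularForm.discriminant ^ m) =
        qexpLHom (⟨ModularForm.discriminant, isMerCusp_of_isNice hΔn⟩ ^ m) := rfl
    rw [h1, map_pow]
    exact pow_mem hΔq m
  have hprod : qexpL (ModularForm.discriminant ^ m * φ) ∈ (coeffMap ι).range := by
    rw [qexpL_mul hΔm ⟨m, hm⟩]
    exact mul_mem hΔmq hq
  rw [qexpL_of_isNice hnice, mem_range_coeffMap_iff] at hprod
  have hcoeff : ∀ n, PowerSeries.coeff n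
      (qExpansion 1 (fun z => ModularForm.discriminant z ^ m * φ z)) ∈ Set.range ι := by
    intro n
    have := hprod (n : ℤ)
    rwa [HahnSeries.ofPowerSeries_apply_coeff] at this
  obtain ⟨P, _, hP⟩ := L1Poly.exists_poly_of_invariant_of_range ι φ hφ hinv m hnice.2.2 hcoeff
  exact ⟨P, hP⟩

end Fermat.Agent.X0
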