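import Mathlib
import Fermat.Prelude.Def_ModularCurve_X0
import Fermat.Agent.S23.PrimEltQExp
import Fermat.Agent.X0.LaurentQ
import Fermat.Agent.X0.JqLaurent

set_option autoImplicit false

/-!
# X-MOD, the `q`-dictionary (Q-GEN)

`IsQExp s f` : the Laurent series `s` is the `q`-expansion of `f : ℍ → ℂ`, i.e.
`f z = ∑_{n ∈ ℤ} s_n q^n` for all `z`, `q = exp (2πiz)`.

Main bridge: `isQExp_iff : IsQExp s f ↔ IsMerCusp f ∧ qexpL f = s`; the API
(`add, mul, neg, const, single, series_unique, fun_unique, of_bounded, scale, mdiff`) follows.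
-/

namespace Fermat.Agent.X0

open UpperHalfPlane Function Filter Topology Metric HahnSeries ModularCurve
open Fermat.Agent.S23 Fermat.Agent.S23.PrimEltQExp
open scoped Manifold

local notation "𝕢" => Function.Periodic.qParam

/-- `s` is the (Laurent) `q`-expansion of `f`: `f z = ∑_{n ∈ ℤ} s_n q^n`, `q = exp(2πiz)`. -/
def IsQExp (s : LaurentSeries ℂ) (f : ℍ → ℂ) : Prop :=
  ∀ z : ℍ, HasSum (fun n : ℤ => s.coeff n * Function.Periodic.qParam 1 (z : ℂ) ^ n) (f z)

theorem laurentOf_coeff (m : ℕ) (P : PowerSeries ℂ) (k : ℤ) :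
    (laurentOf m P).coeff k = if k + m < 0 then 0 else P.coeff (k + m).natAbs := by
  rw [laurentOf, HahnSeries.coeff_single_mul, one_mul, sub_neg_eq_add, PowerSeries.coeff_coe]

theorem laurentOf_coeff_natCast_sub (m : ℕ) (P : PowerSeries ℂ) (n : ℕ) :
    (laurentOf m P).coeff ((n : ℤ) - m) = P.coeff n := by
  rw [laurentOf_coeff, sub_add_cancel, if_neg (by omega), Int.natAbs_natCast]

theorem laurentOf_coeff_of_lt (m : ℕ) (P : PowerSeries ℂ) {k : ℤ} (hk : k < -(m : ℤ)) :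
    (laurentOf m P).coeff k = 0 := by
  rw [laurentOf_coeff, if_pos (by omega)]

/-- Reindexing lemma: a `ℤ`-indexed `q`-series with no terms below `-m`. -/
theorem hasSum_int_iff_nat {m : ℕ} {a : ℤ → ℂ} (ha : ∀ k : ℤ, k < -(m : ℤ) → a k = 0) {q : ℂ}
    (hq : q ≠ 0) (A : ℂ) :
    HasSum (fun k : ℤ => a k * q ^ k) A ↔
      HasSum (fun n : ℕ => a ((n : ℤ) - m) * q ^ n) (q ^ m * A) := by
  have hinj : Function.Injective fun n : ℕ => (n : ℤ) - m := fun x y h => by
    simpa using h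
  have hzero : ∀ k : ℤ, k ∉ Set.range (fun n : ℕ => (n : ℤ) - m) → a k * q ^ k = 0 := by
    intro k hk
    rw [ha k, zero_mul]
    by_contra hlt
    apply hk
    refine ⟨(k + m).toNat, ?_⟩
    have : 0 ≤ k + m := by omega
    simp only
    rw [Int.toNat_of_nonneg this]
    ring
  rw [← hinj.hasSum_iff hzero]
  have hfun : ((fun k : ℤ => a k * q ^ k) ∘ fun n : ℕ => (n : ℤ) - m) =
      fun n : ℕ => (a ((n : ℤ) - m) * q ^ n) * (q ^ m)⁻¹ := by
    funext n
    simp only [comp_apply]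
    rw [zpow_sub₀ hq, zpow_natCast, zpow_natCast, div_eq_mul_inv]
    ring
  rw [hfun]
  have hqm : q ^ m ≠ 0 := pow_ne_zero _ hq
  constructor
  · intro h
    have := h.mul_right (q ^ m)
    simpa [mul_assoc, inv_mul_cancel₀ hqm, mul_comm A] using this
  · intro h
    have := h.mul_right (q ^ m)⁻¹
    simpa [mul_comm (q ^ m) A, mul_assoc, mul_inv_cancel₀ hqm] using this

/-- Direction 1 of the bridge. -/
theorem isQExp_of_isNice_pow_mul {f : ℍ → ℂ} {m : ℕ} (h : IsNice (qFun ^ m * f)) :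
    IsQExp (laurentOf m (qExpansion 1 (qFun ^ m * f))) f := by
  intro z
  have hq : 𝕢 1 (z : ℂ) ≠ 0 := Periodic.qParam_ne_zero _
  rw [hasSum_int_iff_nat (m := m) (fun k hk => laurentOf_coeff_of_lt m _ hk) hq]
  simp only [laurentOf_coeff_natCast_sub]
  have := hasSum_qExpansion one_pos h.1 h.2.1 h.2.2 z
  simpa [smul_eq_mul, qFun_apply] using this

theorem isQExp_qexpL {f : ℍ → ℂ} (hf : IsMerCusp f) : IsQExp (qexpL f) f := by
  obtain ⟨m, hm⟩ := hf
  rw [qexpL_eq hm]
  exact isQExp_of_isNice_pow_mul hm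


/-! ### Direction 2: a function with a `q`-expansion is meromorphic at the cusp -/

section converse

variable {c : ℕ → ℂ} {F : ℍ → ℂ}

/-- The power series `∑ c n q^n` converges on the unit disc as soon as it converges at all `q z`. -/
theorem summable_of_hasSum_qParam (hF : ∀ τ : ℍ, HasSum (fun n : ℕ => c n * 𝕢 1 (τ : ℂ) ^ n) (F τ))
    {q : ℂ} (hq : ‖q‖ < 1) : Summable fun n : ℕ => c n * q ^ n := by
  by_cases hq0 : q = 0
  · subst hq0
    refine summable_of_ne_finset_zero (s := {0}) ?_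
    intro n hn
    have : n ≠ 0 := by simpa using hn
    simp [this]
  · have him := Periodic.im_invQParam_pos_of_norm_lt_one one_pos hq hq0
    have := (hF ⟨_, him⟩).summable
    simpa [Periodic.qParam_right_inv one_ne_zero hq0] using this

theorem one_le_radius_of_hasSum_qParam
    (hF : ∀ τ : ℍ, HasSum (fun n : ℕ => c n * 𝕢 1 (τ : ℂ) ^ n) (F τ)) :
    1 ≤ (FormalMultilinearSeries.ofScalars ℂ c).radius := by
  refine le_of_forall_lt_imp_le_of_dense fun r hr => ?_
  lift r to NNReal using hr.ne_top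
  apply FormalMultilinearSeries.le_radius_of_summable
  have hr' : ‖((r : ℝ) : ℂ)‖ < 1 := by
    rw [Complex.norm_real, Real.norm_eq_abs, NNReal.abs_eq]
    exact_mod_cast hr
  have := (summable_of_hasSum_qParam hF hr').norm
  simpa [FormalMultilinearSeries.ofScalars_norm, norm_mul, norm_pow] using this

/-- The sum of the power series as a function on the disc. -/
noncomputable def discSum (c : ℕ → ℂ) (q : ℂ) : ℂ := ∑' n : ℕ, c n * q ^ n

theorem differentiableOn_discSum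
    (hF : ∀ τ : ℍ, HasSum (fun n : ℕ => c n * 𝕢 1 (τ : ℂ) ^ n) (F τ)) :
    DifferentiableOn ℂ (discSum c) (ball (0 : ℂ) 1) := by
  have h1 := (FormalMultilinearSeries.ofScalars ℂ c).hasFPowerSeriesOnBall
    (lt_of_lt_of_le one_pos (one_le_radius_of_hasSum_qParam hF))
  have h2 : DifferentiableOn ℂ (FormalMultilinearSeries.ofScalars ℂ c).sum
      (Metric.eball (0 : ℂ) (FormalMultilinearSeries.ofScalars ℂ c).radius) :=
    h1.differentiableOn
  have h3 : ball (0 : ℂ) 1 ⊆ Metric.eball (0 : ℂ) (FormalMultilinearSeries.ofScalars ℂ c).radius := by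
    intro q hq
    rw [Metric.mem_eball, edist_zero_right]
    refine lt_of_lt_of_le ?_ (one_le_radius_of_hasSum_qParam hF)
    have hq1 : ‖q‖ < 1 := by simpa using hq
    have hq2 : ‖q‖₊ < 1 := by exact_mod_cast hq1
    have hq3 : ‖q‖ₑ < ((1 : NNReal) : ENNReal) := enorm_lt_coe.mpr hq2
    simpa using hq3
  refine (h2.mono h3).congr ?_
  intro q _
  have := FormalMultilinearSeries.ofScalars_sum_eq (E := ℂ) c q
  simp only [FormalMultilinearSeries.ofScalarsSum, smul_eq_mul] at this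
  rw [discSum, this]

theorem eq_ofDisc_discSum (hF : ∀ τ : ℍ, HasSum (fun n : ℕ => c n * 𝕢 1 (τ : ℂ) ^ n) (F τ)) :
    F = ofDisc (discSum c) := by
  funext τ
  exact (hF τ).tsum_eq.symm

theorem isNice_of_hasSum_qParam
    (hF : ∀ τ : ℍ, HasSum (fun n : ℕ => c n * 𝕢 1 (τ : ℂ) ^ n) (F τ)) : IsNice F := by
  rw [eq_ofDisc_discSum hF]
  exact isNice_ofDisc (differentiableOn_discSum hF)

theorem qExpansion_of_hasSum_qParam
    (hF : ∀ τ : ℍ, HasSum (fun n : ℕ => c n * 𝕢 1 (τ : ℂ) ^ n) (F τ)) :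
    qExpansion 1 F = PowerSeries.mk c := by
  have hnice := isNice_of_hasSum_qParam hF
  ext n
  have hcont : Continuous F := hnice.2.1.continuous
  have := UpperHalfPlane.qExpansion_coeff_unique (h := 1) (c := c)
    (⟨F, hcont⟩ : C(ℍ, ℂ)) one_pos hnice.analyticAt (by simpa [smul_eq_mul] using hF) n
  rw [ContinuousMap.coe_mk] at this
  rw [← this, PowerSeries.coeff_mk]

end converse

/-- Direction 2 of the bridge. -/
theorem IsQExp.exists_isNice {s : LaurentSeries ℂ} {f : ℍ → ℂ} (hs : IsQExp s f) :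
    ∃ m : ℕ, IsNice (qFun ^ m * f) ∧ s = laurentOf m (qExpansion 1 (qFun ^ m * f)) := by
  set m : ℕ := (-s.order).toNat with hm
  have hlow : ∀ k : ℤ, k < -(m : ℤ) → s.coeff k = 0 := by
    intro k hk
    apply HahnSeries.coeff_eq_zero_of_lt_order
    have : -s.order ≤ (m : ℤ) := Int.self_le_toNat _
    omega
  have hF : ∀ τ : ℍ, HasSum (fun n : ℕ => s.coeff ((n : ℤ) - m) * 𝕢 1 (τ : ℂ) ^ n)
      ((qFun ^ m * f) τ) := by
    intro τ
    have hq : 𝕢 1 (τ : ℂ) ≠ 0 := Periodic.qParam_ne_zero _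
    have := (hasSum_int_iff_nat (m := m) hlow hq (f τ)).mp (hs τ)
    simpa [qFun_apply] using this
  have hnice := isNice_of_hasSum_qParam hF
  refine ⟨m, hnice, ?_⟩
  rw [qExpansion_of_hasSum_qParam hF]
  ext k
  rw [laurentOf_coeff]
  split_ifs with hk
  · exact hlow k (by omega)
  · rw [PowerSeries.coeff_mk]
    congr 1
    have : 0 ≤ k + m := not_lt.mp hk
    rw [Int.natAbs_of_nonneg this]
    ring

theorem IsQExp.isMerCusp {s : LaurentSeries ℂ} {f : ℍ → ℂ} (hs : IsQExp s f) : IsMerCusp f := by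
  obtain ⟨m, hm, -⟩ := hs.exists_isNice
  exact ⟨m, hm⟩

theorem IsQExp.qexpL_eq {s : LaurentSeries ℂ} {f : ℍ → ℂ} (hs : IsQExp s f) : qexpL f = s := by
  obtain ⟨m, hm, h⟩ := hs.exists_isNice
  rw [Fermat.Agent.X0.qexpL_eq hm, ← h]

/-- The bridge between the two formulations of `q`-expansions. -/
theorem isQExp_iff {s : LaurentSeries ℂ} {f : ℍ → ℂ} :
    IsQExp s f ↔ IsMerCusp f ∧ qexpL f = s :=
  ⟨fun h => ⟨h.isMerCusp, h.qexpL_eq⟩, fun ⟨h1, h2⟩ => h2 ▸ isQExp_qexpL h1⟩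


theorem qexpL_neg {f : ℍ → ℂ} (hf : IsMerCusp f) : qexpL (-f) = -qexpL f := by
  have := map_neg qexpLHom ⟨f, hf⟩
  simpa using this

namespace IsQExp

variable {s t : LaurentSeries ℂ} {f g : ℍ → ℂ}

theorem add (hs : IsQExp s f) (ht : IsQExp t g) : IsQExp (s + t) (f + g) :=
  isQExp_iff.mpr ⟨hs.isMerCusp.add ht.isMerCusp, by
    rw [qexpL_add hs.isMerCusp ht.isMerCusp, hs.qexpL_eq, ht.qexpL_eq]⟩

theorem mul (hs : IsQExp s f) (ht : IsQExp t g) : IsQExp (s * t) (f * g) :=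
  isQExp_iff.mpr ⟨hs.isMerCusp.mul ht.isMerCusp, by
    rw [qexpL_mul hs.isMerCusp ht.isMerCusp, hs.qexpL_eq, ht.qexpL_eq]⟩

theorem neg (hs : IsQExp s f) : IsQExp (-s) (-f) :=
  isQExp_iff.mpr ⟨hs.isMerCusp.neg, by rw [qexpL_neg hs.isMerCusp, hs.qexpL_eq]⟩

theorem sub (hs : IsQExp s f) (ht : IsQExp t g) : IsQExp (s - t) (f - g) := by
  rw [sub_eq_add_neg, sub_eq_add_neg]
  exact hs.add ht.neg

theorem const (c : ℂ) : IsQExp (HahnSeries.C c) (fun _ => c) :=
  isQExp_iff.mpr ⟨isMerCusp_const c, qexpL_const c⟩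

theorem single (k : ℤ) (c : ℂ) :
    IsQExp (HahnSeries.single k c) (fun z => c * Function.Periodic.qParam 1 (z : ℂ) ^ k) := by
  intro z
  have h := hasSum_single (f := fun n : ℤ => (HahnSeries.single k c).coeff n *
    Function.Periodic.qParam 1 (z : ℂ) ^ n) k ?_
  · simpa using h
  · intro n hn
    simp [HahnSeries.coeff_single_of_ne hn]

/-- the function determines the series -/
theorem series_unique (hs : IsQExp s f) (ht : IsQExp t f) : s = t := by
  rw [← hs.qexpL_eq, ← ht.qexpL_eq]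

/-- the series determines the function -/
theorem fun_unique (hs : IsQExp s f) (ht : IsQExp s g) : f = g :=
  funext fun z => (hs z).unique (ht z)

theorem of_isNice (hf : IsNice f) : IsQExp (HahnSeries.ofPowerSeries ℤ ℂ (qExpansion 1 f)) f :=
  isQExp_iff.mpr ⟨isMerCusp_of_isNice hf, qexpL_of_isNice hf⟩

theorem periodic_of_vadd (hper : ∀ z : ℍ, f ((1 : ℝ) +ᵥ z) = f z) :
    Periodic (f ∘ ofComplex) 1 := by
  intro w
  simp only [comp_apply]
  by_cases hw : 0 < w.im
  · have hw1 : 0 < (w + 1).im := by simpa using hw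
    rw [ofComplex_apply_of_im_pos hw, ofComplex_apply_of_im_pos hw1, ← hper ⟨w, hw⟩]
    congr 1
    ext1
    simp [UpperHalfPlane.coe_vadd, add_comm]
  · have hw' : w.im ≤ 0 := not_lt.mp hw
    have hw1 : (w + 1).im ≤ 0 := by simpa using hw'
    rw [ofComplex_apply_eq_of_im_nonpos hw1 hw']

/-- existence for holomorphic periodic functions bounded at `i∞` -/
theorem of_bounded (hf : MDiff f) (hper : ∀ z : ℍ, f ((1 : ℝ) +ᵥ z) = f z)
    (hb : IsBoundedAtImInfty f) :
    IsQExp (HahnSeries.ofPowerSeries ℤ ℂ (qExpansion 1 f)) f :=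
  of_isNice ⟨periodic_of_vadd hper, hf, hb⟩

/-- `f(d z)` has `q`-expansion `s(q^d)` -/
theorem scale (hs : IsQExp s f) (d : ℕ) [NeZero d] :
    IsQExp (qExpand ℂ d s)
      (fun z => f ⟨(d : ℂ) * z, by
        have := z.im_pos
        have hd : (0 : ℝ) < d := by exact_mod_cast Nat.pos_of_ne_zero (NeZero.ne d)
        simpa using mul_pos hd this⟩) := by
  have h1 : IsMerCusp fun z => f (scaleH d z) := hs.isMerCusp.scale d
  have h2 : qexpL (fun z => f (scaleH d z)) = qExpand ℂ d s := by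
    rw [qexpL_scale d hs.isMerCusp, hs.qexpL_eq]
  exact isQExp_iff.mpr ⟨h1, h2⟩

/-- a function with a `q`-expansion is holomorphic -/
theorem mdiff (hs : IsQExp s f) : MDiff f := by
  obtain ⟨m, hm, -⟩ := hs.exists_isNice
  have h1 : MDiff ((qFun ^ m * f) / qFun ^ m) :=
    hm.2.1.div (isNice_qFun.pow m).2.1 (fun z => pow_ne_zero _ (qFun_ne_zero z))
  have h2 : (qFun ^ m * f) / qFun ^ m = f := by
    funext z
    simp only [Pi.div_apply, Pi.mul_apply, Pi.pow_apply]
    rw [mul_comm, mul_div_assoc, div_self (pow_ne_zero _ (qFun_ne_zero z)), mul_one]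
  rwa [h2] at h1

/-- a function with a `q`-expansion is `1`-periodic -/
theorem vadd_one (hs : IsQExp s f) (z : ℍ) : f ((1 : ℝ) +ᵥ z) = f z := by
  have h1 := hs ((1 : ℝ) +ᵥ z)
  have h2 : Function.Periodic.qParam 1 (((1 : ℝ) +ᵥ z : ℍ) : ℂ) =
      Function.Periodic.qParam 1 (z : ℂ) := by
    rw [UpperHalfPlane.coe_vadd, add_comm]
    exact_mod_cast qParam_one_add_one (z : ℂ)
  rw [h2] at h1
  exact h1.unique (hs z)

end IsQExp

/-! ### (Q-J) the Prelude's formal `jq` is the `q`-expansion of `E₄³/Δ` -/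

theorem isQExp_jAn : IsQExp (coeffMap (algebraMap ℚ ℂ) jq) jAn :=
  isQExp_iff.mpr ⟨isMerCusp_jAn, qexpL_jAn⟩

theorem isQExp_jAn_scale (d : ℕ) [NeZero d] :
    IsQExp (coeffMap (algebraMap ℚ ℂ) (qExpand ℚ d jq)) (fun z => jAn (scaleH d z)) :=
  isQExp_iff.mpr ⟨isMerCusp_jAn_scale d, qexpL_jAn_scale d⟩

end Fermat.Agent.X0
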