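import Fermat.Agent.X0.CountBasic
import Fermat.Agent.X0.Count.Cusps

/-!
# X-COUNT deliverables (final)

All five statements of section COUNT of `Fermat/Agent/X0/WIP/Skeleton.lean`:
`card_cosets`, `two_mul_orbitCount_S`, `three_mul_orbitCount_ST` (in `CountBasic.lean`) and
`orbitCount_T`, `exists_nat_eq_genusFormula` (here).
-/

set_option autoImplicit false

open ModularCurve
open scoped MatrixGroups

namespace Fermat.Agent.X0

variable (N : ℕ) [NeZero N]

theorem orbitCount_T : orbitCount N ModularGroup.T = cuspCount N := by
  rw [orbitCount_eq_orbP1]
  exact Count.card_orbits_T N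

/-- integrality and non-negativity of the genus formula (sign of permutations + Ree's
inequality for the transitive triple `S, ST, T` acting on the cosets). -/
theorem exists_nat_eq_genusFormula : ∃ g : ℕ, (g : ℚ) = genusFormula N :=
  exists_nat_eq_genusFormula_of_orbitCount_T N (orbitCount_T N)

end Fermat.Agent.X0
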