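import Mathlib
import Fermat.Agent.X0.Cusp
import Fermat.Agent.X0.ModVal

/-!
# X-MOD, piece MOD-VALINF: the valuations at the cusp `∞`

For an injective ring hom `θ : R →+* (ℍ → ℂ)` all of whose nonzero values have an order at `i∞`
in the parameter `q_N` (`HasOrdsInf N θ`) and `F = Frac R`:

* `ordAtInf N θ : F → ℤ`, `a / b ↦ ordInf N (θ a) - ordInf N (θ b)`, with `w_mul`, `w_add`,
  `w_const`;
* for the family `cosetHom Γ θ c` of conjugates: `w_eps` (invariance under `c ↦ T • c`),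
  `w_div` (`T ^ k • c = c`, `k ∣ N` ⟹ `(N / k) ∣ w c f`), `w_x` (`w c (j⁻¹) = N`);
* existence of orders from holomorphy, `Γ(N)`-invariance and meromorphy at all cusps.
-/

set_option autoImplicit false
set_option linter.unusedSectionVars false

namespace Fermat.Agent.X0

open UpperHalfPlane Filter Topology
open scoped Manifold MatrixGroups ModularForm

local notation "Δ" => ModularForm.discriminant

/-! ## `ordInf` and translations -/

theorem ordInf_T_inv_smul (N : ℕ) [NeZero N] (φ : ℍ → ℂ) :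
    ordInf N (fun z => φ (ModularGroup.T⁻¹ • z)) = ordInf N φ := by
  by_cases h : ∃ k : ℤ, HasOrdInf N φ k
  · obtain ⟨k, hk⟩ := h
    rw [hk.ordInf_eq, (hasOrdInf_T_inv_smul_iff.mpr hk).ordInf_eq]
  · have h' : ¬ ∃ k : ℤ, HasOrdInf N (fun z => φ (ModularGroup.T⁻¹ • z)) k := by
      rintro ⟨k, hk⟩
      exact h ⟨k, hasOrdInf_T_inv_smul_iff.mp hk⟩
    unfold ordInf
    rw [dif_neg h, dif_neg h']

theorem T_pow_smul_eq_vadd (k : ℕ) (z : ℍ) : (ModularGroup.T ^ k) • z = ((k : ℝ) +ᵥ z) := by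
  apply UpperHalfPlane.ext
  have := ModularGroup.coe_T_zpow_smul_eq (z := z) (n := (k : ℤ))
  rw [zpow_natCast] at this
  rw [this, UpperHalfPlane.coe_vadd]
  push_cast
  ring

/-! ## Meromorphy at `i∞` -/

/-- `φ` is meromorphic at `i∞`: some `Δ ^ m · φ` is bounded at `i∞`. -/
def IsMeroAtImInfty (φ : ℍ → ℂ) : Prop := ∃ m : ℕ, IsBoundedAtImInfty (Δ ^ m * φ)

theorem discriminant_isBoundedAtImInfty : IsBoundedAtImInfty Δ :=
  (isBoundedAtImInfty_of_tendsto discriminant_tendsto)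

theorem discriminant_pow_isBoundedAtImInfty (m : ℕ) : IsBoundedAtImInfty (Δ ^ m) := by
  induction m with
  | zero =>
    rw [pow_zero]
    exact Filter.const_boundedAtFilter _ (1 : ℂ)
  | succ m ih =>
    rw [pow_succ]
    exact ih.mul discriminant_isBoundedAtImInfty

theorem IsMeroAtImInfty.of_le {φ : ℍ → ℂ} {m n : ℕ} (hmn : m ≤ n)
    (h : IsBoundedAtImInfty (Δ ^ m * φ)) : IsBoundedAtImInfty (Δ ^ n * φ) := by
  obtain ⟨d, rfl⟩ := Nat.exists_eq_add_of_le hmn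
  have := (discriminant_pow_isBoundedAtImInfty d).mul h
  have e : Δ ^ (m + d) * φ = Δ ^ d * (Δ ^ m * φ) := by
    rw [pow_add]
    ring
  rw [e]
  exact this

theorem isMeroAtImInfty_of_bounded {φ : ℍ → ℂ} (h : IsBoundedAtImInfty φ) : IsMeroAtImInfty φ :=
  ⟨0, by simpa using h⟩

theorem isMeroAtImInfty_const (c : ℂ) : IsMeroAtImInfty (fun _ => c) :=
  isMeroAtImInfty_of_bounded (Filter.const_boundedAtFilter _ c)

theorem IsMeroAtImInfty.add {φ ψ : ℍ → ℂ} (h1 : IsMeroAtImInfty φ) (h2 : IsMeroAtImInfty ψ) :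
    IsMeroAtImInfty (φ + ψ) := by
  obtain ⟨m, hm⟩ := h1
  obtain ⟨n, hn⟩ := h2
  refine ⟨max m n, ?_⟩
  have := (IsMeroAtImInfty.of_le (le_max_left m n) hm).add
    (IsMeroAtImInfty.of_le (le_max_right m n) hn)
  rw [mul_add]
  exact this

theorem IsMeroAtImInfty.mul {φ ψ : ℍ → ℂ} (h1 : IsMeroAtImInfty φ) (h2 : IsMeroAtImInfty ψ) :
    IsMeroAtImInfty (φ * ψ) := by
  obtain ⟨m, hm⟩ := h1
  obtain ⟨n, hn⟩ := h2
  refine ⟨m + n, ?_⟩
  have := hm.mul hn
  have e : Δ ^ (m + n) * (φ * ψ) = Δ ^ m * φ * (Δ ^ n * ψ) := by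
    rw [pow_add]
    ring
  rw [e]
  exact this

theorem IsMeroAtImInfty.neg {φ : ℍ → ℂ} (h1 : IsMeroAtImInfty φ) : IsMeroAtImInfty (-φ) := by
  obtain ⟨m, hm⟩ := h1
  refine ⟨m, ?_⟩
  have := hm.neg
  rw [mul_neg]
  exact this

/-- `j` is meromorphic at `i∞`. -/
theorem isMeroAtImInfty_jFun : IsMeroAtImInfty jFun := by
  refine ⟨1, ?_⟩
  have : Δ ^ 1 * jFun = (ModularForm.E₄ : ℍ → ℂ) ^ 3 := by
    funext z
    simp only [pow_one, Pi.mul_apply, Pi.pow_apply]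
    rw [mul_comm, jFun_mul_discriminant]
  rw [this]
  exact isBoundedAtImInfty_of_tendsto (E₄_tendsto.pow 3)

/-! ## The valuation of `Frac R` at `∞` attached to `θ : R →+* (ℍ → ℂ)` -/

section Valuation

variable {R F : Type*} [CommRing R] [IsDomain R] [Field F] [Algebra R F] [IsFractionRing R F]

/-- The order at `i∞` on `R`, via `θ`. -/
noncomputable def ordInfR (N : ℕ) (θ : R →+* (ℍ → ℂ)) (r : R) : ℤ := ordInf N (θ r)

/-- The valuation of `F = Frac R` given by the order at `i∞` (in the parameter `q_N`) via `θ`. -/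
noncomputable def ordAtInf (N : ℕ) (θ : R →+* (ℍ → ℂ)) : F → ℤ := fracOrd (ordInfR N θ)

/-- Every nonzero `θ r` has an order at `i∞`. -/
def HasOrdsInf (N : ℕ) (θ : R →+* (ℍ → ℂ)) : Prop :=
  ∀ r : R, r ≠ 0 → ∃ k : ℤ, HasOrdInf N (θ r) k

variable {N : ℕ} [NeZero N] {θ : R →+* (ℍ → ℂ)}

theorem HasOrdsInf.hasOrdInf (hex : HasOrdsInf N θ) {r : R} (hr : r ≠ 0) :
    HasOrdInf N (θ r) (ordInfR N θ r) :=
  hasOrdInf_ordInf (hex r hr)

theorem ordInfR_mul (hex : HasOrdsInf N θ) (a b : R) (ha : a ≠ 0) (hb : b ≠ 0) :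
    ordInfR N θ (a * b) = ordInfR N θ a + ordInfR N θ b := by
  have h := (hex.hasOrdInf ha).mul (hex.hasOrdInf hb)
  rw [← map_mul] at h
  exact h.ordInf_eq

theorem ordInfR_add (hex : HasOrdsInf N θ) (a b : R) (ha : a ≠ 0) (hb : b ≠ 0)
    (hab : a + b ≠ 0) : min (ordInfR N θ a) (ordInfR N θ b) ≤ ordInfR N θ (a + b) := by
  have h := hex.hasOrdInf hab
  rw [map_add] at h
  exact (hex.hasOrdInf ha).min_le_of_add (hex.hasOrdInf hb) h

theorem ordAtInf_div (hex : HasOrdsInf N θ) {a b : R} (ha : a ≠ 0) (hb : b ≠ 0) :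
    ordAtInf (F := F) N θ (algebraMap R F a / algebraMap R F b) =
      ordInf N (θ a) - ordInf N (θ b) :=
  fracOrd_div (ordInfR_mul hex) ha hb

theorem ordAtInf_algebraMap (hex : HasOrdsInf N θ) {a : R} (ha : a ≠ 0) :
    ordAtInf (F := F) N θ (algebraMap R F a) = ordInf N (θ a) :=
  fracOrd_algebraMap (ordInfR_mul hex) ha

theorem ordAtInf_mul (hex : HasOrdsInf N θ) {f g : F} (hf : f ≠ 0) (hg : g ≠ 0) :
    ordAtInf N θ (f * g) = ordAtInf (R := R) N θ f + ordAtInf (R := R) N θ g :=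
  fracOrd_mul (ordInfR_mul hex) hf hg

theorem ordAtInf_inv (hex : HasOrdsInf N θ) {f : F} (hf : f ≠ 0) :
    ordAtInf (R := R) N θ f⁻¹ = - ordAtInf (R := R) N θ f :=
  fracOrd_inv (ordInfR_mul hex) hf

theorem ordAtInf_add (hex : HasOrdsInf N θ) {f g : F} (hf : f ≠ 0) (hg : g ≠ 0)
    (hfg : f + g ≠ 0) :
    min (ordAtInf (R := R) N θ f) (ordAtInf (R := R) N θ g) ≤ ordAtInf (R := R) N θ (f + g) :=
  fracOrd_add (ordInfR_mul hex) (ordInfR_add hex) hf hg hfg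

/-- `w_const`: elements of `R` mapped to nonzero constants have order `0`. -/
theorem ordAtInf_algebraMap_of_const (hex : HasOrdsInf N θ) {a : R} {c : ℂ} (hc : c ≠ 0)
    (hθ : θ a = fun _ => c) : ordAtInf (F := F) N θ (algebraMap R F a) = 0 := by
  have ha : a ≠ 0 := by
    rintro rfl
    rw [map_zero] at hθ
    exact hc (congrFun hθ UpperHalfPlane.I).symm
  rw [ordAtInf_algebraMap hex ha, hθ]
  exact (hasOrdInf_const N hc).ordInf_eq

/-- An element of `R` realised as `j` has order `-N`. -/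
theorem ordAtInf_algebraMap_of_jFun (hex : HasOrdsInf N θ) {a : R} (hθ : θ a = jFun) :
    ordAtInf (F := F) N θ (algebraMap R F a) = -(N : ℤ) := by
  have ha : a ≠ 0 := by
    rintro rfl
    rw [map_zero] at hθ
    exact (hasOrdInf_jFun N).ne_zero hθ.symm
  rw [ordAtInf_algebraMap hex ha, hθ]
  exact (hasOrdInf_jFun N).ordInf_eq

/-- `w_x` at `∞`: the inverse of an element realised as `j` has order `N`. -/
theorem ordAtInf_inv_algebraMap_of_jFun (hex : HasOrdsInf N θ) {a : R} (hθ : θ a = jFun) :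
    ordAtInf (R := R) N θ (algebraMap R F a)⁻¹ = (N : ℤ) := by
  have ha : a ≠ 0 := by
    rintro rfl
    rw [map_zero] at hθ
    exact (hasOrdInf_jFun N).ne_zero hθ.symm
  have ha' : algebraMap R F a ≠ 0 :=
    (map_ne_zero_iff _ (IsFractionRing.injective R F)).mpr ha
  rw [ordAtInf_inv hex ha', ordAtInf_algebraMap_of_jFun hex hθ, neg_neg]

/-! ### Conjugates -/

/-- the conjugate of `j` is `j`. -/
theorem conjHom_eq_jFun (g : SL(2, ℤ)) {a : R} (hθ : θ a = jFun) : conjHom g θ a = jFun := by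
  funext τ
  rw [conjHom_apply, hθ, jFun_smul]

theorem conjHom_eq_const (g : SL(2, ℤ)) {a : R} {c : ℂ} (hθ : θ a = fun _ => c) :
    conjHom g θ a = fun _ => c := by
  funext τ
  rw [conjHom_apply, hθ]

/-- `w_eps` at `∞`: conjugation by `T` does not change the valuation at `∞`. -/
theorem ordAtInf_conjHom_T (θ : R →+* (ℍ → ℂ)) :
    ordAtInf (F := F) N (conjHom ModularGroup.T θ) = ordAtInf (F := F) N θ := by
  unfold ordAtInf
  congr 1
  funext r
  unfold ordInfR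
  exact ordInf_T_inv_smul N (θ r)

theorem HasOrdsInf.conjHom_T (hex : HasOrdsInf N θ) : HasOrdsInf N (conjHom ModularGroup.T θ) := by
  intro r hr
  obtain ⟨k, hk⟩ := hex r hr
  exact ⟨k, hasOrdInf_T_inv_smul_iff.mpr hk⟩

/-- `w_div` at `∞`: if all `θ r` are invariant under `T ^ k` (`k ∣ N`) then `N / k` divides all
values of the valuation at `∞`. -/
theorem dvd_ordAtInf (hex : HasOrdsInf N θ) {k : ℕ} (hk : k ∣ N)
    (hinv : ∀ r τ, θ r ((ModularGroup.T ^ k) • τ) = θ r τ) {f : F} (hf : f ≠ 0) :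
    ((N / k : ℕ) : ℤ) ∣ ordAtInf (R := R) N θ f := by
  obtain ⟨a, b, ha, hb, rfl⟩ := exists_eq_div_of_ne_zero (R := R) hf
  rw [ordAtInf_div hex ha hb]
  have hper : ∀ r (z : ℍ), θ r ((k : ℝ) +ᵥ z) = θ r z := by
    intro r z
    rw [← T_pow_smul_eq_vadd, hinv]
  have h1 := (hex.hasOrdInf ha).dvd_of_periodic hk (hper a)
  have h2 := (hex.hasOrdInf hb).dvd_of_periodic hk (hper b)
  exact dvd_sub h1 h2

/-! ### Conjugates indexed by left cosets -/

/-- `w_eps` for the coset family at `∞`. -/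
theorem ordAtInf_cosetHom_T_smul {Γ : Subgroup SL(2, ℤ)}
    (hΓ : ∀ γ ∈ Γ, ∀ r τ, θ r (γ • τ) = θ r τ) (c : SL(2, ℤ) ⧸ Γ) :
    ordAtInf (F := F) N (cosetHom Γ θ (ModularGroup.T • c)) =
      ordAtInf (F := F) N (cosetHom Γ θ c) := by
  rw [cosetHom_smul hΓ, ordAtInf_conjHom_T]

/-- `w_div` for the coset family at `∞`. -/
theorem dvd_ordAtInf_cosetHom {Γ : Subgroup SL(2, ℤ)}
    (hΓ : ∀ γ ∈ Γ, ∀ r τ, θ r (γ • τ) = θ r τ) {c : SL(2, ℤ) ⧸ Γ}
    (hex : HasOrdsInf N (cosetHom Γ θ c)) {k : ℕ} (hk : k ∣ N)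
    (hc : (ModularGroup.T ^ k) • c = c) {f : F} (hf : f ≠ 0) :
    ((N / k : ℕ) : ℤ) ∣ ordAtInf (R := R) N (cosetHom Γ θ c) f :=
  dvd_ordAtInf hex hk (fun r τ => cosetHom_invariant_of_smul_eq hΓ hc r τ) hf

/-- `w_x` for the coset family at `∞`. -/
theorem ordAtInf_cosetHom_inv_of_jFun {Γ : Subgroup SL(2, ℤ)} {c : SL(2, ℤ) ⧸ Γ}
    (hex : HasOrdsInf N (cosetHom Γ θ c)) {a : R} (hθ : θ a = jFun) :
    ordAtInf (R := R) N (cosetHom Γ θ c) (algebraMap R F a)⁻¹ = (N : ℤ) :=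
  ordAtInf_inv_algebraMap_of_jFun hex (conjHom_eq_jFun _ hθ)

/-- `w_const` for the coset family at `∞`. -/
theorem ordAtInf_cosetHom_of_const {Γ : Subgroup SL(2, ℤ)} {c : SL(2, ℤ) ⧸ Γ}
    (hex : HasOrdsInf N (cosetHom Γ θ c)) {a : R} {z : ℂ} (hz : z ≠ 0)
    (hθ : θ a = fun _ => z) :
    ordAtInf (F := F) N (cosetHom Γ θ c) (algebraMap R F a) = 0 :=
  ordAtInf_algebraMap_of_const hex hz (conjHom_eq_const _ hθ)

/-- the permutation of the cosets induced by `T`, iterated. -/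
theorem toPerm_pow_apply {G X : Type*} [Group G] [MulAction G X] (g : G) (k : ℕ) (c : X) :
    ((MulAction.toPerm g : Equiv.Perm X) ^ k) c = g ^ k • c := by
  induction k generalizing c with
  | zero => simp
  | succ k ih =>
    rw [pow_succ, pow_succ, Equiv.Perm.mul_apply, ih, MulAction.toPerm_apply, mul_smul]

/-! ### Existence of the orders -/

/-- `Γ(N)`-invariant functions composed with any `g ∈ SL(2,ℤ)` are `N`-periodic. -/
theorem vadd_periodic_of_Gamma_invariant (N : ℕ) {φ : ℍ → ℂ}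
    (hΓ : ∀ γ ∈ CongruenceSubgroup.Gamma N, ∀ τ, φ (γ • τ) = φ τ) (g : SL(2, ℤ)) (z : ℍ) :
    φ (g • ((N : ℝ) +ᵥ z)) = φ (g • z) := by
  rw [← T_pow_smul_eq_vadd, ← mul_smul]
  have h : g * ModularGroup.T ^ N = (g * ModularGroup.T ^ N * g⁻¹) * g := by group
  rw [h, mul_smul]
  apply hΓ
  have hT : ModularGroup.T ^ N ∈ CongruenceSubgroup.Gamma N := by
    rw [CongruenceSubgroup.Gamma_mem]
    rw [← zpow_natCast, ModularGroup.coe_T_zpow]
    simp
  exact (CongruenceSubgroup.Gamma_normal N).conj_mem _ hT g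

/-- Existence of all orders at `∞` for all conjugates: `θ r` holomorphic, `Γ(N)`-invariant and
meromorphic at all cusps. -/
theorem hasOrdsInf_conjHom (hinj : Function.Injective θ) (hhol : ∀ r, MDiff (θ r))
    (hΓ : ∀ γ ∈ CongruenceSubgroup.Gamma N, ∀ r τ, θ r (γ • τ) = θ r τ)
    (hmero : ∀ (g : SL(2, ℤ)) (r : R), IsMeroAtImInfty (fun τ => θ r (g • τ)))
    (g : SL(2, ℤ)) : HasOrdsInf N (conjHom g θ) := by
  intro r hr
  obtain ⟨m, hm⟩ := hmero g⁻¹ r
  have hper : ∀ z : ℍ, conjHom g θ r ((N : ℝ) +ᵥ z) = conjHom g θ r z := by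
    intro z
    simp only [conjHom_apply]
    exact vadd_periodic_of_Gamma_invariant N (fun γ hγ τ => hΓ γ hγ r τ) g⁻¹ z
  exact exists_hasOrdInf hper (conjHom_mdiff g hhol r)
    (map_ne_zero_of_injective (conjHom_injective g hinj) hr) m hm

theorem hasOrdsInf_cosetHom (hinj : Function.Injective θ) (hhol : ∀ r, MDiff (θ r))
    (hΓ : ∀ γ ∈ CongruenceSubgroup.Gamma N, ∀ r τ, θ r (γ • τ) = θ r τ)
    (hmero : ∀ (g : SL(2, ℤ)) (r : R), IsMeroAtImInfty (fun τ => θ r (g • τ)))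
    (Γ : Subgroup SL(2, ℤ)) (c : SL(2, ℤ) ⧸ Γ) : HasOrdsInf N (cosetHom Γ θ c) :=
  hasOrdsInf_conjHom hinj hhol hΓ hmero _

theorem Gamma_le_Gamma0 (N : ℕ) : CongruenceSubgroup.Gamma N ≤ CongruenceSubgroup.Gamma0 N := by
  intro γ hγ
  rw [CongruenceSubgroup.Gamma_mem] at hγ
  rw [CongruenceSubgroup.Gamma0_mem]
  exact hγ.2.2.1

/-- Version for `Γ₀(N)`-invariant `θ` and the coset family of `Γ₀(N)`. -/
theorem hasOrdsInf_cosetHom_Gamma0 (hinj : Function.Injective θ) (hhol : ∀ r, MDiff (θ r))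
    (hΓ : ∀ γ ∈ CongruenceSubgroup.Gamma0 N, ∀ r τ, θ r (γ • τ) = θ r τ)
    (hmero : ∀ (g : SL(2, ℤ)) (r : R), IsMeroAtImInfty (fun τ => θ r (g • τ)))
    (c : SL(2, ℤ) ⧸ CongruenceSubgroup.Gamma0 N) :
    HasOrdsInf N (cosetHom (CongruenceSubgroup.Gamma0 N) θ c) :=
  hasOrdsInf_cosetHom hinj hhol (fun γ hγ => hΓ γ (Gamma_le_Gamma0 N hγ)) hmero _ c

end Valuation

end Fermat.Agent.X0
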