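import Mathlib
import Fermat.Agent.X0.Psi
import Fermat.Agent.X0.ModVal
import Fermat.Agent.X0.ModComplete

/-!
# X-MOD, piece MOD-VAL (concrete): the valuations `wPt N z0 c` of `Fb N` at interior points

`thetaC N c := cosetHom (Gamma0 N) (Psi N) c` is the conjugate of `Ψ` attached to the left coset
`c ∈ SL(2,ℤ) ⧸ Γ₀(N)`, and `wPt N z0 c f := ordAtPt (thetaC N c) z0 f`.
We prove the hypotheses `w_mul, w_add, w_alg, w_x, w_g, w_dvd, w_int` of the abstract counting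
lemma (`ModSkeleton.card_placesOver_eq_card_orbits` shape) for
`(z0, g, e0) = (generic, 1, 1), (I, S, 2), (ρ, S * T, 3)`.
-/

set_option autoImplicit false

namespace Fermat.Agent.X0

open UpperHalfPlane Filter Topology IntermediateField MulAction Function
open scoped Manifold MatrixGroups

/-! ## A lemma on orbits of cyclic groups -/

theorem natCard_orbit_zpowers_eq_minimalPeriod {G X : Type*} [Group G] [MulAction G X] (g : G)
    (c : X) : Nat.card (orbit (Subgroup.zpowers g) c) = minimalPeriod (g • ·) c := by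
  rw [Nat.card_congr (orbitZPowersEquiv g c), Nat.card_zmod]

/-- If `g ^ p` fixes `c` (`p` prime) then the `⟨g⟩`-orbit of `c` has `1` or `p` elements; in the
first case `g` fixes `c`. -/
theorem dvd_natCard_orbit_mul {G X : Type*} [Group G] [MulAction G X] (g : G) (c : X) {p : ℕ}
    (hp : p.Prime) (hgp : g ^ p • c = c) {w : ℤ} (h1 : g • c = c → (p : ℤ) ∣ w) :
    (p : ℤ) ∣ (Nat.card (orbit (Subgroup.zpowers g) c) : ℤ) * w := by
  rw [natCard_orbit_zpowers_eq_minimalPeriod]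
  have hper : IsPeriodicPt (g • ·) p c := by
    unfold IsPeriodicPt IsFixedPt
    rw [smul_iterate]
    exact hgp
  have hdvd : minimalPeriod (g • ·) c ∣ p := hper.minimalPeriod_dvd
  rcases (Nat.dvd_prime hp).mp hdvd with h | h
  · have hfix : g • c = c := by
      have := isPeriodicPt_minimalPeriod (g • ·) c
      rw [h] at this
      exact this
    exact Dvd.dvd.mul_left (h1 hfix) _
  · rw [h]
    exact Dvd.intro _ rfl

/-! ## The conjugates of `Ψ` -/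

variable (N : ℕ)

/-- The conjugate of `Ψ` attached to a left coset of `Γ₀(N)`. -/
noncomputable def thetaC (c : SL(2, ℤ) ⧸ CongruenceSubgroup.Gamma0 N) : Rb N →+* (ℍ → ℂ) :=
  cosetHom (CongruenceSubgroup.Gamma0 N) (Psi N) c

theorem Psi_invariant : ∀ γ ∈ CongruenceSubgroup.Gamma0 N, ∀ (r : Rb N) (τ : ℍ),
    Psi N r (γ • τ) = Psi N r τ :=
  fun γ hγ r τ => Psi_smul N r γ hγ τ

theorem thetaC_mk (g : SL(2, ℤ)) :
    thetaC N (g : SL(2, ℤ) ⧸ CongruenceSubgroup.Gamma0 N) = conjHom g (Psi N) :=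
  cosetHom_mk (Psi_invariant N) g

theorem thetaC_smul (g : SL(2, ℤ)) (c : SL(2, ℤ) ⧸ CongruenceSubgroup.Gamma0 N) :
    thetaC N (g • c) = conjHom g (thetaC N c) :=
  cosetHom_smul (Psi_invariant N) g c

theorem thetaC_injective (c : SL(2, ℤ) ⧸ CongruenceSubgroup.Gamma0 N) :
    Function.Injective (thetaC N c) :=
  cosetHom_injective _ (Psi_injective N) c

theorem thetaC_mdiff (c : SL(2, ℤ) ⧸ CongruenceSubgroup.Gamma0 N) (r : Rb N) :
    MDiff (thetaC N c r) :=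
  cosetHom_mdiff _ (Psi_mdiff N) c r

theorem thetaC_apply (c : SL(2, ℤ) ⧸ CongruenceSubgroup.Gamma0 N) (r : Rb N) (τ : ℍ) :
    thetaC N c r τ = Psi N r ((Quotient.out c : SL(2, ℤ))⁻¹ • τ) := rfl

/-- Constants are fixed by all conjugations. -/
theorem thetaC_algebraMap (c : SL(2, ℤ) ⧸ CongruenceSubgroup.Gamma0 N) (k : Kb) :
    thetaC N c (algebraMap Kb (Rb N) k) = fun _ => iotaC k := by
  funext τ
  rw [thetaC_apply, Psi_algebraMap]

/-- `jBar N` as an element of `Rb N`. -/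
noncomputable def jBarR : Rb N := ⟨jBar N, jBar_mem_Rb N⟩

theorem algebraMap_jBarR : algebraMap (Rb N) (Fb N) (jBarR N) = jBar N := rfl

/-- `j` is fixed by all conjugations. -/
theorem thetaC_jBarR (c : SL(2, ℤ) ⧸ CongruenceSubgroup.Gamma0 N) :
    thetaC N c (jBarR N) = jFun := by
  funext τ
  rw [thetaC_apply]
  have : Psi N (jBarR N) = jFun := Psi_jBar_eq_jFun N
  rw [this, jFun_smul]

/-! ## The valuations -/

/-- The valuation of `Fb N` given by the order of vanishing at `z0` of the conjugate attached to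
the coset `c`. -/
noncomputable def wPt (z0 : ℍ) (c : SL(2, ℤ) ⧸ CongruenceSubgroup.Gamma0 N) (f : Fb N) : ℤ :=
  ordAtPt (R := Rb N) (thetaC N c) z0 f

theorem wPt_mul (z0 : ℍ) (c : SL(2, ℤ) ⧸ CongruenceSubgroup.Gamma0 N) (f h : Fb N) (hf : f ≠ 0)
    (hh : h ≠ 0) : wPt N z0 c (f * h) = wPt N z0 c f + wPt N z0 c h :=
  ordAtPt_mul (thetaC_injective N c) (thetaC_mdiff N c) z0 hf hh

theorem wPt_add (z0 : ℍ) (c : SL(2, ℤ) ⧸ CongruenceSubgroup.Gamma0 N) (f h : Fb N) (hf : f ≠ 0)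
    (hh : h ≠ 0) (hfh : f + h ≠ 0) :
    min (wPt N z0 c f) (wPt N z0 c h) ≤ wPt N z0 c (f + h) :=
  ordAtPt_add (thetaC_injective N c) (thetaC_mdiff N c) z0 hf hh hfh

theorem wPt_alg (z0 : ℍ) (c : SL(2, ℤ) ⧸ CongruenceSubgroup.Gamma0 N) (k : Kb) (hk : k ≠ 0) :
    wPt N z0 c (algebraMap Kb (Fb N) k) = 0 := by
  have h1 : algebraMap Kb (Fb N) k = algebraMap (Rb N) (Fb N) (algebraMap Kb (Rb N) k) :=
    IsScalarTower.algebraMap_apply Kb (Rb N) (Fb N) k
  rw [h1]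
  exact ordAtPt_algebraMap_of_const (thetaC_injective N c) (thetaC_mdiff N c) z0
    ((map_ne_zero iotaC).mpr hk) (thetaC_algebraMap N c k)

/-- `w_g`: invariance under an element fixing `z0`. -/
theorem wPt_smul {z0 : ℍ} {g : SL(2, ℤ)} (hz : g • z0 = z0)
    (c : SL(2, ℤ) ⧸ CongruenceSubgroup.Gamma0 N) (f : Fb N) :
    wPt N z0 (g • c) f = wPt N z0 c f := by
  unfold wPt thetaC
  rw [ordAtPt_cosetHom_smul (Psi_invariant N) hz c]

/-- the value of `wPt` on `j - a` where `ι a = j(z0)`. -/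
theorem wPt_jBar_sub (z0 : ℍ) (c : SL(2, ℤ) ⧸ CongruenceSubgroup.Gamma0 N) (a : Kb)
    (ha : iotaC a = jFun z0) :
    wPt N z0 c (jBar N - algebraMap Kb (Fb N) a) = (ordH (fun w => jFun w - jFun z0) z0 : ℤ) := by
  have h1 : jBar N - algebraMap Kb (Fb N) a =
      algebraMap (Rb N) (Fb N) (jBarR N - algebraMap Kb (Rb N) a) := by
    rw [map_sub, algebraMap_jBarR, ← IsScalarTower.algebraMap_apply Kb (Rb N) (Fb N)]
  have h2 : thetaC N c (jBarR N - algebraMap Kb (Rb N) a) = fun w => jFun w - jFun z0 := by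
    rw [map_sub, thetaC_jBarR, thetaC_algebraMap, ha]
    rfl
  have hne : jBarR N - algebraMap Kb (Rb N) a ≠ 0 := by
    intro h0
    rw [h0, map_zero] at h2
    obtain ⟨w, hw⟩ := jFun_surjective (jFun z0 + 1)
    have := congrFun h2 w
    simp only [Pi.zero_apply, hw] at this
    simp at this
  unfold wPt
  rw [h1, ordAtPt_algebraMap (thetaC_injective N c) (thetaC_mdiff N c) z0 hne, h2]

theorem jFun_sub_mdiff (z0 : ℍ) : MDiff (fun w => jFun w - jFun z0) :=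
  jFun_mdiff.sub mdifferentiable_const

theorem jFun_sub_ne_zero (z0 : ℍ) : (fun w => jFun w - jFun z0) ≠ 0 := by
  intro h
  obtain ⟨w, hw⟩ := jFun_surjective (jFun z0 + 1)
  have := congrFun h w
  simp only [Pi.zero_apply, hw] at this
  simp at this

/-- `w_x`, generic point: `e0 = 1`. -/
theorem wPt_jBar_sub_generic (z0 : ℍ) (c : SL(2, ℤ) ⧸ CongruenceSubgroup.Gamma0 N) (a : Kb)
    (ha : iotaC a = jFun z0) (h0 : jFun z0 ≠ 0) (h1 : jFun z0 ≠ 1728) :
    wPt N z0 c (jBar N - algebraMap Kb (Fb N) a) = (1 : ℕ) := by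
  rw [wPt_jBar_sub N z0 c a ha]
  congr 1
  exact ordH_eq_of_ordAt_eq (jFun_sub_mdiff z0) (jFun_sub_ne_zero z0)
    (by exact_mod_cast ordAt_jFun_sub_of_generic h0 h1)

/-- `w_x` at `i`: `e0 = 2`, `a = 1728`. -/
theorem wPt_jBar_sub_I (c : SL(2, ℤ) ⧸ CongruenceSubgroup.Gamma0 N) :
    wPt N UpperHalfPlane.I c (jBar N - algebraMap Kb (Fb N) 1728) = (2 : ℕ) := by
  have ha : iotaC (1728 : Kb) = jFun UpperHalfPlane.I := by
    rw [jFun_I]; exact map_ofNat iotaC 1728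
  rw [wPt_jBar_sub N _ c 1728 ha]
  congr 1
  exact ordH_eq_of_ordAt_eq (jFun_sub_mdiff _) (jFun_sub_ne_zero _)
    (by exact_mod_cast ordAt_jFun_sub_of_eq_1728 jFun_I)

/-- `w_x` at `ρ`: `e0 = 3`, `a = 0`. -/
theorem wPt_jBar_sub_ρ (c : SL(2, ℤ) ⧸ CongruenceSubgroup.Gamma0 N) :
    wPt N UpperHalfPlane.ρ c (jBar N - algebraMap Kb (Fb N) 0) = (3 : ℕ) := by
  have ha : iotaC (0 : Kb) = jFun UpperHalfPlane.ρ := by
    rw [jFun_ρ]; exact map_zero iotaC
  rw [wPt_jBar_sub N _ c 0 ha]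
  congr 1
  exact ordH_eq_of_ordAt_eq (jFun_sub_mdiff _) (jFun_sub_ne_zero _)
    (by exact_mod_cast ordAt_jFun_sub_of_eq_zero jFun_ρ)

/-! ## `S ^ 2` and `(S T) ^ 3` act trivially on the cosets -/

theorem modS_sq_eq_neg_one : (ModularGroup.S : SL(2, ℤ)) ^ 2 = -1 := by decide

theorem modST_cube_eq_neg_one : (ModularGroup.S * ModularGroup.T : SL(2, ℤ)) ^ 3 = -1 := by decide

theorem neg_one_mem_Gamma0 : (-1 : SL(2, ℤ)) ∈ CongruenceSubgroup.Gamma0 N := by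
  rw [CongruenceSubgroup.Gamma0_mem]
  simp

theorem neg_one_smul_coset (c : SL(2, ℤ) ⧸ CongruenceSubgroup.Gamma0 N) :
    (-1 : SL(2, ℤ)) • c = c := by
  obtain ⟨γ, rfl⟩ := QuotientGroup.mk_surjective c
  rw [MulAction.Quotient.smul_mk, QuotientGroup.eq]
  have : ((-1 : SL(2, ℤ)) • γ)⁻¹ * γ = -1 := by
    rw [smul_eq_mul, neg_one_mul, inv_neg, neg_mul, inv_mul_cancel]
  rw [this]
  exact neg_one_mem_Gamma0 N

/-- `hg` for `g = S`, `e0 = 2`. -/
theorem modS_sq_smul_coset (c : SL(2, ℤ) ⧸ CongruenceSubgroup.Gamma0 N) :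
    (ModularGroup.S : SL(2, ℤ)) ^ 2 • c = c := by
  rw [modS_sq_eq_neg_one, neg_one_smul_coset]

/-- `hg` for `g = S * T`, `e0 = 3`. -/
theorem modST_cube_smul_coset (c : SL(2, ℤ) ⧸ CongruenceSubgroup.Gamma0 N) :
    (ModularGroup.S * ModularGroup.T : SL(2, ℤ)) ^ 3 • c = c := by
  rw [modST_cube_eq_neg_one, neg_one_smul_coset]

/-! ## `w_dvd` -/

/-- If `g` fixes the coset `c`, the conjugate `thetaC N c` is `g`-invariant. -/
theorem thetaC_invariant_of_smul_eq {g : SL(2, ℤ)} {c : SL(2, ℤ) ⧸ CongruenceSubgroup.Gamma0 N}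
    (hc : g • c = c) (r : Rb N) (τ : ℍ) : thetaC N c r (g • τ) = thetaC N c r τ :=
  cosetHom_invariant_of_smul_eq (Psi_invariant N) hc r τ

/-- `w_dvd` at `i` (`g = S`, `e0 = 2`). -/
theorem wPt_dvd_I (c : SL(2, ℤ) ⧸ CongruenceSubgroup.Gamma0 N) (f : Fb N) (hf : f ≠ 0) :
    ((2 : ℕ) : ℤ) ∣ (Nat.card (orbit (Subgroup.zpowers (ModularGroup.S : SL(2, ℤ))) c) : ℤ) *
      wPt N UpperHalfPlane.I c f :=
  dvd_natCard_orbit_mul _ c Nat.prime_two (modS_sq_smul_coset N c) fun hfix =>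
    two_dvd_ordAtPt_I (thetaC_injective N c) (thetaC_mdiff N c)
      (thetaC_invariant_of_smul_eq N hfix) hf

/-- `w_dvd` at `ρ` (`g = S * T`, `e0 = 3`). -/
theorem wPt_dvd_ρ (c : SL(2, ℤ) ⧸ CongruenceSubgroup.Gamma0 N) (f : Fb N) (hf : f ≠ 0) :
    ((3 : ℕ) : ℤ) ∣
      (Nat.card (orbit (Subgroup.zpowers (ModularGroup.S * ModularGroup.T : SL(2, ℤ))) c) : ℤ) *
      wPt N UpperHalfPlane.ρ c f :=
  dvd_natCard_orbit_mul _ c Nat.prime_three (modST_cube_smul_coset N c) fun hfix =>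
    three_dvd_ordAtPt_ρ (thetaC_injective N c) (thetaC_mdiff N c)
      (thetaC_invariant_of_smul_eq N hfix) hf

/-- `w_dvd` for `e0 = 1` (trivial). -/
theorem wPt_dvd_one (z0 : ℍ) (g : SL(2, ℤ)) (c : SL(2, ℤ) ⧸ CongruenceSubgroup.Gamma0 N)
    (f : Fb N) :
    ((1 : ℕ) : ℤ) ∣ (Nat.card (orbit (Subgroup.zpowers g) c) : ℤ) * wPt N z0 c f := by
  simp

/-! ## `w_int` -/

/-- `w_int` at an interior point, given the degree `[Fb N : Kb(j)] = #cosets` and the pairwise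
distinctness of the conjugates (both from MOD-DEG). -/
theorem wPt_int [Fintype (SL(2, ℤ) ⧸ CongruenceSubgroup.Gamma0 N)]
    [FiniteDimensional Kb⟮jBar N⟯ (Fb N)]
    (hcard : Fintype.card (SL(2, ℤ) ⧸ CongruenceSubgroup.Gamma0 N) =
      Module.finrank Kb⟮jBar N⟯ (Fb N))
    (hdist : Function.Injective (thetaC N)) (z0 : ℍ) (f : Fb N) (hf : f ≠ 0)
    (hpos : ∀ c, 0 ≤ wPt N z0 c f) (i : ℕ) :
    (minpoly Kb⟮jBar N⟯ f).coeff i = 0 ∨
      ∀ c, 0 ≤ wPt N z0 c (((minpoly Kb⟮jBar N⟯ f).coeff i : Kb⟮jBar N⟯) : Fb N) :=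
  coeff_minpoly_ordAtPt_nonneg (K := Kb) (R := Rb N) (jBar N) hcard (thetaC N)
    (thetaC_injective N) (thetaC_mdiff N) hdist
    (fun k c c' => by rw [thetaC_algebraMap, thetaC_algebraMap])
    (jBarR N) (algebraMap_jBarR N) (fun c c' => by rw [thetaC_jBarR, thetaC_jBarR])
    z0 hf hpos i


end Fermat.Agent.X0
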