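import Mathlib
import Fermat.Agent.X0.Defs
import Fermat.Agent.X0.Alg.AffineModel
import Fermat.Agent.X0.Alg.Deg
import Fermat.Agent.X0.ACL.Core

/-!
# X0 / ACL: the abstract counting lemma (final form)

`card_places_eq_card_orbits`: for a separating variable `x` of a function field `F/K`
(`K` algebraically closed of characteristic zero), a finite set `C` with `[F : K(x)]` elements
carrying a permutation `ε` and a family of valuations `w c` of `F/K` with `w c x = e₀ > 0`,
compatible with `ε`, with the divisibility property `w_div` and complete in the sense of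
`w_complete`, the places of `F` above `x = 0` are in bijection with the `ε`-orbits on `C`,
and all ramification indices divide `e₀`.
-/

set_option autoImplicit false

open AlgebraicCurve IntermediateField

namespace Fermat.Agent.X0

variable {K F : Type*} [Field K] [Field F] [Algebra K F] [IsAlgClosed K] [CharZero K]

/-- **Abstract counting lemma** (final form). -/
theorem card_places_eq_card_orbits {x : F} {n : ℕ} (hx : IsSepVar K x n)
    {C : Type*} [Fintype C] (hC : Fintype.card C = n) (ε : Equiv.Perm C) (e₀ : ℕ) (he₀ : 0 < e₀)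
    (hε : ε ^ e₀ = 1) (w : C → F → ℤ)
    (w_mul : ∀ c f g, f ≠ 0 → g ≠ 0 → w c (f * g) = w c f + w c g)
    (w_add : ∀ c f g, f ≠ 0 → g ≠ 0 → f + g ≠ 0 → min (w c f) (w c g) ≤ w c (f + g))
    (w_const : ∀ c (a : K), a ≠ 0 → w c (algebraMap K F a) = 0)
    (w_x : ∀ c, w c x = e₀)
    (w_eps : ∀ c f, w (ε c) f = w c f)
    (w_div : ∀ c (k : ℕ), k ∣ e₀ → (ε ^ k) c = c → ∀ f, f ≠ 0 → ((e₀ / k : ℕ) : ℤ) ∣ w c f)
    (w_complete : ∀ f : F, f ≠ 0 → (∀ c, 0 ≤ w c f) →
      ∀ v : Place K F, 0 < v.ord x → 0 ≤ v.ord f) :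
    Nat.card {v : Place K F // 0 < v.ord x} =
      Nat.card (MulAction.orbitRel.Quotient (Subgroup.zpowers ε) C) ∧
    ∀ v : Place K F, 0 < v.ord x → v.ord x ∣ (e₀ : ℤ) := by
  have hx0 : x ≠ 0 := by
    rintro rfl
    exact hx.transcendental isAlgebraic_zero
  have hfd := hx.finite
  have hD : IsDedekindDomain (algModel K x) := algModel_isDedekindDomain hx.transcendental
  have hFr : IsFractionRing (algModel K x) F := algModel_isFractionRing
  have hset : {v : Place K F | 0 < v.ord x} = placesOver x (0 : K) := by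
    ext v
    simp [placesOver]
  have hfin : {v : Place K F | 0 < v.ord x}.Finite := by
    rw [hset]; exact finite_placesOver hx 0
  have hsum : ∑ v ∈ hfin.toFinset, v.ord x = n := by
    have h := sum_ord_placesOver hx (0 : K)
    rw [← h]
    refine Finset.sum_congr ?_ ?_
    · ext v
      simp [placesOver]
    · intro v _
      simp
  exact card_places_eq_card_orbits_and_dvd_of_model (R := algModel K x) hx0
    (fun v hv r => Place.algModel_le v (acl_mem_of_ord_nonneg v hv.le) r)
    hfin hsum hC ε e₀ he₀ hε w w_mul w_add w_const w_x w_eps w_div w_complete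

/-- The counting half of the abstract counting lemma, in terms of `placesOver x 0`. -/
theorem card_placesOver_zero_eq_card_orbits {x : F} {n : ℕ} (hx : IsSepVar K x n)
    {C : Type*} [Fintype C] (hC : Fintype.card C = n) (ε : Equiv.Perm C) (e₀ : ℕ) (he₀ : 0 < e₀)
    (hε : ε ^ e₀ = 1) (w : C → F → ℤ)
    (w_mul : ∀ c f g, f ≠ 0 → g ≠ 0 → w c (f * g) = w c f + w c g)
    (w_add : ∀ c f g, f ≠ 0 → g ≠ 0 → f + g ≠ 0 → min (w c f) (w c g) ≤ w c (f + g))
    (w_const : ∀ c (a : K), a ≠ 0 → w c (algebraMap K F a) = 0)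
    (w_x : ∀ c, w c x = e₀)
    (w_eps : ∀ c f, w (ε c) f = w c f)
    (w_div : ∀ c (k : ℕ), k ∣ e₀ → (ε ^ k) c = c → ∀ f, f ≠ 0 → ((e₀ / k : ℕ) : ℤ) ∣ w c f)
    (w_complete : ∀ f : F, f ≠ 0 → (∀ c, 0 ≤ w c f) →
      ∀ v : Place K F, 0 < v.ord x → 0 ≤ v.ord f) :
    Nat.card (placesOver x (0 : K)) =
      Nat.card (MulAction.orbitRel.Quotient (Subgroup.zpowers ε) C) := by
  have h := (card_places_eq_card_orbits hx hC ε e₀ he₀ hε w w_mul w_add w_const w_x w_eps w_div
    w_complete).1
  rw [← h]
  apply Nat.card_congr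
  refine Equiv.subtypeEquivRight ?_
  intro v
  simp [placesOver]

end Fermat.Agent.X0
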