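import Mathlib
import Fermat.Agent.X0.Defs
import Fermat.Agent.X0.Alg.PlaceBasic

set_option autoImplicit false

/-!
# Program X: valuation-like functions on a function field

A function `W : F → ℤ` is *valuation-like* over `K` if it is additive on products of nonzero
elements, satisfies the ultrametric inequality and vanishes on nonzero constants.  Examples are
`Place.ord` and the analytic orders `ord_{z₀}(θ_c f)` of X-MOD.

Main results:
* `IsValLike.exists_int_forall`: on `K(y)ˣ` every valuation-like `W` with `0 < W y` is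
  `u ↦ k(u) * W y` for an integer `k(u)` independent of `W`;
* `IsValLike.ord_nonneg_of_minpoly_coeff`: if the coefficients of the minimal polynomial of `f`
  over `E ≤ K(y)` have non-negative `W`-value, then `0 ≤ v.ord f` for every place `v` with
  `0 < v.ord y` (valuation rings are integrally closed).
-/

namespace Fermat.Agent.X0

open AlgebraicCurve IntermediateField Polynomial

/-- Valuation-like functions `F → ℤ` (no condition on the value at `0`). -/
structure IsValLike (K : Type*) {F : Type*} [Field K] [Field F] [Algebra K F] (W : F → ℤ) :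
    Prop where
  w_mul : ∀ f g : F, f ≠ 0 → g ≠ 0 → W (f * g) = W f + W g
  w_add : ∀ f g : F, f ≠ 0 → g ≠ 0 → f + g ≠ 0 → min (W f) (W g) ≤ W (f + g)
  w_const : ∀ a : K, a ≠ 0 → W (algebraMap K F a) = 0

namespace IsValLike

variable {K F : Type*} [Field K] [Field F] [Algebra K F] {W : F → ℤ}

theorem w_one (hW : IsValLike K W) : W 1 = 0 := by
  have := hW.w_const 1 one_ne_zero
  simpa using this

theorem w_neg_one (hW : IsValLike K W) : W (-1) = 0 := by
  have h := hW.w_mul (-1) (-1) (neg_ne_zero.mpr one_ne_zero) (neg_ne_zero.mpr one_ne_zero)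
  rw [neg_one_mul, neg_neg, hW.w_one] at h
  omega

theorem w_neg (hW : IsValLike K W) (f : F) : W (-f) = W f := by
  rcases eq_or_ne f 0 with rfl | hf
  · simp
  · rw [← neg_one_mul, hW.w_mul _ _ (neg_ne_zero.mpr one_ne_zero) hf, hW.w_neg_one, zero_add]

theorem w_pow (hW : IsValLike K W) {f : F} (hf : f ≠ 0) (n : ℕ) : W (f ^ n) = n * W f := by
  induction n with
  | zero => simp [hW.w_one]
  | succ n ih =>
    rw [pow_succ, hW.w_mul _ _ (pow_ne_zero n hf) hf, ih]
    push_cast; ring

theorem w_inv (hW : IsValLike K W) {f : F} (hf : f ≠ 0) : W f⁻¹ = - W f := by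
  have h := hW.w_mul f f⁻¹ hf (inv_ne_zero hf)
  rw [mul_inv_cancel₀ hf, hW.w_one] at h
  omega

/-- The ultrametric inequality with possibly vanishing arguments. -/
theorem le_add (hW : IsValLike K W) {f g : F} {m : ℤ} (hf : f = 0 ∨ m ≤ W f)
    (hg : g = 0 ∨ m ≤ W g) : f + g = 0 ∨ m ≤ W (f + g) := by
  by_cases hfg : f + g = 0
  · exact Or.inl hfg
  right
  rcases eq_or_ne f 0 with rfl | hf0
  · rw [zero_add] at hfg ⊢
    exact hg.resolve_left hfg
  rcases eq_or_ne g 0 with rfl | hg0
  · rw [add_zero]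
    exact hf.resolve_left hf0
  exact le_trans (le_min (hf.resolve_left hf0) (hg.resolve_left hg0)) (hW.w_add f g hf0 hg0 hfg)

theorem le_mul (hW : IsValLike K W) {f g : F} {m n : ℤ} (hf : f = 0 ∨ m ≤ W f)
    (hg : g = 0 ∨ n ≤ W g) : f * g = 0 ∨ m + n ≤ W (f * g) := by
  rcases eq_or_ne f 0 with rfl | hf0
  · left; simp
  rcases eq_or_ne g 0 with rfl | hg0
  · left; simp
  right
  rw [hW.w_mul f g hf0 hg0]
  exact add_le_add (hf.resolve_left hf0) (hg.resolve_left hg0)

/-- If `W f < W g` then `W (f + g) = W f`. -/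
theorem w_add_eq_of_lt (hW : IsValLike K W) {f g : F} (hf : f ≠ 0) (hg : g ≠ 0)
    (h : W f < W g) : f + g ≠ 0 ∧ W (f + g) = W f := by
  have hne : f + g ≠ 0 := by
    intro h0
    have : g = -f := by
      rw [eq_neg_iff_add_eq_zero, add_comm]; exact h0
    rw [this, hW.w_neg] at h
    exact lt_irrefl _ h
  refine ⟨hne, le_antisymm ?_ ?_⟩
  · -- `W f = W ((f + g) + (-g)) ≥ min (W (f + g)) (W g)`
    by_contra hlt
    rw [not_le] at hlt
    have h1 := hW.w_add (f + g) (-g) hne (neg_ne_zero.mpr hg) (by simpa using hf)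
    rw [add_neg_cancel_right, hW.w_neg] at h1
    have : W f < min (W (f + g)) (W g) := lt_min hlt h
    omega
  · have := hW.w_add f g hf hg hne
    rw [min_eq_left h.le] at this
    exact this

/-- Polynomials in an element of non-negative value have non-negative value. -/
theorem aeval_nonneg (hW : IsValLike K W) {y : F} (hy : y = 0 ∨ 0 ≤ W y) (Q : K[X]) :
    aeval y Q = 0 ∨ 0 ≤ W (aeval y Q) := by
  induction Q using Polynomial.induction_on' with
  | add p q hp hq =>
    rw [map_add]
    exact hW.le_add hp hq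
  | monomial n a =>
    rw [aeval_monomial]
    rcases eq_or_ne a 0 with rfl | ha
    · left; simp
    have h1 : algebraMap K F a = 0 ∨ (0 : ℤ) ≤ W (algebraMap K F a) :=
      Or.inr (hW.w_const a ha).ge
    have h2 : y ^ n = 0 ∨ (0 : ℤ) ≤ W (y ^ n) := by
      rcases eq_or_ne y 0 with rfl | hy0
      · rcases Nat.eq_zero_or_pos n with rfl | hn
        · right; simp [hW.w_one]
        · left; simp [hn.ne']
      · right
        rw [hW.w_pow hy0]
        exact mul_nonneg (Int.natCast_nonneg n) (hy.resolve_left hy0)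
    simpa using hW.le_mul h1 h2

/-- A polynomial with nonzero constant term in an element of positive value has value `0`. -/
theorem aeval_of_coeff_zero_ne_zero (hW : IsValLike K W) {y : F} (hy0 : y ≠ 0) (hy : 0 < W y)
    {Q : K[X]} (hQ : Q.coeff 0 ≠ 0) : aeval y Q ≠ 0 ∧ W (aeval y Q) = 0 := by
  have hdec : aeval y Q = algebraMap K F (Q.coeff 0) + y * aeval y Q.divX := by
    conv_lhs => rw [← Polynomial.divX_mul_X_add Q]
    simp only [map_add, map_mul, aeval_X, aeval_C]
    ring
  have hc0 : algebraMap K F (Q.coeff 0) ≠ 0 := (_root_.map_ne_zero _).mpr hQ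
  have hc : W (algebraMap K F (Q.coeff 0)) = 0 := hW.w_const _ hQ
  rcases eq_or_ne (aeval y Q.divX) 0 with h0 | h0
  · rw [hdec, h0, mul_zero, add_zero]
    exact ⟨hc0, hc⟩
  · have ht : y * aeval y Q.divX ≠ 0 := mul_ne_zero hy0 h0
    have hWt : 0 < W (y * aeval y Q.divX) := by
      rw [hW.w_mul _ _ hy0 h0]
      have := (hW.aeval_nonneg (Or.inr hy.le) Q.divX).resolve_left h0
      omega
    have := hW.w_add_eq_of_lt hc0 ht (by rw [hc]; exact hWt)
    rw [hdec]
    exact ⟨this.1, this.2.trans hc⟩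

/-- The value of a polynomial in `y`: `W (P(y)) = (order of vanishing of P at 0) * W y`. -/
theorem aeval_eq (hW : IsValLike K W) {y : F} (hy0 : y ≠ 0) (hy : 0 < W y)
    {P : K[X]} (hP : aeval y P ≠ 0) :
    W (aeval y P) = (P.rootMultiplicity 0 : ℤ) * W y := by
  have hP0 : P ≠ 0 := by
    rintro rfl
    simp at hP
  obtain ⟨Q, hPQ, hQ⟩ := Polynomial.exists_eq_pow_rootMultiplicity_mul_and_not_dvd P hP0 0
  rw [map_zero, sub_zero] at hPQ hQ
  rw [Polynomial.X_dvd_iff] at hQ
  have h1 : aeval y P = y ^ P.rootMultiplicity 0 * aeval y Q := by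
    conv_lhs => rw [hPQ]
    simp
  obtain ⟨hQ0, hWQ⟩ := hW.aeval_of_coeff_zero_ne_zero hy0 hy hQ
  rw [h1, hW.w_mul _ _ (pow_ne_zero _ hy0) hQ0, hW.w_pow hy0, hWQ, add_zero]

/-- On `K(y)ˣ`, every valuation-like function `W` with `0 < W y` is given by
`u ↦ k(u) * W y` for an integer `k(u)` independent of `W`. -/
theorem exists_int_forall {y : F} (hy0 : y ≠ 0) {u : F} (hu : u ∈ K⟮y⟯) (hu0 : u ≠ 0) :
    ∃ k : ℤ, ∀ W : F → ℤ, IsValLike K W → 0 < W y → W u = k * W y := by
  rw [IntermediateField.mem_adjoin_simple_iff] at hu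
  obtain ⟨r, s, hrs⟩ := hu
  have hs0 : aeval y s ≠ 0 := by
    intro h
    rw [h, div_zero] at hrs
    exact hu0 hrs
  have hr0 : aeval y r ≠ 0 := by
    intro h
    rw [h, zero_div] at hrs
    exact hu0 hrs
  refine ⟨(r.rootMultiplicity 0 : ℤ) - (s.rootMultiplicity 0 : ℤ), fun W hW hy => ?_⟩
  rw [hrs, div_eq_mul_inv, hW.w_mul _ _ hr0 (inv_ne_zero hs0), hW.w_inv hs0,
    hW.aeval_eq hy0 hy hr0, hW.aeval_eq hy0 hy hs0]
  ring


end IsValLike

section Place

variable {K F : Type*} [Field K] [Field F] [Algebra K F]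

/-- `Place.ord` is valuation-like. -/
theorem isValLike_ord (v : Place K F) : IsValLike K v.ord where
  w_mul _ _ hf hg := v.ord_mul hf hg
  w_add _ _ hf hg hfg := Place.min_le_ord_add v hf hg hfg
  w_const a _ := Place.ord_algebraMap v a

/-- Elements of `K(y)` of non-negative `W`-value (for one valuation-like `W` with `0 < W y`) lie
in the valuation ring of every place `v` with `0 < v.ord y`. -/
theorem mem_valuationSubring_of_mem_adjoin {W : F → ℤ} (hW : IsValLike K W) {y : F}
    (hy0 : y ≠ 0) (hy : 0 < W y) {u : F} (hu : u ∈ K⟮y⟯) (huW : u = 0 ∨ 0 ≤ W u)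
    (v : Place K F) (hv : 0 < v.ord y) : u ∈ v.toValuationSubring := by
  rcases eq_or_ne u 0 with rfl | hu0
  · exact zero_mem _
  obtain ⟨k, hk⟩ := IsValLike.exists_int_forall hy0 hu hu0
  have h1 := hk W hW hy
  have h2 := hk v.ord (isValLike_ord v) hv
  have hk0 : 0 ≤ k := by
    have h3 : 0 ≤ k * W y := by rw [← h1]; exact huW.resolve_left hu0
    by_contra hneg
    rw [not_le] at hneg
    have : k * W y < 0 := mul_neg_of_neg_of_pos hneg hy
    omega
  rw [Place.mem_iff_ord_nonneg, h2]
  exact mul_nonneg hk0 hv.le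

/-- **Integrality criterion.** If `f` is a root of a monic polynomial `p ∈ F[X]` whose
coefficients lie in `K(y)` and have non-negative `W`-value (or vanish), for one valuation-like `W`
with `0 < W y`, then `0 ≤ v.ord f` for every place `v` with `0 < v.ord y`. -/
theorem ord_nonneg_of_monic_root {W : F → ℤ} (hW : IsValLike K W) {y : F}
    (hy0 : y ≠ 0) (hy : 0 < W y) {f : F} (p : F[X]) (hpm : p.Monic) (hroot : p.eval f = 0)
    (hmem : ∀ i : ℕ, p.coeff i ∈ K⟮y⟯) (hint : ∀ i : ℕ, p.coeff i = 0 ∨ 0 ≤ W (p.coeff i))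
    (v : Place K F) (hv : 0 < v.ord y) : 0 ≤ v.ord f := by
  rw [← Place.mem_iff_ord_nonneg]
  have hcoeff : ∀ i, p.coeff i ∈ v.toValuationSubring := fun i =>
    mem_valuationSubring_of_mem_adjoin hW hy0 hy (hmem i) (hint i) v hv
  have hsub : (↑p.coeffs : Set F) ⊆ ↑v.toValuationSubring.toSubring := by
    intro c hc
    rw [Finset.mem_coe, Polynomial.mem_coeffs_iff] at hc
    obtain ⟨n, _, rfl⟩ := hc
    exact hcoeff n
  have hroot' : Polynomial.eval₂ (algebraMap v.toValuationSubring F) f
      (p.toSubring v.toValuationSubring.toSubring hsub) = 0 := by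
    have h1 : (p.toSubring v.toValuationSubring.toSubring hsub).map
        (algebraMap v.toValuationSubring F) = p := Polynomial.map_toSubring p _ hsub
    rw [← Polynomial.eval_map, h1, hroot]
  have hint' : IsIntegral v.toValuationSubring f :=
    ⟨p.toSubring v.toValuationSubring.toSubring hsub,
      (Polynomial.monic_toSubring p _ hsub).mpr hpm, hroot'⟩
  obtain ⟨a, ha⟩ := IsIntegrallyClosed.algebraMap_eq_of_integral hint'
  rw [← ha]
  exact a.2

/-- **`w_complete` from `w_int`.** If `f` is integral over an intermediate field `E ≤ K(y)` and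
every coefficient of its minimal polynomial over `E` has non-negative `W`-value (or vanishes), for
one valuation-like `W` with `0 < W y`, then `0 ≤ v.ord f` for every place `v` with
`0 < v.ord y`. -/
theorem ord_nonneg_of_minpoly_coeff {W : F → ℤ} (hW : IsValLike K W) {y : F}
    (hy0 : y ≠ 0) (hy : 0 < W y) (E : IntermediateField K F) (hE : E ≤ K⟮y⟯) {f : F}
    (hf : IsIntegral E f)
    (hint : ∀ i : ℕ, (minpoly E f).coeff i = 0 ∨ 0 ≤ W (((minpoly E f).coeff i : E) : F))
    (v : Place K F) (hv : 0 < v.ord y) : 0 ≤ v.ord f := by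
  refine ord_nonneg_of_monic_root hW hy0 hy ((minpoly E f).map (algebraMap E F))
    ((minpoly.monic hf).map _) ?_ ?_ ?_ v hv
  · rw [Polynomial.eval_map, ← Polynomial.aeval_def, minpoly.aeval]
  · intro i
    rw [Polynomial.coeff_map]
    exact hE (Subtype.mem _)
  · intro i
    rw [Polynomial.coeff_map]
    rcases hint i with h | h
    · left
      rw [h]
      rfl
    · exact Or.inr h

end Place

end Fermat.Agent.X0
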