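import Mathlib
import Fermat.Agent.X0.ACL
import Fermat.Agent.X0.Count.ForACL
import Fermat.Agent.X0.ValPt
import Fermat.Agent.X0.ValInfPsi
import Fermat.Agent.X0.ValLike

/-!
# X-MOD, piece MOD-FINAL (core): the X-MOD interface theorems from the abstract counting lemma

Hypothesis form: everything is proved from

* `hsep  : IsSepVar Kb (jBar N) (dedekindPsi N)`   (MOD-DEG),
* `hdist : Function.Injective (thetaC N)`            (MOD-DEG: the conjugates are pairwise distinct),
* `hInfInt` : the integrality statement `w_int` for the cusp valuations `wInf` (cusp-COMPLETE).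

Main statements:
* `card_placesOver_of_wPt` : places over `j = a` ↔ orbits of `g` on the cosets, given the interior
  valuations `wPt N z0` with `g • z0 = z0`;
* `ord_jBar_sub_le_one_of`, `card_placesOver_1728_of`, `card_placesOver_zero_of`,
  `card_placesOverInfty_of` : the Skeleton statements.
-/

set_option autoImplicit false

namespace Fermat.Agent.X0

open AlgebraicCurve IntermediateField ModularCurve MulAction Function UpperHalfPlane
open scoped MatrixGroups

/-! ## From `w_dvd` (orbit form) to `w_div` (ACL form) -/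

section Arith

/-- If `e₀ ∣ m * w`, `m ∣ k`, `k ∣ e₀` (all positive) then `e₀ / k ∣ w`. -/
theorem int_div_dvd_of_dvd_mul {e₀ k m : ℕ} (he₀ : 0 < e₀) (hm : 0 < m) (hmk : m ∣ k)
    (hk : k ∣ e₀) {w : ℤ} (h : (e₀ : ℤ) ∣ (m : ℤ) * w) : ((e₀ / k : ℕ) : ℤ) ∣ w := by
  obtain ⟨t, rfl⟩ := hmk
  obtain ⟨u, rfl⟩ := hk
  have hmt : 0 < m * t := Nat.pos_of_mul_pos_right he₀
  rw [Nat.mul_div_cancel_left u hmt]
  obtain ⟨s, hs⟩ := h
  refine ⟨(t : ℤ) * s, ?_⟩
  have hm' : (m : ℤ) ≠ 0 := by exact_mod_cast hm.ne'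
  apply mul_left_cancel₀ hm'
  rw [hs]
  push_cast
  ring

variable {G X : Type*} [Group G] [MulAction G X]

/-- `w_dvd ⟹ w_div`. -/
theorem dvd_of_dvd_natCard_orbit_mul (g : G) (c : X) {e₀ k : ℕ} (he₀ : 0 < e₀) (hk : k ∣ e₀)
    (hfix : ((MulAction.toPerm g : Equiv.Perm X) ^ k) c = c) {w : ℤ}
    (h : (e₀ : ℤ) ∣ (Nat.card (orbit (Subgroup.zpowers g) c) : ℤ) * w) :
    ((e₀ / k : ℕ) : ℤ) ∣ w := by
  rw [natCard_orbit_zpowers_eq_minimalPeriod] at h
  have hkpos : 0 < k := Nat.pos_of_dvd_of_pos hk he₀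
  have hper : IsPeriodicPt (g • ·) k c := by
    unfold IsPeriodicPt IsFixedPt
    rw [smul_iterate]
    have : (MulAction.toPerm g : Equiv.Perm X) ^ k = MulAction.toPerm (g ^ k) := by
      rw [← MulAction.toPermHom_apply, ← map_pow]
      rfl
    rw [this] at hfix
    exact hfix
  have hmk : minimalPeriod (g • ·) c ∣ k := hper.minimalPeriod_dvd
  have hm : 0 < minimalPeriod (g • ·) c := hper.minimalPeriod_pos hkpos
  exact int_div_dvd_of_dvd_mul he₀ hm hmk hk h

end Arith

/-! ## Interior points -/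

section Interior

variable (N : ℕ) [NeZero N]

/-- The interior valuations are valuation-like. -/
theorem isValLike_wPt (z0 : ℍ) (c : SL(2, ℤ) ⧸ CongruenceSubgroup.Gamma0 N) :
    IsValLike Kb (wPt N z0 c) where
  w_mul := wPt_mul N z0 c
  w_add := wPt_add N z0 c
  w_const := wPt_alg N z0 c

/-- **Places over `j = a` ↔ orbits**, from the interior valuations at a point `z0` with
`j(z0) = a` fixed by `g`. -/
theorem card_placesOver_of_wPt (hsep : IsSepVar Kb (jBar N) (dedekindPsi N))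
    (hdist : Function.Injective (thetaC N)) (a : Kb) (z0 : ℍ) (g : SL(2, ℤ)) (e₀ : ℕ)
    (he₀ : 0 < e₀) (hz : g • z0 = z0)
    (hg : ∀ c : SL(2, ℤ) ⧸ CongruenceSubgroup.Gamma0 N, g ^ e₀ • c = c)
    (hx : ∀ c, wPt N z0 c (jBar N - algebraMap Kb (Fb N) a) = e₀)
    (hdvd : ∀ c f, f ≠ 0 →
      (e₀ : ℤ) ∣ (Nat.card (orbit (Subgroup.zpowers g) c) : ℤ) * wPt N z0 c f) :
    Nat.card (placesOver (jBar N) a) = orbitCount N g ∧
      ∀ v : Place Kb (Fb N), 0 < v.ord (jBar N - algebraMap Kb (Fb N) a) →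
        v.ord (jBar N - algebraMap Kb (Fb N) a) ∣ (e₀ : ℤ) := by
  classical
  letI : Fintype (SL(2, ℤ) ⧸ CongruenceSubgroup.Gamma0 N) := Fintype.ofFinite _
  haveI : FiniteDimensional Kb⟮jBar N⟯ (Fb N) := hsep.finite
  have hcard : Fintype.card (SL(2, ℤ) ⧸ CongruenceSubgroup.Gamma0 N) =
      Module.finrank Kb⟮jBar N⟯ (Fb N) := by
    rw [fintype_card_cosets, hsep.finrank_eq]
  set x : Fb N := jBar N - algebraMap Kb (Fb N) a with hxdef
  have hxsep : IsSepVar Kb x (dedekindPsi N) := isSepVar_sub_const hsep a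
  have hx0 : x ≠ 0 := by
    intro h0
    exact hxsep.transcendental (h0 ▸ isAlgebraic_zero)
  have hE : Kb⟮jBar N⟯ ≤ Kb⟮x⟯ := (adjoin_simple_sub_algebraMap (jBar N) a).ge
  have key := card_places_eq_card_orbits (K := Kb) (F := Fb N) hxsep
    (C := SL(2, ℤ) ⧸ CongruenceSubgroup.Gamma0 N) (fintype_card_cosets N)
    (MulAction.toPerm g) e₀ he₀ (toPerm_pow_eq_one_of_smul g e₀ hg) (wPt N z0)
    (wPt_mul N z0) (wPt_add N z0) (wPt_alg N z0) hx
    (fun c f => by rw [MulAction.toPerm_apply]; exact wPt_smul N hz c f)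
    (fun c k hk hfix f hf => dvd_of_dvd_natCard_orbit_mul g c he₀ hk hfix (hdvd c f hf))
    (fun f hf hpos v hv => by
      let c₀ : SL(2, ℤ) ⧸ CongruenceSubgroup.Gamma0 N := ((1 : SL(2, ℤ)) : _)
      have hW := isValLike_wPt N z0 c₀
      have hy : 0 < wPt N z0 c₀ x := by
        rw [hx c₀]
        exact_mod_cast he₀
      have hfint : IsIntegral Kb⟮jBar N⟯ f := Algebra.IsIntegral.isIntegral f
      refine ord_nonneg_of_minpoly_coeff hW hx0 hy Kb⟮jBar N⟯ hE hfint (fun i => ?_) v hv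
      rcases wPt_int N hcard hdist z0 f hf hpos i with h | h
      · exact Or.inl h
      · exact Or.inr (h c₀))
  refine ⟨?_, key.2⟩
  rw [← card_orbits_zpowers_toPerm N g, ← key.1]
  rfl

/-- **`j` is unramified outside `0, 1728, ∞`** (hypothesis form). -/
theorem ord_jBar_sub_le_one_of (hsep : IsSepVar Kb (jBar N) (dedekindPsi N))
    (hdist : Function.Injective (thetaC N)) (v : Place Kb (Fb N)) (a : Kb) (h0 : a ≠ 0)
    (h1 : a ≠ 1728) : v.ord (jBar N - algebraMap Kb (Fb N) a) ≤ 1 := by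
  obtain ⟨z0, hz0⟩ := jFun_surjective (iotaC a)
  have hj0 : jFun z0 ≠ 0 := by
    rw [hz0]
    exact (map_ne_zero_iff _ iotaC_injective).mpr h0
  have hj1 : jFun z0 ≠ 1728 := by
    rw [hz0]
    intro h
    apply h1
    apply iotaC_injective
    rw [h]
    exact (map_ofNat iotaC 1728).symm
  have key := (card_placesOver_of_wPt N hsep hdist a z0 1 1 one_pos (one_smul _ z0)
    (fun c => by rw [pow_one, one_smul])
    (fun c => wPt_jBar_sub_generic N z0 c a hz0.symm hj0 hj1)
    (fun c f _ => wPt_dvd_one N z0 1 c f)).2 v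
  by_cases hv : 0 < v.ord (jBar N - algebraMap Kb (Fb N) a)
  · have h := Int.le_of_dvd one_pos (by simpa using key hv)
    exact h
  · omega

theorem card_placesOver_1728_of (hsep : IsSepVar Kb (jBar N) (dedekindPsi N))
    (hdist : Function.Injective (thetaC N)) :
    Nat.card (placesOver (jBar N) (1728 : Kb)) = orbitCount N ModularGroup.S :=
  (card_placesOver_of_wPt N hsep hdist 1728 UpperHalfPlane.I ModularGroup.S 2 two_pos S_smul_I
    (modS_sq_smul_coset N) (wPt_jBar_sub_I N) (wPt_dvd_I N)).1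

theorem card_placesOver_zero_of (hsep : IsSepVar Kb (jBar N) (dedekindPsi N))
    (hdist : Function.Injective (thetaC N)) :
    Nat.card (placesOver (jBar N) (0 : Kb)) =
      orbitCount N (ModularGroup.S * ModularGroup.T) :=
  (card_placesOver_of_wPt N hsep hdist 0 UpperHalfPlane.ρ (ModularGroup.S * ModularGroup.T) 3
    (by norm_num) ST_smul_ρ (modST_cube_smul_coset N) (wPt_jBar_sub_ρ N) (wPt_dvd_ρ N)).1

end Interior

/-! ## The cusp -/

section Cusp

variable (N : ℕ) [NeZero N]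

theorem isValLike_wInf (c : SL(2, ℤ) ⧸ CongruenceSubgroup.Gamma0 N) :
    IsValLike Kb (wInf N c) where
  w_mul := wInf_mul N c
  w_add := wInf_add N c
  w_const := wInf_const N c

/-- **Poles of `j` ↔ orbits of `T`** (hypothesis form). -/
theorem card_placesOverInfty_of (hsep : IsSepVar Kb (jBar N) (dedekindPsi N))
    (hInfInt : ∀ f : Fb N, f ≠ 0 → (∀ c, 0 ≤ wInf N c f) → ∀ i : ℕ,
      (minpoly Kb⟮jBar N⟯ f).coeff i = 0 ∨
        ∀ c, 0 ≤ wInf N c (((minpoly Kb⟮jBar N⟯ f).coeff i : Kb⟮jBar N⟯) : Fb N)) :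
    Nat.card (placesOverInfty Kb (jBar N)) = orbitCount N ModularGroup.T := by
  classical
  letI : Fintype (SL(2, ℤ) ⧸ CongruenceSubgroup.Gamma0 N) := Fintype.ofFinite _
  haveI : FiniteDimensional Kb⟮jBar N⟯ (Fb N) := hsep.finite
  have hN : 0 < N := Nat.pos_of_ne_zero (NeZero.ne N)
  set x : Fb N := (jBar N)⁻¹ with hxdef
  have hxsep : IsSepVar Kb x (dedekindPsi N) := isSepVar_inv hsep
  have hx0 : x ≠ 0 := by
    intro h0
    exact hxsep.transcendental (h0 ▸ isAlgebraic_zero)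
  have hE : Kb⟮jBar N⟯ ≤ Kb⟮x⟯ := (adjoin_simple_inv (jBar N)).ge
  have key := card_places_eq_card_orbits (K := Kb) (F := Fb N) hxsep
    (C := SL(2, ℤ) ⧸ CongruenceSubgroup.Gamma0 N) (fintype_card_cosets N)
    (MulAction.toPerm ModularGroup.T) N hN (toPerm_T_pow_eq_one N) (wInf N)
    (wInf_mul N) (wInf_add N) (wInf_const N) (wInf_x N) (wInf_eps N)
    (fun c k hk hfix f hf => wInf_div N c k hk hfix f hf)
    (fun f hf hpos v hv => by
      let c₀ : SL(2, ℤ) ⧸ CongruenceSubgroup.Gamma0 N := ((1 : SL(2, ℤ)) : _)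
      have hW := isValLike_wInf N c₀
      have hy : 0 < wInf N c₀ x := by
        rw [wInf_x N c₀]
        exact_mod_cast hN
      have hfint : IsIntegral Kb⟮jBar N⟯ f := Algebra.IsIntegral.isIntegral f
      refine ord_nonneg_of_minpoly_coeff hW hx0 hy Kb⟮jBar N⟯ hE hfint (fun i => ?_) v hv
      rcases hInfInt f hf hpos i with h | h
      · exact Or.inl h
      · exact Or.inr (h c₀))
  rw [← card_orbits_zpowers_toPerm N ModularGroup.T, ← key.1]
  apply Nat.card_congr
  refine Equiv.subtypeEquivRight fun v => ?_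
  rw [mem_placesOverInfty, hxdef, Place.ord_inv]
  omega

end Cusp

end Fermat.Agent.X0
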