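import Mathlib
import Fermat.Agent.S23.Interp
import Fermat.Agent.X0.JFun

set_option autoImplicit false

/-!
# X-MOD, piece RING: the domain of holomorphic `N`-periodic functions meromorphic at `i∞`

`IsModFunN N a` : `a : ℍ → ℂ` is holomorphic, `N`-periodic, and `Δ ^ m * a` is bounded at `i∞` for
some `m`. These functions form a subring `modFunRing N` of `ℍ → ℂ` which is a domain; its fraction
field `MerN N` receives the conjugate embeddings of the function field `Fb N`.
-/

namespace Fermat.Agent.X0

open UpperHalfPlane Filter Topology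
open scoped Manifold MatrixGroups

/-- `a` is holomorphic on `ℍ`, `N`-periodic and meromorphic at `i∞`. -/
structure IsModFunN (N : ℕ) (a : ℍ → ℂ) : Prop where
  mdiff : MDiff a
  periodic : ∀ z : ℍ, a ((N : ℝ) +ᵥ z) = a z
  cusp : ∃ m : ℕ, IsBoundedAtImInfty (fun z => ModularForm.discriminant z ^ m * a z)

theorem isBoundedAtImInfty_discriminant : IsBoundedAtImInfty ModularForm.discriminant :=
  discriminant_tendsto.isBigO_one ℝ

theorem isBoundedAtImInfty_discriminant_pow (m : ℕ) :
    IsBoundedAtImInfty (fun z => ModularForm.discriminant z ^ m) := by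
  induction m with
  | zero =>
    simp only [pow_zero]
    exact Filter.const_boundedAtFilter _ (1 : ℂ)
  | succ m ih =>
    have e : (fun z => ModularForm.discriminant z ^ (m + 1)) =
        (fun z => ModularForm.discriminant z ^ m) * ModularForm.discriminant := by
      funext z; simp [pow_succ]
    rw [e]
    exact ih.mul isBoundedAtImInfty_discriminant

theorem isBoundedAtImInfty_discriminant_pow_mul_of_le {a : ℍ → ℂ} {m n : ℕ} (hmn : m ≤ n)
    (h : IsBoundedAtImInfty (fun z => ModularForm.discriminant z ^ m * a z)) :
    IsBoundedAtImInfty (fun z => ModularForm.discriminant z ^ n * a z) := by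
  have e : (fun z => ModularForm.discriminant z ^ n * a z) =
      (fun z => ModularForm.discriminant z ^ (n - m)) *
        fun z => ModularForm.discriminant z ^ m * a z := by
    funext z
    simp only [Pi.mul_apply]
    rw [← mul_assoc, ← pow_add, Nat.sub_add_cancel hmn]
  rw [e]
  exact (isBoundedAtImInfty_discriminant_pow (n - m)).mul h

theorem isModFunN_const (N : ℕ) (c : ℂ) : IsModFunN N (fun _ => c) where
  mdiff := mdifferentiable_const
  periodic _ := rfl
  cusp := ⟨0, by
    simp only [pow_zero, one_mul]
    exact Filter.const_boundedAtFilter _ c⟩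

theorem IsModFunN.add {N : ℕ} {a b : ℍ → ℂ} (ha : IsModFunN N a) (hb : IsModFunN N b) :
    IsModFunN N (a + b) where
  mdiff := ha.mdiff.add hb.mdiff
  periodic z := by simp only [Pi.add_apply, ha.periodic z, hb.periodic z]
  cusp := by
    obtain ⟨m, hm⟩ := ha.cusp
    obtain ⟨n, hn⟩ := hb.cusp
    refine ⟨m + n, ?_⟩
    have e : (fun z => ModularForm.discriminant z ^ (m + n) * (a + b) z) =
        (fun z => ModularForm.discriminant z ^ (m + n) * a z) +
          fun z => ModularForm.discriminant z ^ (m + n) * b z := by
      funext z; simp only [Pi.add_apply]; ring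
    rw [e]
    exact (isBoundedAtImInfty_discriminant_pow_mul_of_le (Nat.le_add_right m n) hm).add
      (isBoundedAtImInfty_discriminant_pow_mul_of_le (Nat.le_add_left n m) hn)

theorem IsModFunN.mul {N : ℕ} {a b : ℍ → ℂ} (ha : IsModFunN N a) (hb : IsModFunN N b) :
    IsModFunN N (a * b) where
  mdiff := ha.mdiff.mul hb.mdiff
  periodic z := by simp only [Pi.mul_apply, ha.periodic z, hb.periodic z]
  cusp := by
    obtain ⟨m, hm⟩ := ha.cusp
    obtain ⟨n, hn⟩ := hb.cusp
    refine ⟨m + n, ?_⟩
    have e : (fun z => ModularForm.discriminant z ^ (m + n) * (a * b) z) =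
        (fun z => ModularForm.discriminant z ^ m * a z) *
          fun z => ModularForm.discriminant z ^ n * b z := by
      funext z; simp only [Pi.mul_apply]; ring
    rw [e]
    exact hm.mul hn

theorem IsModFunN.neg {N : ℕ} {a : ℍ → ℂ} (ha : IsModFunN N a) : IsModFunN N (-a) where
  mdiff := ha.mdiff.neg
  periodic z := by simp only [Pi.neg_apply, ha.periodic z]
  cusp := by
    obtain ⟨m, hm⟩ := ha.cusp
    refine ⟨m, ?_⟩
    have e : (fun z => ModularForm.discriminant z ^ m * (-a) z) =
        -(fun z => ModularForm.discriminant z ^ m * a z) := by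
      funext z; simp
    rw [e]
    exact hm.neg

/-- The ring of holomorphic `N`-periodic functions on `ℍ` which are meromorphic at `i∞`. -/
def modFunRing (N : ℕ) : Subring (ℍ → ℂ) where
  carrier := {a | IsModFunN N a}
  mul_mem' := IsModFunN.mul
  one_mem' := isModFunN_const N 1
  add_mem' := IsModFunN.add
  zero_mem' := isModFunN_const N 0
  neg_mem' := IsModFunN.neg

theorem mem_modFunRing {N : ℕ} {a : ℍ → ℂ} : a ∈ modFunRing N ↔ IsModFunN N a := Iff.rfl

instance instNoZeroDivisorsModFunRing (N : ℕ) : NoZeroDivisors (modFunRing N) where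
  eq_zero_or_eq_zero_of_mul_eq_zero {a b} hab := by
    have h : (a : ℍ → ℂ) * (b : ℍ → ℂ) = 0 := congrArg Subtype.val hab
    rcases Fermat.Agent.S23.mdiff_mul_eq_zero a.2.mdiff b.2.mdiff h with h1 | h1
    · exact Or.inl (Subtype.ext h1)
    · exact Or.inr (Subtype.ext h1)

instance instNontrivialModFunRing (N : ℕ) : Nontrivial (modFunRing N) := by
  refine ⟨⟨0, 1, fun h => ?_⟩⟩
  have := congrFun (congrArg Subtype.val h) UpperHalfPlane.I
  simp at this

instance instIsDomainModFunRing (N : ℕ) : IsDomain (modFunRing N) := NoZeroDivisors.to_isDomain _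

/-- The fraction field of `modFunRing N`: "meromorphic modular functions". -/
abbrev MerN (N : ℕ) : Type := FractionRing (modFunRing N)

end Fermat.Agent.X0
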