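import Mathlib
import Fermat.Agent.X0.ModFun
import Fermat.Agent.X0.ModComplete
import Fermat.Agent.X0.ValInfPsi

set_option autoImplicit false

/-!
# X-MOD, piece MOD-COMPLETE at the cusp: integrality of minimal polynomial coefficients at `i∞`

The analogue of `ModComplete.coeff_minpoly_ordAtPt_nonneg` for the valuations `ordAtInf N (θ c)`
(order at `i∞` in the parameter `q_N`): the conjugate realisations `θ c` take values in the domain
`modFunRing N` (holomorphic, `N`-periodic, meromorphic at `i∞`), on whose fraction field `MerN N`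
the order at `i∞` is a valuation; the Galois lemma `coeff_minpoly_mem_of_embeddings` then shows
that the coefficients of `minpoly K⟮x⟯ f` have non-negative order at `i∞` for all conjugates
whenever `f` has.

Final instance: `coeff_minpoly_wInf_nonneg` for `wInf N c` on `Fb N`.
-/

namespace Fermat.Agent.X0

open UpperHalfPlane Filter Topology IntermediateField
open scoped Manifold MatrixGroups

/-! ## Generic valuation subring attached to an order function on a domain -/

section FracOrdSubring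

variable {A : Type*} [CommRing A] [IsDomain A] {M : Type*} [Field M] [Algebra A M]
  [IsFractionRing A M] {o : A → ℤ}

theorem fracOrd_one' (o_mul : ∀ a b : A, a ≠ 0 → b ≠ 0 → o (a * b) = o a + o b) :
    fracOrd (F := M) o 1 = 0 := by
  have := fracOrd_algebraMap (F := M) o_mul (one_ne_zero (α := A))
  rw [map_one, fracOrd_one_eq_zero o_mul] at this
  exact this

theorem fracOrd_neg' (o_mul : ∀ a b : A, a ≠ 0 → b ≠ 0 → o (a * b) = o a + o b)
    {f : M} (hf : f ≠ 0) : fracOrd o (-f) = fracOrd o f := by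
  have h1 : fracOrd o (-1 : M) = 0 := by
    have h := fracOrd_mul (F := M) o_mul (f := (-1 : M)) (g := -1) (by simp) (by simp)
    rw [neg_one_mul, neg_neg, fracOrd_one' o_mul] at h
    omega
  rw [← neg_one_mul, fracOrd_mul o_mul (by simp) hf, h1, zero_add]

/-- The valuation ring `{m | m = 0 ∨ 0 ≤ fracOrd o m}` of the fraction field. -/
noncomputable def fracOrdSubring
    (o_mul : ∀ a b : A, a ≠ 0 → b ≠ 0 → o (a * b) = o a + o b)
    (o_add : ∀ a b : A, a ≠ 0 → b ≠ 0 → a + b ≠ 0 → min (o a) (o b) ≤ o (a + b)) :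
    Subring M where
  carrier := {m | m = 0 ∨ 0 ≤ fracOrd o m}
  mul_mem' := by
    rintro a b (rfl | ha) hb
    · left; simp
    rcases hb with rfl | hb
    · left; simp
    by_cases ha0 : a = 0
    · left; simp [ha0]
    by_cases hb0 : b = 0
    · left; simp [hb0]
    right
    rw [fracOrd_mul o_mul ha0 hb0]
    omega
  one_mem' := Or.inr (by rw [fracOrd_one' o_mul])
  add_mem' := by
    rintro a b ha hb
    by_cases ha0 : a = 0
    · simpa [ha0] using hb
    by_cases hb0 : b = 0
    · simpa [hb0] using ha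
    by_cases hab : a + b = 0
    · exact Or.inl hab
    right
    have ha' : 0 ≤ fracOrd o a := ha.resolve_left ha0
    have hb' : 0 ≤ fracOrd o b := hb.resolve_left hb0
    exact le_trans (le_min ha' hb') (fracOrd_add o_mul o_add ha0 hb0 hab)
  zero_mem' := Or.inl rfl
  neg_mem' := by
    rintro a (rfl | ha)
    · left; simp
    by_cases ha0 : a = 0
    · left; simp [ha0]
    right
    rwa [fracOrd_neg' o_mul ha0]

theorem mem_fracOrdSubring
    (o_mul : ∀ a b : A, a ≠ 0 → b ≠ 0 → o (a * b) = o a + o b)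
    (o_add : ∀ a b : A, a ≠ 0 → b ≠ 0 → a + b ≠ 0 → min (o a) (o b) ≤ o (a + b)) {m : M} :
    m ∈ fracOrdSubring (M := M) o_mul o_add ↔ m = 0 ∨ 0 ≤ fracOrd o m := Iff.rfl

end FracOrdSubring

/-! ## The order at `i∞` on `modFunRing N` -/

section OrdInfN

variable (N : ℕ) [NeZero N]

theorem isModFunN_iff {a : ℍ → ℂ} :
    IsModFunN N a ↔ MDiff a ∧ (∀ z : ℍ, a ((N : ℝ) +ᵥ z) = a z) ∧ IsMeroAtImInfty a :=
  ⟨fun h => ⟨h.mdiff, h.periodic, h.cusp⟩, fun h => ⟨h.1, h.2.1, h.2.2⟩⟩

/-- Nonzero elements of `modFunRing N` have an order at `i∞`. -/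
theorem exists_hasOrdInf_of_mem_modFunRing {a : modFunRing N} (ha : a ≠ 0) :
    ∃ k : ℤ, HasOrdInf N (a : ℍ → ℂ) k := by
  obtain ⟨m, hm⟩ := a.2.cusp
  exact exists_hasOrdInf a.2.periodic a.2.mdiff (fun h => ha (Subtype.ext h)) m hm

/-- The order at `i∞` (in `q_N`) on `modFunRing N`. -/
noncomputable def ordInfN (a : modFunRing N) : ℤ := ordInf N (a : ℍ → ℂ)

theorem hasOrdInf_ordInfN {a : modFunRing N} (ha : a ≠ 0) :
    HasOrdInf N (a : ℍ → ℂ) (ordInfN N a) :=
  hasOrdInf_ordInf (exists_hasOrdInf_of_mem_modFunRing N ha)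

theorem ordInfN_mul (a b : modFunRing N) (ha : a ≠ 0) (hb : b ≠ 0) :
    ordInfN N (a * b) = ordInfN N a + ordInfN N b :=
  ((hasOrdInf_ordInfN N ha).mul (hasOrdInf_ordInfN N hb)).ordInf_eq

theorem ordInfN_add (a b : modFunRing N) (ha : a ≠ 0) (hb : b ≠ 0) (hab : a + b ≠ 0) :
    min (ordInfN N a) (ordInfN N b) ≤ ordInfN N (a + b) :=
  (hasOrdInf_ordInfN N ha).min_le_of_add (hasOrdInf_ordInfN N hb) (hasOrdInf_ordInfN N hab)

/-- The order at `i∞` on `MerN N`. -/
noncomputable def ordInfMer : MerN N → ℤ := fracOrd (ordInfN N)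

/-- The valuation ring of `ordInfMer N`. -/
noncomputable def valSubringInf : Subring (MerN N) :=
  fracOrdSubring (ordInfN_mul N) (ordInfN_add N)

theorem mem_valSubringInf {m : MerN N} :
    m ∈ valSubringInf N ↔ m = 0 ∨ 0 ≤ ordInfMer N m := Iff.rfl

end OrdInfN

/-! ## Extension of a realisation to the fraction field, with values in `MerN N` -/

section Realisation

variable {R F : Type*} [CommRing R] [IsDomain R] [Field F] [Algebra R F] [IsFractionRing R F]
variable (N : ℕ) [NeZero N]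

/-- `θ` with values in `modFunRing N`. -/
noncomputable def modHom (θ : R →+* (ℍ → ℂ)) (hmem : ∀ r, IsModFunN N (θ r)) :
    R →+* modFunRing N :=
  θ.codRestrict (modFunRing N) hmem

@[simp] theorem coe_modHom (θ : R →+* (ℍ → ℂ)) (hmem : ∀ r, IsModFunN N (θ r)) (r : R) :
    ((modHom N θ hmem r : modFunRing N) : ℍ → ℂ) = θ r := rfl

theorem modHom_injective {θ : R →+* (ℍ → ℂ)} (hinj : Function.Injective θ)
    (hmem : ∀ r, IsModFunN N (θ r)) : Function.Injective (modHom N θ hmem) := by
  intro a b h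
  apply hinj
  have := congrArg (fun φ : modFunRing N => (φ : ℍ → ℂ)) h
  simpa using this

theorem merNHom_aux_injective {θ : R →+* (ℍ → ℂ)} (hinj : Function.Injective θ)
    (hmem : ∀ r, IsModFunN N (θ r)) :
    Function.Injective ((algebraMap (modFunRing N) (MerN N)).comp (modHom N θ hmem)) :=
  (IsFractionRing.injective (modFunRing N) (MerN N)).comp (modHom_injective N hinj hmem)

/-- The extension of `θ` to the fraction field, with values in `MerN N`. -/
noncomputable def merNHom (θ : R →+* (ℍ → ℂ)) (hinj : Function.Injective θ)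
    (hmem : ∀ r, IsModFunN N (θ r)) : F →+* MerN N :=
  IsFractionRing.lift (merNHom_aux_injective N hinj hmem)

theorem merNHom_algebraMap (θ : R →+* (ℍ → ℂ)) (hinj : Function.Injective θ)
    (hmem : ∀ r, IsModFunN N (θ r)) (r : R) :
    merNHom (F := F) N θ hinj hmem (algebraMap R F r) =
      algebraMap (modFunRing N) (MerN N) (modHom N θ hmem r) :=
  IsFractionRing.lift_algebraMap _ r

theorem hasOrdsInf_of_isModFunN {θ : R →+* (ℍ → ℂ)} (hinj : Function.Injective θ)
    (hmem : ∀ r, IsModFunN N (θ r)) : HasOrdsInf N θ := by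
  intro r hr
  have h0 : modHom N θ hmem r ≠ 0 := by
    intro h
    exact hr (modHom_injective N hinj hmem (by rw [h, map_zero]))
  exact exists_hasOrdInf_of_mem_modFunRing N h0

/-- The order of `merNHom θ f` at `i∞` is `ordAtInf N θ f`. -/
theorem ordInfMer_merNHom (θ : R →+* (ℍ → ℂ)) (hinj : Function.Injective θ)
    (hmem : ∀ r, IsModFunN N (θ r)) {f : F} (hf : f ≠ 0) :
    ordInfMer N (merNHom N θ hinj hmem f) = ordAtInf (R := R) N θ f := by
  obtain ⟨a, b, ha, hb, rfl⟩ := exists_eq_div_of_ne_zero (R := R) hf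
  rw [ordAtInf_div (hasOrdsInf_of_isModFunN N hinj hmem) ha hb, map_div₀, merNHom_algebraMap,
    merNHom_algebraMap]
  have ha' : modHom N θ hmem a ≠ 0 := by
    intro h; exact ha (modHom_injective N hinj hmem (by rw [h, map_zero]))
  have hb' : modHom N θ hmem b ≠ 0 := by
    intro h; exact hb (modHom_injective N hinj hmem (by rw [h, map_zero]))
  unfold ordInfMer
  rw [fracOrd_div (ordInfN_mul N) ha' hb']
  rfl

theorem merNHom_mem_valSubringInf_iff (θ : R →+* (ℍ → ℂ)) (hinj : Function.Injective θ)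
    (hmem : ∀ r, IsModFunN N (θ r)) {f : F} (hf : f ≠ 0) :
    merNHom N θ hinj hmem f ∈ valSubringInf N ↔ 0 ≤ ordAtInf (R := R) N θ f := by
  rw [mem_valSubringInf, ordInfMer_merNHom N θ hinj hmem hf]
  constructor
  · rintro (h | h)
    · exact absurd ((map_eq_zero _).mp h) hf
    · exact h
  · exact Or.inr

end Realisation

/-! ## Integrality of the coefficients of minimal polynomials at the cusp (`w_int`) -/

section WInt

variable {K R F : Type*} [Field K] [CommRing R] [IsDomain R] [Field F] [Algebra K F]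
  [Algebra R F] [IsFractionRing R F] [Algebra K R] [IsScalarTower K R F]

theorem coeff_minpoly_ordAtInf_nonneg [CharZero K] (N : ℕ) [NeZero N]
    (x : F) [FiniteDimensional K⟮x⟯ F]
    {X : Type*} [Fintype X] (hX : Fintype.card X = Module.finrank K⟮x⟯ F)
    (θ : X → R →+* (ℍ → ℂ)) (hinj : ∀ c, Function.Injective (θ c))
    (hmem : ∀ c r, IsModFunN N (θ c r))
    (hdist : Function.Injective θ)
    (hK : ∀ (k : K) (c c' : X), θ c (algebraMap K R k) = θ c' (algebraMap K R k))
    (xR : R) (hxR : algebraMap R F xR = x) (hx : ∀ c c', θ c xR = θ c' xR)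
    {f : F} (hf : f ≠ 0) (hpos : ∀ c, 0 ≤ ordAtInf (R := R) N (θ c) f) (i : ℕ) :
    (minpoly K⟮x⟯ f).coeff i = 0 ∨
      ∀ c, 0 ≤ ordAtInf (R := R) N (θ c) (((minpoly K⟮x⟯ f).coeff i : K⟮x⟯) : F) := by
  classical
  by_cases hcoeff : (minpoly K⟮x⟯ f).coeff i = 0
  · exact Or.inl hcoeff
  right
  haveI : CharZero K⟮x⟯ := charZero_of_injective_algebraMap (algebraMap K K⟮x⟯).injective
  have hpos' : 0 < Fintype.card X := by
    rw [hX]; exact Module.finrank_pos
  obtain ⟨c₀⟩ : Nonempty X := Fintype.card_pos_iff.mp hpos'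
  let σ : X → F →+* MerN N := fun c => merNHom N (θ c) (hinj c) (hmem c)
  have hσR : ∀ c (r : R), σ c (algebraMap R F r) =
      algebraMap (modFunRing N) (MerN N) (modHom N (θ c) (hmem c) r) :=
    fun c r => merNHom_algebraMap N (θ c) (hinj c) (hmem c) r
  have hagree : ∀ c c' (e : K⟮x⟯), σ c (e : F) = σ c' (e : F) := by
    intro c c' e
    apply ringHom_eq_on_adjoin_simple (K := K) (σ c) (σ c') x
    · intro k
      rw [IsScalarTower.algebraMap_apply K R F, hσR, hσR]
      congr 1
      exact Subtype.ext (hK k c c')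
    · rw [← hxR, hσR, hσR]
      congr 1
      exact Subtype.ext (hx c c')
  letI : Algebra K⟮x⟯ (MerN N) := ((σ c₀).comp (algebraMap K⟮x⟯ F)).toAlgebra
  let σA : X → F →ₐ[K⟮x⟯] MerN N := fun c =>
    { σ c with commutes' := fun e => hagree c c₀ e }
  have hσA : Function.Injective σA := by
    intro c c' h
    apply hdist
    ext r τ
    have h1 : σ c (algebraMap R F r) = σ c' (algebraMap R F r) :=
      congrArg (fun s : F →ₐ[K⟮x⟯] MerN N => s (algebraMap R F r)) h
    rw [hσR, hσR] at h1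
    have h2 := IsFractionRing.injective (modFunRing N) (MerN N) h1
    have h3 := congrArg (fun φ : modFunRing N => (φ : ℍ → ℂ) τ) h2
    simpa using h3
  have hfO : ∀ c, σA c f ∈ valSubringInf N := fun c =>
    (merNHom_mem_valSubringInf_iff N (θ c) (hinj c) (hmem c) hf).mpr (hpos c)
  have key := coeff_minpoly_mem_of_embeddings hX σA hσA (valSubringInf N) f hfO i
  have hcF : (((minpoly K⟮x⟯ f).coeff i : K⟮x⟯) : F) ≠ 0 := by
    intro h
    exact hcoeff (Subtype.ext h)
  intro c
  rw [← merNHom_mem_valSubringInf_iff N (θ c) (hinj c) (hmem c) hcF]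
  have : merNHom N (θ c) (hinj c) (hmem c) (((minpoly K⟮x⟯ f).coeff i : K⟮x⟯) : F) =
      algebraMap K⟮x⟯ (MerN N) ((minpoly K⟮x⟯ f).coeff i) := hagree c c₀ _
  rw [this]
  exact key

end WInt

/-! ## The instance for `Ψ` -/

section PsiInstance

variable (N : ℕ) [NeZero N]

/-- The conjugates of `Ψ r` are `N`-periodic. -/
theorem isModFunN_cosetHom_Psi (c : SL(2, ℤ) ⧸ CongruenceSubgroup.Gamma0 N) (r : Rb N) :
    IsModFunN N (cosetHom (CongruenceSubgroup.Gamma0 N) (Psi N) c r) where
  mdiff := cosetHom_mdiff _ (Psi_mdiff N) c r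
  periodic z :=
    vadd_periodic_of_Gamma_invariant N
      (fun γ hγ τ => Psi_smul N r γ (Gamma_le_Gamma0 N hγ) τ) _ z
  cusp := isMeroAtImInfty_Psi_smul N _ r

/-- **`w_int` at the cusp**: if all `wInf N c f ≥ 0`, the coefficients of the minimal polynomial
of `f` over `ℚ̄(j)` have non-negative `wInf N c` for all `c`. Hypotheses: the degree
`[Fb N : ℚ̄(j)] = #(SL(2,ℤ) ⧸ Γ₀(N))` and the distinctness of the conjugates of `Ψ`. -/
theorem coeff_minpoly_wInf_nonneg [FiniteDimensional Kb⟮jBar N⟯ (Fb N)]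
    [Fintype (SL(2, ℤ) ⧸ CongruenceSubgroup.Gamma0 N)]
    (hX : Fintype.card (SL(2, ℤ) ⧸ CongruenceSubgroup.Gamma0 N) =
      Module.finrank Kb⟮jBar N⟯ (Fb N))
    (hdist : Function.Injective
      (fun c : SL(2, ℤ) ⧸ CongruenceSubgroup.Gamma0 N =>
        cosetHom (CongruenceSubgroup.Gamma0 N) (Psi N) c))
    {f : Fb N} (hf : f ≠ 0) (hpos : ∀ c, 0 ≤ wInf N c f) (i : ℕ) :
    (minpoly Kb⟮jBar N⟯ f).coeff i = 0 ∨
      ∀ c, 0 ≤ wInf N c (((minpoly Kb⟮jBar N⟯ f).coeff i : Kb⟮jBar N⟯) : Fb N) := by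
  refine coeff_minpoly_ordAtInf_nonneg (K := Kb) (R := Rb N) N (jBar N) hX
    (fun c => cosetHom (CongruenceSubgroup.Gamma0 N) (Psi N) c)
    (fun c => cosetHom_injective _ (Psi_injective N) c)
    (fun c r => isModFunN_cosetHom_Psi N c r) hdist ?_ ⟨jBar N, jBar_mem_Rb N⟩ rfl ?_ hf hpos i
  · intro k c c'
    funext τ
    unfold cosetHom
    simp only [conjHom_apply, Psi_algebraMap]
  · intro c c'
    funext τ
    unfold cosetHom
    simp only [conjHom_apply, Psi_jBar_eq_jFun, jFun_smul]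

end PsiInstance

end Fermat.Agent.X0
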