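import Mathlib
import Fermat.Agent.X0.ModFinalCore
import Fermat.Agent.X0.CuspComplete

/-!
# X-MOD, piece MOD-FINAL: the cusp count from `hsep` and `hdist` only

`card_placesOverInfty_of_dist` : poles of `j` ↔ orbits of `T`, with the cusp integrality statement
discharged by `coeff_minpoly_wInf_nonneg` (cusp-COMPLETE).
-/

set_option autoImplicit false

namespace Fermat.Agent.X0

open AlgebraicCurve IntermediateField ModularCurve
open scoped MatrixGroups

variable (N : ℕ) [NeZero N]

/-- **Poles of `j` ↔ orbits of `T`**, from the degree and the distinctness of the conjugates. -/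
theorem card_placesOverInfty_of_dist (hsep : IsSepVar Kb (jBar N) (dedekindPsi N))
    (hdist : Function.Injective (thetaC N)) :
    Nat.card (placesOverInfty Kb (jBar N)) = orbitCount N ModularGroup.T := by
  classical
  letI : Fintype (SL(2, ℤ) ⧸ CongruenceSubgroup.Gamma0 N) := Fintype.ofFinite _
  haveI : FiniteDimensional Kb⟮jBar N⟯ (Fb N) := hsep.finite
  have hcard : Fintype.card (SL(2, ℤ) ⧸ CongruenceSubgroup.Gamma0 N) =
      Module.finrank Kb⟮jBar N⟯ (Fb N) := by
    rw [fintype_card_cosets, hsep.finrank_eq]
  exact card_placesOverInfty_of N hsep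
    (fun f hf hpos i => coeff_minpoly_wInf_nonneg N hcard hdist hf hpos i)

end Fermat.Agent.X0
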