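import Mathlib
import Fermat.Agent.X0.ValPt
import Fermat.Agent.X0.QExpGamma

/-!
# X-MOD: distinct cosets give distinct conjugates of `Ψ` (`hdist`)

`thetaC N c` applied to `j(q^N)` is `z ↦ j(N · (γ_c⁻¹ z))`; by `QExpGamma.lean` these functions
determine the coset.
-/

set_option autoImplicit false

namespace Fermat.Agent.X0

open UpperHalfPlane
open Fermat.Agent.S23 Fermat.Agent.S23.PrimEltQExp
open scoped Manifold MatrixGroups

variable (N : ℕ) [NeZero N]

/-- `j(q^N)` as an element of `Rb N`. -/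
noncomputable def jBarNR : Rb N := ⟨jBarD N N dvd_rfl, jBarD_mem_Rb N N dvd_rfl⟩

theorem thetaC_jBarNR (c : SL(2, ℤ) ⧸ CongruenceSubgroup.Gamma0 N) :
    thetaC N c (jBarNR N) =
      fun z => jFun (scaleH N ((Quotient.out c : SL(2, ℤ))⁻¹ • z)) := by
  funext τ
  rw [thetaC_apply]
  have : Psi N (jBarNR N) = fun z => jAn (scaleH N z) := Psi_jBarD N N dvd_rfl
  rw [this]
  rfl

/-- **hdist**: the conjugates of `Ψ` attached to distinct cosets are distinct. -/
theorem thetaC_injective_cosets : Function.Injective (thetaC N) := by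
  intro c c' h
  have h1 := congrArg (fun ψ : Rb N →+* (ℍ → ℂ) => ψ (jBarNR N)) h
  simp only [thetaC_jBarNR] at h1
  have h2 := coset_eq_of_jFun_scaleH_inv_smul_eq N h1
  rwa [QuotientGroup.out_eq', QuotientGroup.out_eq'] at h2

end Fermat.Agent.X0
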