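import Mathlib
import Fermat.Agent.X0.ModDeg
import Fermat.Agent.X0.ModFinalSep

/-!
# X-MOD, piece MOD-FINAL: the X-MOD interface theorems (Skeleton names) and S24

`jBar_isSepVar` is in `ModDeg.lean`; here are the other four X-MOD interface statements of
`WIP/Skeleton.lean`, unconditionally, and the genus formula `genus_eq_genusFormula` (= S24).
-/

set_option autoImplicit false

namespace Fermat.Agent.X0

open AlgebraicCurve IntermediateField ModularCurve
open scoped MatrixGroups

variable (N : ℕ) [NeZero N]

/-- `j` is unramified outside `0, 1728, ∞`. -/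
theorem ord_jBar_sub_le_one (v : Place Kb (Fb N)) (a : Kb) (h0 : a ≠ 0) (h1 : a ≠ 1728) :
    v.ord (jBar N - algebraMap Kb (Fb N) a) ≤ 1 :=
  ord_jBar_sub_le_one_of_hsep N (jBar_isSepVar N) v a h0 h1

theorem card_placesOver_1728 :
    Nat.card (placesOver (jBar N) (1728 : Kb)) = orbitCount N ModularGroup.S :=
  card_placesOver_1728_of_hsep N (jBar_isSepVar N)

theorem card_placesOver_zero :
    Nat.card (placesOver (jBar N) (0 : Kb)) =
      orbitCount N (ModularGroup.S * ModularGroup.T) :=
  card_placesOver_zero_of_hsep N (jBar_isSepVar N)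

theorem card_placesOverInfty :
    Nat.card (placesOverInfty Kb (jBar N)) = orbitCount N ModularGroup.T :=
  card_placesOverInfty_of_hsep N (jBar_isSepVar N)

/-- **S24**: the genus of the function field of `X₀(N)` over `ℚ̄` is the classical genus formula. -/
theorem genus_eq_genusFormula
    [AlgebraicCurve.HasCanonicalDivisor (K := Kb) (F := Fb N)] :
    (AlgebraicCurve.genus Kb (Fb N) : ℚ) = genusFormula N :=
  genus_eq_genusFormula_of_hsep N (jBar_isSepVar N)

end Fermat.Agent.X0
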