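import Mathlib
import Fermat.Agent.S23.Basic
import Fermat.Agent.S23.PrimElt

set_option autoImplicit false

/-!
# X0 / JLocal, part 1: the normalised derivative `D` and q-expansions; the Rankin–Cohen bracket

* `D F = q · G'(q)` for the cusp function `G` of a nice `F`; `D F` is nice and vanishes at `i∞`;
  `D F / q → a₁(F)`, and `F / q → a₁(F)` if `F` vanishes at `i∞`.
* `2 E₄ · D E₆ − 3 E₆ · D E₄ = −1728 Δ` (Rankin–Cohen bracket; no `E₂` needed).
-/

namespace Fermat.Agent.X0.JLocal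

open UpperHalfPlane hiding I
open Function Filter Complex ModularForm
open scoped MatrixGroups ModularForm Manifold Topology Real
open Derivative
open Fermat.Agent.S23 (IsNice isNice_of_modularForm primElt_isNice_tendsto)

local notation "𝕢" => Periodic.qParam

theorem hasDerivAt_qParam_one (w : ℂ) : HasDerivAt (𝕢 1) (2 * π * I * 𝕢 1 w) w := by
  unfold Periodic.qParam
  have h1 : HasDerivAt (fun z : ℂ => 2 * π * I * z / (1 : ℝ)) (2 * π * I) w := by
    simpa using ((hasDerivAt_id w).const_mul (2 * π * I))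
  have := h1.cexp
  rw [show cexp (2 * ↑π * I * w / ((1 : ℝ) : ℂ)) * (2 * ↑π * I) =
    2 * ↑π * I * cexp (2 * ↑π * I * w / ((1 : ℝ) : ℂ)) from mul_comm _ _] at this
  exact this

/-- `D F = q · G'(q)` where `G` is the cusp function of `F`. -/
theorem D_eq_qParam_mul_deriv_cuspFunction {F : ℍ → ℂ} (hF : IsNice F) (z : ℍ) :
    D F z = 𝕢 1 z * deriv (cuspFunction 1 F) (𝕢 1 z) := by
  have hG : DifferentiableAt ℂ (cuspFunction 1 F) (𝕢 1 z) := by
    have := differentiableOn_cuspFunction_ball one_pos hF.1 hF.2.1 hF.2.2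
    refine (this _ ?_).differentiableAt (Metric.isOpen_ball.mem_nhds ?_)
    · simpa using Periodic.norm_qParam_lt_one one_pos z.im_pos
    · simpa using Periodic.norm_qParam_lt_one one_pos z.im_pos
  have hcomp : (F ∘ ofComplex) =ᶠ[𝓝 (z : ℂ)] (cuspFunction 1 F ∘ 𝕢 1) := by
    filter_upwards [isOpen_upperHalfPlaneSet.mem_nhds z.im_pos] with w hw
    have := eq_cuspFunction (⟨w, hw⟩ : ℍ) one_ne_zero hF.1
    simp only [comp_apply]
    rw [ofComplex_apply_of_im_pos hw]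
    exact this.symm
  have hd : HasDerivAt (cuspFunction 1 F ∘ 𝕢 1)
      (deriv (cuspFunction 1 F) (𝕢 1 z) * (2 * π * I * 𝕢 1 z)) z :=
    hG.hasDerivAt.comp (z : ℂ) (hasDerivAt_qParam_one z)
  unfold normalizedDerivOfComplex
  rw [hcomp.deriv_eq, hd.deriv]
  have : (2 * (π : ℂ) * I) ≠ 0 := by
    simp [Real.pi_ne_zero]
  field_simp

/-- The derivative of the cusp function is continuous at `0`. -/
theorem continuousAt_deriv_cuspFunction {F : ℍ → ℂ} (hF : IsNice F) :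
    ContinuousAt (deriv (cuspFunction 1 F)) 0 :=
  hF.analyticAt.deriv.continuousAt

/-- `D F / q → a₁(F)` at `i∞`. -/
theorem tendsto_D_div_qParam {F : ℍ → ℂ} (hF : IsNice F) :
    Tendsto (fun z : ℍ => D F z / 𝕢 1 z) atImInfty (𝓝 ((qExpansion 1 F).coeff 1)) := by
  have h1 : (qExpansion 1 F).coeff 1 = deriv (cuspFunction 1 F) 0 := by
    rw [qExpansion_coeff]; simp
  rw [h1]
  have h2 : ∀ z : ℍ, D F z / 𝕢 1 z = deriv (cuspFunction 1 F) (𝕢 1 z) := by
    intro z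
    rw [D_eq_qParam_mul_deriv_cuspFunction hF, mul_div_cancel_left₀ _ (Periodic.qParam_ne_zero _)]
  simp_rw [h2]
  exact (continuousAt_deriv_cuspFunction hF).tendsto.comp (qParam_tendsto_atImInfty one_pos)

/-- `D F` vanishes at `i∞`. -/
theorem isZeroAtImInfty_D {F : ℍ → ℂ} (hF : IsNice F) : IsZeroAtImInfty (D F) := by
  have h2 : D F = fun z : ℍ => 𝕢 1 z * (D F z / 𝕢 1 z) := by
    funext z
    rw [mul_div_cancel₀ _ (Periodic.qParam_ne_zero _)]
  rw [h2]
  have := (qParam_tendsto_atImInfty one_pos).mul (tendsto_D_div_qParam hF)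
  simpa [IsZeroAtImInfty, ZeroAtFilter] using this

/-- `D F` is nice. -/
theorem isNice_D {F : ℍ → ℂ} (hF : IsNice F) : IsNice (D F) := by
  refine ⟨?_, normalizedDerivOfComplex_mdifferentiable hF.2.1,
    (isZeroAtImInfty_D hF).isBoundedAtImInfty⟩
  intro w
  by_cases! hw : 0 < im w
  · have hw' : 0 < im (w + 1) := by simpa using hw
    simp only [comp_apply, ofComplex_apply_of_im_pos hw', ofComplex_apply_of_im_pos hw]
    rw [D_eq_qParam_mul_deriv_cuspFunction hF, D_eq_qParam_mul_deriv_cuspFunction hF]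
    have : 𝕢 1 ((⟨w + 1, hw'⟩ : ℍ) : ℂ) = 𝕢 1 ((⟨w, hw⟩ : ℍ) : ℂ) := by
      show 𝕢 1 (w + 1) = 𝕢 1 w
      simp only [Periodic.qParam, ofReal_one, div_one]
      rw [mul_add, Complex.exp_add, mul_one, Complex.exp_two_pi_mul_I, mul_one]
    rw [this]
  · have : im (w + 1) ≤ 0 := by simpa using hw
    simp only [comp_apply]
    rw [ofComplex_apply_eq_of_im_nonpos this hw]

/-- If `F` is nice and vanishes at `i∞` then `F / q → a₁(F)`. -/
theorem tendsto_div_qParam {F : ℍ → ℂ} (hF : IsNice F) (h0 : IsZeroAtImInfty F) :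
    Tendsto (fun z : ℍ => F z / 𝕢 1 z) atImInfty (𝓝 ((qExpansion 1 F).coeff 1)) := by
  have h1 : (qExpansion 1 F).coeff 1 = deriv (cuspFunction 1 F) 0 := by
    rw [qExpansion_coeff]; simp
  rw [h1]
  have hG0 : cuspFunction 1 F 0 = 0 := by
    have := (hF.isZeroAtImInfty_iff).mp h0
    rw [qExpansion_coeff] at this
    simpa using this
  have hd : HasDerivAt (cuspFunction 1 F) (deriv (cuspFunction 1 F) 0) 0 :=
    hF.analyticAt.differentiableAt.hasDerivAt
  have hslope := hd.tendsto_slope_zero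
  have hq : Tendsto (fun z : ℍ => 𝕢 1 z) atImInfty (𝓝[≠] 0) := by
    rw [tendsto_nhdsWithin_iff]
    exact ⟨qParam_tendsto_atImInfty one_pos,
      Filter.Eventually.of_forall fun z => Periodic.qParam_ne_zero _⟩
  have := hslope.comp hq
  refine this.congr ?_
  intro z
  simp only [comp_apply, zero_add, hG0, sub_zero, smul_eq_mul]
  rw [eq_cuspFunction z one_ne_zero hF.1]
  field_simp

/-- Slash of `D F` for a weight-`k` invariant `F`. -/
theorem D_slash_of_invariant {k : ℤ} {F : ℍ → ℂ} (hF : MDiff F) {γ : SL(2, ℤ)}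
    (h : F ∣[k] γ = F) (z : ℍ) :
    (D F ∣[k + 2] γ) z = D F z + (k : ℂ) * (2 * π * I)⁻¹ * (γ 1 0 / denom γ z) * F z := by
  have h1 := congrFun (normalizedDerivOfComplex_SL_slash (k := k) hF (γ := γ)) z
  rw [h] at h1
  simp only [Pi.sub_apply] at h1
  rw [h1]; ring

theorem isNice_E₄ : IsNice (E₄ : ℍ → ℂ) := isNice_of_modularForm one_mem_strictPeriods_SL E₄
theorem isNice_E₆ : IsNice (E₆ : ℍ → ℂ) := isNice_of_modularForm one_mem_strictPeriods_SL E₆

theorem E₄_slash (γ : SL(2, ℤ)) : (E₄ : ℍ → ℂ) ∣[(4 : ℤ)] γ = E₄ :=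
  SlashInvariantFormClass.slash_action_eq E₄ _ ⟨γ, rfl⟩

theorem E₆_slash (γ : SL(2, ℤ)) : (E₆ : ℍ → ℂ) ∣[(6 : ℤ)] γ = E₆ :=
  SlashInvariantFormClass.slash_action_eq E₆ _ ⟨γ, rfl⟩

/-- The Rankin–Cohen bracket `2 E₄ D E₆ - 3 E₆ D E₄`. -/
noncomputable def rcFun : ℍ → ℂ := fun z => 2 * E₄ z * D E₆ z - 3 * E₆ z * D E₄ z

theorem rcFun_eq : rcFun = (2 : ℂ) • ((E₄ : ℍ → ℂ) * D E₆) - (3 : ℂ) • ((E₆ : ℍ → ℂ) * D E₄) := by
  funext z; simp [rcFun]; ring

theorem rcFun_slash (γ : SL(2, ℤ)) : rcFun ∣[(12 : ℤ)] γ = rcFun := by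
  funext z
  have h4 : (D (E₄ : ℍ → ℂ) ∣[(6 : ℤ)] γ) z = D (E₄ : ℍ → ℂ) z +
      ((4 : ℤ) : ℂ) * (2 * π * I)⁻¹ * (γ 1 0 / denom γ z) * E₄ z :=
    D_slash_of_invariant (k := 4) (F := (E₄ : ℍ → ℂ)) (ModularFormClass.holo E₄) (E₄_slash γ) z
  have h6 : (D (E₆ : ℍ → ℂ) ∣[(8 : ℤ)] γ) z = D (E₆ : ℍ → ℂ) z +
      ((6 : ℤ) : ℂ) * (2 * π * I)⁻¹ * (γ 1 0 / denom γ z) * E₆ z :=
    D_slash_of_invariant (k := 6) (F := (E₆ : ℍ → ℂ)) (ModularFormClass.holo E₆) (E₆_slash γ) z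
  have e1 : (((E₄ : ℍ → ℂ) * D E₆) ∣[(12 : ℤ)] γ) z = E₄ z * (D E₆ ∣[(8 : ℤ)] γ) z := by
    have := congrFun (ModularForm.mul_slash_SL2 4 8 γ (E₄ : ℍ → ℂ) (D E₆)) z
    rw [show ((4 : ℤ) + 8) = 12 by norm_num] at this
    rw [this, Pi.mul_apply, E₄_slash]
  have e2 : (((E₆ : ℍ → ℂ) * D E₄) ∣[(12 : ℤ)] γ) z = E₆ z * (D E₄ ∣[(6 : ℤ)] γ) z := by
    have := congrFun (ModularForm.mul_slash_SL2 6 6 γ (E₆ : ℍ → ℂ) (D E₄)) z
    rw [show ((6 : ℤ) + 6) = 12 by norm_num] at this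
    rw [this, Pi.mul_apply, E₆_slash]
  rw [rcFun_eq, sub_eq_add_neg, SlashAction.add_slash, SlashAction.neg_slash,
    ModularForm.SL_smul_slash, ModularForm.SL_smul_slash]
  simp only [Pi.add_apply, Pi.neg_apply, Pi.smul_apply, smul_eq_mul, Pi.mul_apply]
  rw [e1, e2, h6, h4]
  push_cast
  ring

theorem rcFun_mdiff : MDiff rcFun := by
  have h4 : MDiff (E₄ : ℍ → ℂ) := ModularFormClass.holo E₄
  have h6 : MDiff (E₆ : ℍ → ℂ) := ModularFormClass.holo E₆
  have hd4 := normalizedDerivOfComplex_mdifferentiable h4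
  have hd6 := normalizedDerivOfComplex_mdifferentiable h6
  exact ((mdifferentiable_const.mul h4).mul hd6).sub ((mdifferentiable_const.mul h6).mul hd4)

theorem tendsto_E₄ : Tendsto (E₄ : ℍ → ℂ) atImInfty (𝓝 1) := by
  have := primElt_isNice_tendsto isNice_E₄
  rwa [EisensteinSeries.E_qExpansion_coeff_zero _ ⟨2, rfl⟩] at this

theorem tendsto_E₆ : Tendsto (E₆ : ℍ → ℂ) atImInfty (𝓝 1) := by
  have := primElt_isNice_tendsto isNice_E₆
  rwa [EisensteinSeries.E_qExpansion_coeff_zero _ ⟨3, rfl⟩] at this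

theorem rcFun_isZeroAtImInfty : IsZeroAtImInfty rcFun := by
  have h4 := isZeroAtImInfty_D isNice_E₄
  have h6 := isZeroAtImInfty_D isNice_E₆
  have := ((tendsto_const_nhds (x := (2 : ℂ))).mul tendsto_E₄).mul h6
  have := this.sub (((tendsto_const_nhds (x := (3 : ℂ))).mul tendsto_E₆).mul h4)
  have e : (2 * 1 * 0 - 3 * 1 * 0 : ℂ) = 0 := by norm_num
  rw [e] at this
  exact this

/-- The Rankin–Cohen bracket as a cusp form of weight 12. -/
noncomputable def rcForm : CuspForm 𝒮ℒ 12 where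
  toFun := rcFun
  slash_action_eq' A hA := by
    obtain ⟨A, rfl⟩ := hA
    exact rcFun_slash A
  holo' := rcFun_mdiff
  zero_at_cusps' hc := by
    rw [Subgroup.IsArithmetic.isCusp_iff_isCusp_SL2Z] at hc
    rw [OnePoint.isZeroAt_iff_forall_SL2Z hc]
    intro γ _
    rw [rcFun_slash]
    exact rcFun_isZeroAtImInfty

theorem tendsto_rcFun_div_qParam :
    Tendsto (fun z : ℍ => rcFun z / 𝕢 1 z) atImInfty (𝓝 (-1728)) := by
  have h4 := tendsto_D_div_qParam isNice_E₄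
  have h6 := tendsto_D_div_qParam isNice_E₆
  rw [E₄_qExpansion_coeff_one] at h4
  rw [E₆_qExpansion_coeff_one] at h6
  have := (((tendsto_const_nhds (x := (2 : ℂ))).mul tendsto_E₄).mul h6).sub
    (((tendsto_const_nhds (x := (3 : ℂ))).mul tendsto_E₆).mul h4)
  have e : (2 * 1 * (-504) - 3 * 1 * 240 : ℂ) = -1728 := by norm_num
  rw [e] at this
  refine this.congr ?_
  intro z
  simp only [rcFun]
  ring

theorem rcFun_eq_discriminant : ∀ z : ℍ, rcFun z = -1728 * ModularForm.discriminant z := by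
  obtain ⟨c, hc⟩ := CuspForm.exists_smul_discriminant_of_weight_eq_twelve rcForm
  have hc' : ∀ z : ℍ, rcFun z = c * ModularForm.discriminant z := by
    intro z
    have := congrArg (fun f : CuspForm 𝒮ℒ 12 => f z) hc
    exact this.symm
  have hΔnice : IsNice (ModularForm.discriminant) :=
    isNice_of_modularForm one_mem_strictPeriods_SL CuspForm.discriminant
  have hΔ := tendsto_div_qParam hΔnice discriminant_isZeroAtImInfty
  rw [discriminant_qExpansion_coeff_one] at hΔ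
  have h1 : Tendsto (fun z : ℍ => rcFun z / 𝕢 1 z) atImInfty (𝓝 (c * 1)) := by
    refine (hΔ.const_mul c).congr ?_
    intro z
    rw [hc' z]; ring
  have := tendsto_nhds_unique h1 tendsto_rcFun_div_qParam
  rw [mul_one] at this
  intro z
  rw [hc' z, this]

end Fermat.Agent.X0.JLocal
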