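import Mathlib

set_option autoImplicit false

/-!
# X0 / Rotation: Möbius maps on `ℂ`, invariance of orders, and the rotation lemma

* `moebC g : ℂ → ℂ` is the Möbius map `w ↦ (a w + b) / (c w + d)`; it is analytic with
  derivative `det g / (c w + d)²` wherever `c w + d ≠ 0`, and extends `z ↦ g • z` on `ℍ`.
* `meromorphicOrderAt_comp_smul`, `analyticOrderAt_comp_smul`:
  `ord_{z₀} (F ∘ g) = ord_{g z₀} F`.
* rotation lemma `deriv_zpow_order_eq_one`: a meromorphic germ invariant under an analytic local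
  map `φ` fixing `z₀` has `φ'(z₀) ^ ord = 1`.
-/

namespace Fermat.Agent.X0.Rot

open UpperHalfPlane hiding I
open Complex Filter Topology
open scoped MatrixGroups

/-- The Möbius map of `g ∈ GL₂(ℝ)` on `ℂ`. -/
noncomputable def moebC (g : GL (Fin 2) ℝ) (w : ℂ) : ℂ := num g w / denom g w

theorem moebC_coe {g : GL (Fin 2) ℝ} (hg : 0 < g.det.val) (z : ℍ) :
    moebC g (z : ℂ) = ((g • z : ℍ) : ℂ) :=
  (coe_smul_of_det_pos hg z).symm

theorem hasDerivAt_num (g : GL (Fin 2) ℝ) (w : ℂ) :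
    HasDerivAt (num g) ((g 0 0 : ℝ) : ℂ) w := by
  unfold num
  simpa using ((hasDerivAt_id w).const_mul ((g 0 0 : ℝ) : ℂ)).add_const ((g 0 1 : ℝ) : ℂ)

theorem hasDerivAt_denom (g : GL (Fin 2) ℝ) (w : ℂ) :
    HasDerivAt (denom g) ((g 1 0 : ℝ) : ℂ) w := by
  unfold denom
  simpa using ((hasDerivAt_id w).const_mul ((g 1 0 : ℝ) : ℂ)).add_const ((g 1 1 : ℝ) : ℂ)

theorem hasDerivAt_moebC (g : GL (Fin 2) ℝ) {w : ℂ} (hw : denom g w ≠ 0) :
    HasDerivAt (moebC g) (((g.det.val : ℝ) : ℂ) / denom g w ^ 2) w := by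
  have h := (hasDerivAt_num g w).div (hasDerivAt_denom g w) hw
  have hdet : ((g.det.val : ℝ) : ℂ) =
      ((g 0 0 : ℝ) : ℂ) * denom g w - num g w * ((g 1 0 : ℝ) : ℂ) := by
    have : g.det.val = g 0 0 * g 1 1 - g 0 1 * g 1 0 := by
      rw [Matrix.GeneralLinearGroup.val_det_apply, Matrix.det_fin_two]
    rw [this]
    unfold num denom
    push_cast
    ring
  rw [hdet]
  exact h

theorem deriv_moebC (g : GL (Fin 2) ℝ) {w : ℂ} (hw : denom g w ≠ 0) :
    deriv (moebC g) w = ((g.det.val : ℝ) : ℂ) / denom g w ^ 2 :=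
  (hasDerivAt_moebC g hw).deriv

theorem deriv_moebC_ne_zero (g : GL (Fin 2) ℝ) {w : ℂ} (hw : denom g w ≠ 0) :
    deriv (moebC g) w ≠ 0 := by
  rw [deriv_moebC g hw]
  refine div_ne_zero ?_ (pow_ne_zero _ hw)
  exact_mod_cast g.det.ne_zero

theorem analyticAt_moebC (g : GL (Fin 2) ℝ) {w : ℂ} (hw : denom g w ≠ 0) :
    AnalyticAt ℂ (moebC g) w := by
  have hn : AnalyticAt ℂ (num g) w := by unfold num; fun_prop
  have hd : AnalyticAt ℂ (denom g) w := by unfold denom; fun_prop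
  exact hn.div hd hw

theorem ofComplex_moebC {g : GL (Fin 2) ℝ} (hg : 0 < g.det.val) {w : ℂ} (hw : 0 < w.im) :
    ofComplex (moebC g w) = g • ofComplex w := by
  have h1 : moebC g w = ((g • (⟨w, hw⟩ : ℍ) : ℍ) : ℂ) := moebC_coe hg ⟨w, hw⟩
  rw [h1, ofComplex_apply, ofComplex_apply_of_im_pos hw]

/-- `(F ∘ (g • ·)) ∘ ofComplex` agrees with `(F ∘ ofComplex) ∘ moebC g` near any point of `ℍ`. -/
theorem comp_smul_eventuallyEq {E : Type*} (F : ℍ → E) {g : GL (Fin 2) ℝ} (hg : 0 < g.det.val)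
    (z : ℍ) :
    ((fun τ : ℍ => F (g • τ)) ∘ ofComplex) =ᶠ[𝓝 (z : ℂ)] ((F ∘ ofComplex) ∘ moebC g) := by
  filter_upwards [isOpen_upperHalfPlaneSet.mem_nhds z.im_pos] with w hw
  simp only [Function.comp_apply]
  rw [ofComplex_moebC hg hw]

theorem meromorphicOrderAt_comp_smul {E : Type*} [NormedAddCommGroup E] [NormedSpace ℂ E]
    (F : ℍ → E) {g : GL (Fin 2) ℝ} (hg : 0 < g.det.val) (z : ℍ) :
    meromorphicOrderAt ((fun τ : ℍ => F (g • τ)) ∘ ofComplex) (z : ℂ) =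
      meromorphicOrderAt (F ∘ ofComplex) ((g • z : ℍ) : ℂ) := by
  have hd : denom g (z : ℂ) ≠ 0 := denom_ne_zero g z
  rw [meromorphicOrderAt_congr ((comp_smul_eventuallyEq F hg z).filter_mono nhdsWithin_le_nhds),
    meromorphicOrderAt_comp_of_deriv_ne_zero (analyticAt_moebC g hd) (deriv_moebC_ne_zero g hd),
    moebC_coe hg]

theorem analyticOrderAt_comp_smul {E : Type*} [NormedAddCommGroup E] [NormedSpace ℂ E]
    (F : ℍ → E) {g : GL (Fin 2) ℝ} (hg : 0 < g.det.val) (z : ℍ) :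
    analyticOrderAt ((fun τ : ℍ => F (g • τ)) ∘ ofComplex) (z : ℂ) =
      analyticOrderAt (F ∘ ofComplex) ((g • z : ℍ) : ℂ) := by
  have hd : denom g (z : ℂ) ≠ 0 := denom_ne_zero g z
  rw [analyticOrderAt_congr (comp_smul_eventuallyEq F hg z),
    analyticOrderAt_comp_of_deriv_ne_zero (analyticAt_moebC g hd) (deriv_moebC_ne_zero g hd),
    moebC_coe hg]

/-- `SL(2,ℤ)` version of `meromorphicOrderAt_comp_smul`. -/
theorem meromorphicOrderAt_comp_SL_smul {E : Type*} [NormedAddCommGroup E] [NormedSpace ℂ E]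
    (F : ℍ → E) (γ : SL(2, ℤ)) (z : ℍ) :
    meromorphicOrderAt ((fun τ : ℍ => F (γ • τ)) ∘ ofComplex) (z : ℂ) =
      meromorphicOrderAt (F ∘ ofComplex) ((γ • z : ℍ) : ℂ) := by
  have hdet : 0 < ((γ : GL (Fin 2) ℝ)).det.val := by simp
  exact meromorphicOrderAt_comp_smul F hdet z

/-- `SL(2,ℤ)` version of `analyticOrderAt_comp_smul`. -/
theorem analyticOrderAt_comp_SL_smul {E : Type*} [NormedAddCommGroup E] [NormedSpace ℂ E]
    (F : ℍ → E) (γ : SL(2, ℤ)) (z : ℍ) :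
    analyticOrderAt ((fun τ : ℍ => F (γ • τ)) ∘ ofComplex) (z : ℂ) =
      analyticOrderAt (F ∘ ofComplex) ((γ • z : ℍ) : ℂ) := by
  have hdet : 0 < ((γ : GL (Fin 2) ℝ)).det.val := by simp
  exact analyticOrderAt_comp_smul F hdet z

/-- **Rotation lemma.** If a meromorphic germ `g` at `z₀` of finite order `n` is invariant under
an analytic local map `φ` fixing `z₀` (with `φ' z₀ ≠ 0`), then `φ'(z₀) ^ n = 1`. -/
theorem deriv_zpow_order_eq_one {g φ : ℂ → ℂ} {z₀ : ℂ} (hφ : AnalyticAt ℂ φ z₀) (h0 : φ z₀ = z₀)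
    (hφ' : deriv φ z₀ ≠ 0) (hg : MeromorphicAt g z₀) {n : ℤ}
    (hn : meromorphicOrderAt g z₀ = n) (hinv : g ∘ φ =ᶠ[𝓝[≠] z₀] g) :
    deriv φ z₀ ^ n = 1 := by
  obtain ⟨h, hh_an, hh_ne, hh_eq⟩ := (meromorphicOrderAt_eq_int_iff hg).mp hn
  obtain ⟨p, hp⟩ := hφ
  have hu_an : AnalyticAt ℂ (dslope φ z₀) z₀ := ⟨_, hp.has_fpower_series_dslope_fslope⟩
  have hu0 : dslope φ z₀ z₀ = deriv φ z₀ := dslope_same φ z₀
  have hfac : ∀ z, φ z - z₀ = (z - z₀) * dslope φ z₀ z := by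
    intro z
    have := sub_smul_dslope φ z₀ z
    rw [h0] at this
    rw [← this, smul_eq_mul]
  have hu_ne : ∀ᶠ z in 𝓝 z₀, dslope φ z₀ z ≠ 0 :=
    hu_an.continuousAt.eventually_ne (hu0 ▸ hφ')
  have hφ_cont : ContinuousAt φ z₀ := ⟨p, hp⟩ |> AnalyticAt.continuousAt
  have htend : Tendsto φ (𝓝[≠] z₀) (𝓝[≠] z₀) := by
    rw [tendsto_nhdsWithin_iff]
    refine ⟨?_, ?_⟩
    · have : Tendsto φ (𝓝 z₀) (𝓝 z₀) := by
        have := hφ_cont.tendsto
        rwa [h0] at this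
      exact this.mono_left nhdsWithin_le_nhds
    · rw [eventually_nhdsWithin_iff]
      filter_upwards [hu_ne] with z hz hzne
      simp only [Set.mem_compl_iff, Set.mem_singleton_iff]
      intro hφz
      have := hfac z
      rw [hφz, sub_self] at this
      exact (mul_ne_zero (sub_ne_zero.mpr hzne) hz) this.symm
  have h1 : ∀ᶠ z in 𝓝[≠] z₀, g (φ z) = (φ z - z₀) ^ n • h (φ z) := htend.eventually hh_eq
  have h2 : ∀ᶠ z in 𝓝[≠] z₀, h z = dslope φ z₀ z ^ n * h (φ z) := by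
    filter_upwards [h1, hh_eq, hinv, self_mem_nhdsWithin] with z hz1 hz2 hz3 hz4
    have hzne : z - z₀ ≠ 0 := sub_ne_zero.mpr hz4
    simp only [Function.comp_apply] at hz3
    rw [hz3, hz2, hfac z, mul_zpow, smul_eq_mul, smul_eq_mul, mul_assoc] at hz1
    exact mul_left_cancel₀ (zpow_ne_zero n hzne) hz1
  have hl1 : Tendsto h (𝓝[≠] z₀) (𝓝 (h z₀)) :=
    hh_an.continuousAt.tendsto.mono_left nhdsWithin_le_nhds
  have hl2 : Tendsto (fun z => dslope φ z₀ z ^ n * h (φ z)) (𝓝[≠] z₀)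
      (𝓝 (dslope φ z₀ z₀ ^ n * h z₀)) := by
    have hc1 : ContinuousAt (fun z => dslope φ z₀ z ^ n) z₀ :=
      hu_an.continuousAt.zpow₀ n (Or.inl (hu0 ▸ hφ'))
    have hc2 : ContinuousAt (fun z => h (φ z)) z₀ := by
      have : ContinuousAt h (φ z₀) := by rw [h0]; exact hh_an.continuousAt
      exact this.comp hφ_cont
    have := (hc1.mul hc2).tendsto
    simp only [Pi.mul_apply, h0] at this
    exact this.mono_left nhdsWithin_le_nhds
  have heq : h z₀ = dslope φ z₀ z₀ ^ n * h z₀ :=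
    tendsto_nhds_unique (hl1.congr' h2) hl2
  rw [hu0] at heq
  have : (deriv φ z₀ ^ n - 1) * h z₀ = 0 := by rw [sub_mul, one_mul, ← heq, sub_self]
  rcases mul_eq_zero.mp this with h' | h'
  · exact sub_eq_zero.mp h'
  · exact absurd h' hh_ne

/-- Rotation lemma on `ℍ`: if `F ∘ g = F` for `g ∈ GL₂(ℝ)⁺` fixing `z₀` and `F` has finite
meromorphic order `n` at `z₀`, then `(det g / (c z₀ + d)²) ^ n = 1`. -/
theorem multiplier_zpow_order_eq_one {F : ℍ → ℂ} {g : GL (Fin 2) ℝ} (hg : 0 < g.det.val)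
    {z₀ : ℍ} (hfix : g • z₀ = z₀) (hF : MeromorphicAt (F ∘ ofComplex) (z₀ : ℂ)) {n : ℤ}
    (hn : meromorphicOrderAt (F ∘ ofComplex) (z₀ : ℂ) = n) (hinv : ∀ z, F (g • z) = F z) :
    (((g.det.val : ℝ) : ℂ) / denom g z₀ ^ 2) ^ n = 1 := by
  have hd : denom g (z₀ : ℂ) ≠ 0 := denom_ne_zero g z₀
  rw [← deriv_moebC g hd]
  refine deriv_zpow_order_eq_one (analyticAt_moebC g hd) ?_ (deriv_moebC_ne_zero g hd) hF hn ?_
  · rw [moebC_coe hg, hfix]
  · have h1 := comp_smul_eventuallyEq F hg z₀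
    have h2 : ((fun τ : ℍ => F (g • τ)) ∘ ofComplex) = F ∘ ofComplex := by
      funext w; simp [hinv]
    rw [h2] at h1
    exact h1.symm.filter_mono nhdsWithin_le_nhds

/-- `SL(2,ℤ)` version: `((c z₀ + d)²) ^ n = 1`. -/
theorem denom_sq_zpow_order_eq_one {F : ℍ → ℂ} {γ : SL(2, ℤ)} {z₀ : ℍ} (hfix : γ • z₀ = z₀)
    (hF : MeromorphicAt (F ∘ ofComplex) (z₀ : ℂ)) {n : ℤ}
    (hn : meromorphicOrderAt (F ∘ ofComplex) (z₀ : ℂ) = n) (hinv : ∀ z, F (γ • z) = F z) :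
    (denom γ z₀ ^ 2) ^ n = 1 := by
  have hdet : 0 < ((γ : GL (Fin 2) ℝ)).det.val := by simp
  have h := multiplier_zpow_order_eq_one (F := F) (g := (γ : GL (Fin 2) ℝ)) hdet
    (by simpa [ModularGroup.sl_moeb] using hfix) hF hn (by simpa [ModularGroup.sl_moeb] using hinv)
  have h1 : (((γ : GL (Fin 2) ℝ)).det.val : ℝ) = 1 := by simp
  rw [h1, Complex.ofReal_one, one_div, inv_zpow, inv_eq_one] at h
  exact h

theorem S_smul_I : ModularGroup.S • (UpperHalfPlane.I : ℍ) = UpperHalfPlane.I := by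
  ext
  rw [UpperHalfPlane.modular_S_smul]
  simp

theorem even_order_of_S_invariant {F : ℍ → ℂ}
    (hF : MeromorphicAt (F ∘ ofComplex) ((UpperHalfPlane.I : ℍ) : ℂ)) {n : ℤ}
    (hn : meromorphicOrderAt (F ∘ ofComplex) ((UpperHalfPlane.I : ℍ) : ℂ) = n)
    (hinv : ∀ z, F (ModularGroup.S • z) = F z) : (2 : ℤ) ∣ n := by
  have h := denom_sq_zpow_order_eq_one S_smul_I hF hn hinv
  rw [ModularGroup.denom_S] at h
  have h2 : ((UpperHalfPlane.I : ℍ) : ℂ) ^ 2 = -1 := by simp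
  rw [h2] at h
  rcases Int.even_or_odd n with he | ho
  · exact even_iff_two_dvd.mp he
  · rw [ho.neg_one_zpow] at h
    norm_num at h

theorem ST_smul_ρ : (ModularGroup.S * ModularGroup.T) • (ρ : ℍ) = ρ := by
  ext
  rw [mul_smul, UpperHalfPlane.modular_S_smul, UpperHalfPlane.modular_T_smul]
  simp only [coe_vadd, ofReal_one]
  have h2 := ρ_sq
  have : (-(1 + ((ρ : ℍ) : ℂ))) * (ρ : ℂ) = 1 := by linear_combination -h2
  exact inv_eq_of_mul_eq_one_right this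

theorem denom_ST_ρ :
    denom ((ModularGroup.S * ModularGroup.T : SL(2, ℤ)) : GL (Fin 2) ℝ) (ρ : ℍ) = (ρ : ℂ) + 1 := by
  rw [ModularGroup.denom_apply]
  have h10 : ((ModularGroup.S * ModularGroup.T : SL(2, ℤ)) 1 0 : ℤ) = 1 := by
    rw [Matrix.SpecialLinearGroup.coe_mul]
    simp [ModularGroup.S, ModularGroup.T, Matrix.mul_apply, Fin.sum_univ_two]
  have h11 : ((ModularGroup.S * ModularGroup.T : SL(2, ℤ)) 1 1 : ℤ) = 1 := by
    rw [Matrix.SpecialLinearGroup.coe_mul]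
    simp [ModularGroup.S, ModularGroup.T, Matrix.mul_apply, Fin.sum_univ_two]
  rw [h10, h11]
  simp

theorem isPrimitiveRoot_ρ : IsPrimitiveRoot ((ρ : ℍ) : ℂ) 3 := by
  have h2 := ρ_sq
  have h3 : ((ρ : ℍ) : ℂ) ^ 3 = 1 := by
    linear_combination ((ρ : ℍ) : ℂ) * h2 - h2
  have him : ((ρ : ℍ) : ℂ).im = Real.sqrt 3 / 2 := by simp [ρ]
  have hpos : 0 < Real.sqrt 3 / 2 := by positivity
  refine IsPrimitiveRoot.mk_of_lt _ (by norm_num) h3 ?_
  intro l hl0 hl3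
  interval_cases l
  · rw [pow_one]
    intro h
    have := congrArg Complex.im h
    rw [him] at this
    simp only [one_im] at this
    linarith
  · rw [h2]
    intro h
    have := congrArg Complex.im h
    simp only [sub_im, neg_im, one_im, sub_zero] at this
    rw [him] at this
    linarith

theorem three_dvd_order_of_ST_invariant {F : ℍ → ℂ}
    (hF : MeromorphicAt (F ∘ ofComplex) ((ρ : ℍ) : ℂ)) {n : ℤ}
    (hn : meromorphicOrderAt (F ∘ ofComplex) ((ρ : ℍ) : ℂ) = n)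
    (hinv : ∀ z, F ((ModularGroup.S * ModularGroup.T) • z) = F z) : (3 : ℤ) ∣ n := by
  have h := denom_sq_zpow_order_eq_one ST_smul_ρ hF hn hinv
  rw [denom_ST_ρ] at h
  have h2 : (((ρ : ℍ) : ℂ) + 1) ^ 2 = (ρ : ℂ) := by
    have := ρ_sq
    linear_combination this
  rw [h2] at h
  exact_mod_cast (isPrimitiveRoot_ρ.zpow_eq_one_iff_dvd n).mp h

end Fermat.Agent.X0.Rot
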