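import Mathlib
import Fermat.Agent.X0.Defs
import Fermat.Agent.X0.ACL
import Fermat.Agent.X0.ValLike
import Fermat.Agent.X0.Count.ForACL

set_option autoImplicit false

/-!
# Program X: the abstract counting lemma in the shape consumed by X-MOD

`card_placesOver_eq_card_orbits` (places over a finite value `a`) and
`card_placesOverInfty_eq_card_orbits` (poles) are derived from helper26's
`card_places_eq_card_orbits` (file `ACL.lean`):
* the valuations `w c` are indexed by a finite `G`-set `X` and the permutation is `c ↦ g • c`;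
* completeness is replaced by the Galois-theoretic hypothesis `w_int` on the coefficients of the
  minimal polynomials over `K(x)` (see `ValLike.lean`);
* the divisibility hypothesis is stated with orbit sizes (`w_dvd`).
-/

namespace Fermat.Agent.X0

open AlgebraicCurve IntermediateField

variable {K F : Type*} [Field K] [Field F] [Algebra K F] [IsAlgClosed K] [CharZero K]

/-- Core of the bridge, for the value `0` of a separating variable `y`, with `w_int` stated over
an arbitrary intermediate field `E ≤ K(y)` over which `F` is algebraic. -/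
theorem card_places_eq_card_orbits_of_int {y : F} {n : ℕ} (hy : IsSepVar K y n)
    (E : IntermediateField K F) (hE : E ≤ K⟮y⟯) (hEint : ∀ f : F, IsIntegral E f)
    {G X : Type*} [Group G] [MulAction G X] [Finite X] (hX : Nat.card X = n) (g : G)
    (e0 : ℕ) (he0 : 0 < e0) (hg : ∀ c : X, g ^ e0 • c = c) (w : X → F → ℤ)
    (w_mul : ∀ c f h, f ≠ 0 → h ≠ 0 → w c (f * h) = w c f + w c h)
    (w_add : ∀ c f h, f ≠ 0 → h ≠ 0 → f + h ≠ 0 → min (w c f) (w c h) ≤ w c (f + h))
    (w_alg : ∀ c (k : K), k ≠ 0 → w c (algebraMap K F k) = 0)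
    (w_x : ∀ c, w c y = e0)
    (w_int : ∀ f : F, f ≠ 0 → (∀ c, 0 ≤ w c f) → ∀ i : ℕ,
      (minpoly E f).coeff i = 0 ∨ ∀ c, 0 ≤ w c (((minpoly E f).coeff i : E) : F))
    (w_g : ∀ c f, w (g • c) f = w c f)
    (w_dvd : ∀ c f, f ≠ 0 →
      (e0 : ℤ) ∣ (Nat.card (MulAction.orbit (Subgroup.zpowers g) c) : ℤ) * w c f) :
    Nat.card {v : Place K F // 0 < v.ord y} =
      Nat.card (MulAction.orbitRel.Quotient (Subgroup.zpowers g) X) ∧
    ∀ v : Place K F, 0 < v.ord y → v.ord y ∣ (e0 : ℤ) := by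
  classical
  have : Fintype X := Fintype.ofFinite X
  have hC : Fintype.card X = n := by rw [← Nat.card_eq_fintype_card]; exact hX
  have hy0 : y ≠ 0 := by
    rintro rfl
    exact hy.transcendental isAlgebraic_zero
  have hvl : ∀ c, IsValLike K (w c) := fun c => ⟨w_mul c, w_add c, w_alg c⟩
  have hne : Nonempty X := by
    have := hy.finite
    have hpos : 0 < Module.finrank K⟮y⟯ F := Module.finrank_pos
    rw [hy.finrank_eq, ← hC] at hpos
    exact Fintype.card_pos_iff.mp hpos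
  obtain ⟨c₀⟩ := hne
  have hε : (MulAction.toPerm g : Equiv.Perm X) ^ e0 = 1 := toPerm_pow_eq_one_of_smul g e0 hg
  have hpow : ∀ (k : ℕ) (c : X), ((MulAction.toPerm g : Equiv.Perm X) ^ k) c = g ^ k • c := by
    intro k c
    have : (MulAction.toPerm g : Equiv.Perm X) ^ k = MulAction.toPerm (g ^ k) := by
      rw [← MulAction.toPermHom_apply, ← map_pow]
      rfl
    rw [this]
    rfl
  have h := card_places_eq_card_orbits hy hC (MulAction.toPerm g : Equiv.Perm X) e0 he0 hε w
    w_mul w_add w_alg w_x (fun c f => w_g c f) ?_ ?_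
  · rw [card_orbits_zpowers_toPerm_eq] at h
    exact h
  · -- `w_div` from `w_dvd`
    intro c k hk hkc f hf
    rw [hpow] at hkc
    have hper : Function.IsPeriodicPt (g • · : X → X) k c := by
      change (g • · : X → X)^[k] c = c
      rw [smul_iterate]
      exact hkc
    have hmin : Function.minimalPeriod (g • · : X → X) c ∣ k := hper.minimalPeriod_dvd
    have hcard : Nat.card (MulAction.orbit (Subgroup.zpowers g) c) =
        Function.minimalPeriod (g • · : X → X) c := by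
      rw [MulAction.minimalPeriod_eq_card, Nat.card_eq_fintype_card]
    obtain ⟨t, ht⟩ := hmin
    have h1 := w_dvd c f hf
    rw [hcard] at h1
    have h2 : (e0 : ℤ) ∣ (k : ℤ) * w c f := by
      rw [ht]
      push_cast
      rw [mul_right_comm]
      exact Dvd.dvd.mul_right h1 _
    obtain ⟨q, hq⟩ := hk
    have hk0 : 0 < k := Nat.pos_of_ne_zero (by
      rintro rfl
      rw [zero_mul] at hq
      omega)
    have hdiv : e0 / k = q := by
      rw [hq]; exact Nat.mul_div_cancel_left q hk0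
    rw [hdiv]
    have h3 : ((k : ℤ) * (q : ℤ)) ∣ (k : ℤ) * w c f := by
      have : (e0 : ℤ) = (k : ℤ) * q := by exact_mod_cast hq
      rw [← this]; exact h2
    exact Int.dvd_of_mul_dvd_mul_left (by exact_mod_cast hk0.ne') h3
  · -- `w_complete` from `w_int`
    intro f hf hfw v hv
    refine ord_nonneg_of_minpoly_coeff (hvl c₀) hy0 (by rw [w_x]; exact_mod_cast he0) E hE
      (hEint f) ?_ v hv
    intro i
    rcases w_int f hf hfw i with h | h
    · exact Or.inl h
    · exact Or.inr (h c₀)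


/-- **Abstract counting lemma, X-MOD shape, finite value `a`.** -/
theorem card_placesOver_eq_card_orbits {x : F} {n : ℕ} (hx : IsSepVar K x n) (a : K)
    {G X : Type*} [Group G] [MulAction G X] [Finite X] (hX : Nat.card X = n) (g : G)
    (e0 : ℕ) (he0 : 0 < e0) (hg : ∀ c : X, g ^ e0 • c = c) (w : X → F → ℤ)
    (w_mul : ∀ c f h, f ≠ 0 → h ≠ 0 → w c (f * h) = w c f + w c h)
    (w_add : ∀ c f h, f ≠ 0 → h ≠ 0 → f + h ≠ 0 → min (w c f) (w c h) ≤ w c (f + h))
    (w_alg : ∀ c (k : K), k ≠ 0 → w c (algebraMap K F k) = 0)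
    (w_x : ∀ c, w c (x - algebraMap K F a) = e0)
    (w_int : ∀ f : F, f ≠ 0 → (∀ c, 0 ≤ w c f) → ∀ i : ℕ,
      (minpoly K⟮x⟯ f).coeff i = 0 ∨ ∀ c, 0 ≤ w c (((minpoly K⟮x⟯ f).coeff i : K⟮x⟯) : F))
    (w_g : ∀ c f, w (g • c) f = w c f)
    (w_dvd : ∀ c f, f ≠ 0 →
      (e0 : ℤ) ∣ (Nat.card (MulAction.orbit (Subgroup.zpowers g) c) : ℤ) * w c f) :
    Nat.card (placesOver x a) = Nat.card (MulAction.orbitRel.Quotient (Subgroup.zpowers g) X)
      ∧ ∀ v ∈ placesOver x a, v.ord (x - algebraMap K F a) ∣ (e0 : ℤ) := by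
  have hy := isSepVar_sub_const hx a
  have hE : K⟮x⟯ ≤ K⟮x - algebraMap K F a⟯ := (adjoin_simple_sub_algebraMap x a).ge
  have hfin := hx.finite
  have hEint : ∀ f : F, IsIntegral K⟮x⟯ f := fun f => Algebra.IsIntegral.isIntegral f
  obtain ⟨h1, h2⟩ := card_places_eq_card_orbits_of_int hy K⟮x⟯ hE hEint hX g e0 he0 hg w
    w_mul w_add w_alg w_x w_int w_g w_dvd
  exact ⟨h1, fun v hv => h2 v hv⟩

/-- **Abstract counting lemma, X-MOD shape, at the poles of `x`.** -/
theorem card_placesOverInfty_eq_card_orbits {x : F} {n : ℕ} (hx : IsSepVar K x n)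
    {G X : Type*} [Group G] [MulAction G X] [Finite X] (hX : Nat.card X = n) (g : G)
    (e0 : ℕ) (he0 : 0 < e0) (hg : ∀ c : X, g ^ e0 • c = c) (w : X → F → ℤ)
    (w_mul : ∀ c f h, f ≠ 0 → h ≠ 0 → w c (f * h) = w c f + w c h)
    (w_add : ∀ c f h, f ≠ 0 → h ≠ 0 → f + h ≠ 0 → min (w c f) (w c h) ≤ w c (f + h))
    (w_alg : ∀ c (k : K), k ≠ 0 → w c (algebraMap K F k) = 0)
    (w_x : ∀ c, w c x = -(e0 : ℤ))
    (w_int : ∀ f : F, f ≠ 0 → (∀ c, 0 ≤ w c f) → ∀ i : ℕ,
      (minpoly K⟮x⟯ f).coeff i = 0 ∨ ∀ c, 0 ≤ w c (((minpoly K⟮x⟯ f).coeff i : K⟮x⟯) : F))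
    (w_g : ∀ c f, w (g • c) f = w c f)
    (w_dvd : ∀ c f, f ≠ 0 →
      (e0 : ℤ) ∣ (Nat.card (MulAction.orbit (Subgroup.zpowers g) c) : ℤ) * w c f) :
    Nat.card (placesOverInfty K x) =
        Nat.card (MulAction.orbitRel.Quotient (Subgroup.zpowers g) X)
      ∧ ∀ v ∈ placesOverInfty K x, v.ord x ∣ (e0 : ℤ) := by
  have hy := isSepVar_inv hx
  have hx0 : x ≠ 0 := by
    rintro rfl
    exact hx.transcendental isAlgebraic_zero
  have hE : K⟮x⟯ ≤ K⟮x⁻¹⟯ := (adjoin_simple_inv x).ge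
  have hfin := hx.finite
  have hEint : ∀ f : F, IsIntegral K⟮x⟯ f := fun f => Algebra.IsIntegral.isIntegral f
  have w_x' : ∀ c, w c x⁻¹ = e0 := by
    intro c
    have hvl : IsValLike K (w c) := ⟨w_mul c, w_add c, w_alg c⟩
    rw [hvl.w_inv hx0, w_x c, neg_neg]
  obtain ⟨h1, h2⟩ := card_places_eq_card_orbits_of_int hy K⟮x⟯ hE hEint hX g e0 he0 hg w
    w_mul w_add w_alg w_x' w_int w_g w_dvd
  constructor
  · rw [← h1]
    refine Nat.card_congr (Equiv.subtypeEquivRight fun v => ?_)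
    rw [mem_placesOverInfty, Place.ord_inv]
    omega
  · intro v hv
    rw [mem_placesOverInfty] at hv
    have h3 := h2 v (by rw [Place.ord_inv]; omega)
    rw [Place.ord_inv] at h3
    exact (neg_dvd).mp h3

end Fermat.Agent.X0
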