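import Mathlib

/-!
# Bounded degree implies finite degree

If every element of a field extension `F / E` (characteristic `0`) is algebraic of degree at most
`n`, then `F / E` is finite of degree at most `n` (primitive element theorem).
-/

set_option autoImplicit false

namespace Fermat.Agent.X0.BoundedDeg

open IntermediateField

variable {E F : Type*} [Field E] [Field F] [Algebra E F]

/-- If all elements are integral of degree `≤ n`, some element has maximal degree. -/
theorem exists_max_natDegree (n : ℕ)
    (h : ∀ f : F, (minpoly E f).natDegree ≤ n) :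
    ∃ α : F, ∀ β : F, (minpoly E β).natDegree ≤ (minpoly E α).natDegree := by
  classical
  let S : Set ℕ := Set.range fun f : F => (minpoly E f).natDegree
  have hSne : S.Nonempty := ⟨_, ⟨0, rfl⟩⟩
  have hSbdd : BddAbove S := ⟨n, by rintro _ ⟨f, rfl⟩; exact h f⟩
  obtain ⟨α, hα⟩ := Nat.sSup_mem hSne hSbdd
  refine ⟨α, fun β => ?_⟩
  show (minpoly E β).natDegree ≤ (fun f : F => (minpoly E f).natDegree) α
  rw [hα]
  exact le_csSup hSbdd ⟨β, rfl⟩

/-- Bounded degree implies finite degree (characteristic zero). -/
theorem finite_and_finrank_le [CharZero E] (n : ℕ)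
    (hint : ∀ f : F, IsIntegral E f) (h : ∀ f : F, (minpoly E f).natDegree ≤ n) :
    FiniteDimensional E F ∧ Module.finrank E F ≤ n := by
  have halg : Algebra.IsAlgebraic E F := ⟨fun f => (hint f).isAlgebraic⟩
  obtain ⟨α, hα⟩ := exists_max_natDegree n h
  have hfdα : FiniteDimensional E E⟮α⟯ := adjoin.finiteDimensional (hint α)
  have htop : E⟮α⟯ = ⊤ := by
    rw [eq_top_iff]
    intro β _
    -- the field generated by α and β
    have hfd : FiniteDimensional E (E⟮α⟯ ⊔ E⟮β⟯ : IntermediateField E F) :=
      haveI : FiniteDimensional E E⟮β⟯ := adjoin.finiteDimensional (hint β)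
      IntermediateField.finiteDimensional_sup _ _
    obtain ⟨γ, hγ⟩ := Field.exists_primitive_element E (E⟮α⟯ ⊔ E⟮β⟯ : IntermediateField E F)
    -- translate to an element of `F`
    set γ' : F := (γ : F) with hγ'
    have hγtop : E⟮γ'⟯ = E⟮α⟯ ⊔ E⟮β⟯ := by
      rw [hγ', ← IntermediateField.lift_adjoin_simple, hγ, IntermediateField.lift_top]
    have hle : E⟮α⟯ ≤ E⟮γ'⟯ := by rw [hγtop]; exact le_sup_left
    have hfdγ : FiniteDimensional E E⟮γ'⟯ := adjoin.finiteDimensional (hint γ')
    have hrank : Module.finrank E E⟮γ'⟯ ≤ Module.finrank E E⟮α⟯ := by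
      rw [adjoin.finrank (hint γ'), adjoin.finrank (hint α)]
      exact hα γ'
    have heq : E⟮α⟯ = E⟮γ'⟯ := IntermediateField.eq_of_le_of_finrank_le hle hrank
    rw [heq, hγtop]
    exact (le_sup_right : E⟮β⟯ ≤ E⟮α⟯ ⊔ E⟮β⟯) (mem_adjoin_simple_self E β)
  have hfin : FiniteDimensional E F := by
    have : FiniteDimensional E (⊤ : IntermediateField E F) := htop ▸ hfdα
    exact (IntermediateField.topEquiv (F := E) (E := F)).toLinearEquiv.finiteDimensional
  refine ⟨hfin, ?_⟩
  calc Module.finrank E F = Module.finrank E (⊤ : IntermediateField E F) :=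
        (IntermediateField.finrank_top').symm
    _ = Module.finrank E E⟮α⟯ := by rw [htop]
    _ = (minpoly E α).natDegree := adjoin.finrank (hint α)
    _ ≤ n := h α

end Fermat.Agent.X0.BoundedDeg
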