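import Mathlib

/-!
# X-MOD (slice of MOD-DEG): lower bound for `[F : K(x)]` from pure field theory

`le_finrank_adjoin_simple_of_forall_eq_zero`: if `y : F` is not a root of any nonzero polynomial of
degree `< n` whose coefficients are polynomials in `x` over `K`, then `n ≤ [F : K(x)]`.
(Clear the denominators of the minimal polynomial of `y` over `K(x)`.)
-/

set_option autoImplicit false

namespace Fermat.Agent.X0

open IntermediateField Polynomial

/-- Clearing denominators: for a polynomial `m` over `K(x)` there are `b : K[X]` with `b(x) ≠ 0` and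
a polynomial `Q` with coefficients in `K[X]`, of degree `≤ deg m`, such that
`Q(x, Y) = b(x) * m(Y)`. -/
theorem exists_clear_denominators_adjoin_simple {K F : Type*} [Field K] [Field F] [Algebra K F]
    (x : F) (m : K⟮x⟯[X]) :
    ∃ (b : K[X]) (Q : K[X][X]), aeval x b ≠ 0 ∧ Q.natDegree ≤ m.natDegree ∧
      Q.map (aeval x : K[X] →ₐ[K] F).toRingHom =
        C (aeval x b) * m.map (algebraMap K⟮x⟯ F) := by
  classical
  have hmem : ∀ c : K⟮x⟯, ∃ r s : K[X], aeval x s ≠ 0 ∧ (c : F) * aeval x s = aeval x r := by
    intro c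
    obtain ⟨r, s, hrs⟩ := (IntermediateField.mem_adjoin_simple_iff K (c : F)).mp c.2
    by_cases hs : aeval x s = 0
    · refine ⟨0, 1, by simp, ?_⟩
      rw [hrs, hs, div_zero]; simp
    · exact ⟨r, s, hs, by rw [hrs, div_mul_cancel₀ _ hs]⟩
  choose r s hs hrs using hmem
  set d := m.natDegree with hd
  set I := Finset.range (d + 1) with hI
  refine ⟨∏ i ∈ I, s (m.coeff i),
    ∑ i ∈ I, monomial i (r (m.coeff i) * ∏ j ∈ I.erase i, s (m.coeff j)), ?_, ?_, ?_⟩
  · rw [map_prod]
    exact Finset.prod_ne_zero_iff.mpr fun i _ => hs _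
  · refine natDegree_sum_le_of_forall_le _ _ fun i hi => ?_
    exact (natDegree_monomial_le _).trans (Nat.lt_succ_iff.mp (Finset.mem_range.mp hi))
  · ext k
    rw [coeff_map, finsetSum_coeff, coeff_C_mul, coeff_map]
    simp only [coeff_monomial]
    by_cases hk : k ∈ I
    · rw [Finset.sum_eq_single k]
      · rw [if_pos rfl]
        simp only [AlgHom.toRingHom_eq_coe, RingHom.coe_coe, map_mul, map_prod]
        rw [← hrs (m.coeff k), ← Finset.mul_prod_erase I _ hk]
        simp only [IntermediateField.algebraMap_apply]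
        ring
      · intro i _ hik
        rw [if_neg hik]
      · intro h
        exact absurd hk h
    · have hk' : d < k := by
        rw [hI, Finset.mem_range, not_lt] at hk
        exact hk
      rw [Finset.sum_eq_zero, coeff_eq_zero_of_natDegree_lt hk']
      · simp
      · intro i hi
        have : i ≠ k := fun h => hk (h ▸ hi)
        rw [if_neg this]

/-- **Lower bound for the degree over `K(x)`**: if `y` satisfies no nonzero polynomial relation of
`Y`-degree `< n` with coefficients in `K[x]`, then `n ≤ [F : K(x)]`. -/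
theorem le_finrank_adjoin_simple_of_forall_eq_zero {K F : Type*} [Field K] [Field F]
    [Algebra K F] (x y : F) (n : ℕ) [FiniteDimensional K⟮x⟯ F]
    (h : ∀ Q : K[X][X], Q.natDegree < n →
      (Q.map (aeval x : K[X] →ₐ[K] F).toRingHom).eval y = 0 →
      Q.map (aeval x : K[X] →ₐ[K] F).toRingHom = 0) :
    n ≤ Module.finrank K⟮x⟯ F := by
  by_contra hlt
  rw [not_le] at hlt
  have hy : IsIntegral K⟮x⟯ y := IsIntegral.of_finite K⟮x⟯ y
  set m := minpoly K⟮x⟯ y with hm
  have hdeg : m.natDegree < n := lt_of_le_of_lt (minpoly.natDegree_le y) hlt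
  obtain ⟨b, Q, hb, hQd, hQ⟩ := exists_clear_denominators_adjoin_simple x m
  have heval : (Q.map (aeval x : K[X] →ₐ[K] F).toRingHom).eval y = 0 := by
    rw [hQ, eval_mul, eval_C, eval_map, ← aeval_def, minpoly.aeval, mul_zero]
  have h0 := h Q (lt_of_le_of_lt hQd hdeg) heval
  rw [hQ] at h0
  have h1 : m.map (algebraMap K⟮x⟯ F) = 0 := by
    rcases mul_eq_zero.mp h0 with h2 | h2
    · exact absurd (C_eq_zero.mp h2) hb
    · exact h2
  have h2 : m = 0 := by
    rwa [Polynomial.map_eq_zero_iff (algebraMap K⟮x⟯ F).injective] at h1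
  exact minpoly.ne_zero hy h2

end Fermat.Agent.X0
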