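import Mathlib
import Fermat.Agent.X0.JLocalDeriv

set_option autoImplicit false

/-!
# X0 / JLocal, part 2: local orders of `E₄`, `E₆` and `E₄³/Δ`

Everything is expressed through the values `E₄ z₀`, `E₆ z₀`, so the statements apply at every
elliptic point (not only at `i` and `ρ`).
-/

namespace Fermat.Agent.X0.JLocal

open UpperHalfPlane hiding I
open Function Filter Complex ModularForm
open scoped MatrixGroups ModularForm Manifold Topology Real
open Derivative

local notation "Δ" => ModularForm.discriminant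

/-- A holomorphic function on `ℍ` is analytic (as a function on `ℂ` via `ofComplex`) at every
point of `ℍ`. -/
theorem analyticAt_comp_ofComplex {F : ℍ → ℂ} (hF : MDiff F) (z : ℍ) :
    AnalyticAt ℂ (F ∘ ofComplex) (z : ℂ) :=
  (UpperHalfPlane.mdifferentiable_iff.mp hF).analyticAt
    (isOpen_upperHalfPlaneSet.mem_nhds z.im_pos)

theorem comp_ofComplex_coe (F : ℍ → ℂ) (z : ℍ) : (F ∘ ofComplex) (z : ℂ) = F z := by
  simp [ofComplex_apply]

theorem deriv_comp_ofComplex_eq (F : ℍ → ℂ) (z : ℍ) :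
    deriv (F ∘ ofComplex) (z : ℂ) = 2 * π * I * D F z := by
  unfold normalizedDerivOfComplex
  have : (2 * (π : ℂ) * I) ≠ 0 := by simp [Real.pi_ne_zero]
  field_simp

/-- A simple zero: `F z₀ = 0`, `D F z₀ ≠ 0`. -/
theorem analyticOrderAt_eq_one_of_D_ne_zero {F : ℍ → ℂ} (hF : MDiff F) {z : ℍ}
    (h0 : F z = 0) (h1 : D F z ≠ 0) : analyticOrderAt (F ∘ ofComplex) (z : ℂ) = 1 := by
  refine (analyticAt_comp_ofComplex hF z).analyticOrderAt_eq_one_of_zero_deriv_ne_zero ?_ ?_
  · rw [comp_ofComplex_coe, h0]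
  · rw [deriv_comp_ofComplex_eq]
    have : (2 * (π : ℂ) * I) ≠ 0 := by simp [Real.pi_ne_zero]
    exact mul_ne_zero this h1

theorem E₄_mdiff : MDiff (E₄ : ℍ → ℂ) := ModularFormClass.holo E₄
theorem E₆_mdiff : MDiff (E₆ : ℍ → ℂ) := ModularFormClass.holo E₆

/-- `E₄` and `E₆` have no common zero. -/
theorem E₄_E₆_not_both_zero (z : ℍ) : ¬ (E₄ z = 0 ∧ E₆ z = 0) := by
  rintro ⟨h4, h6⟩
  have := rcFun_eq_discriminant z
  unfold rcFun at this
  rw [h4, h6] at this
  have hd := discriminant_ne_zero z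
  apply hd
  have h : (-1728 : ℂ) * Δ z = 0 := by rw [← this]; ring
  simpa using h

theorem D_E₄_ne_zero_of_zero {z : ℍ} (h4 : E₄ z = 0) : D E₄ z ≠ 0 := by
  intro h
  have := rcFun_eq_discriminant z
  unfold rcFun at this
  rw [h4, h] at this
  have hd := discriminant_ne_zero z
  apply hd
  have h' : (-1728 : ℂ) * Δ z = 0 := by rw [← this]; ring
  simpa using h'

theorem D_E₆_ne_zero_of_zero {z : ℍ} (h6 : E₆ z = 0) : D E₆ z ≠ 0 := by
  intro h
  have := rcFun_eq_discriminant z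
  unfold rcFun at this
  rw [h6, h] at this
  have hd := discriminant_ne_zero z
  apply hd
  have h' : (-1728 : ℂ) * Δ z = 0 := by rw [← this]; ring
  simpa using h'

/-- Every zero of `E₄` is simple. -/
theorem analyticOrderAt_E₄ {z : ℍ} (h4 : E₄ z = 0) :
    analyticOrderAt ((E₄ : ℍ → ℂ) ∘ ofComplex) (z : ℂ) = 1 :=
  analyticOrderAt_eq_one_of_D_ne_zero E₄_mdiff h4 (D_E₄_ne_zero_of_zero h4)

/-- Every zero of `E₆` is simple. -/
theorem analyticOrderAt_E₆ {z : ℍ} (h6 : E₆ z = 0) :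
    analyticOrderAt ((E₆ : ℍ → ℂ) ∘ ofComplex) (z : ℂ) = 1 :=
  analyticOrderAt_eq_one_of_D_ne_zero E₆_mdiff h6 (D_E₆_ne_zero_of_zero h6)

end Fermat.Agent.X0.JLocal
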