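import Mathlib
import Fermat.Agent.X0.JLocal
import Fermat.Agent.X0.Rotation

set_option autoImplicit false

/-!
# X0 / X-MOD-ORD: integer-valued orders at points of `ℍ`

Builds on `ordAt` (helper22, `JLocal.lean`) and `Rotation.lean`.  Everything lives in the
sub-namespace `Fermat.Agent.X0.Ord` (an independent variant of this API is `ordH` in `ModVal.lean`).

* `ordZ F z : ℤ` — the order of `F : ℍ → ℂ` at `z` as an integer (`0` if `F = 0`).
* `ordZ_mul`, `ordZ_add_ge_min`, `ordZ_const`, `ordZ_eq_zero_iff`, `ordZ_nonneg`.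
* `ordAt_comp_smul`, `ordZ_comp_smul` : `ord_z (F ∘ γ) = ord_{γ z} F`.
* `meromorphicOrderAt_div_eq` : the meromorphic order of `a / b` is `ordZ a - ordZ b`.
* `rotation_zpow_eq_one`, `rotation_dvd` : if `a / b` is invariant under `γ` fixing `z₀`, then
  `((c z₀ + d)²) ^ (ordZ a z₀ - ordZ b z₀) = 1`.
* `two_dvd_ordZ_sub_of_S`, `three_dvd_ordZ_sub_of_ST`.
-/

namespace Fermat.Agent.X0.Ord

open UpperHalfPlane hiding I
open Complex Filter Topology
open scoped MatrixGroups Manifold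

/-- The order of `F` at `z` as an integer (junk value `0` when `F` vanishes identically). -/
noncomputable def ordZ (F : ℍ → ℂ) (z : ℍ) : ℤ := ((ordAt F z).toNat : ℤ)

theorem ordZ_nonneg (F : ℍ → ℂ) (z : ℍ) : 0 ≤ ordZ F z := by
  unfold ordZ; positivity

theorem ordAt_eq_ordZ {F : ℍ → ℂ} (hF : MDiff F) (hF0 : F ≠ 0) (z : ℍ) :
    ordAt F z = ((ordZ F z).toNat : ℕ∞) := by
  unfold ordZ
  rw [Int.toNat_natCast, ENat.natCast_toNat (ordAt_ne_top hF hF0 z)]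

theorem ordZ_mul {F G : ℍ → ℂ} (hF : MDiff F) (hG : MDiff G) (hF0 : F ≠ 0) (hG0 : G ≠ 0)
    (z : ℍ) : ordZ (F * G) z = ordZ F z + ordZ G z := by
  unfold ordZ
  rw [ordAt_mul hF hG, ENat.toNat_add (ordAt_ne_top hF hF0 z) (ordAt_ne_top hG hG0 z)]
  push_cast
  rfl

theorem ordAt_add_ge_min (F G : ℍ → ℂ) (z : ℍ) :
    min (ordAt F z) (ordAt G z) ≤ ordAt (F + G) z := by
  unfold ordAt
  exact le_analyticOrderAt_add

theorem ordZ_add_ge_min {F G : ℍ → ℂ} (hF : MDiff F) (hG : MDiff G) (hF0 : F ≠ 0) (hG0 : G ≠ 0)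
    (hFG : F + G ≠ 0) (z : ℍ) : min (ordZ F z) (ordZ G z) ≤ ordZ (F + G) z := by
  have h := ordAt_add_ge_min F G z
  have hFG' : MDiff (F + G) := hF.add hG
  rw [ordAt_eq_ordZ hF hF0, ordAt_eq_ordZ hG hG0, ordAt_eq_ordZ hFG' hFG] at h
  have h1 := ordZ_nonneg F z
  have h2 := ordZ_nonneg G z
  have h3 := ordZ_nonneg (F + G) z
  have h' : min (ordZ F z).toNat (ordZ G z).toNat ≤ (ordZ (F + G) z).toNat := by
    rcases le_total (ordZ F z).toNat (ordZ G z).toNat with hle | hle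
    · rw [min_eq_left hle]
      rw [min_eq_left (by exact_mod_cast hle)] at h
      exact_mod_cast h
    · rw [min_eq_right hle]
      rw [min_eq_right (by exact_mod_cast hle)] at h
      exact_mod_cast h
  omega

theorem ordAt_const {c : ℂ} (hc : c ≠ 0) (z : ℍ) : ordAt (fun _ => c) z = 0 := by
  unfold ordAt
  rw [analyticOrderAt_eq_zero]
  exact Or.inr (by simpa using hc)

theorem ordZ_const {c : ℂ} (hc : c ≠ 0) (z : ℍ) : ordZ (fun _ => c) z = 0 := by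
  unfold ordZ
  rw [ordAt_const hc]
  rfl

theorem ordZ_eq_zero_iff {F : ℍ → ℂ} (hF : MDiff F) (hF0 : F ≠ 0) (z : ℍ) :
    ordZ F z = 0 ↔ F z ≠ 0 := by
  rw [← ordAt_eq_zero_iff hF z, ordAt_eq_ordZ hF hF0 z]
  have := ordZ_nonneg F z
  constructor
  · intro h; rw [h]; rfl
  · intro h
    have : (ordZ F z).toNat = 0 := by exact_mod_cast h
    omega

theorem ordZ_pos_iff {F : ℍ → ℂ} (hF : MDiff F) (hF0 : F ≠ 0) (z : ℍ) :
    0 < ordZ F z ↔ F z = 0 := by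
  have h1 := ordZ_eq_zero_iff hF hF0 z
  have h2 := ordZ_nonneg F z
  constructor
  · intro h
    by_contra hne
    have := h1.mpr hne
    omega
  · intro h
    rcases h2.lt_or_eq with h3 | h3
    · exact h3
    · exact absurd h (h1.mp h3.symm)

/-- Equivariance of the order under `SL(2,ℤ)`. -/
theorem ordAt_comp_smul (F : ℍ → ℂ) (γ : SL(2, ℤ)) (z : ℍ) :
    ordAt (fun τ => F (γ • τ)) z = ordAt F (γ • z) :=
  Rot.analyticOrderAt_comp_SL_smul F γ z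

theorem ordZ_comp_smul (F : ℍ → ℂ) (γ : SL(2, ℤ)) (z : ℍ) :
    ordZ (fun τ => F (γ • τ)) z = ordZ F (γ • z) := by
  unfold ordZ
  rw [ordAt_comp_smul]

/-- The meromorphic order of a holomorphic nonzero function is `ordZ`. -/
theorem meromorphicOrderAt_eq_ordZ {F : ℍ → ℂ} (hF : MDiff F) (hF0 : F ≠ 0) (z : ℍ) :
    meromorphicOrderAt (F ∘ ofComplex) (z : ℂ) = ((ordZ F z : ℤ) : WithTop ℤ) := by
  rw [(analyticAt_comp_ofComplex hF z).meromorphicOrderAt_eq]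
  change (ordAt F z).map _ = _
  rw [ordAt_eq_ordZ hF hF0 z, ENat.map_natCast]
  have := ordZ_nonneg F z
  congr 1

/-- The meromorphic order of a quotient of holomorphic nonzero functions. -/
theorem meromorphicOrderAt_div_eq {a b : ℍ → ℂ} (ha : MDiff a) (hb : MDiff b) (ha0 : a ≠ 0)
    (hb0 : b ≠ 0) (z : ℍ) :
    meromorphicOrderAt ((a / b) ∘ ofComplex) (z : ℂ) = ((ordZ a z - ordZ b z : ℤ) : WithTop ℤ) := by
  have h : ((a / b) ∘ ofComplex) = (a ∘ ofComplex) / (b ∘ ofComplex) := rfl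
  rw [h, meromorphicOrderAt_div (analyticAt_comp_ofComplex ha z).meromorphicAt
    (analyticAt_comp_ofComplex hb z).meromorphicAt, meromorphicOrderAt_eq_ordZ ha ha0,
    meromorphicOrderAt_eq_ordZ hb hb0]
  rfl

theorem mdiff_comp_smul {b : ℍ → ℂ} (hb : MDiff b) (γ : SL(2, ℤ)) :
    MDiff (fun τ : ℍ => b (γ • τ)) := by
  have hdet : 0 < ((γ : GL (Fin 2) ℝ)).det.val := by simp
  exact hb.comp (UpperHalfPlane.mdifferentiable_smul hdet)

theorem comp_smul_ne_zero {b : ℍ → ℂ} (hb0 : b ≠ 0) (γ : SL(2, ℤ)) :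
    (fun τ : ℍ => b (γ • τ)) ≠ 0 := by
  intro h
  apply hb0
  funext τ
  have := congrFun h (γ⁻¹ • τ)
  simpa [smul_smul] using this

/-- **Rotation lemma** for quotients of holomorphic functions: if `a / b` is invariant under
`γ ∈ SL(2,ℤ)` fixing `z₀` then `((c z₀ + d)²) ^ (ord a - ord b) = 1`. -/
theorem rotation_zpow_eq_one {a b : ℍ → ℂ} (ha : MDiff a) (hb : MDiff b) (ha0 : a ≠ 0)
    (hb0 : b ≠ 0) {γ : SL(2, ℤ)} {z₀ : ℍ} (hfix : γ • z₀ = z₀)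
    (hinv : ∀ z, a (γ • z) * b z = a z * b (γ • z)) :
    (denom γ z₀ ^ 2) ^ (ordZ a z₀ - ordZ b z₀) = 1 := by
  have hdet : 0 < ((γ : GL (Fin 2) ℝ)).det.val := by simp
  have hd : denom (γ : GL (Fin 2) ℝ) (z₀ : ℂ) ≠ 0 := denom_ne_zero _ z₀
  have hmero : MeromorphicAt ((a / b) ∘ ofComplex) (z₀ : ℂ) := by
    have h : ((a / b) ∘ ofComplex) = (a ∘ ofComplex) / (b ∘ ofComplex) := rfl
    rw [h]
    exact (analyticAt_comp_ofComplex ha z₀).meromorphicAt.div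
      (analyticAt_comp_ofComplex hb z₀).meromorphicAt
  have hord := meromorphicOrderAt_div_eq ha hb ha0 hb0 z₀
  have hfix' : Rot.moebC (γ : GL (Fin 2) ℝ) (z₀ : ℂ) = (z₀ : ℂ) := by
    rw [Rot.moebC_coe hdet]
    have : ((γ : GL (Fin 2) ℝ) • z₀ : ℍ) = z₀ := hfix
    rw [this]
  have hb1 := Fermat.Agent.S23.Analytic.eventually_ne_zero hb hb0 (z := (z₀ : ℂ)) z₀.im_pos
  have hb2 := Fermat.Agent.S23.Analytic.eventually_ne_zero (mdiff_comp_smul hb γ)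
    (comp_smul_ne_zero hb0 γ) (z := (z₀ : ℂ)) z₀.im_pos
  have hUH : ∀ᶠ w in 𝓝[≠] (z₀ : ℂ), 0 < w.im := by
    have h : ∀ᶠ w in 𝓝 (z₀ : ℂ), 0 < w.im := isOpen_upperHalfPlaneSet.mem_nhds z₀.im_pos
    exact h.filter_mono nhdsWithin_le_nhds
  have hev : ((a / b) ∘ ofComplex) ∘ Rot.moebC (γ : GL (Fin 2) ℝ) =ᶠ[𝓝[≠] (z₀ : ℂ)]
      ((a / b) ∘ ofComplex) := by
    filter_upwards [hb1, hb2, hUH] with w hw1 hw2 hw3
    simp only [Function.comp_apply, Pi.div_apply] at hw1 hw2 ⊢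
    rw [Rot.ofComplex_moebC hdet hw3]
    have h := hinv (ofComplex w)
    have h' : a ((γ : GL (Fin 2) ℝ) • ofComplex w) * b (ofComplex w) =
        a (ofComplex w) * b ((γ : GL (Fin 2) ℝ) • ofComplex w) := h
    have hw2' : b ((γ : GL (Fin 2) ℝ) • ofComplex w) ≠ 0 := hw2
    rw [div_eq_div_iff hw2' hw1]
    exact h'
  have key := Rot.deriv_zpow_order_eq_one (Rot.analyticAt_moebC _ hd) hfix'
    (Rot.deriv_moebC_ne_zero _ hd) hmero hord hev
  rw [Rot.deriv_moebC _ hd] at key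
  have h1 : (((γ : GL (Fin 2) ℝ)).det.val : ℝ) = 1 := by simp
  rw [h1, Complex.ofReal_one, one_div, inv_zpow, inv_eq_one] at key
  exact key

/-- If moreover `(c z₀ + d)²` is a primitive `r`-th root of unity, then `r ∣ ord a - ord b`. -/
theorem rotation_dvd {a b : ℍ → ℂ} (ha : MDiff a) (hb : MDiff b) (ha0 : a ≠ 0)
    (hb0 : b ≠ 0) {γ : SL(2, ℤ)} {z₀ : ℍ} (hfix : γ • z₀ = z₀)
    (hinv : ∀ z, a (γ • z) * b z = a z * b (γ • z)) {r : ℕ}
    (hr : IsPrimitiveRoot (denom γ z₀ ^ 2) r) : (r : ℤ) ∣ ordZ a z₀ - ordZ b z₀ :=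
  (hr.zpow_eq_one_iff_dvd _).mp (rotation_zpow_eq_one ha hb ha0 hb0 hfix hinv)

theorem isPrimitiveRoot_denom_S_I :
    IsPrimitiveRoot (denom ModularGroup.S (UpperHalfPlane.I : ℍ) ^ 2) 2 := by
  rw [ModularGroup.denom_S]
  have h2 : ((UpperHalfPlane.I : ℍ) : ℂ) ^ 2 = -1 := by simp
  rw [h2]
  exact IsPrimitiveRoot.neg_one 0 (by norm_num)

theorem isPrimitiveRoot_denom_ST_ρ :
    IsPrimitiveRoot
      (denom ((ModularGroup.S * ModularGroup.T : SL(2, ℤ)) : GL (Fin 2) ℝ) (ρ : ℍ) ^ 2) 3 := by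
  rw [Rot.denom_ST_ρ]
  have h2 : (((ρ : ℍ) : ℂ) + 1) ^ 2 = (ρ : ℂ) := by
    have := ρ_sq
    linear_combination this
  rw [h2]
  exact Rot.isPrimitiveRoot_ρ

/-- At `i`: if `a / b` is `S`-invariant then `ord_i a - ord_i b` is even. -/
theorem two_dvd_ordZ_sub_of_S {a b : ℍ → ℂ} (ha : MDiff a) (hb : MDiff b) (ha0 : a ≠ 0)
    (hb0 : b ≠ 0) (hinv : ∀ z, a (ModularGroup.S • z) * b z = a z * b (ModularGroup.S • z)) :
    (2 : ℤ) ∣ ordZ a UpperHalfPlane.I - ordZ b UpperHalfPlane.I := by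
  exact_mod_cast rotation_dvd ha hb ha0 hb0 S_smul_I hinv isPrimitiveRoot_denom_S_I

/-- At `ρ`: if `a / b` is `ST`-invariant then `3 ∣ ord_ρ a - ord_ρ b`. -/
theorem three_dvd_ordZ_sub_of_ST {a b : ℍ → ℂ} (ha : MDiff a) (hb : MDiff b) (ha0 : a ≠ 0)
    (hb0 : b ≠ 0)
    (hinv : ∀ z, a ((ModularGroup.S * ModularGroup.T) • z) * b z =
      a z * b ((ModularGroup.S * ModularGroup.T) • z)) :
    (3 : ℤ) ∣ ordZ a ρ - ordZ b ρ := by
  exact_mod_cast rotation_dvd ha hb ha0 hb0 ST_smul_ρ hinv isPrimitiveRoot_denom_ST_ρ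

end Fermat.Agent.X0.Ord
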