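import Mathlib
import Fermat.Agent.X0.JFun
import Fermat.Agent.X0.QDict

set_option autoImplicit false

/-!
# X-MOD, (Q-J): the Prelude's formal `jq` is the `q`-expansion of the analytic `j`-function
-/

namespace Fermat.Agent.X0

open UpperHalfPlane ModularCurve
open Fermat.Agent.S23.PrimEltQExp

theorem jFun_eq_jAn : jFun = jAn := rfl

/-- The Prelude's formal series `jq` is the `q`-expansion of `jFun = E₄³/Δ`. -/
theorem isQExp_jq : IsQExp (coeffMap (algebraMap ℚ ℂ) jq) jFun := isQExp_jAn

/-- `qExpand d jq` is the `q`-expansion of `z ↦ jFun (d z)`. -/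
theorem isQExp_jq_scale (d : ℕ) [NeZero d] :
    IsQExp (coeffMap (algebraMap ℚ ℂ) (qExpand ℚ d jq)) (fun z => jFun (scaleH d z)) :=
  isQExp_jAn_scale d

theorem isMerCusp_jFun : IsMerCusp jFun := isMerCusp_jAn

theorem qexpL_jFun : qexpL jFun = coeffMap (algebraMap ℚ ℂ) jq := qexpL_jAn

end Fermat.Agent.X0
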